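/-
S56 / FL-C (helper2): `ad0Rep ρ : Rep k Γ`, the trace-zero endomorphisms of a representation
`ρ : Representation k Γ V` with the conjugation action — the common object of FLC-Red
(`Count/Reducible.lean`) and FLC-Irr (`Count/Irreducible.lean`).  Mathlib only.

* `ad0Sub k V` : the trace-zero endomorphisms (`mem_ad0Sub`);
* `ad0Repn ρ : Representation k Γ (ad0Sub k V)`, `γ · x = ρ γ * x * ρ γ⁻¹` (`coe_ad0Repn_apply`);
* `ad0Rep ρ : Rep k Γ` (`coe_ad0Rep_ρ_apply`), `Module.Finite`;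
* `ad0Rep_ext` : equality of elements through the underlying endomorphisms.
-/
import Mathlib

set_option autoImplicit false

universe u

namespace Fermat.Agent.S56.Flat.Count.Ad0Rep

open Module

section Defs

variable (k : Type*) (V : Type*) [Field k] [AddCommGroup V] [Module k V]

/-- The trace-zero endomorphisms of `V`. -/
noncomputable def ad0Sub : Submodule k (Module.End k V) := LinearMap.ker (LinearMap.trace k V)

variable {k V}

theorem mem_ad0Sub {x : Module.End k V} : x ∈ ad0Sub k V ↔ LinearMap.trace k V x = 0 :=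
  LinearMap.mem_ker

variable {Γ : Type*} [Group Γ] (ρ : Representation k Γ V)

theorem conj_mem (γ : Γ) {x : Module.End k V} (hx : x ∈ ad0Sub k V) :
    ρ γ * x * ρ γ⁻¹ ∈ ad0Sub k V := by
  rw [mem_ad0Sub, LinearMap.trace_mul_comm, ← mul_assoc, ← map_mul, inv_mul_cancel, map_one,
    one_mul]
  exact mem_ad0Sub.1 hx

/-- The conjugation action on the trace-zero endomorphisms. -/
noncomputable def ad0Repn : Representation k Γ (ad0Sub k V) where
  toFun γ :=
    { toFun := fun x => ⟨ρ γ * x.1 * ρ γ⁻¹, conj_mem ρ γ x.2⟩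
      map_add' := fun x y => by
        apply Subtype.ext
        show ρ γ * (x.1 + y.1) * ρ γ⁻¹ = ρ γ * x.1 * ρ γ⁻¹ + ρ γ * y.1 * ρ γ⁻¹
        rw [mul_add, add_mul]
      map_smul' := fun c x => by
        apply Subtype.ext
        show ρ γ * (c • x.1) * ρ γ⁻¹ = c • (ρ γ * x.1 * ρ γ⁻¹)
        rw [mul_smul_comm, smul_mul_assoc] }
  map_one' := by
    refine LinearMap.ext fun x => Subtype.ext ?_
    show ρ 1 * x.1 * ρ (1 : Γ)⁻¹ = x.1
    rw [inv_one, map_one, one_mul, mul_one]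
  map_mul' γ γ' := by
    refine LinearMap.ext fun x => Subtype.ext ?_
    show ρ (γ * γ') * x.1 * ρ (γ * γ')⁻¹ = ρ γ * (ρ γ' * x.1 * ρ γ'⁻¹) * ρ γ⁻¹
    rw [mul_inv_rev, map_mul, map_mul]
    simp only [mul_assoc]

@[simp] theorem coe_ad0Repn_apply (γ : Γ) (x : ad0Sub k V) :
    ((ad0Repn ρ γ x : ad0Sub k V) : Module.End k V) = ρ γ * x.1 * ρ γ⁻¹ := rfl

end Defs

section RepObj

variable {k Γ V : Type u} [Field k] [Group Γ] [AddCommGroup V] [Module k V]
  (ρ : Representation k Γ V)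

/-- **`ad⁰ρ`** as an object of `Rep k Γ`. -/
noncomputable def ad0Rep : Rep k Γ := Rep.of (ad0Repn ρ)

/-- The underlying endomorphism of an element of `ad0Rep ρ`. -/
noncomputable def toEnd (x : ad0Rep ρ) : Module.End k V := (show ad0Sub k V from x).1

theorem trace_toEnd (x : ad0Rep ρ) : LinearMap.trace k V (toEnd ρ x) = 0 :=
  mem_ad0Sub.1 (show ad0Sub k V from x).2

/-- An element of `ad0Rep ρ` from a trace-zero endomorphism. -/
noncomputable def ofEnd (x : Module.End k V) (hx : LinearMap.trace k V x = 0) : ad0Rep ρ :=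
  (⟨x, mem_ad0Sub.2 hx⟩ : ad0Sub k V)

@[simp] theorem toEnd_ofEnd (x : Module.End k V) (hx : LinearMap.trace k V x = 0) :
    toEnd ρ (ofEnd ρ x hx) = x := rfl

theorem toEnd_ρ_apply (γ : Γ) (x : ad0Rep ρ) :
    toEnd ρ ((ad0Rep ρ).ρ γ x) = ρ γ * toEnd ρ x * ρ γ⁻¹ := rfl

theorem toEnd_add (x y : ad0Rep ρ) : toEnd ρ (x + y) = toEnd ρ x + toEnd ρ y := rfl

theorem toEnd_smul (c : k) (x : ad0Rep ρ) : toEnd ρ (c • x) = c • toEnd ρ x := rfl

theorem toEnd_zero : toEnd ρ (0 : ad0Rep ρ) = 0 := rfl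

theorem toEnd_injective : Function.Injective (toEnd ρ) := fun _ _ h => Subtype.ext h

theorem ad0Rep_ext {x y : ad0Rep ρ} (h : toEnd ρ x = toEnd ρ y) : x = y := toEnd_injective ρ h

/-- `toEnd` as a linear map. -/
noncomputable def toEndₗ : ad0Rep ρ →ₗ[k] Module.End k V where
  toFun := toEnd ρ
  map_add' := toEnd_add ρ
  map_smul' := toEnd_smul ρ

@[simp] theorem toEndₗ_apply (x : ad0Rep ρ) : toEndₗ ρ x = toEnd ρ x := rfl

instance finite_ad0Rep [Module.Finite k V] : Module.Finite k (ad0Rep ρ) :=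
  inferInstanceAs (Module.Finite k (ad0Sub k V))

end RepObj

end Fermat.Agent.S56.Flat.Count.Ad0Rep
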