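/-
S56, block F (FLAT), leaf [FLC-Dev] (helper22): **formal dévissage for the cohomology of a finite
group in degrees 0 and 1** (`moonshots` row 53 §1), Mathlib `groupCohomology` only.

`Γ` a group, `k` a field, `A : Rep k Γ` finite-dimensional; `h0 A`, `h1 A` the dimensions of
`H⁰(Γ, A)`, `H¹(Γ, A)` and `b A := h1 A - h0 A : ℤ`.

* (D1) `b_le_add` : `b` is SUBADDITIVE on short exact sequences; image form
  `finrank_range_map_one` : `dim im(H¹(X₁) → H¹(X₂)) + h⁰(X₃) + h⁰(X₁) = h¹(X₁) + h⁰(X₂)`,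
  `finrank_range_map_one_sub_le`; twice: `b_le_add_three`, `finrank_range_map_one_sub_le_add`;
  `h0_congr`, `h1_congr`, `b_congr` : invariance under isomorphisms.
* (D3) `h0_of_scalar` : `h⁰(A) = [φ = 1] · dim A` if `Γ` acts on `A` through the character `φ`;
  `charRep φ`, `h0_charRep : h⁰(k(φ)) = [φ = 1]`.
* (D2) `H1_res_injective`, `h1_le_res` : restriction to a subgroup of index invertible in `k` is
  injective on `H¹` (helper28's `S56/Group/H1Vanish.isCoboundary₁_of_restrict`, for `Rep`).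
* (D4) `isCoboundary₁_of_swap` (unbundled), `H1_map_injective_of_swap`, `h1_le_of_swap`,
  `h1_le_of_index_two` : "Shapiro by hand" — `P ⊴ Γ` of invertible index, `A|_P = X₊ ⊕ X₋`,
  `τ X₋ ⊆ X₊` ⇒ `H¹(Γ, A) → H¹(P, X₊)` is injective.
-/
import Mathlib
import Fermat.Agent.S56.Group.H1Vanish

set_option autoImplicit false

universe u

open CategoryTheory groupCohomology Module

namespace Fermat.Agent.S56.Flat.Count.Devissage

/-! ### linear algebra of exact sequences -/

section LinearAlgebra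

variable {k : Type*} [Field k]
  {V₁ V₂ V₃ V₄ V₅ V₆ : Type*}
  [AddCommGroup V₁] [Module k V₁] [AddCommGroup V₂] [Module k V₂] [AddCommGroup V₃] [Module k V₃]
  [AddCommGroup V₄] [Module k V₄] [AddCommGroup V₅] [Module k V₅] [AddCommGroup V₆] [Module k V₆]

/-- `0 → V₁ → V₂ → V₃ → V₄ → V₅` exact: the rank of the last map. -/
theorem finrank_range_of_exact [FiniteDimensional k V₁] [FiniteDimensional k V₂]
    [FiniteDimensional k V₃] [FiniteDimensional k V₄]
    (a₁ : V₁ →ₗ[k] V₂) (a₂ : V₂ →ₗ[k] V₃) (a₃ : V₃ →ₗ[k] V₄) (a₄ : V₄ →ₗ[k] V₅)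
    (h₁ : Function.Injective a₁) (h₁₂ : LinearMap.range a₁ = LinearMap.ker a₂)
    (h₂₃ : LinearMap.range a₂ = LinearMap.ker a₃) (h₃₄ : LinearMap.range a₃ = LinearMap.ker a₄) :
    finrank k (LinearMap.range a₄) + finrank k V₃ + finrank k V₁ = finrank k V₄ + finrank k V₂ := by
  have e1 := LinearMap.finrank_range_add_finrank_ker a₄
  have e2 := LinearMap.finrank_range_add_finrank_ker a₃
  have e3 := LinearMap.finrank_range_add_finrank_ker a₂
  have e4 := LinearMap.finrank_range_of_inj h₁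
  rw [← h₃₄] at e1
  rw [← h₂₃] at e2
  rw [← h₁₂] at e3
  omega

/-- `V₄ → V₅ → V₆` exact: `dim V₅ ≤ rank + dim V₆`. -/
theorem finrank_le_of_exact [FiniteDimensional k V₅] [FiniteDimensional k V₆]
    (a₄ : V₄ →ₗ[k] V₅) (a₅ : V₅ →ₗ[k] V₆) (h₄₅ : LinearMap.range a₄ = LinearMap.ker a₅) :
    finrank k V₅ ≤ finrank k (LinearMap.range a₄) + finrank k V₆ := by
  have e1 := LinearMap.finrank_range_add_finrank_ker a₅
  rw [← h₄₅] at e1
  have e2 : finrank k (LinearMap.range a₅) ≤ finrank k V₆ := Submodule.finrank_le _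
  omega

end LinearAlgebra

/-! ### `h⁰`, `h¹`, `b` -/

section Defs

variable {k G : Type u} [Field k] [Group G]

/-- `h⁰(G, A)` -/
noncomputable def h0 (A : Rep k G) : ℕ := finrank k (H0 A)

/-- `h¹(G, A)` -/
noncomputable def h1 (A : Rep k G) : ℕ := finrank k (H1 A)

/-- `b(A) = h¹(G, A) - h⁰(G, A)` -/
noncomputable def b (A : Rep k G) : ℤ := (h1 A : ℤ) - (h0 A : ℤ)

theorem b_def (A : Rep k G) : b A = (h1 A : ℤ) - (h0 A : ℤ) := rfl

instance finite_H0 (A : Rep k G) [Module.Finite k A] : Module.Finite k (H0 A) :=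
  Module.Finite.equiv (H0Iso A).toLinearEquiv.symm

instance finite_H1 [Finite G] (A : Rep k G) [Module.Finite k A] : Module.Finite k (H1 A) :=
  Module.Finite.of_surjective (H1π A).hom ((ModuleCat.epi_iff_surjective _).1 inferInstance)

theorem h0_eq_finrank_invariants (A : Rep k G) : h0 A = finrank k A.ρ.invariants :=
  (H0Iso A).toLinearEquiv.finrank_eq

end Defs

/-! ### (D1): subadditivity of `b` on short exact sequences -/

section LES

variable {k G : Type u} [Field k] [Group G] [Finite G]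
  {X : ShortComplex (Rep k G)} (hX : X.ShortExact)
  [Module.Finite k X.X₁] [Module.Finite k X.X₂] [Module.Finite k X.X₃]

include hX

/-- **(D1), image form**: for `0 → X₁ → X₂ → X₃ → 0` exact,
`dim im(H¹(X₁) → H¹(X₂)) + h⁰(X₃) + h⁰(X₁) = h¹(X₁) + h⁰(X₂)`. -/
theorem finrank_range_map_one :
    finrank k (LinearMap.range (map (MonoidHom.id G) X.f 1).hom) + h0 X.X₃ + h0 X.X₁ =
      h1 X.X₁ + h0 X.X₂ := by
  have := hX.mono_f
  have h₁ : Function.Injective (map (MonoidHom.id G) X.f 0).hom :=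
    (ModuleCat.mono_iff_injective _).1 inferInstance
  have h₁₂ := (mapShortComplex₂_exact hX 0).moduleCat_range_eq_ker
  have h₂₃ := (mapShortComplex₃_exact hX (i := 0) (j := 1) rfl).moduleCat_range_eq_ker
  have h₃₄ := (mapShortComplex₁_exact hX (i := 0) (j := 1) rfl).moduleCat_range_eq_ker
  exact finrank_range_of_exact _ _ _ _ h₁ h₁₂ h₂₃ h₃₄

/-- **(D1)**: `h¹(X₂) + h⁰(X₃) + h⁰(X₁) ≤ h¹(X₁) + h⁰(X₂) + h¹(X₃)`. -/
theorem h1_add_le :
    h1 X.X₂ + h0 X.X₃ + h0 X.X₁ ≤ h1 X.X₁ + h0 X.X₂ + h1 X.X₃ := by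
  have h := finrank_range_map_one hX
  have h₄₅ := (mapShortComplex₂_exact hX 1).moduleCat_range_eq_ker
  have h' : h1 X.X₂ ≤ finrank k (LinearMap.range (map (MonoidHom.id G) X.f 1).hom) + h1 X.X₃ :=
    finrank_le_of_exact (k := k) (V₄ := H1 X.X₁) (V₅ := H1 X.X₂) (V₆ := H1 X.X₃)
      (map (MonoidHom.id G) X.f 1).hom (map (MonoidHom.id G) X.g 1).hom h₄₅
  omega

/-- **(D1)**: `b` is subadditive on short exact sequences. -/
theorem b_le_add : b X.X₂ ≤ b X.X₁ + b X.X₃ := by
  have h := h1_add_le hX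
  simp only [b_def]
  omega

/-- **(D1), image form as an inequality**:
`dim im(H¹(X₁) → H¹(X₂)) - h⁰(X₂) ≤ b(X₁) - h⁰(X₃) ≤ b(X₁)`. -/
theorem finrank_range_map_one_sub_le :
    (finrank k (LinearMap.range (map (MonoidHom.id G) X.f 1).hom) : ℤ) - (h0 X.X₂ : ℤ) ≤ b X.X₁ := by
  have h := finrank_range_map_one hX
  simp only [b_def]
  omega

end LES

/-! ### invariance under isomorphisms -/

section Iso

variable {k G : Type u} [Field k] [Group G]

theorem h0_congr {A B : Rep k G} (e : A ≅ B) : h0 A = h0 B :=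
  ((functor k G 0).mapIso e).toLinearEquiv.finrank_eq

theorem h1_congr {A B : Rep k G} (e : A ≅ B) : h1 A = h1 B :=
  ((functor k G 1).mapIso e).toLinearEquiv.finrank_eq

theorem b_congr {A B : Rep k G} (e : A ≅ B) : b A = b B := by
  rw [b_def, b_def, h0_congr e, h1_congr e]

end Iso

/-! ### (D1) twice: a three-step filtration -/

section Three

variable {k G : Type u} [Field k] [Group G] [Finite G]

/-- **(D1) twice**: `0 → X₁ → X₂ → X₃ → 0` and `0 → Y₁ → Y₂ → Y₃ → 0` exact with `X₂ ≅ Y₁`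
(a filtration `X₁ ⊂ X₂ ⊂ Y₂`): `b(Y₂) ≤ b(X₁) + b(X₃) + b(Y₃)`. -/
theorem b_le_add_three {X Y : ShortComplex (Rep k G)} (hX : X.ShortExact) (hY : Y.ShortExact)
    [Module.Finite k X.X₁] [Module.Finite k X.X₂] [Module.Finite k X.X₃]
    [Module.Finite k Y.X₁] [Module.Finite k Y.X₂] [Module.Finite k Y.X₃]
    (e : X.X₂ ≅ Y.X₁) : b Y.X₂ ≤ b X.X₁ + b X.X₃ + b Y.X₃ := by
  have h1 := b_le_add hX
  have h2 := b_le_add hY
  rw [← b_congr e] at h2
  omega

/-- **(D1) twice, image form**: in the situation of `b_le_add_three`,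
`dim im(H¹(Y₁) → H¹(Y₂)) - h⁰(Y₂) ≤ b(X₁) + b(X₃)`. -/
theorem finrank_range_map_one_sub_le_add {X Y : ShortComplex (Rep k G)} (hX : X.ShortExact)
    (hY : Y.ShortExact)
    [Module.Finite k X.X₁] [Module.Finite k X.X₂] [Module.Finite k X.X₃]
    [Module.Finite k Y.X₁] [Module.Finite k Y.X₂] [Module.Finite k Y.X₃]
    (e : X.X₂ ≅ Y.X₁) :
    (finrank k (LinearMap.range (map (MonoidHom.id G) Y.f 1).hom) : ℤ) - (h0 Y.X₂ : ℤ) ≤
      b X.X₁ + b X.X₃ := by
  have h1 := b_le_add hX
  have h2 := finrank_range_map_one_sub_le hY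
  rw [← b_congr e] at h2
  omega

end Three

/-! ### (D3): characters -/

section Char

variable {k G : Type u} [Field k] [Group G]

/-- **(D3)**: if `G` acts on `A` through a NON-trivial character, `H⁰(G, A) = 0`. -/
theorem h0_of_scalar_ne (A : Rep k G) (φ : G →* kˣ) (hA : ∀ g x, A.ρ g x = (φ g : k) • x)
    (hφ : φ ≠ 1) : h0 A = 0 := by
  rw [h0_eq_finrank_invariants]
  obtain ⟨g, hg⟩ : ∃ g, φ g ≠ 1 := by
    by_contra h
    exact hφ (MonoidHom.ext fun g => by_contra fun hg => h ⟨g, hg⟩)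
  have hbot : A.ρ.invariants = ⊥ := by
    rw [eq_bot_iff]
    intro x hx
    have h1 := (Representation.mem_invariants A.ρ x).1 hx g
    rw [hA] at h1
    have h2 : ((φ g : k) - 1) • x = 0 := by rw [sub_smul, one_smul, h1, sub_self]
    have h3 : (φ g : k) - 1 ≠ 0 := by
      intro h
      exact hg (Units.ext (sub_eq_zero.1 h))
    exact (Submodule.mem_bot k).2 ((smul_eq_zero.1 h2).resolve_left h3)
  rw [hbot, finrank_bot]

/-- **(D3)**: if `G` acts trivially on `A`, `h⁰(G, A) = dim A`. -/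
theorem h0_of_scalar_one (A : Rep k G) (hA : ∀ g x, A.ρ g x = x) : h0 A = finrank k A := by
  rw [h0_eq_finrank_invariants]
  have htop : A.ρ.invariants = ⊤ := by
    rw [eq_top_iff]
    intro x _
    exact (Representation.mem_invariants A.ρ x).2 fun g => hA g x
  rw [htop, finrank_top]

/-- **(D3)**: `h⁰(G, A) = [φ = 1] · dim A` if `G` acts on `A` through the character `φ`. -/
theorem h0_of_scalar (A : Rep k G) (φ : G →* kˣ) [Decidable (φ = 1)]
    (hA : ∀ g x, A.ρ g x = (φ g : k) • x) :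
    h0 A = if φ = 1 then finrank k A else 0 := by
  split_ifs with h
  · exact h0_of_scalar_one A fun g x => by rw [hA, h]; simp
  · exact h0_of_scalar_ne A φ hA h

/-- the representation of `G` on `k` by the character `φ`. -/
def charRepn (φ : G →* kˣ) : Representation k G k where
  toFun g := (φ g : k) • LinearMap.id
  map_one' := by
    ext
    simp
  map_mul' g h := by
    ext
    simp [mul_comm]

@[simp] theorem charRepn_apply (φ : G →* kˣ) (g : G) (x : k) : charRepn φ g x = (φ g : k) * x := rfl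

/-- `k(φ)` as an object of `Rep k G`. -/
noncomputable def charRep (φ : G →* kˣ) : Rep k G := Rep.of (charRepn φ)

theorem charRep_ρ_apply (φ : G →* kˣ) (g : G) (x : charRep φ) :
    (charRep φ).ρ g x = (φ g : k) • x := rfl

instance finite_charRep (φ : G →* kˣ) : Module.Finite k (charRep φ) :=
  inferInstanceAs (Module.Finite k k)

theorem finrank_charRep (φ : G →* kˣ) : finrank k (charRep φ) = 1 :=
  finrank_self k

/-- **(D3)**: `h⁰(G, k(φ)) = [φ = 1]`. -/
theorem h0_charRep (φ : G →* kˣ) [Decidable (φ = 1)] : h0 (charRep φ) = if φ = 1 then 1 else 0 := by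
  rw [h0_of_scalar (charRep φ) φ (charRep_ρ_apply φ), finrank_charRep]

end Char

/-! ### (D4), unbundled core -/

section ShapiroCore

variable {G A B : Type*} [Group G] [AddCommGroup A] [DistribMulAction G A]

/-- **(D4), unbundled core** ("Shapiro by hand", index `2`).  `P ≤ G` normal of invertible finite
index, `τ : G`; `A = X₊ ⊕ X₋` as a `P`-module with `X₊ = im ι ≅ B`, `X₋ = ker π`, and
`τ X₋ ⊆ X₊` (`hswap`).  A cocycle `f` on `G` whose `X₊`-component is a coboundary on `P` is a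
coboundary.  (`smulB p hp y` is the action of `p ∈ P` on `B`.) -/
theorem isCoboundary₁_of_swap [AddCommGroup B] {f : G → A} (hf : IsCocycle₁ f)
    (P : Subgroup G) [P.Normal] [P.FiniteIndex]
    (hm : Function.Bijective fun x : A => P.index • x)
    (smulB : ∀ p ∈ P, B → B) (π : A →+ B) (ι : B →+ A)
    (hπ : ∀ p (hp : p ∈ P) x, π (p • x) = smulB p hp (π x))
    (hι : ∀ p (hp : p ∈ P) y, ι (smulB p hp y) = p • ι y)
    (hπι : ∀ y, π (ι y) = y)
    (τ : G) (hswap : ∀ x, π x = 0 → ι (π (τ • x)) = τ • x)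
    (hcob : ∃ y : B, ∀ p (hp : p ∈ P), smulB p hp y - y = π (f p)) :
    IsCoboundary₁ f := by
  obtain ⟨y, hy⟩ := hcob
  -- subtract the coboundary of `ι y`
  refine Fermat.Agent.S56.Group.isCoboundary₁_of_sub_coboundary (ι y) ?_
  have hf' := Fermat.Agent.S56.Group.isCocycle₁_sub_coboundary hf (ι y)
  set f' : G → A := fun g => f g - (g • ι y - ι y) with hf'def
  have h0 : ∀ p ∈ P, π (f' p) = 0 := by
    intro p hp
    simp only [hf'def, map_sub, hπ p hp, hπι, ← hy p hp, sub_self]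
  refine Fermat.Agent.S56.Group.isCoboundary₁_of_restrict hf' P hm ⟨τ⁻¹ • ι (π (f' τ)), ?_⟩
  intro p hp
  -- `p' = τ p τ⁻¹ ∈ P`
  have hp' : τ * p * τ⁻¹ ∈ P := Subgroup.Normal.conj_mem ‹_› p hp τ
  have e1 : f' (τ * p) = τ • f' p + f' τ := hf' τ p
  have e2 : f' (τ * p) = (τ * p * τ⁻¹) • f' τ + f' (τ * p * τ⁻¹) := by
    have := hf' (τ * p * τ⁻¹) τ
    rwa [inv_mul_cancel_right] at this
  have e3 : π (τ • f' p) = smulB _ hp' (π (f' τ)) - π (f' τ) := by
    have := congrArg π (e1.symm.trans e2)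
    rw [map_add, map_add, hπ _ hp', h0 _ hp', add_zero] at this
    exact eq_sub_of_add_eq this
  have e4 : τ • f' p = (τ * p * τ⁻¹) • ι (π (f' τ)) - ι (π (f' τ)) := by
    rw [← hswap _ (h0 p hp), e3, map_sub, hι]
  have e5 : f' p = τ⁻¹ • (τ • f' p) := by rw [smul_smul, inv_mul_cancel, one_smul]
  rw [e5, e4, smul_sub, smul_smul, smul_smul]
  congr 2
  group

end ShapiroCore

/-! ### (D2) and (D4) for `Rep` -/

section RepForms

variable {k G : Type u} [Field k] [Group G]

theorem bijective_nsmul {V : Type*} [AddCommGroup V] [Module k V] (n : ℕ) (hn : (n : k) ≠ 0) :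
    Function.Bijective fun x : V => n • x := by
  have h : (fun x : V => n • x) = fun x => (n : k) • x :=
    funext fun x => (Nat.cast_smul_eq_nsmul k n x).symm
  rw [h]
  exact (LinearEquiv.smulOfNeZero k V _ hn).bijective

/-- the `G`-action on the underlying module of `A : Rep k G` (a plain def, used locally). -/
@[reducible] def repAction (A : Rep k G) : DistribMulAction G A where
  smul g x := A.ρ g x
  one_smul x := by change A.ρ 1 x = x; simp
  mul_smul g h x := by change A.ρ (g * h) x = A.ρ g (A.ρ h x); simp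
  smul_zero g := by change A.ρ g 0 = 0; simp
  smul_add g x y := by change A.ρ g (x + y) = A.ρ g x + A.ρ g y; simp

theorem isCocycle₁_of_mem (A : Rep k G) (f : G → A) (hf : f ∈ cocycles₁ A) :
    letI := repAction A
    IsCocycle₁ f := by
  let _ := repAction A
  intro g h
  exact (mem_cocycles₁_iff f).1 hf g h

theorem mem_coboundaries₁_of_isCoboundary₁ (A : Rep k G) (f : G → A)
    (hf : letI := repAction A; IsCoboundary₁ f) : f ∈ coboundaries₁ A := by
  let _ := repAction A
  obtain ⟨x, hx⟩ := hf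
  refine ⟨x, funext fun g => ?_⟩
  rw [d₀₁_hom_apply]
  exact hx g

/-- **(D2)** for `Rep`: restriction to a subgroup of index invertible in `k` is injective on
`H¹`. -/
theorem H1_res_injective (A : Rep k G) (P : Subgroup G) [P.FiniteIndex]
    (hP : (P.index : k) ≠ 0) :
    Function.Injective (map P.subtype (𝟙 (Rep.res P.subtype A)) 1).hom := by
  rw [injective_iff_map_eq_zero]
  intro x hx
  induction x using H1_induction_on with | @h x =>
  rw [H1π_comp_map_apply P.subtype] at hx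
  rw [H1π_eq_zero_iff] at hx ⊢
  obtain ⟨y, hy⟩ := hx
  let _ := repAction A
  refine mem_coboundaries₁_of_isCoboundary₁ A _ ?_
  refine Fermat.Agent.S56.Group.isCoboundary₁_of_restrict (isCocycle₁_of_mem A _ x.2) P ?_ ⟨y, ?_⟩
  · exact bijective_nsmul _ hP
  · intro p hp
    have := congrFun hy ⟨p, hp⟩
    rw [d₀₁_hom_apply] at this
    exact this

/-- **(D4)** ("Shapiro by hand"): `P ⊴ G` of finite index invertible in `k`,
`A|_P = X₊ ⊕ X₋` with `X₊ = im ι ≅ B`, `X₋ = ker π`, and `τ X₋ ⊆ X₊` for some `τ : G`.  Then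
`H¹(G, A) → H¹(P, A) → H¹(P, B)` is injective. -/
theorem H1_map_injective_of_swap (A : Rep k G) (P : Subgroup G) [P.Normal] [P.FiniteIndex]
    (hP : (P.index : k) ≠ 0) (B : Rep k P)
    (π : Rep.res P.subtype A ⟶ B) (ι : B ⟶ Rep.res P.subtype A)
    (hπι : ∀ y, π.hom (ι.hom y) = y)
    (τ : G) (hswap : ∀ x : A, π.hom x = 0 → ι.hom (π.hom (A.ρ τ x)) = A.ρ τ x) :
    Function.Injective (map P.subtype π 1).hom := by
  rw [injective_iff_map_eq_zero]
  intro x hx
  induction x using H1_induction_on with | @h x =>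
  rw [H1π_comp_map_apply P.subtype] at hx
  rw [H1π_eq_zero_iff] at hx ⊢
  obtain ⟨y, hy⟩ := hx
  let _ := repAction A
  refine mem_coboundaries₁_of_isCoboundary₁ A _ ?_
  refine isCoboundary₁_of_swap (B := B) (isCocycle₁_of_mem A _ x.2) P (bijective_nsmul _ hP)
    (fun p hp y => B.ρ ⟨p, hp⟩ y) (π.hom.toLinearMap.toAddMonoidHom) (ι.hom.toLinearMap.toAddMonoidHom)
    ?_ ?_ hπι τ hswap ⟨y, ?_⟩
  · intro p hp a
    exact Rep.hom_comm_apply π ⟨p, hp⟩ a
  · intro p hp b
    exact Rep.hom_comm_apply ι ⟨p, hp⟩ b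
  · intro p hp
    have := congrFun hy ⟨p, hp⟩
    rw [d₀₁_hom_apply] at this
    exact this

/-- **(D2)**, numerical form: `h¹(G, A) ≤ h¹(P, A)` for `P ≤ G` of index invertible in `k`. -/
theorem h1_le_res [Finite G] (A : Rep k G) [Module.Finite k A] (P : Subgroup G)
    (hP : (P.index : k) ≠ 0) : h1 A ≤ h1 (Rep.res P.subtype A) := by
  have : Module.Finite k (Rep.res P.subtype A) := ‹Module.Finite k A›
  exact LinearMap.finrank_le_finrank_of_injective (H1_res_injective A P hP)

/-- **(D4)**, numerical form: `h¹(G, A) ≤ h¹(P, B)`. -/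
theorem h1_le_of_swap [Finite G] (A : Rep k G) (P : Subgroup G) [P.Normal]
    (hP : (P.index : k) ≠ 0) (B : Rep k P) [Module.Finite k B]
    (π : Rep.res P.subtype A ⟶ B) (ι : B ⟶ Rep.res P.subtype A)
    (hπι : ∀ y, π.hom (ι.hom y) = y)
    (τ : G) (hswap : ∀ x : A, π.hom x = 0 → ι.hom (π.hom (A.ρ τ x)) = A.ρ τ x) :
    h1 A ≤ h1 B :=
  LinearMap.finrank_le_finrank_of_injective (H1_map_injective_of_swap A P hP B π ι hπι τ hswap)

/-- **(D4)** for a subgroup of index `2` (automatically normal), `2` invertible in `k`. -/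
theorem h1_le_of_index_two [Finite G] (A : Rep k G) (P : Subgroup G) (hidx : P.index = 2)
    (h2 : (2 : k) ≠ 0) (B : Rep k P) [Module.Finite k B]
    (π : Rep.res P.subtype A ⟶ B) (ι : B ⟶ Rep.res P.subtype A)
    (hπι : ∀ y, π.hom (ι.hom y) = y)
    (τ : G) (hswap : ∀ x : A, π.hom x = 0 → ι.hom (π.hom (A.ρ τ x)) = A.ρ τ x) :
    h1 A ≤ h1 B := by
  have : P.Normal := Subgroup.normal_of_index_eq_two hidx
  refine h1_le_of_swap A P ?_ B π ι hπι τ hswap
  rw [hidx]
  exact_mod_cast h2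

end RepForms

end Fermat.Agent.S56.Flat.Count.Devissage
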