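import Mathlib

/-!
# FLC-S3c : tame inertia of an abstract discrete valuation ring

`B` a discrete valuation ring, `𝔪` its maximal ideal.

* `Core` (any commutative ring, `π ∈ B`): a ring endomorphism `σ` with `σ x ≡ x mod π`,
  `σ π ≡ π mod π²` and `σ^[n] = id` for some `n` invertible in `B` satisfies
  `π ^ j ∣ σ x - x` for all `j`  (`dvd_sub_of_iterate_eq`).
* `(S3c)` `eq_one_of_trivial_mod_sq` : an automorphism of a DVR of finite order prime to the
  residue characteristic which is trivial on `B/𝔪²` (it is enough: trivial on `B/𝔪` and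
  `σ π ≡ π mod 𝔪²`) is the identity.
* For a group `G` acting on `B` (`MulSemiringAction`): `theta hπ : 𝔪.inertia G →* (B/𝔪)ˣ`,
  `g ↦ g π / π mod 𝔪`; it does not depend on `π` (`theta_eq_theta`), its kernel is the
  wild inertia group `wildInertia G B` (`ker_theta`), which is normal in `G`
  (`wildInertia_normal`), and a `p`-group if `G` is finite and acts faithfully, `p` the residue
  characteristic (`isPGroup_wildInertia`); `theta` is injective if `|G|` is invertible in `B`
  (`theta_injective`); `theta_conj`: `θ (g δ g⁻¹) = g • θ δ`;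
  `dvd_smul_sub_pow_mul`: `δ` acts on `𝔪^r/𝔪^(r+1)` through the scalar `θ(δ)^r`.
-/

set_option linter.style.longLine false
set_option linter.unusedSectionVars false
set_option linter.unusedVariables false

namespace Fermat.Agent.S56.Flat.Count.Inertia

open IsLocalRing

section Core

variable {B : Type*} [CommRing B]

/-- Lemma A: `σ ≡ 1 mod π` and `σ π ≡ π mod π²` imply `(σ - 1)(π^j) ⊆ (π^(j+1))`. -/
theorem dvd_map_sub_of_dvd (σ : B →+* B) {π : B} (h1 : ∀ x, π ∣ σ x - x)
    (h2 : π ^ 2 ∣ σ π - π) :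
    ∀ (j : ℕ) (y : B), π ^ j ∣ y → π ^ (j + 1) ∣ σ y - y := by
  intro j
  induction j with
  | zero => intro y _; simpa using h1 y
  | succ j ih =>
    rintro y ⟨c, rfl⟩
    have hz : π ^ (j + 1) ∣ σ (π ^ j * c) - π ^ j * c := ih _ (dvd_mul_right _ _)
    have hσπ : π ∣ σ π := by
      have h : σ π = (σ π - π) + π := by ring
      rw [h]; exact dvd_add (h1 π) dvd_rfl
    have e : σ (π ^ (j + 1) * c) - π ^ (j + 1) * c
        = σ π * (σ (π ^ j * c) - π ^ j * c) + (σ π - π) * (π ^ j * c) := by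
      rw [pow_succ', mul_assoc, map_mul]; ring
    rw [e]
    apply dvd_add
    · have : π ^ (j + 1 + 1) = π * π ^ (j + 1) := pow_succ' _ _
      rw [this]; exact mul_dvd_mul hσπ hz
    · have : π ^ (j + 1 + 1) = π ^ 2 * π ^ j := by ring
      rw [this]; exact mul_dvd_mul h2 (dvd_mul_right _ _)

/-- `σ^m x ≡ x + m (σ x - x) mod π^(j+1)` if `σ ≡ 1 mod π^j`. -/
theorem dvd_iterate_sub (σ : B →+* B) {π : B} (h1 : ∀ x, π ∣ σ x - x)
    (h2 : π ^ 2 ∣ σ π - π) (j : ℕ) (hj : ∀ x, π ^ j ∣ σ x - x) :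
    ∀ (m : ℕ) (x : B), π ^ (j + 1) ∣ σ^[m] x - x - m * (σ x - x) := by
  intro m
  induction m with
  | zero => intro x; simp
  | succ m ih =>
    intro x
    have hA : π ^ (j + 1) ∣ σ (σ x - x) - (σ x - x) :=
      dvd_map_sub_of_dvd σ h1 h2 j _ (hj x)
    have e : σ^[m + 1] x - x - ((m + 1 : ℕ) : B) * (σ x - x)
        = (σ^[m] (σ x) - σ x - m * (σ (σ x) - σ x)) + m * (σ (σ x - x) - (σ x - x)) := by
      rw [Function.iterate_succ_apply, map_sub]; push_cast; ring
    rw [e]
    exact dvd_add (ih (σ x)) (Dvd.dvd.mul_left hA _)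

/-- The core of `(S3c)`: finite order invertible in `B` forces `σ ≡ 1 mod π^j` for all `j`. -/
theorem dvd_sub_of_iterate_eq (σ : B →+* B) {π : B} (h1 : ∀ x, π ∣ σ x - x)
    (h2 : π ^ 2 ∣ σ π - π) {n : ℕ} (hn : ∀ x, σ^[n] x = x) (hu : IsUnit (n : B)) :
    ∀ (j : ℕ) (x : B), π ^ j ∣ σ x - x := by
  intro j
  induction j with
  | zero => intro x; simp
  | succ j ih =>
    intro x
    have h := dvd_iterate_sub σ h1 h2 j ih n x
    rw [hn x, sub_self, zero_sub] at h
    obtain ⟨v, hv⟩ := hu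
    have h' : π ^ (j + 1) ∣ (↑v⁻¹ : B) * -((n : B) * (σ x - x)) := Dvd.dvd.mul_left h _
    have e : (↑v⁻¹ : B) * -((n : B) * (σ x - x)) = -(σ x - x) := by
      rw [← hv]
      have : (↑v⁻¹ : B) * (v : B) = 1 := by simp
      calc (↑v⁻¹ : B) * -((v : B) * (σ x - x)) = -((↑v⁻¹ : B) * (v : B)) * (σ x - x) := by ring
        _ = -(σ x - x) := by rw [this]; ring
    rw [e] at h'
    exact (dvd_neg).mp h'

end Core

section DVR

variable {B : Type*} [CommRing B] [IsDomain B] [IsDiscreteValuationRing B]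

theorem eq_zero_of_forall_pow_dvd {π : B} (hπ : Irreducible π) {z : B}
    (h : ∀ j : ℕ, π ^ j ∣ z) : z = 0 := by
  by_contra hz
  obtain ⟨n, u, hu⟩ := IsDiscreteValuationRing.eq_unit_mul_pow_irreducible hz hπ
  obtain ⟨c, hc⟩ := h (n + 1)
  have hπ0 : π ^ n ≠ 0 := pow_ne_zero _ hπ.ne_zero
  have : π ^ n * (u : B) = π ^ n * (π * c) := by
    rw [mul_comm, ← hu, hc]; ring
  have h3 : (u : B) = π * c := mul_left_cancel₀ hπ0 this
  exact hπ.not_isUnit (isUnit_of_dvd_unit ⟨c, h3⟩ u.isUnit)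

theorem mem_maximalIdeal_pow_iff {π : B} (hπ : Irreducible π) (j : ℕ) (x : B) :
    x ∈ maximalIdeal B ^ j ↔ π ^ j ∣ x := by
  rw [hπ.maximalIdeal_eq, Ideal.span_singleton_pow, Ideal.mem_span_singleton]

theorem mem_maximalIdeal_iff_dvd {π : B} (hπ : Irreducible π) (x : B) :
    x ∈ maximalIdeal B ↔ π ∣ x := by
  rw [hπ.maximalIdeal_eq, Ideal.mem_span_singleton]

/-- **(S3c)**, ring-endomorphism form (weak hypotheses). -/
theorem map_eq_self_of_iterate_eq (σ : B →+* B) {π : B} (hπ : Irreducible π)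
    (h1 : ∀ x, σ x - x ∈ maximalIdeal B) (h2 : σ π - π ∈ maximalIdeal B ^ 2)
    {n : ℕ} (hn : ∀ x, σ^[n] x = x) (hu : IsUnit (n : B)) (x : B) : σ x = x := by
  have h1' : ∀ x, π ∣ σ x - x := fun x => (mem_maximalIdeal_iff_dvd hπ _).mp (h1 x)
  have h2' : π ^ 2 ∣ σ π - π := (mem_maximalIdeal_pow_iff hπ 2 _).mp h2
  have := eq_zero_of_forall_pow_dvd hπ (fun j => dvd_sub_of_iterate_eq σ h1' h2' hn hu j x)
  exact sub_eq_zero.mp this

/-- **(S3c)**: an automorphism of a DVR, of finite order `n` invertible in `B`, which is trivial on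
`B/𝔪` and satisfies `σ π ≡ π mod 𝔪²` for one uniformizer, is the identity. -/
theorem eq_one_of_sub_mem (σ : B ≃+* B) {π : B} (hπ : Irreducible π)
    (h1 : ∀ x, σ x - x ∈ maximalIdeal B) (h2 : σ π - π ∈ maximalIdeal B ^ 2)
    {n : ℕ} (hn : σ ^ n = 1) (hu : IsUnit (n : B)) : σ = 1 := by
  ext x
  have hit : ∀ (m : ℕ) (y : B), (σ : B →+* B)^[m] y = (σ ^ m) y := by
    intro m
    induction m with
    | zero => intro y; simp
    | succ m ih =>
      intro y
      rw [Function.iterate_succ_apply, ih, pow_succ]; rfl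
  have := map_eq_self_of_iterate_eq (σ : B →+* B) hπ h1 h2 (n := n)
    (fun y => by rw [hit, hn]; rfl) hu x
  simpa using this

/-- **(S3c)** in the form of the blueprint: trivial on `B/𝔪²`. -/
theorem eq_one_of_trivial_mod_sq (σ : B ≃+* B) (h2 : ∀ x, σ x - x ∈ maximalIdeal B ^ 2)
    {n : ℕ} (hn : σ ^ n = 1) (hu : IsUnit (n : B)) : σ = 1 := by
  obtain ⟨π, hπ⟩ := IsDiscreteValuationRing.exists_irreducible B
  refine eq_one_of_sub_mem σ hπ (fun x => ?_) (h2 π) hn hu
  exact Ideal.pow_le_self (two_ne_zero) (h2 x)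

/-- integers prime to the residue characteristic are units. -/
theorem isUnit_natCast_of_coprime {p : ℕ} (hp : (p : B) ∈ maximalIdeal B) {m : ℕ}
    (hm : Nat.Coprime m p) : IsUnit (m : B) := by
  by_contra h
  have hm' : (m : B) ∈ maximalIdeal B := (mem_maximalIdeal _).mpr h
  have h1 : ((Nat.gcd m p : ℕ) : ℤ) = m * Nat.gcdA m p + p * Nat.gcdB m p := Nat.gcd_eq_gcd_ab m p
  rw [hm] at h1
  have h2 : (1 : B) = (m : B) * ((Nat.gcdA m p : ℤ) : B) + (p : B) * ((Nat.gcdB m p : ℤ) : B) := by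
    have := congrArg (fun z : ℤ => (z : B)) h1
    simpa using this
  have : (1 : B) ∈ maximalIdeal B := by
    rw [h2]
    exact add_mem (Ideal.mul_mem_right _ _ hm') (Ideal.mul_mem_right _ _ hp)
  exact (Ideal.ne_top_iff_one _).mp (maximalIdeal.isMaximal B).ne_top this

end DVR

section Action

variable {B : Type*} [CommRing B] [IsDomain B] [IsDiscreteValuationRing B]
variable {G : Type*} [Group G] [MulSemiringAction G B]

theorem irreducible_smul (g : G) {π : B} (hπ : Irreducible π) : Irreducible (g • π) := by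
  have h := MulEquiv.irreducible_iff (MulSemiringAction.toRingEquiv G B g) (x := π)
  rw [MulSemiringAction.toRingEquiv_apply_apply] at h
  exact h.mpr hπ

theorem smul_mem_maximalIdeal_iff (g : G) (x : B) :
    g • x ∈ maximalIdeal B ↔ x ∈ maximalIdeal B := by
  have h := MulEquiv.isUnit_map (f := MulSemiringAction.toRingEquiv G B g) (x := x)
  rw [MulSemiringAction.toRingEquiv_apply_apply] at h
  rw [mem_maximalIdeal, mem_maximalIdeal, mem_nonunits_iff, mem_nonunits_iff, h]

theorem smul_mem_maximalIdeal_pow (g : G) {x : B} (j : ℕ) (hx : x ∈ maximalIdeal B ^ j) :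
    g • x ∈ maximalIdeal B ^ j := by
  obtain ⟨π, hπ⟩ := IsDiscreteValuationRing.exists_irreducible B
  rw [mem_maximalIdeal_pow_iff hπ] at hx
  obtain ⟨c, rfl⟩ := hx
  rw [smul_mul', smul_pow']
  have : g • π ∈ maximalIdeal B := (smul_mem_maximalIdeal_iff g π).mpr ((mem_maximalIdeal_iff_dvd hπ _).mpr dvd_rfl)
  exact Ideal.mul_mem_right _ _ (Ideal.pow_mem_pow this j)

theorem exists_smul_eq_mul (g : G) {π : B} (hπ : Irreducible π) : ∃ u : Bˣ, g • π = π * u := by
  obtain ⟨u, hu⟩ := IsDiscreteValuationRing.associated_of_irreducible B hπ (irreducible_smul g hπ)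
  exact ⟨u, hu.symm⟩

/-- the unit `g π / π`. -/
noncomputable def unitOf (g : G) {π : B} (hπ : Irreducible π) : Bˣ := (exists_smul_eq_mul g hπ).choose

theorem smul_eq_mul_unitOf (g : G) {π : B} (hπ : Irreducible π) : g • π = π * (unitOf g hπ : B) :=
  (exists_smul_eq_mul g hπ).choose_spec

theorem unitOf_unique (g : G) {π : B} (hπ : Irreducible π) {u : B} (hu : g • π = π * u) :
    (unitOf g hπ : B) = u := by
  have := smul_eq_mul_unitOf g hπ
  rw [hu] at this
  exact (mul_left_cancel₀ hπ.ne_zero this).symm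

theorem unitOf_one {π : B} (hπ : Irreducible π) : (unitOf (1 : G) hπ : B) = 1 :=
  unitOf_unique 1 hπ (by simp)

theorem unitOf_mul (g h : G) {π : B} (hπ : Irreducible π) :
    (unitOf (g * h) hπ : B) = (unitOf g hπ : B) * g • (unitOf h hπ : B) := by
  apply unitOf_unique
  rw [mul_smul, smul_eq_mul_unitOf h hπ, smul_mul', smul_eq_mul_unitOf g hπ]; ring

theorem residue_smul_eq_of_mem_inertia {g : G} (hg : g ∈ (maximalIdeal B).inertia G) (x : B) :
    residue B (g • x) = residue B x := by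
  rw [← sub_eq_zero, ← map_sub, residue_eq_zero_iff]
  exact hg x

/-- `θ(g) = g π / π mod 𝔪`, a homomorphism on the inertia subgroup. -/
noncomputable def theta {π : B} (hπ : Irreducible π) :
    (maximalIdeal B).inertia G →* (ResidueField B)ˣ where
  toFun g := Units.map (residue B).toMonoidHom (unitOf (g : G) hπ)
  map_one' := by
    ext
    simp only [Units.coe_map, RingHom.toMonoidHom_eq_coe, MonoidHom.coe_coe, OneMemClass.coe_one,
      Units.val_one]
    rw [unitOf_one hπ, map_one]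
  map_mul' g h := by
    ext
    simp only [Units.coe_map, RingHom.toMonoidHom_eq_coe, MonoidHom.coe_coe, Subgroup.coe_mul,
      Units.val_mul]
    rw [unitOf_mul (g : G) (h : G) hπ, map_mul, residue_smul_eq_of_mem_inertia g.2]

theorem coe_theta {π : B} (hπ : Irreducible π) (g : (maximalIdeal B).inertia G) :
    ((theta hπ g : (ResidueField B)ˣ) : ResidueField B) = residue B (unitOf (g : G) hπ : B) := rfl

/-- characterisation of `θ` by any representative. -/
theorem coe_theta_eq {π : B} (hπ : Irreducible π) (g : (maximalIdeal B).inertia G) {u : B}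
    (hu : (g : G) • π = π * u) :
    ((theta hπ g : (ResidueField B)ˣ) : ResidueField B) = residue B u := by
  rw [coe_theta, unitOf_unique (g : G) hπ hu]

/-- `θ` does not depend on the uniformizer. -/
theorem theta_eq_theta {π π' : B} (hπ : Irreducible π) (hπ' : Irreducible π') :
    (theta hπ : (maximalIdeal B).inertia G →* _) = theta hπ' := by
  ext g
  obtain ⟨v, hv⟩ := IsDiscreteValuationRing.associated_of_irreducible B hπ hπ'
  -- π * v = π'
  have h1 : (g : G) • π' = π' * ((unitOf (g : G) hπ : B) * ((g : G) • (v : B)) * ((v⁻¹ : Bˣ) : B)) := by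
    rw [← hv, smul_mul', smul_eq_mul_unitOf (g : G) hπ]
    have : (v : B) * ((v⁻¹ : Bˣ) : B) = 1 := by simp
    calc π * ↑(unitOf (g : G) hπ) * (g : G) • (v : B)
        = π * ↑(unitOf (g : G) hπ) * (g : G) • (v : B) * ((v : B) * ((v⁻¹ : Bˣ) : B)) := by
          rw [this, mul_one]
      _ = _ := by ring
  rw [coe_theta_eq hπ' g h1, coe_theta, map_mul, map_mul, residue_smul_eq_of_mem_inertia g.2,
    mul_assoc, ← map_mul]
  simp

theorem theta_eq_one_iff {π : B} (hπ : Irreducible π) (g : (maximalIdeal B).inertia G) :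
    theta hπ g = 1 ↔ π ^ 2 ∣ (g : G) • π - π := by
  have e : (g : G) • π - π = π * ((unitOf (g : G) hπ : B) - 1) := by
    rw [smul_eq_mul_unitOf (g : G) hπ]; ring
  rw [e, pow_two, mul_dvd_mul_iff_left hπ.ne_zero, ← mem_maximalIdeal_iff_dvd hπ,
    ← residue_eq_zero_iff, map_sub, map_one, sub_eq_zero, ← coe_theta, Units.ext_iff, Units.val_one]

/-- the wild inertia subgroup: trivial on `B/𝔪` and `(g - 1) 𝔪 ⊆ 𝔪²`. -/
def wildInertia (G : Type*) [Group G] (B : Type*) [CommRing B] [IsDomain B]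
    [IsDiscreteValuationRing B] [MulSemiringAction G B] : Subgroup G where
  carrier := {g | (∀ x : B, g • x - x ∈ maximalIdeal B) ∧
    ∀ x ∈ maximalIdeal B, g • x - x ∈ maximalIdeal B ^ 2}
  one_mem' := ⟨fun x => by simp, fun x _ => by simp⟩
  mul_mem' := by
    rintro a b ⟨ha1, ha2⟩ ⟨hb1, hb2⟩
    refine ⟨fun x => ?_, fun x hx => ?_⟩
    · have : (a * b) • x - x = (a • (b • x) - b • x) + (b • x - x) := by rw [mul_smul]; ring
      rw [this]; exact add_mem (ha1 _) (hb1 _)
    · have : (a * b) • x - x = (a • (b • x) - b • x) + (b • x - x) := by rw [mul_smul]; ring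
      rw [this]
      exact add_mem (ha2 _ ((smul_mem_maximalIdeal_iff b x).mpr hx)) (hb2 _ hx)
  inv_mem' := by
    rintro a ⟨ha1, ha2⟩
    refine ⟨fun x => ?_, fun x hx => ?_⟩
    · have : a⁻¹ • x - x = -(a • (a⁻¹ • x) - a⁻¹ • x) := by rw [smul_inv_smul]; ring
      rw [this]; exact neg_mem (ha1 _)
    · have : a⁻¹ • x - x = -(a • (a⁻¹ • x) - a⁻¹ • x) := by rw [smul_inv_smul]; ring
      rw [this]; exact neg_mem (ha2 _ ((smul_mem_maximalIdeal_iff a⁻¹ x).mpr hx))

theorem mem_wildInertia_iff (g : G) :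
    g ∈ wildInertia G B ↔ (∀ x : B, g • x - x ∈ maximalIdeal B) ∧
      ∀ x ∈ maximalIdeal B, g • x - x ∈ maximalIdeal B ^ 2 := Iff.rfl

theorem wildInertia_le_inertia : wildInertia G B ≤ (maximalIdeal B).inertia G :=
  fun _ hg => hg.1

/-- membership in the wild inertia group, tested on one uniformizer. -/
theorem mem_wildInertia_iff_dvd {π : B} (hπ : Irreducible π) (g : G) :
    g ∈ wildInertia G B ↔ g ∈ (maximalIdeal B).inertia G ∧ π ^ 2 ∣ g • π - π := by
  constructor
  · rintro ⟨h1, h2⟩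
    exact ⟨h1, (mem_maximalIdeal_pow_iff hπ 2 _).mp
      (h2 π ((mem_maximalIdeal_iff_dvd hπ _).mpr dvd_rfl))⟩
  · rintro ⟨h1, h2⟩
    refine ⟨h1, fun x hx => ?_⟩
    have h1' : ∀ x, π ∣ (MulSemiringAction.toRingHom G B g) x - x := fun x =>
      (mem_maximalIdeal_iff_dvd hπ _).mp (h1 x)
    have := dvd_map_sub_of_dvd (MulSemiringAction.toRingHom G B g) h1' h2 1 x
      (by simpa using (mem_maximalIdeal_iff_dvd hπ _).mp hx)
    exact (mem_maximalIdeal_pow_iff hπ 2 _).mpr this

theorem inertia_sq_le_wildInertia : (maximalIdeal B ^ 2).inertia G ≤ wildInertia G B := by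
  intro g hg
  exact ⟨fun x => Ideal.pow_le_self two_ne_zero (hg x), fun x _ => hg x⟩

/-- `ker θ` is the wild inertia group. -/
theorem mem_ker_theta_iff {π : B} (hπ : Irreducible π) (g : (maximalIdeal B).inertia G) :
    g ∈ (theta hπ).ker ↔ (g : G) ∈ wildInertia G B := by
  rw [MonoidHom.mem_ker, theta_eq_one_iff, mem_wildInertia_iff_dvd hπ]
  exact ⟨fun h => ⟨g.2, h⟩, fun h => h.2⟩

theorem ker_theta {π : B} (hπ : Irreducible π) :
    (theta hπ : (maximalIdeal B).inertia G →* _).ker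
      = (wildInertia G B).subgroupOf ((maximalIdeal B).inertia G) := by
  ext g
  rw [mem_ker_theta_iff, Subgroup.mem_subgroupOf]

instance inertia_normal : ((maximalIdeal B).inertia G).Normal := by
  constructor
  intro δ hδ g x
  have : (g * δ * g⁻¹) • x - x = g • (δ • (g⁻¹ • x) - g⁻¹ • x) := by
    rw [mul_smul, mul_smul, smul_sub, smul_inv_smul]
  rw [this]
  exact (smul_mem_maximalIdeal_iff g _).mpr (hδ _)

instance wildInertia_normal : (wildInertia G B).Normal := by
  constructor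
  rintro δ ⟨h1, h2⟩ g
  refine ⟨inertia_normal.conj_mem δ h1 g, fun x hx => ?_⟩
  have : (g * δ * g⁻¹) • x - x = g • (δ • (g⁻¹ • x) - g⁻¹ • x) := by
    rw [mul_smul, mul_smul, smul_sub, smul_inv_smul]
  rw [this]
  exact smul_mem_maximalIdeal_pow g 2 (h2 _ ((smul_mem_maximalIdeal_iff g⁻¹ x).mpr hx))

/-- **(S3c)**, group action form: a wild inertia element of finite order invertible in `B` acts
trivially. -/
theorem smul_eq_of_mem_wildInertia {g : G} (hg : g ∈ wildInertia G B) {n : ℕ} (hn : g ^ n = 1)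
    (hu : IsUnit (n : B)) (x : B) : g • x = x := by
  obtain ⟨π, hπ⟩ := IsDiscreteValuationRing.exists_irreducible B
  have hit : ∀ (m : ℕ) (y : B), (MulSemiringAction.toRingHom G B g)^[m] y = g ^ m • y := by
    intro m
    induction m with
    | zero => intro y; simp
    | succ m ih =>
      intro y
      rw [Function.iterate_succ_apply, ih, pow_succ, mul_smul]; rfl
  exact map_eq_self_of_iterate_eq (MulSemiringAction.toRingHom G B g) hπ hg.1
    (hg.2 π ((mem_maximalIdeal_iff_dvd hπ _).mpr dvd_rfl)) (n := n)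
    (fun y => by rw [hit, hn, one_smul]) hu x

theorem eq_one_of_mem_wildInertia [FaithfulSMul G B] {g : G} (hg : g ∈ wildInertia G B) {n : ℕ}
    (hn : g ^ n = 1) (hu : IsUnit (n : B)) : g = 1 :=
  FaithfulSMul.eq_of_smul_eq_smul (α := B) fun x => by
    rw [smul_eq_of_mem_wildInertia hg hn hu x, one_smul]

/-- the wild inertia group of a finite group acting faithfully is a `p`-group,
`p` the residue characteristic. -/
theorem isPGroup_wildInertia [Finite G] [FaithfulSMul G B] (p : ℕ) [Fact p.Prime]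
    (hp : (p : B) ∈ maximalIdeal B) : IsPGroup p (wildInertia G B) := by
  intro g
  obtain ⟨k, m, hm, hkm⟩ := Nat.exists_eq_pow_mul_and_not_dvd (orderOf_pos (g : G)).ne' p
    (Fact.out : p.Prime).ne_one
  refine ⟨k, ?_⟩
  have hcop : Nat.Coprime m p := ((Fact.out : p.Prime).coprime_iff_not_dvd.mpr hm).symm
  have hmem : (g : G) ^ p ^ k ∈ wildInertia G B := Subgroup.pow_mem _ g.2 _
  have hpow : ((g : G) ^ p ^ k) ^ m = 1 := by
    rw [← pow_mul, ← hkm, pow_orderOf_eq_one]
  have := eq_one_of_mem_wildInertia hmem hpow (isUnit_natCast_of_coprime hp hcop)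
  exact Subtype.ext (by simpa using this)

/-- `θ` is injective on a finite group of order invertible in `B` (tame case). -/
theorem theta_injective [Finite G] [FaithfulSMul G B] (hu : IsUnit (Nat.card G : B)) {π : B}
    (hπ : Irreducible π) : Function.Injective (theta hπ : (maximalIdeal B).inertia G →* _) := by
  rw [injective_iff_map_eq_one]
  intro g hg
  have hw : (g : G) ∈ wildInertia G B := (mem_ker_theta_iff hπ g).mp hg
  have hord : IsUnit ((orderOf (g : G) : ℕ) : B) := by
    obtain ⟨c, hc⟩ := orderOf_dvd_natCard (g : G)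
    rw [hc, Nat.cast_mul] at hu
    exact isUnit_of_mul_isUnit_left hu
  exact Subtype.ext (eq_one_of_mem_wildInertia hw (pow_orderOf_eq_one _) hord)

/-- conjugation: `θ(g δ g⁻¹) = g • θ(δ)` for the induced action on the residue field. -/
theorem coe_theta_conj {π : B} (hπ : Irreducible π) (g : G) (δ : (maximalIdeal B).inertia G) :
    ((theta hπ ⟨g * δ * g⁻¹, inertia_normal.conj_mem (δ : G) δ.2 g⟩ : (ResidueField B)ˣ) : ResidueField B)
      = g • ((theta hπ δ : (ResidueField B)ˣ) : ResidueField B) := by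
  have hπ' : Irreducible (g⁻¹ • π) := irreducible_smul g⁻¹ hπ
  have h1 : (g * δ * g⁻¹) • π = π * g • (unitOf (δ : G) hπ' : B) := by
    rw [mul_smul, mul_smul, smul_eq_mul_unitOf (δ : G) hπ', smul_mul', smul_inv_smul]
  rw [coe_theta_eq hπ _ h1, theta_eq_theta hπ hπ', coe_theta, ResidueField.residue_smul]

/-- `δ` in the inertia group acts on `𝔪^r / 𝔪^(r+1)` through the scalar `θ(δ)^r`. -/
theorem dvd_smul_sub_pow_mul {π : B} (hπ : Irreducible π) (δ : (maximalIdeal B).inertia G) {u : B}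
    (hu : residue B u = ((theta hπ δ : (ResidueField B)ˣ) : ResidueField B)) (r : ℕ) {y : B}
    (hy : π ^ r ∣ y) : π ^ (r + 1) ∣ (δ : G) • y - u ^ r * y := by
  obtain ⟨c, rfl⟩ := hy
  set w := (unitOf (δ : G) hπ : B) with hw
  have e : (δ : G) • (π ^ r * c) - u ^ r * (π ^ r * c)
      = π ^ r * (w ^ r * (δ : G) • c - u ^ r * c) := by
    rw [smul_mul', smul_pow', smul_eq_mul_unitOf (δ : G) hπ]; ring
  rw [e, pow_succ]
  apply mul_dvd_mul_left
  rw [← mem_maximalIdeal_iff_dvd hπ, ← residue_eq_zero_iff, map_sub, map_mul, map_mul, map_pow,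
    map_pow, residue_smul_eq_of_mem_inertia δ.2, hu, coe_theta, sub_self]

/-- `(T1)`: an element commuting with `δ` fixes `θ(δ)` (e.g. `G` abelian, `g` a Frobenius lift:
`θ(δ)^{q₀} = θ(δ)`). -/
theorem smul_coe_theta_of_commute {π : B} (hπ : Irreducible π) (g : G)
    (δ : (maximalIdeal B).inertia G) (h : Commute g (δ : G)) :
    g • ((theta hπ δ : (ResidueField B)ˣ) : ResidueField B)
      = ((theta hπ δ : (ResidueField B)ˣ) : ResidueField B) := by
  rw [← coe_theta_conj hπ g δ]
  congr 3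
  rw [h.eq, mul_inv_cancel_right]

/-- `δ y / y ≡ θ(δ)^r mod 𝔪` for `y` of valuation `r`. -/
theorem residue_eq_theta_pow {π : B} (hπ : Irreducible π) (δ : (maximalIdeal B).inertia G)
    {y w : B} {v : Bˣ} {r : ℕ} (hy : y = v * π ^ r) (hw : (δ : G) • y = y * w) :
    residue B w = ((theta hπ δ : (ResidueField B)ˣ) : ResidueField B) ^ r := by
  set u := (unitOf (δ : G) hπ : B) with hu
  have h := dvd_smul_sub_pow_mul hπ δ (u := u) (coe_theta hπ δ).symm r (y := y)
    (hy ▸ dvd_mul_left _ _)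
  rw [hw] at h
  have e : y * w - u ^ r * y = π ^ r * ((v : B) * (w - u ^ r)) := by rw [hy]; ring
  rw [e, pow_succ, mul_dvd_mul_iff_left (pow_ne_zero _ hπ.ne_zero)] at h
  have h2 : π ∣ w - u ^ r := by
    have := Dvd.dvd.mul_left h ((v⁻¹ : Bˣ) : B)
    rwa [← mul_assoc, Units.inv_mul, one_mul] at this
  rw [← mem_maximalIdeal_iff_dvd hπ, ← residue_eq_zero_iff, map_sub, map_pow, sub_eq_zero] at h2
  rw [h2, coe_theta]

/-- `(T2)`: if `ζ - 1` has valuation `r`, `ζ ≡ 1 mod 𝔪` and `δ ζ = ζ^a` then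
`a = θ(δ)^r` in the residue field. -/
theorem natCast_eq_theta_pow_of_smul_eq_pow {π : B} (hπ : Irreducible π)
    (δ : (maximalIdeal B).inertia G) {ζ : B} {v : Bˣ} {r a : ℕ} (hζ : ζ - 1 = v * π ^ r)
    (hζ1 : ζ - 1 ∈ maximalIdeal B) (hδ : (δ : G) • ζ = ζ ^ a) :
    (a : ResidueField B) = ((theta hπ δ : (ResidueField B)ˣ) : ResidueField B) ^ r := by
  have hw : (δ : G) • (ζ - 1) = (ζ - 1) * ∑ i ∈ Finset.range a, ζ ^ i := by
    rw [mul_geom_sum, smul_sub, smul_one, hδ]
  rw [← residue_eq_theta_pow hπ δ hζ hw, map_sum]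
  have h1 : residue B ζ = 1 := by
    rw [← sub_eq_zero, ← map_one (residue B), ← map_sub, residue_eq_zero_iff]; exact hζ1
  simp [map_pow, h1]

end Action

end Fermat.Agent.S56.Flat.Count.Inertia
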