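/-
S56, block F (FLAT), leaf [FLC-Gal] (moonshots row 53 §4 (S) and the inputs of (R)): the CONCRETE
structure of `Γ = Gal(L/ℚ_p)` for a finite (Galois) `L ⊂ PadicAlgCl p`.  Builds on S55
`Local/Unram*` (maximal unramified subextension, Frobenius), helper12 `KummerBound/TotRam` and
helper27 `Count/Inertia` (abstract tame inertia of a DVR).

* `galAct L : MulSemiringAction (L ≃ₐ[ℚ_[p]] L) (integralClosure ℤ_[p] L)` (a `def`; use
  `attribute [local instance] galAct`), `coe_smul : ↑(σ • x) = σ ↑x`, `faithfulSMul`;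
* `inertia L`, `wild L : Subgroup (L ≃ₐ[ℚ_[p]] L)` (`mem_inertia_iff`, `mem_wild_iff`; both
  `Normal`; `wild_le_inertia`) = helper27's `(maximalIdeal 𝒪_L).inertia Γ`, `wildInertia Γ 𝒪_L`;
* **(G1)** `isPGroup_wild`, **(G2)** `comm_mem_wild`, **(G3)** `exists_pow_mem_wild`;
* `exists_intIncl_sub_mem` (integers of `L` ≡ integers of the maximal unramified `K₀` mod `𝔪_L`),
  `mem_inertia_of_fixes` (`Gal(L/K₀) ≤ Γ₀`), **(G4)** `exists_frobenius_lift`
  (`τ x ≡ x ^ p mod 𝔪_L`, `Γ = ⟨τ⟩ Γ₀`), `smul_residue_eq_pow`, **`frobenius_conj_mem_wild`**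
  (`τ δ τ⁻¹ (δ ^ p)⁻¹ ∈ Γ₁`);
* `mem_of_fixed_by_inertia` (`L^{Γ₀} ⊆ K₀`), `exists_eq_natCast_mul`,
  `isUnramifiedIn_fixedField` (`Γ₀ ≤ Γ_K ⇒ L^{Γ_K}` unramified);
* **`exists_mem_inertia_apply_ne`** (`p ≠ 2`: `∃ σ ∈ Γ₀, σ ζ ≠ ζ`, i.e. `ω̄|_{Γ₀} ≠ 1`),
  **`exists_mem_inertia_apply_ne_inv`** (`p ≥ 5`: `∃ σ ∈ Γ₀, σ ζ ≠ ζ ∧ σ ζ ≠ ζ⁻¹`, i.e.
  `ω̄|_{Γ₀}² ≠ 1`);
* **`exists_structure`**: the summary in the shape of `IrredStructure.exists_structure`.
-/
import Mathlib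
import Fermat.Agent.S55.Local.KillTransport
import Fermat.Agent.S55.Local.UnramBC
import Fermat.Agent.S56.Flat.KummerBound.TotRam
import Fermat.Agent.S56.Flat.Count.Inertia

set_option autoImplicit false
set_option linter.style.haveILetI false
set_option linter.unusedSectionVars false

namespace Fermat.Agent.S56.Flat.Count.LocalGalois

open IsLocalRing IntermediateField Fermat.Agent.S55.Local Fermat.Agent.S55.Local.Unram
  Fermat.Agent.S55.Local.KillTransport Fermat.Agent.S55.LocalInt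
  Fermat.Agent.S56.Flat.Count.Inertia

variable {p : ℕ} [hp : Fact p.Prime] (L : IntermediateField ℚ_[p] (PadicAlgCl p))

/-- The action of `Gal(L/ℚ_p)` on the ring of integers `𝒪_L` (through Mathlib's `galRestrict`). -/
@[instance_reducible]
noncomputable def galAct :
    MulSemiringAction (L ≃ₐ[ℚ_[p]] L) (integralClosure ℤ_[p] L) :=
  MulSemiringAction.compHom _ (galRestrict ℤ_[p] ℚ_[p] L (integralClosure ℤ_[p] L)).toMonoidHom

attribute [local instance] galAct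

theorem coe_smul (σ : L ≃ₐ[ℚ_[p]] L) (x : integralClosure ℤ_[p] L) :
    ((σ • x : integralClosure ℤ_[p] L) : L) = σ (x : L) := by
  show (algebraMap (integralClosure ℤ_[p] L) L)
    (galRestrict ℤ_[p] ℚ_[p] L (integralClosure ℤ_[p] L) σ x) = _
  rw [algebraMap_galRestrict_apply]
  rfl

theorem faithfulSMul : FaithfulSMul (L ≃ₐ[ℚ_[p]] L) (integralClosure ℤ_[p] L) := by
  constructor
  intro σ τ h
  apply (galRestrict ℤ_[p] ℚ_[p] L (integralClosure ℤ_[p] L)).injective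
  refine AlgEquiv.ext fun x => ?_
  exact h x

section Subgroups

variable [FiniteDimensional ℚ_[p] L]

/-- The inertia subgroup `Γ₀` of `Γ = Gal(L/ℚ_p)`: trivial action on the residue field. -/
noncomputable def inertia : Subgroup (L ≃ₐ[ℚ_[p]] L) :=
  (maximalIdeal (integralClosure ℤ_[p] L)).inertia (L ≃ₐ[ℚ_[p]] L)

/-- The wild inertia subgroup `Γ₁`: trivial on `𝒪_L/𝔪` and on `𝔪/𝔪²`. -/
noncomputable def wild : Subgroup (L ≃ₐ[ℚ_[p]] L) :=
  wildInertia (L ≃ₐ[ℚ_[p]] L) (integralClosure ℤ_[p] L)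

theorem mem_inertia_iff (σ : L ≃ₐ[ℚ_[p]] L) :
    σ ∈ inertia L ↔ ∀ x : integralClosure ℤ_[p] L,
      σ • x - x ∈ maximalIdeal (integralClosure ℤ_[p] L) := Iff.rfl

theorem mem_wild_iff (σ : L ≃ₐ[ℚ_[p]] L) :
    σ ∈ wild L ↔ (∀ x : integralClosure ℤ_[p] L,
        σ • x - x ∈ maximalIdeal (integralClosure ℤ_[p] L)) ∧
      ∀ x ∈ maximalIdeal (integralClosure ℤ_[p] L),
        σ • x - x ∈ maximalIdeal (integralClosure ℤ_[p] L) ^ 2 := Iff.rfl

instance inertia_normal : (inertia L).Normal :=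
  Inertia.inertia_normal (G := L ≃ₐ[ℚ_[p]] L) (B := integralClosure ℤ_[p] L)

instance wild_normal : (wild L).Normal :=
  Inertia.wildInertia_normal (G := L ≃ₐ[ℚ_[p]] L) (B := integralClosure ℤ_[p] L)

theorem wild_le_inertia : wild L ≤ inertia L :=
  Inertia.wildInertia_le_inertia (G := L ≃ₐ[ℚ_[p]] L) (B := integralClosure ℤ_[p] L)

theorem natCast_mem_maximalIdeal :
    ((p : ℕ) : integralClosure ℤ_[p] L) ∈ maximalIdeal (integralClosure ℤ_[p] L) := by
  have h : ((p : ℕ) : integralClosure ℤ_[p] L) =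
      algebraMap ℤ_[p] (integralClosure ℤ_[p] L) (p : ℤ_[p]) := by simp
  rw [h]
  have hp' : (p : ℤ_[p]) ∈ maximalIdeal ℤ_[p] := by
    rw [PadicInt.maximalIdeal_eq_span_p]
    exact Ideal.mem_span_singleton_self _
  have hloc : IsLocalHom (algebraMap ℤ_[p] (integralClosure ℤ_[p] L)) := inferInstance
  have h4 := ((IsLocalRing.local_hom_TFAE (algebraMap ℤ_[p] (integralClosure ℤ_[p] L))).out 0 3).1
    hloc
  exact h4 hp'

end Subgroups

theorem map_commutator_eq_one {G C : Type*} [Group G] [CommGroup C] (f : G →* C) (a b : G) :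
    f (a * b * a⁻¹ * b⁻¹) = 1 := by
  rw [map_mul, map_mul, map_mul, map_inv, map_inv, mul_comm (f a) (f b), mul_inv_cancel_right,
    mul_inv_cancel]

section Tame

variable [FiniteDimensional ℚ_[p] L]

/-- **(G1)** the wild inertia subgroup is a `p`-group. -/
theorem isPGroup_wild : IsPGroup p (wild L) := by
  haveI := faithfulSMul L
  exact Inertia.isPGroup_wildInertia (G := L ≃ₐ[ℚ_[p]] L) (B := integralClosure ℤ_[p] L) p
    (natCast_mem_maximalIdeal L)

/-- **(G2)** `Γ₀/Γ₁` is commutative. -/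
theorem comm_mem_wild {a a' : L ≃ₐ[ℚ_[p]] L} (ha : a ∈ inertia L) (ha' : a' ∈ inertia L) :
    a * a' * a⁻¹ * a'⁻¹ ∈ wild L := by
  obtain ⟨π, hπ⟩ := IsDiscreteValuationRing.exists_irreducible (integralClosure ℤ_[p] L)
  let A : (maximalIdeal (integralClosure ℤ_[p] L)).inertia (L ≃ₐ[ℚ_[p]] L) := ⟨a, ha⟩
  let A' : (maximalIdeal (integralClosure ℤ_[p] L)).inertia (L ≃ₐ[ℚ_[p]] L) := ⟨a', ha'⟩
  have h : A * A' * A⁻¹ * A'⁻¹ ∈ (theta (G := L ≃ₐ[ℚ_[p]] L) hπ).ker := by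
    rw [MonoidHom.mem_ker]
    exact map_commutator_eq_one _ A A'
  exact (mem_ker_theta_iff hπ _).1 h

/-- **(G3)** `Γ₀/Γ₁` has exponent prime to `p` (it embeds into `κ_L^×`). -/
theorem exists_pow_mem_wild {a : L ≃ₐ[ℚ_[p]] L} (ha : a ∈ inertia L) :
    ∃ m : ℕ, ¬p ∣ m ∧ a ^ m ∈ wild L := by
  classical
  obtain ⟨π, hπ⟩ := IsDiscreteValuationRing.exists_irreducible (integralClosure ℤ_[p] L)
  let A : (maximalIdeal (integralClosure ℤ_[p] L)).inertia (L ≃ₐ[ℚ_[p]] L) := ⟨a, ha⟩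
  have : Fintype (ResidueField (integralClosure ℤ_[p] L)) := Fintype.ofFinite _
  set q := Fintype.card (ResidueField (integralClosure ℤ_[p] L)) with hq
  have hchar : CharP (ResidueField (integralClosure ℤ_[p] L)) p := by
    apply (CharP.charP_iff_prime_eq_zero hp.out).2
    have := natCast_mem_maximalIdeal L (p := p)
    rw [← residue_eq_zero_iff] at this
    simpa using this
  obtain ⟨n, hn⟩ := FiniteField.card (ResidueField (integralClosure ℤ_[p] L)) p
  refine ⟨q - 1, ?_, ?_⟩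
  · intro hdvd
    have h1 : p ∣ q := by rw [hq, hn.2]; exact dvd_pow_self p n.ne_zero
    have h2 : 1 ≤ q := Fintype.card_pos
    have h3 : p ∣ q - (q - 1) := Nat.dvd_sub h1 hdvd
    rw [Nat.sub_sub_self h2] at h3
    exact hp.out.one_lt.ne' (Nat.dvd_one.1 h3)
  · have h : A ^ (q - 1) ∈ (theta (G := L ≃ₐ[ℚ_[p]] L) hπ).ker := by
      rw [MonoidHom.mem_ker, map_pow]
      apply Units.ext
      rw [Units.val_pow_eq_pow_val, Units.val_one]
      exact FiniteField.pow_card_sub_one_eq_one _ (Units.ne_zero _)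
    exact (mem_ker_theta_iff hπ _).1 h

end Tame

section Residue

attribute [local instance 2000] Algebra.toSMul Algebra.toModule

variable [FiniteDimensional ℚ_[p] L]

/-- `𝒪_{K₀} → 𝒪_L` is a local homomorphism. -/
theorem isLocalHom_intIncl {K₀ : IntermediateField ℚ_[p] (PadicAlgCl p)}
    [FiniteDimensional ℚ_[p] K₀] (hKL : K₀ ≤ L) :
    IsLocalHom (intIncl ℤ_[p] hKL).toRingHom := by
  letI := algInc hKL
  letI := algIntField ℤ_[p] hKL
  letI := algIntInt ℤ_[p] hKL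
  haveI := isScalarTower_algInc hKL
  haveI := isScalarTower_int_field ℤ_[p] hKL
  haveI := isScalarTower_int_int ℤ_[p] hKL
  haveI := isScalarTower_base_int_int ℤ_[p] hKL
  haveI := isIntegralClosure_int ℤ_[p] hKL
  have hinj : Function.Injective (algebraMap (integralClosure ℤ_[p] K₀) (integralClosure ℤ_[p] L)) :=
    intIncl_injective hKL
  haveI : Algebra.IsIntegral (integralClosure ℤ_[p] K₀) (integralClosure ℤ_[p] L) :=
    IsIntegralClosure.isIntegral_algebra (integralClosure ℤ_[p] K₀) L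
  exact (algebraMap_isIntegral_iff.mpr ‹_›).isLocalHom hinj

/-- **Step A.** If `K₀ ≤ L` is unramified of degree the residue degree of `L`, every integer of
`L` is congruent modulo `𝔪_L` to an integer of `K₀`. -/
theorem exists_intIncl_sub_mem {K₀ : IntermediateField ℚ_[p] (PadicAlgCl p)}
    (hK₀ : IsUnramifiedIn ℤ_[p] K₀) (hKL : K₀ ≤ L)
    (hdeg : Module.finrank ℚ_[p] K₀ =
      Module.finrank (ResidueField ℤ_[p]) (ResidueField (integralClosure ℤ_[p] L)))
    (x : integralClosure ℤ_[p] L) :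
    ∃ y : integralClosure ℤ_[p] K₀,
      x - intIncl ℤ_[p] hKL y ∈ maximalIdeal (integralClosure ℤ_[p] L) := by
  haveI : FiniteDimensional ℚ_[p] K₀ := hK₀.finiteDimensional
  haveI := isLocalHom_intIncl L hKL
  let r : ResidueField (integralClosure ℤ_[p] K₀) →+* ResidueField (integralClosure ℤ_[p] L) :=
    ResidueField.map (intIncl ℤ_[p] hKL).toRingHom
  have hcard : Nat.card (ResidueField (integralClosure ℤ_[p] L)) ≤
      Nat.card (ResidueField (integralClosure ℤ_[p] K₀)) := by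
    rw [card_residueField_integralClosure L, card_residueField_integralClosure K₀, ← hdeg,
      ← hK₀.finrank_eq]
  have hbij : Function.Bijective r :=
    Function.Injective.bijective_of_nat_card_le r.injective hcard
  obtain ⟨yb, hyb⟩ := hbij.2 (residue _ x)
  obtain ⟨y, rfl⟩ := residue_surjective yb
  refine ⟨y, ?_⟩
  rw [← residue_eq_zero_iff, map_sub, sub_eq_zero, ← hyb]
  rfl

end Residue

section Frobenius

attribute [local instance 2000] Algebra.toSMul Algebra.toModule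

variable [FiniteDimensional ℚ_[p] L]

theorem coe_intIncl_L {K₀ : IntermediateField ℚ_[p] (PadicAlgCl p)} (hKL : K₀ ≤ L)
    (y : integralClosure ℤ_[p] K₀) :
    ((intIncl ℤ_[p] hKL y : integralClosure ℤ_[p] L) : L) =
      IntermediateField.inclusion hKL (y : K₀) := by
  apply Subtype.ext
  rw [coe_intIncl]
  rfl

theorem smul_sub_mem_of_mem (σ : L ≃ₐ[ℚ_[p]] L) {z : integralClosure ℤ_[p] L}
    (hz : z ∈ maximalIdeal (integralClosure ℤ_[p] L)) :
    σ • z ∈ maximalIdeal (integralClosure ℤ_[p] L) :=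
  (Inertia.smul_mem_maximalIdeal_iff σ z).2 hz

/-- An automorphism fixing the maximal unramified subextension pointwise is inertial. -/
theorem mem_inertia_of_fixes {K₀ : IntermediateField ℚ_[p] (PadicAlgCl p)}
    (hK₀ : IsUnramifiedIn ℤ_[p] K₀) (hKL : K₀ ≤ L)
    (hdeg : Module.finrank ℚ_[p] K₀ =
      Module.finrank (ResidueField ℤ_[p]) (ResidueField (integralClosure ℤ_[p] L)))
    (σ : L ≃ₐ[ℚ_[p]] L)
    (hσ : ∀ y : K₀, σ (IntermediateField.inclusion hKL y) = IntermediateField.inclusion hKL y) :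
    σ ∈ inertia L := by
  intro x
  obtain ⟨y, hy⟩ := exists_intIncl_sub_mem L hK₀ hKL hdeg x
  have h1 : σ • intIncl ℤ_[p] hKL y = intIncl ℤ_[p] hKL y := by
    apply Subtype.ext
    rw [coe_smul, coe_intIncl_L, hσ]
  have h2 : σ • x - x = σ • (x - intIncl ℤ_[p] hKL y) - (x - intIncl ℤ_[p] hKL y) := by
    rw [smul_sub, h1]; ring
  rw [h2]
  exact sub_mem (smul_sub_mem_of_mem L σ hy) hy

variable [IsGalois ℚ_[p] L]

theorem card_residueField_padicInt : Nat.card (ResidueField ℤ_[p]) = p := by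
  rw [Nat.card_congr (PadicInt.residueField (p := p)).toEquiv, Nat.card_zmod]

/-- **(G4)** A Frobenius lift `τ ∈ Γ`: it acts as `x ↦ x ^ p` on the residue field, and `Γ` is
generated by `τ` and the inertia subgroup. -/
theorem exists_frobenius_lift :
    ∃ τ : L ≃ₐ[ℚ_[p]] L,
      (∀ x : integralClosure ℤ_[p] L,
        τ • x - x ^ p ∈ maximalIdeal (integralClosure ℤ_[p] L)) ∧
      ∀ γ : L ≃ₐ[ℚ_[p]] L, ∃ j : ℕ, ∃ a ∈ inertia L, γ = τ ^ j * a := by
  obtain ⟨K₀, hKL, hK₀, hdeg⟩ := exists_isUnramifiedIn_le (O := ℤ_[p]) L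
  haveI : FiniteDimensional ℚ_[p] K₀ := hK₀.finiteDimensional
  haveI : IsGalois ℚ_[p] K₀ := hK₀.isGalois
  haveI hloc := isLocalHom_intIncl L hKL
  letI := algInc hKL
  haveI := isScalarTower_algInc hKL
  have hsurj : Function.Surjective (Fermat.Agent.S55.GC.GaloisLayerInf.resGal ℚ_[p] (PadicAlgCl p) hKL) :=
    AlgEquiv.restrictNormalHom_surjective (F := ℚ_[p]) (K₁ := K₀) L
  obtain ⟨τ, hτ⟩ := hsurj hK₀.frob
  have hτy : ∀ y : integralClosure ℤ_[p] K₀, ∃ c ∈ maximalIdeal (integralClosure ℤ_[p] K₀),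
      τ • intIncl ℤ_[p] hKL y = intIncl ℤ_[p] hKL (y ^ p + c) := by
    intro y
    obtain ⟨c, hc, hfc⟩ := hK₀.frob_apply y
    rw [card_residueField_padicInt] at hfc
    refine ⟨c, hc, ?_⟩
    apply Subtype.ext
    apply Subtype.ext
    rw [coe_smul, coe_intIncl_L, ← Fermat.Agent.S55.GC.GaloisLayerInf.coe_resGal ℚ_[p] (PadicAlgCl p) hKL τ, hτ, hfc,
      coe_intIncl]
  refine ⟨τ, fun x => ?_, fun γ => ?_⟩
  · obtain ⟨y, hy⟩ := exists_intIncl_sub_mem L hK₀ hKL hdeg x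
    obtain ⟨c, hc, hyc⟩ := hτy y
    have hc' : intIncl ℤ_[p] hKL c ∈ maximalIdeal (integralClosure ℤ_[p] L) := by
      by_contra hcon
      have hu : IsUnit (intIncl ℤ_[p] hKL c) := by
        by_contra hnu
        exact hcon ((mem_maximalIdeal _).2 hnu)
      have := hloc.map_nonunit c hu
      exact ((mem_maximalIdeal _).1 hc) this
    have h2 : τ • x - x ^ p = τ • (x - intIncl ℤ_[p] hKL y) + intIncl ℤ_[p] hKL c
        + ((intIncl ℤ_[p] hKL y) ^ p - x ^ p) := by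
      rw [smul_sub, hyc, map_add, map_pow]; ring
    rw [h2]
    refine add_mem (add_mem (smul_sub_mem_of_mem L τ hy) hc') ?_
    rw [← residue_eq_zero_iff, map_sub, map_pow, map_pow, sub_eq_zero]
    congr 1
    rw [← residue_eq_zero_iff, map_sub, sub_eq_zero] at hy
    exact hy.symm
  · have hmem := hK₀.mem_zpowers_frob (Fermat.Agent.S55.GC.GaloisLayerInf.resGal ℚ_[p] (PadicAlgCl p) hKL γ)
    rw [← mem_powers_iff_mem_zpowers] at hmem
    obtain ⟨j, hj⟩ := hmem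
    refine ⟨j, (τ ^ j)⁻¹ * γ, ?_, by group⟩
    apply mem_inertia_of_fixes L hK₀ hKL hdeg
    have hker : (τ ^ j)⁻¹ * γ ∈ (Fermat.Agent.S55.GC.GaloisLayerInf.resGal ℚ_[p] (PadicAlgCl p) hKL).ker := by
      have hj' : hK₀.frob ^ j =
          Fermat.Agent.S55.GC.GaloisLayerInf.resGal ℚ_[p] (PadicAlgCl p) hKL γ := hj
      rw [MonoidHom.mem_ker, map_mul, map_inv, map_pow, hτ, hj', inv_mul_cancel]
    exact (mem_ker_resGal_iff hKL _).1 hker

end Frobenius

section TameRelation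

variable [FiniteDimensional ℚ_[p] L]

/-- A Frobenius lift acts as `x ↦ x ^ p` on the residue field. -/
theorem smul_residue_eq_pow {τ : L ≃ₐ[ℚ_[p]] L}
    (hτ : ∀ x : integralClosure ℤ_[p] L,
      τ • x - x ^ p ∈ maximalIdeal (integralClosure ℤ_[p] L))
    (xb : ResidueField (integralClosure ℤ_[p] L)) : τ • xb = xb ^ p := by
  obtain ⟨x, rfl⟩ := residue_surjective xb
  rw [← ResidueField.residue_smul, ← map_pow, ← sub_eq_zero, ← map_sub, residue_eq_zero_iff]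
  exact hτ x

/-- **The tame relation** `τ δ τ⁻¹ ≡ δ ^ p mod Γ₁` for `δ ∈ Γ₀` and `τ` a Frobenius lift. -/
theorem frobenius_conj_mem_wild {τ : L ≃ₐ[ℚ_[p]] L}
    (hτ : ∀ x : integralClosure ℤ_[p] L,
      τ • x - x ^ p ∈ maximalIdeal (integralClosure ℤ_[p] L))
    {δ : L ≃ₐ[ℚ_[p]] L} (hδ : δ ∈ inertia L) :
    τ * δ * τ⁻¹ * (δ ^ p)⁻¹ ∈ wild L := by
  obtain ⟨π, hπ⟩ := IsDiscreteValuationRing.exists_irreducible (integralClosure ℤ_[p] L)
  let D : (maximalIdeal (integralClosure ℤ_[p] L)).inertia (L ≃ₐ[ℚ_[p]] L) := ⟨δ, hδ⟩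
  let D' : (maximalIdeal (integralClosure ℤ_[p] L)).inertia (L ≃ₐ[ℚ_[p]] L) :=
    ⟨τ * δ * τ⁻¹, Inertia.inertia_normal.conj_mem δ hδ τ⟩
  have h1 : theta (G := L ≃ₐ[ℚ_[p]] L) hπ D' = theta hπ (D ^ p) := by
    apply Units.ext
    rw [map_pow, Units.val_pow_eq_pow_val, ← smul_residue_eq_pow L hτ]
    exact coe_theta_conj hπ τ D
  have h2 : D' * (D ^ p)⁻¹ ∈ (theta (G := L ≃ₐ[ℚ_[p]] L) hπ).ker := by
    rw [MonoidHom.mem_ker, map_mul, map_inv, h1, mul_inv_cancel]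
  exact (mem_ker_theta_iff hπ _).1 h2

end TameRelation

section Cyclotomic

/-- In a domain in which the odd prime `p` is not a unit, `ζ_p - 1` is not divisible by `p`. -/
theorem false_of_sub_one_eq_mul {R : Type*} [CommRing R] [IsDomain R] {p : ℕ} (hp : p.Prime)
    (hp2 : p ≠ 2) (hpu : ¬ IsUnit (p : R)) {ζ a : R} (hζ : IsPrimitiveRoot ζ p)
    (h : ζ - 1 = p * a) : False := by
  have hp3 : 3 ≤ p := by
    have := hp.two_le
    omega
  obtain ⟨z, -, hz⟩ := hζ.self_sub_one_pow_dvd_order (k := p - 1) (by omega)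
  rw [h, mul_pow] at hz
  have hp0 : (p : R) ≠ 0 := by
    intro h0
    rw [h0, zero_mul, sub_eq_zero] at h
    exact hp.one_lt.ne' (hζ.unique (h ▸ IsPrimitiveRoot.one))
  have h1 : (p : R) * 1 = p * (z * (p : R) ^ (p - 2) * a ^ (p - 1)) := by
    have : (p : R) ^ (p - 1) = p * (p : R) ^ (p - 2) := by
      rw [← pow_succ']; congr 1; omega
    rw [mul_one]
    conv_lhs => rw [hz, this]
    ring
  have h2 := mul_left_cancel₀ hp0 h1
  apply hpu
  have h3 : (p : R) ^ (p - 2) = p * (p : R) ^ (p - 3) := by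
    rw [← pow_succ']; congr 1; omega
  rw [h3] at h2
  exact IsUnit.of_mul_eq_one (z * (p : R) ^ (p - 3) * a ^ (p - 1)) (by rw [h2]; ring)

/-- In a domain in which the prime `p ≥ 5` is not a unit, `(ζ_p - 1) ^ 2` is not divisible by
`p`. -/
theorem false_of_sub_one_sq_eq_mul {R : Type*} [CommRing R] [IsDomain R] {p : ℕ} (hp : p.Prime)
    (hp5 : 5 ≤ p) (hpu : ¬ IsUnit (p : R)) {ζ b : R} (hζ : IsPrimitiveRoot ζ p)
    (h : (ζ - 1) ^ 2 = p * b) : False := by
  obtain ⟨m, hm⟩ : ∃ m, p - 1 = 2 * m := by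
    have : Even (p - 1) := by
      have := hp.eq_one_or_self_of_dvd 2
      rcases hp.eq_two_or_odd' with h2 | hodd
      · omega
      · exact Nat.Prime.even_sub_one hp (by omega)
    obtain ⟨m, hm⟩ := this
    exact ⟨m, by omega⟩
  have hm2 : 2 ≤ m := by omega
  obtain ⟨z, -, hz⟩ := hζ.self_sub_one_pow_dvd_order (k := p - 1) (by omega)
  rw [hm, pow_mul, h, mul_pow] at hz
  have hp0 : (p : R) ≠ 0 := by
    intro h0
    rw [h0, zero_mul] at h
    have h1 : ζ = 1 := by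
      have := pow_eq_zero_iff (two_ne_zero) |>.1 h
      exact sub_eq_zero.1 this
    exact hp.one_lt.ne' (hζ.unique (h1 ▸ IsPrimitiveRoot.one))
  have h1 : (p : R) * 1 = p * (z * (p : R) ^ (m - 1) * b ^ m) := by
    have : (p : R) ^ m = p * (p : R) ^ (m - 1) := by
      rw [← pow_succ']; congr 1; omega
    rw [mul_one]
    conv_lhs => rw [hz, this]
    ring
  have h2 := mul_left_cancel₀ hp0 h1
  apply hpu
  have h3 : (p : R) ^ (m - 1) = p * (p : R) ^ (m - 2) := by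
    rw [← pow_succ']; congr 1; omega
  rw [h3] at h2
  exact IsUnit.of_mul_eq_one (z * (p : R) ^ (m - 2) * b ^ m) (by rw [h2]; ring)

attribute [local instance 2000] Algebra.toSMul Algebra.toModule

variable [FiniteDimensional ℚ_[p] L]

/-- **Lemma A.** A non-unit integer of `L` lying in the maximal unramified subextension is
divisible by `p`. -/
theorem exists_eq_natCast_mul {K₀ : IntermediateField ℚ_[p] (PadicAlgCl p)}
    (hK₀ : IsUnramifiedIn ℤ_[p] K₀) (hKL : K₀ ≤ L) {z : integralClosure ℤ_[p] L}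
    (hz : z ∈ maximalIdeal (integralClosure ℤ_[p] L))
    (hzK : ((z : L) : PadicAlgCl p) ∈ K₀) :
    ∃ a : integralClosure ℤ_[p] L, z = (p : integralClosure ℤ_[p] L) * a := by
  haveI : FiniteDimensional ℚ_[p] K₀ := hK₀.finiteDimensional
  haveI hloc := isLocalHom_intIncl L hKL
  obtain ⟨y, rfl⟩ := exists_intIncl_eq (O := ℤ_[p]) hKL z hzK
  have hy : y ∈ maximalIdeal (integralClosure ℤ_[p] K₀) := by
    rw [mem_maximalIdeal, mem_nonunits_iff]
    intro hu
    exact ((mem_maximalIdeal _).1 hz) (hu.map (intIncl ℤ_[p] hKL))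
  rw [← KummerBound.TotRam.span_natCast_eq_maximalIdeal hK₀, Ideal.mem_span_singleton'] at hy
  obtain ⟨a, rfl⟩ := hy
  exact ⟨intIncl ℤ_[p] hKL a, by rw [map_mul, map_natCast, mul_comm]⟩

variable [IsGalois ℚ_[p] L]

/-- An element of `L` fixed by the inertia subgroup lies in the maximal unramified subextension. -/
theorem mem_of_fixed_by_inertia {K₀ : IntermediateField ℚ_[p] (PadicAlgCl p)}
    (hK₀ : IsUnramifiedIn ℤ_[p] K₀) (hKL : K₀ ≤ L)
    (hdeg : Module.finrank ℚ_[p] K₀ =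
      Module.finrank (ResidueField ℤ_[p]) (ResidueField (integralClosure ℤ_[p] L)))
    (x : L) (hx : ∀ σ ∈ inertia L, σ x = x) : (x : PadicAlgCl p) ∈ K₀ := by
  have h1 : x ∈ IntermediateField.fixedField (IntermediateField.restrict hKL).fixingSubgroup := by
    rw [IntermediateField.mem_fixedField_iff]
    intro σ hσ
    apply hx
    apply mem_inertia_of_fixes L hK₀ hKL hdeg
    intro y
    rw [IntermediateField.mem_fixingSubgroup_iff] at hσ
    exact hσ _ ((IntermediateField.mem_restrict hKL _).2 y.2)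
  rw [IsGalois.fixedField_fixingSubgroup] at h1
  exact (IntermediateField.mem_restrict hKL x).1 h1

end Cyclotomic

section CyclotomicInertia

variable [FiniteDimensional ℚ_[p] L] [IsGalois ℚ_[p] L]

theorem charP_residueField : CharP (ResidueField (integralClosure ℤ_[p] L)) p := by
  apply (CharP.charP_iff_prime_eq_zero hp.out).2
  have := natCast_mem_maximalIdeal L (p := p)
  rw [← residue_eq_zero_iff] at this
  simpa using this

theorem not_isUnit_natCast : ¬ IsUnit ((p : ℕ) : integralClosure ℤ_[p] L) :=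
  (mem_maximalIdeal _).1 (natCast_mem_maximalIdeal L)

/-- A `p`-th root of unity of `L` as an element of `𝒪_L`. -/
noncomputable def zetaInt {ζ : L} (hζ : IsPrimitiveRoot ζ p) : integralClosure ℤ_[p] L :=
  ⟨ζ, IsIntegral.of_pow hp.out.pos (by rw [hζ.pow_eq_one]; exact isIntegral_one)⟩

theorem isPrimitiveRoot_zetaInt {ζ : L} (hζ : IsPrimitiveRoot ζ p) :
    IsPrimitiveRoot (zetaInt L hζ) p :=
  IsPrimitiveRoot.of_map_of_injective (f := algebraMap (integralClosure ℤ_[p] L) L)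
    (by exact hζ) Subtype.val_injective

theorem zetaInt_sub_one_mem {ζ : L} (hζ : IsPrimitiveRoot ζ p) :
    zetaInt L hζ - 1 ∈ maximalIdeal (integralClosure ℤ_[p] L) := by
  haveI := charP_residueField L
  rw [← residue_eq_zero_iff, map_sub, map_one]
  have h1 : (residue _ (zetaInt L hζ) - 1) ^ p = 0 := by
    rw [sub_pow_char, one_pow, ← map_pow, (isPrimitiveRoot_zetaInt L hζ).pow_eq_one, map_one,
      sub_self]
  exact pow_eq_zero_iff hp.out.ne_zero |>.1 h1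

/-- **`ω̄|_{Γ₀} ≠ 1`** (`p` odd): some inertial automorphism moves `ζ_p`. -/
theorem exists_mem_inertia_apply_ne (hp2 : p ≠ 2) {ζ : L} (hζ : IsPrimitiveRoot ζ p) :
    ∃ σ ∈ inertia L, σ ζ ≠ ζ := by
  by_contra hcon
  push Not at hcon
  obtain ⟨K₀, hKL, hK₀, hdeg⟩ := exists_isUnramifiedIn_le (O := ℤ_[p]) L
  have hζK : ((ζ : L) : PadicAlgCl p) ∈ K₀ := mem_of_fixed_by_inertia L hK₀ hKL hdeg ζ hcon
  have hmem : (((zetaInt L hζ - 1 : integralClosure ℤ_[p] L) : L) : PadicAlgCl p) ∈ K₀ := by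
    have : (((zetaInt L hζ - 1 : integralClosure ℤ_[p] L) : L) : PadicAlgCl p)
        = (ζ : PadicAlgCl p) - 1 := rfl
    rw [this]
    exact sub_mem hζK (one_mem _)
  obtain ⟨a, ha⟩ := exists_eq_natCast_mul L hK₀ hKL (zetaInt_sub_one_mem L hζ) hmem
  exact false_of_sub_one_eq_mul hp.out hp2 (not_isUnit_natCast L) (isPrimitiveRoot_zetaInt L hζ) ha

/-- **`ω̄|_{Γ₀}² ≠ 1`** (`p ≥ 5`): some inertial automorphism sends `ζ_p` neither to `ζ_p` nor to
`ζ_p⁻¹`. -/
theorem exists_mem_inertia_apply_ne_inv (hp5 : 5 ≤ p) {ζ : L} (hζ : IsPrimitiveRoot ζ p) :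
    ∃ σ ∈ inertia L, σ ζ ≠ ζ ∧ σ ζ ≠ ζ⁻¹ := by
  by_contra hcon
  push Not at hcon
  obtain ⟨K₀, hKL, hK₀, hdeg⟩ := exists_isUnramifiedIn_le (O := ℤ_[p]) L
  have hfix : ∀ σ ∈ inertia L, σ (ζ + ζ⁻¹) = ζ + ζ⁻¹ := by
    intro σ hσ
    by_cases h : σ ζ = ζ
    · rw [map_add, map_inv₀, h]
    · rw [map_add, map_inv₀, hcon σ hσ h, inv_inv, add_comm]
  have htK : (((ζ + ζ⁻¹ : L)) : PadicAlgCl p) ∈ K₀ :=
    mem_of_fixed_by_inertia L hK₀ hKL hdeg _ hfix
  set z := zetaInt L hζ with hzdef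
  have hzp : z ^ p = 1 := (isPrimitiveRoot_zetaInt L hζ).pow_eq_one
  have hζ0 : ζ ≠ 0 := hζ.ne_zero hp.out.ne_zero
  have hinv : ζ⁻¹ = ζ ^ (p - 1) := by
    rw [eq_comm, ← mul_eq_one_iff_eq_inv₀ hζ0, ← pow_succ, Nat.sub_add_cancel hp.out.pos,
      hζ.pow_eq_one]
  have hs : (z - 1) ^ 2 * z ^ (p - 1) ∈ maximalIdeal (integralClosure ℤ_[p] L) :=
    Ideal.mul_mem_right _ _ (Ideal.pow_mem_of_mem _ (zetaInt_sub_one_mem L hζ) 2 two_pos)
  have hmem : ((((z - 1) ^ 2 * z ^ (p - 1) : integralClosure ℤ_[p] L) : L) : PadicAlgCl p)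
      ∈ K₀ := by
    have h1 : (((z - 1) ^ 2 * z ^ (p - 1) : integralClosure ℤ_[p] L) : L)
        = (ζ + ζ⁻¹) - 2 := by
      have : (((z - 1) ^ 2 * z ^ (p - 1) : integralClosure ℤ_[p] L) : L)
          = (ζ - 1) ^ 2 * ζ ^ (p - 1) := rfl
      rw [this, ← hinv]
      field_simp
      ring
    rw [h1]
    have h2 : (((ζ + ζ⁻¹ - 2 : L)) : PadicAlgCl p) = ((ζ + ζ⁻¹ : L) : PadicAlgCl p) - 2 := rfl
    rw [h2]
    exact sub_mem htK (by
      have : (2 : PadicAlgCl p) = ((2 : ℕ) : PadicAlgCl p) := by norm_num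
      rw [this]; exact _root_.natCast_mem K₀ 2)
  obtain ⟨a, ha⟩ := exists_eq_natCast_mul L hK₀ hKL hs hmem
  have hb : (z - 1) ^ 2 = (p : integralClosure ℤ_[p] L) * (a * z) := by
    have h3 : (z - 1) ^ 2 = (z - 1) ^ 2 * z ^ (p - 1) * z := by
      rw [mul_assoc, ← pow_succ, Nat.sub_add_cancel hp.out.pos, hzp, mul_one]
    rw [h3, ha]; ring
  exact false_of_sub_one_sq_eq_mul hp.out hp5 (not_isUnit_natCast L)
    (isPrimitiveRoot_zetaInt L hζ) hb

end CyclotomicInertia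

section Summary

variable [FiniteDimensional ℚ_[p] L] [IsGalois ℚ_[p] L]

/-- The fixed field of a subgroup containing the inertia subgroup is unramified over `ℚ_p`. -/
theorem isUnramifiedIn_fixedField {ΓK : Subgroup (L ≃ₐ[ℚ_[p]] L)} (h : inertia L ≤ ΓK) :
    IsUnramifiedIn ℤ_[p] (IntermediateField.lift (IntermediateField.fixedField ΓK)) := by
  obtain ⟨K₀, hKL, hK₀, hdeg⟩ := exists_isUnramifiedIn_le (O := ℤ_[p]) L
  refine hK₀.of_le ?_
  rintro _ ⟨y, hy, rfl⟩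
  apply mem_of_fixed_by_inertia L hK₀ hKL hdeg y
  intro σ hσ
  exact (IntermediateField.mem_fixedField_iff _ _).1 hy σ (h hσ)

/-- **Structure of `Γ = Gal(L/ℚ_p)`** (the hypotheses of `IrredStructure.exists_structure` and
`IsSplitBasis.frob_consequences`): `Γ₁ ⊴ Γ₀ ⊴ Γ` with `Γ₁` a `p`-group, `Γ₀/Γ₁` commutative of
exponent prime to `p`, `Γ = ⟨τ⟩ Γ₀` for a Frobenius lift `τ`, and `τ δ τ⁻¹ ≡ δ ^ p mod Γ₁`. -/
theorem exists_structure :
    IsPGroup p (wild L) ∧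
    (∀ a ∈ inertia L, ∀ a' ∈ inertia L, a * a' * a⁻¹ * a'⁻¹ ∈ wild L) ∧
    (∀ a ∈ inertia L, ∃ m : ℕ, ¬p ∣ m ∧ a ^ m ∈ wild L) ∧
    ∃ τ : L ≃ₐ[ℚ_[p]] L,
      (∀ x : integralClosure ℤ_[p] L,
        τ • x - x ^ p ∈ maximalIdeal (integralClosure ℤ_[p] L)) ∧
      (∀ γ : L ≃ₐ[ℚ_[p]] L, ∃ j : ℕ, ∃ a ∈ inertia L, γ = τ ^ j * a) ∧
      ∀ δ ∈ inertia L, τ * δ * τ⁻¹ * (δ ^ p)⁻¹ ∈ wild L := by
  refine ⟨isPGroup_wild L, fun a ha a' ha' => comm_mem_wild L ha ha',
    fun a ha => exists_pow_mem_wild L ha, ?_⟩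
  obtain ⟨τ, hτ1, hτ2⟩ := exists_frobenius_lift L
  exact ⟨τ, hτ1, hτ2, fun δ hδ => frobenius_conj_mem_wild L hτ1 hδ⟩

end Summary

end Fermat.Agent.S56.Flat.Count.LocalGalois
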