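import Mathlib
import Fermat.Agent.S56.Flat.Count.Devissage

/-!
# FLC-Red : the reducible case of the count `b(ad⁰) ≤ 1` (row 53 §4 (R), (R3)), formal part

`Γ` a finite group, `k` a field, `A : Rep k Γ` a three-dimensional representation with a
**Borel flag**: three coordinates `cA cB cC : A →ₗ[k] k` (think of `x = (a, b; c, -a)` in a basis
adapted to a stable line) such that

* `cC (γ x) = φ₃ γ * cC x` for all `x`,
* `cA (γ x) = cA x` when `cC x = 0`,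
* `cB (γ x) = φ₁ γ * cB x` when `cC x = cA x = 0`,

and `x ↦ (cA x, cB x, cC x)` is bijective.  (For `A = ad⁰ρ̄` with `ρ̄ = (χ₁ *; 0 χ₂)` these are
`coef₀₀`, `coef₀₁`, `coef₁₀`, `φ₁ = χ₁/χ₂`, `φ₃ = χ₂/χ₁`: helper19's `BorelCore.coef10_ρ`,
`coef00_ρ`, `coef01_ρ`.)

* `W1 = ker cC` (`= M₂ = {x : x ℓ ⊆ ℓ}`), `seqX : 0 → k(φ₁) → W₁ → k(1) → 0`,
  `seqY : 0 → W₁ → A → k(φ₃) → 0`, both short exact.
* `b_le_add_chars : b A ≤ b k(φ₁) + b k(1) + b k(φ₃)`;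
  `range_sub_le_add_chars : dim im(H¹(W₁) → H¹(A)) - h⁰(A) ≤ b k(φ₁) + b k(1)`.
* **(R)** `b_le_one` and **(R3)** `range_sub_le_one`, `range_sub_le_zero` from the one-character
  bound `b k(φ) ≤ [φ|Γ₀ = ω|Γ₀]` (FLC-Char at `K = ℚ_p`), as a named hypothesis.
-/

set_option linter.style.longLine false
set_option linter.unusedSectionVars false
set_option linter.unusedVariables false
set_option linter.style.haveILetI false

universe u

open CategoryTheory groupCohomology Module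

namespace Fermat.Agent.S56.Flat.Count.Reducible

open Fermat.Agent.S56.Flat.Count.Devissage

section Exact

variable {k G : Type u} [CommRing k] [Group G]

/-- Elementwise exactness in `Rep k G`. -/
theorem rep_exact_iff (S : ShortComplex (Rep.{u} k G)) :
    S.Exact ↔ ∀ x : S.X₂.V, S.g.hom x = 0 → ∃ y : S.X₁.V, S.f.hom y = x := by
  rw [← ShortComplex.exact_map_iff_of_faithful S (forget₂ (Rep.{u} k G) (ModuleCat.{u} k)),
    ShortComplex.moduleCat_exact_iff]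
  rfl

/-- Elementwise criterion for short exactness in `Rep k G`. -/
theorem rep_shortExact_of (S : ShortComplex (Rep.{u} k G)) (hf : Function.Injective S.f.hom)
    (hg : Function.Surjective S.g.hom)
    (hex : ∀ x : S.X₂.V, S.g.hom x = 0 → ∃ y : S.X₁.V, S.f.hom y = x) : S.ShortExact :=
  { exact := (rep_exact_iff S).2 hex
    mono_f := (Rep.mono_iff_injective _).2 hf
    epi_g := (Rep.epi_iff_surjective _).2 hg }

end Exact

section Flag

variable {k G : Type u} [Field k] [Group G] (A : Rep.{u} k G) (cA cB cC : A →ₗ[k] k)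
  (φ₁ φ₃ : G →* kˣ)

/-- `W₁ = ker cC` (the endomorphisms stabilising the line). -/
def W1 : Submodule k A := LinearMap.ker cC

theorem mem_W1 {x : A} : x ∈ W1 A cC ↔ cC x = 0 := LinearMap.mem_ker

variable {A cA cB cC φ₁ φ₃}

theorem W1_stable (hC : ∀ g x, cC (A.ρ g x) = (φ₃ g : k) * cC x) :
    ∀ g, W1 A cC ≤ (W1 A cC).comap (A.ρ g) := by
  intro g x hx
  rw [Submodule.mem_comap, mem_W1, hC, (mem_W1 A cC).1 hx, mul_zero]

/-- `W₁` as a representation. -/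
noncomputable abbrev W1Rep (hC : ∀ g x, cC (A.ρ g x) = (φ₃ g : k) * cC x) : Rep.{u} k G :=
  A.subrepresentation (W1 A cC) (W1_stable hC)

/-- the coordinate `cC : A ⟶ k(φ₃)`. -/
noncomputable def homC (hC : ∀ g x, cC (A.ρ g x) = (φ₃ g : k) * cC x) : A ⟶ charRep φ₃ :=
  ConcreteCategory.ofHom (C := Rep.{u} k G)
    (⟨cC, fun g => by ext x; exact hC g x⟩ : A.ρ.IntertwiningMap (charRep φ₃).ρ)

theorem homC_apply (hC : ∀ g x, cC (A.ρ g x) = (φ₃ g : k) * cC x) (x : A) :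
    (homC hC).hom x = cC x := rfl

/-- the coordinate `cA : W₁ ⟶ k(1)`. -/
noncomputable def homA (hC : ∀ g x, cC (A.ρ g x) = (φ₃ g : k) * cC x)
    (hA : ∀ g x, cC x = 0 → cA (A.ρ g x) = cA x) : W1Rep hC ⟶ charRep (1 : G →* kˣ) :=
  ConcreteCategory.ofHom (C := Rep.{u} k G)
    (⟨cA ∘ₗ (W1 A cC).subtype, fun g => by
      ext x
      show cA (A.ρ g x.1) = ((1 : G →* kˣ) g : k) * cA x.1
      rw [hA g x.1 ((mem_W1 A cC).1 x.2)]; simp⟩ :
      (W1Rep hC).ρ.IntertwiningMap (charRep (1 : G →* kˣ)).ρ)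

theorem homA_apply (hC : ∀ g x, cC (A.ρ g x) = (φ₃ g : k) * cC x)
    (hA : ∀ g x, cC x = 0 → cA (A.ρ g x) = cA x) (x : W1Rep hC) :
    (homA hC hA).hom x = cA (x : W1 A cC).1 := rfl

end Flag

section Seq

variable {k G : Type u} [Field k] [Group G] {A : Rep.{u} k G} {cA cB cC : A →ₗ[k] k}
  {φ₁ φ₃ : G →* kˣ}
  (hC : ∀ g x, cC (A.ρ g x) = (φ₃ g : k) * cC x)
  (hA : ∀ g x, cC x = 0 → cA (A.ρ g x) = cA x)
  (hB : ∀ g x, cC x = 0 → cA x = 0 → cB (A.ρ g x) = (φ₁ g : k) * cB x)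
  (hinj : ∀ x, cA x = 0 → cB x = 0 → cC x = 0 → x = 0)
  (hsurj : ∀ a b c : k, ∃ x, cA x = a ∧ cB x = b ∧ cC x = c)

/-- the vector with coordinates `(0, 1, 0)`. -/
noncomputable def xB (hsurj : ∀ a b c : k, ∃ x, cA x = a ∧ cB x = b ∧ cC x = c) : A :=
  (hsurj 0 1 0).choose

theorem cA_xB : cA (xB hsurj) = 0 := (hsurj 0 1 0).choose_spec.1
theorem cB_xB : cB (xB hsurj) = 1 := (hsurj 0 1 0).choose_spec.2.1
theorem cC_xB : cC (xB hsurj) = 0 := (hsurj 0 1 0).choose_spec.2.2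

theorem xB_mem_W1 : xB hsurj ∈ W1 A cC := (mem_W1 A cC).2 (cC_xB hsurj)

include hC hA hB hinj in
theorem ρ_xB (g : G) : A.ρ g (xB hsurj) = (φ₁ g : k) • xB hsurj := by
  rw [← sub_eq_zero]
  apply hinj
  · rw [map_sub, hA g _ (cC_xB hsurj), map_smul, cA_xB, smul_zero, sub_zero]
  · rw [map_sub, hB g _ (cC_xB hsurj) (cA_xB hsurj), map_smul, cB_xB, smul_eq_mul, sub_self]
  · rw [map_sub, hC, map_smul, cC_xB, smul_zero, mul_zero, sub_zero]

include hinj in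
theorem eq_smul_xB {x : A} (h1 : cC x = 0) (h2 : cA x = 0) : x = cB x • xB hsurj := by
  rw [← sub_eq_zero]
  apply hinj
  · rw [map_sub, map_smul, cA_xB, smul_zero, h2, sub_zero]
  · rw [map_sub, map_smul, cB_xB, smul_eq_mul, mul_one, sub_self]
  · rw [map_sub, map_smul, cC_xB, smul_zero, h1, sub_zero]

include hA hB hinj in
/-- the inclusion `k(φ₁) ⟶ W₁`, `t ↦ t • x_B`. -/
noncomputable def homB : charRep φ₁ ⟶ W1Rep hC :=
  ConcreteCategory.ofHom (C := Rep.{u} k G)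
    (⟨LinearMap.toSpanSingleton k (W1 A cC) ⟨xB hsurj, xB_mem_W1 hsurj⟩, fun g => by
      ext
      show ((charRepn φ₁ g (1 : k)) • (⟨xB hsurj, xB_mem_W1 hsurj⟩ : W1 A cC) : W1 A cC).1
        = A.ρ g ((1 : k) • (⟨xB hsurj, xB_mem_W1 hsurj⟩ : W1 A cC) : W1 A cC).1
      rw [charRepn_apply, mul_one, one_smul]
      exact (ρ_xB hC hA hB hinj hsurj g).symm⟩ :
      (charRep φ₁).ρ.IntertwiningMap (W1Rep hC).ρ)

theorem homB_apply (t : k) :
    (((homB hC hA hB hinj hsurj).hom (t : charRep φ₁) : W1Rep hC) : W1 A cC).1 = t • xB hsurj := rfl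

/-- `0 → k(φ₁) → W₁ → k(1) → 0`. -/
noncomputable def seqX : ShortComplex (Rep.{u} k G) where
  X₁ := charRep φ₁
  X₂ := W1Rep hC
  X₃ := charRep (1 : G →* kˣ)
  f := homB hC hA hB hinj hsurj
  g := homA hC hA
  zero := by
    ext
    show cA ((1 : k) • xB hsurj) = 0
    rw [map_smul, cA_xB, smul_zero]

theorem seqX_shortExact : (seqX hC hA hB hinj hsurj).ShortExact := by
  refine rep_shortExact_of _ ?_ ?_ ?_
  · intro s t hst
    change k at s t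
    have h1 : s • xB hsurj = t • xB hsurj := congrArg (fun z : W1 A cC => z.1) hst
    have h2 := congrArg cB h1
    rwa [map_smul, map_smul, cB_xB, smul_eq_mul, smul_eq_mul, mul_one, mul_one] at h2
  · intro a
    obtain ⟨x, hx1, -, hx3⟩ := hsurj a 0 0
    exact ⟨⟨x, (mem_W1 A cC).2 hx3⟩, hx1⟩
  · intro x hx
    have hx' : cA (x : W1 A cC).1 = 0 := hx
    refine ⟨cB (x : W1 A cC).1, Subtype.ext ?_⟩
    exact (eq_smul_xB hinj hsurj ((mem_W1 A cC).1 (x : W1 A cC).2) hx').symm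

/-- `0 → W₁ → A → k(φ₃) → 0`. -/
noncomputable def seqY : ShortComplex (Rep.{u} k G) where
  X₁ := W1Rep hC
  X₂ := A
  X₃ := charRep φ₃
  f := Rep.subtype A (W1 A cC) (W1_stable hC)
  g := homC hC
  zero := by
    ext x
    exact (mem_W1 A cC).1 (x : W1 A cC).2

include hsurj in
theorem seqY_shortExact : (seqY hC).ShortExact := by
  refine rep_shortExact_of _ ?_ ?_ ?_
  · intro s t hst
    exact Subtype.ext hst
  · intro c
    obtain ⟨x, -, -, hx3⟩ := hsurj 0 0 c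
    exact ⟨x, hx3⟩
  · intro x hx
    exact ⟨⟨x, (mem_W1 A cC).2 hx⟩, rfl⟩

end Seq

section Main

variable {k G : Type u} [Field k] [Group G] [Finite G] {A : Rep.{u} k G} [Module.Finite k A]
  {cA cB cC : A →ₗ[k] k} {φ₁ φ₃ : G →* kˣ}
  (hC : ∀ g x, cC (A.ρ g x) = (φ₃ g : k) * cC x)
  (hA : ∀ g x, cC x = 0 → cA (A.ρ g x) = cA x)
  (hB : ∀ g x, cC x = 0 → cA x = 0 → cB (A.ρ g x) = (φ₁ g : k) * cB x)
  (hinj : ∀ x, cA x = 0 → cB x = 0 → cC x = 0 → x = 0)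
  (hsurj : ∀ a b c : k, ∃ x, cA x = a ∧ cB x = b ∧ cC x = c)

include hC hA hB hinj hsurj in
/-- dévissage along the Borel flag: `b(A) ≤ b k(φ₁) + b k(1) + b k(φ₃)`. -/
theorem b_le_add_chars :
    b A ≤ b (charRep φ₁) + b (charRep (1 : G →* kˣ)) + b (charRep φ₃) := by
  haveI : Module.Finite k (seqX hC hA hB hinj hsurj).X₁ := finite_charRep φ₁
  haveI : Module.Finite k (seqX hC hA hB hinj hsurj).X₂ :=
    (inferInstance : Module.Finite k (W1 A cC))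
  haveI : Module.Finite k (seqX hC hA hB hinj hsurj).X₃ := finite_charRep 1
  haveI : Module.Finite k (seqY hC).X₁ := (inferInstance : Module.Finite k (W1 A cC))
  haveI : Module.Finite k (seqY hC).X₂ := ‹Module.Finite k A›
  haveI : Module.Finite k (seqY hC).X₃ := finite_charRep φ₃
  have hX := seqX_shortExact hC hA hB hinj hsurj
  have hY := seqY_shortExact hC hsurj
  have h1 := b_le_add hX
  have h2 := b_le_add hY
  have h1' : b (W1Rep hC) ≤ b (charRep φ₁) + b (charRep (1 : G →* kˣ)) := h1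
  have h2' : b A ≤ b (W1Rep hC) + b (charRep φ₃) := h2
  omega

include hC hA hB hinj hsurj in
/-- image form: `dim im(H¹(W₁) → H¹(A)) - h⁰(A) ≤ b k(φ₁) + b k(1)`. -/
theorem range_sub_le_add_chars :
    (finrank k (LinearMap.range
      (map (A := W1Rep hC) (B := A) (MonoidHom.id G)
        (Rep.subtype A (W1 A cC) (W1_stable hC)) 1).hom) : ℤ) - (h0 A : ℤ)
      ≤ b (charRep φ₁) + b (charRep (1 : G →* kˣ)) := by
  haveI : Module.Finite k (seqX hC hA hB hinj hsurj).X₁ := finite_charRep φ₁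
  haveI : Module.Finite k (seqX hC hA hB hinj hsurj).X₂ :=
    (inferInstance : Module.Finite k (W1 A cC))
  haveI : Module.Finite k (seqX hC hA hB hinj hsurj).X₃ := finite_charRep 1
  haveI : Module.Finite k (seqY hC).X₁ := (inferInstance : Module.Finite k (W1 A cC))
  haveI : Module.Finite k (seqY hC).X₂ := ‹Module.Finite k A›
  haveI : Module.Finite k (seqY hC).X₃ := finite_charRep φ₃
  have hX := seqX_shortExact hC hA hB hinj hsurj
  have hY := seqY_shortExact hC hsurj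
  have h1 := b_le_add hX
  have h2 := finrank_range_map_one_sub_le hY
  have h1' : b (W1Rep hC) ≤ b (charRep φ₁) + b (charRep (1 : G →* kˣ)) := h1
  have h2' : (finrank k (LinearMap.range
      (map (A := W1Rep hC) (B := A) (MonoidHom.id G)
        (Rep.subtype A (W1 A cC) (W1_stable hC)) 1).hom) : ℤ) - (h0 A : ℤ) ≤ b (W1Rep hC) := h2
  omega

variable (ω : G →* kˣ) (Γ₀ : Subgroup G)

include hC hA hB hinj hsurj in
/-- **(R)**: reducible case, `ω|Γ₀² ≠ 1` (`p ≥ 5`): `b(A) ≤ 1`, from the one-character bound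
`b k(φ) ≤ [φ|Γ₀ = ω|Γ₀]`. -/
theorem b_le_one
    (hchar1 : ∀ φ : G →* kˣ, b (charRep φ) ≤ 1)
    (hchar0 : ∀ φ : G →* kˣ, (∃ γ ∈ Γ₀, φ γ ≠ ω γ) → b (charRep φ) ≤ 0)
    (hφ : ∀ g, φ₁ g * φ₃ g = 1) (hω1 : ∃ γ ∈ Γ₀, ω γ ≠ 1) (hω2 : ∃ γ ∈ Γ₀, ω γ ^ 2 ≠ 1) :
    b A ≤ 1 := by
  have h := b_le_add_chars hC hA hB hinj hsurj
  have h0 : b (charRep (1 : G →* kˣ)) ≤ 0 := by
    obtain ⟨γ, hγ, hne⟩ := hω1
    exact hchar0 1 ⟨γ, hγ, fun h => hne (by rw [← h]; rfl)⟩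
  by_cases h1 : ∀ γ ∈ Γ₀, φ₁ γ = ω γ
  · obtain ⟨γ, hγ, hne⟩ := hω2
    have h3 : b (charRep φ₃) ≤ 0 := by
      refine hchar0 φ₃ ⟨γ, hγ, fun h3 => hne ?_⟩
      rw [pow_two]
      nth_rewrite 1 [← h1 γ hγ]
      rw [← h3]
      exact hφ γ
    have := hchar1 φ₁
    omega
  · push Not at h1
    have h1' : b (charRep φ₁) ≤ 0 := hchar0 φ₁ h1
    have := hchar1 φ₃
    omega

include hC hA hB hinj hsurj in
/-- **(R)** in `ℕ`: `h¹(A) ≤ h⁰(A) + 1`. -/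
theorem h1_le_h0_add_one
    (hchar1 : ∀ φ : G →* kˣ, b (charRep φ) ≤ 1)
    (hchar0 : ∀ φ : G →* kˣ, (∃ γ ∈ Γ₀, φ γ ≠ ω γ) → b (charRep φ) ≤ 0)
    (hφ : ∀ g, φ₁ g * φ₃ g = 1) (hω1 : ∃ γ ∈ Γ₀, ω γ ≠ 1) (hω2 : ∃ γ ∈ Γ₀, ω γ ^ 2 ≠ 1) :
    h1 A ≤ h0 A + 1 := by
  have := b_le_one hC hA hB hinj hsurj ω Γ₀ hchar1 hchar0 hφ hω1 hω2
  rw [b_def] at this
  omega

include hC hA hB hinj hsurj in
/-- **(R3)**: `dim im(H¹(W₁) → H¹(A)) - h⁰(A) ≤ 1` (all `p`). -/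
theorem range_sub_le_one
    (hchar1 : ∀ φ : G →* kˣ, b (charRep φ) ≤ 1)
    (hchar0 : ∀ φ : G →* kˣ, (∃ γ ∈ Γ₀, φ γ ≠ ω γ) → b (charRep φ) ≤ 0)
    (hω1 : ∃ γ ∈ Γ₀, ω γ ≠ 1) :
    (finrank k (LinearMap.range
      (map (A := W1Rep hC) (B := A) (MonoidHom.id G)
        (Rep.subtype A (W1 A cC) (W1_stable hC)) 1).hom) : ℤ) - (h0 A : ℤ)
      ≤ 1 := by
  have h := range_sub_le_add_chars hC hA hB hinj hsurj
  have h0 : b (charRep (1 : G →* kˣ)) ≤ 0 := by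
    obtain ⟨γ, hγ, hne⟩ := hω1
    exact hchar0 1 ⟨γ, hγ, fun h => hne (by rw [← h]; rfl)⟩
  have := hchar1 φ₁
  omega

include hC hA hB hinj hsurj in
/-- **(R3)**, second half: `≤ 0` if `φ₁|Γ₀ ≠ ω|Γ₀`. -/
theorem range_sub_le_zero
    (hchar0 : ∀ φ : G →* kˣ, (∃ γ ∈ Γ₀, φ γ ≠ ω γ) → b (charRep φ) ≤ 0)
    (hω1 : ∃ γ ∈ Γ₀, ω γ ≠ 1) (h1 : ∃ γ ∈ Γ₀, φ₁ γ ≠ ω γ) :
    (finrank k (LinearMap.range
      (map (A := W1Rep hC) (B := A) (MonoidHom.id G)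
        (Rep.subtype A (W1 A cC) (W1_stable hC)) 1).hom) : ℤ) - (h0 A : ℤ)
      ≤ 0 := by
  have h := range_sub_le_add_chars hC hA hB hinj hsurj
  have h0 : b (charRep (1 : G →* kˣ)) ≤ 0 := by
    obtain ⟨γ, hγ, hne⟩ := hω1
    exact hchar0 1 ⟨γ, hγ, fun h => hne (by rw [← h]; rfl)⟩
  have := hchar0 φ₁ h1
  omega

end Main

end Fermat.Agent.S56.Flat.Count.Reducible
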