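/-
S56 / block F (FLAT), leaf FLC-Main (helper20): THE COUNT `b(ad⁰ρ̄|Gal(L/ℚ_p)) ≤ 1` (row 53),
assembled from FLC-Gal (`LocalGalois`), FLC-Irr (helper2 `Irreducible`), FLC-Red (helper27
`Reducible`) and helper17's `Bridge/Transport`, with the one-character bounds of FLC-Char (helper7)
as the two NAMED hypotheses `CharBoundA`, `CharBoundB`.

Part 1 (generic): the Borel flag coordinates on `ad0Rep ρ` for a basis `b` in which `ρ` is upper
triangular (`hUT : ∀ γ, IsUT b (ρ γ)`): `cf ρ b i j = ent b i j ∘ toEnd`, the characters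
`chiOne hUT`, `chiTwo hUT`, and the five hypotheses of FLC-Red: `cf10_ρ` (hC), `cf00_ρ` (hA),
`cf01_ρ` (hB), `cf_inj`, `cf_surj`, with `φ₁ = χ₁/χ₂`, `φ₃ = χ₂/χ₁` (`chi_ratio_mul`).
Part 2: a reducible plane has such a basis (`exists_basis_isUT`).
Part 3: `detChar ρ : Γ →* kˣ`; `b_ad0Rep_le_one_of_irred'` = helper2's (I) with `ψ ≠ 1` added to the
premises of `hCB`.
Part 4 (`Γ = Gal(L/ℚ_p)`, `Γ₀ = inertia L`): `exists_omega_ne_one` (`p` odd),
`exists_omega_sq_ne_one` (`p ≥ 5`); `CharBoundA L ω`, `CharBoundB L ω`;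
**`b_ad0Rep_le_one`** (`IsIrred ρ ∨ 5 ≤ p`), **`range_sub_le_one`** ((R3), all odd `p`).
Part 5 (`ρ = rhoL hL`): `IsIrredAtP`, `isIrred_rhoL_iff`, `isUT_rhoL`, **`b_ad0Rep_rhoL_le_one`**,
**`range_sub_le_one_rhoL`**, **`hFLC_of_charBounds`** (= the named hypothesis `hFLC` of
`Bridge.Main.finrank_flCond_add_le_local`).
-/
import Mathlib
import Fermat.Agent.S56.Loc.BorelCore
import Fermat.Agent.S56.Flat.Count.Reducible
import Fermat.Agent.S56.Flat.Count.Irreducible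
import Fermat.Agent.S56.Flat.Count.LocalGalois
import Fermat.Agent.S56.Flat.Bridge.Transport

set_option autoImplicit false
set_option linter.unusedSectionVars false
set_option linter.style.longLine false

universe u

namespace Fermat.Agent.S56.Flat.Count.Main

open Module CategoryTheory Fermat.Agent.S56.Flat.Count.Devissage
  Fermat.Agent.S56.Flat.Count.IrredStructure Fermat.Agent.S56.Flat.Count.Ad0Rep
  Fermat.Agent.S56.Loc.BorelCore

/-! ### Part 1: Borel flag coordinates on `ad⁰ρ` -/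

section Flag

variable {k Γ V : Type u} [Field k] [Group Γ] [AddCommGroup V] [Module k V]
variable (ρ : Representation k Γ V) (b : Basis (Fin 2) k V)

/-- the `(i, j)` matrix coefficient (in `BorelCore.ent` form) on `ad⁰ρ` -/
noncomputable def cf (i j : Fin 2) : ad0Rep ρ →ₗ[k] k := (ent b i j).comp (toEndₗ ρ)

theorem cf_apply (i j : Fin 2) (x : ad0Rep ρ) : cf ρ b i j x = ent b i j (toEnd ρ x) := rfl

theorem cf_one_one (x : ad0Rep ρ) : cf ρ b 1 1 x = - cf ρ b 0 0 x := by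
  have h := trace_toEnd ρ x
  rw [trace_eq_ent b] at h
  rw [cf_apply, cf_apply]
  linear_combination h

variable {ρ b}

theorem cf_ext {x y : ad0Rep ρ} (h00 : cf ρ b 0 0 x = cf ρ b 0 0 y)
    (h01 : cf ρ b 0 1 x = cf ρ b 0 1 y) (h10 : cf ρ b 1 0 x = cf ρ b 1 0 y) : x = y := by
  apply ad0Rep_ext
  apply end_ext b
  intro i j
  have h11 : cf ρ b 1 1 x = cf ρ b 1 1 y := by rw [cf_one_one, cf_one_one, h00]
  fin_cases i <;> fin_cases j
  · exact h00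
  · exact h01
  · exact h10
  · exact h11

variable (ρ b)

/-- the element of `ad⁰ρ` with coordinates `(a, b'; c, -a)` -/
noncomputable def ofCf (a b' c : k) : ad0Rep ρ :=
  ofEnd ρ ((LinearMap.toMatrixAlgEquiv b).symm !![a, b'; c, -a]) (by
    rw [trace_eq_ent b, ent_symm, ent_symm]
    simp)

theorem cf_ofCf (a b' c : k) (i j : Fin 2) :
    cf ρ b i j (ofCf ρ b a b' c) = (!![a, b'; c, -a] : Matrix (Fin 2) (Fin 2) k) i j := by
  rw [cf_apply, ofCf, toEnd_ofEnd, ent_symm]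

variable {ρ b}

variable (hUT : ∀ γ : Γ, IsUT b (ρ γ))

include hUT in
theorem ent00_mul_inv (γ : Γ) : ent b 0 0 (ρ γ) * ent b 0 0 (ρ γ⁻¹) = 1 := by
  rw [← ent00_mul (hUT γ⁻¹), ← map_mul, mul_inv_cancel, map_one, ent_one]
  simp

include hUT in
theorem ent11_mul_inv (γ : Γ) : ent b 1 1 (ρ γ) * ent b 1 1 (ρ γ⁻¹) = 1 := by
  rw [← ent11_mul (hUT γ), ← map_mul, mul_inv_cancel, map_one, ent_one]
  simp

/-- the character `χ₁` on the stable line -/
noncomputable def chiOne : Γ →* kˣ :=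
  MonoidHom.toHomUnits
    { toFun := fun γ => ent b 0 0 (ρ γ)
      map_one' := by rw [map_one, ent_one]; simp
      map_mul' := fun γ γ' => by rw [map_mul, ent00_mul (hUT γ')] }

/-- the character `χ₂` on the quotient line -/
noncomputable def chiTwo : Γ →* kˣ :=
  MonoidHom.toHomUnits
    { toFun := fun γ => ent b 1 1 (ρ γ)
      map_one' := by rw [map_one, ent_one]; simp
      map_mul' := fun γ γ' => by rw [map_mul, ent11_mul (hUT γ)] }

theorem coe_chiOne (γ : Γ) : ((chiOne hUT γ : kˣ) : k) = ent b 0 0 (ρ γ) := rfl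

theorem coe_chiTwo (γ : Γ) : ((chiTwo hUT γ : kˣ) : k) = ent b 1 1 (ρ γ) := rfl

theorem coe_chiOne_inv (γ : Γ) : (((chiOne hUT γ)⁻¹ : kˣ) : k) = ent b 0 0 (ρ γ⁻¹) := by
  rw [← map_inv, coe_chiOne]

theorem coe_chiTwo_inv (γ : Γ) : (((chiTwo hUT γ)⁻¹ : kˣ) : k) = ent b 1 1 (ρ γ⁻¹) := by
  rw [← map_inv, coe_chiTwo]

theorem det_eq_chiOne_mul_chiTwo [Module.Finite k V] (γ : Γ) :
    LinearMap.det (ρ γ) = ((chiOne hUT γ : kˣ) : k) * ((chiTwo hUT γ : kˣ) : k) := by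
  rw [← LinearMap.det_toMatrix b, Matrix.det_fin_two, coe_chiOne, coe_chiTwo]
  have h : LinearMap.toMatrix b b (ρ γ) 1 0 = 0 := hUT γ
  rw [h, mul_zero, sub_zero]
  rfl

/-- `hC` of FLC-Red -/
theorem cf10_ρ (γ : Γ) (x : ad0Rep ρ) :
    cf ρ b 1 0 ((ad0Rep ρ).ρ γ x) =
      (((chiTwo hUT / chiOne hUT : Γ →* kˣ) γ : kˣ) : k) * cf ρ b 1 0 x := by
  rw [MonoidHom.div_apply, cf_apply, toEnd_ρ_apply, ent10_conj (hUT γ) (hUT γ⁻¹), div_eq_mul_inv, Units.val_mul,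
    coe_chiTwo, coe_chiOne_inv, cf_apply]
  ring

include hUT in
/-- `hA` of FLC-Red -/
theorem cf00_ρ (γ : Γ) (x : ad0Rep ρ) (hx : cf ρ b 1 0 x = 0) :
    cf ρ b 0 0 ((ad0Rep ρ).ρ γ x) = cf ρ b 0 0 x := by
  rw [cf_apply, toEnd_ρ_apply, ent00_conj (x := toEnd ρ x) (hUT γ⁻¹) (ent00_mul_inv hUT γ) hx,
    cf_apply]

/-- `hB` of FLC-Red -/
theorem cf01_ρ (γ : Γ) (x : ad0Rep ρ) (hx : cf ρ b 1 0 x = 0) (hx' : cf ρ b 0 0 x = 0) :
    cf ρ b 0 1 ((ad0Rep ρ).ρ γ x) =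
      (((chiOne hUT / chiTwo hUT : Γ →* kˣ) γ : kˣ) : k) * cf ρ b 0 1 x := by
  have h11 : ent b 1 1 (toEnd ρ x) = 0 := by
    have := cf_one_one ρ b x
    rw [hx', neg_zero] at this
    exact this
  rw [MonoidHom.div_apply, cf_apply, toEnd_ρ_apply, ent01_conj (x := toEnd ρ x) hx hx' h11,
    div_eq_mul_inv, Units.val_mul,
    coe_chiOne, coe_chiTwo_inv, cf_apply]
  ring

theorem cf_inj (x : ad0Rep ρ) (h00 : cf ρ b 0 0 x = 0) (h01 : cf ρ b 0 1 x = 0)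
    (h10 : cf ρ b 1 0 x = 0) : x = 0 := by
  apply cf_ext (b := b)
  · rw [h00, map_zero]
  · rw [h01, map_zero]
  · rw [h10, map_zero]

theorem cf_surj (a b' c : k) :
    ∃ x : ad0Rep ρ, cf ρ b 0 0 x = a ∧ cf ρ b 0 1 x = b' ∧ cf ρ b 1 0 x = c :=
  ⟨ofCf ρ b a b' c, by rw [cf_ofCf]; rfl, by rw [cf_ofCf]; rfl, by rw [cf_ofCf]; rfl⟩

theorem chi_ratio_mul (γ : Γ) :
    (chiOne hUT / chiTwo hUT) γ * (chiTwo hUT / chiOne hUT) γ = 1 := by
  rw [MonoidHom.div_apply, MonoidHom.div_apply, div_mul_div_cancel, div_self']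

end Flag

/-! ### Part 2: a reducible plane has a stable basis -/

section Stable

variable {k : Type*} [Field k] {V : Type*} [AddCommGroup V] [Module k V] {Γ : Type*} [Group Γ]
variable {ρ : Representation k Γ V}

/-- a nonzero vector of a plane is the first vector of a basis -/
theorem exists_basis_zero_eq (hdim : Module.finrank k V = 2) {v : V} (hv : v ≠ 0) :
    ∃ b : Basis (Fin 2) k V, b 0 = v := by
  have : Module.Finite k V := Module.finite_of_finrank_pos (by rw [hdim]; norm_num)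
  have hne : Submodule.span k {v} ≠ ⊤ := by
    intro h
    have h1 : Module.finrank k (Submodule.span k {v}) = 1 := finrank_span_singleton hv
    rw [h, finrank_top, hdim] at h1
    omega
  obtain ⟨w, -, hw⟩ := SetLike.exists_of_lt (lt_top_iff_ne_top.2 hne)
  have hli : LinearIndependent k ![v, w] := by
    rw [LinearIndependent.pair_iff]
    intro s t hst
    have ht : t = 0 := by
      by_contra ht
      apply hw
      have : w = (-(t⁻¹ * s)) • v := by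
        have h2 : t • w = -(s • v) := by
          rw [eq_neg_iff_add_eq_zero, add_comm]; exact hst
        rw [neg_smul, mul_smul, ← smul_neg, ← h2, smul_smul, inv_mul_cancel₀ ht, one_smul]
      rw [this]
      exact Submodule.smul_mem _ _ (Submodule.mem_span_singleton_self v)
    rw [ht, zero_smul, add_zero] at hst
    rcases smul_eq_zero.1 hst with h | h
    · exact ⟨h, ht⟩
    · exact absurd h hv
  have hcard : Fintype.card (Fin 2) = Module.finrank k V := by rw [hdim]; rfl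
  refine ⟨basisOfLinearIndependentOfCardEqFinrank hli hcard, ?_⟩
  rw [coe_basisOfLinearIndependentOfCardEqFinrank]; rfl

/-- **a reducible plane is upper triangular in a suitable basis** -/
theorem exists_basis_isUT (hdim : Module.finrank k V = 2) (hred : ¬ IsIrred ρ) :
    ∃ b : Basis (Fin 2) k V, ∀ γ : Γ, IsUT b (ρ γ) := by
  have : Module.Finite k V := Module.finite_of_finrank_pos (by rw [hdim]; norm_num)
  unfold IsIrred at hred
  push Not at hred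
  obtain ⟨W, hW, hbot, htop⟩ := hred
  obtain ⟨v, hvW, hv⟩ := Submodule.exists_mem_ne_zero_of_ne_bot hbot
  have hle : Submodule.span k {v} ≤ W := (Submodule.span_singleton_le_iff_mem v W).2 hvW
  have h1 : Module.finrank k (Submodule.span k {v}) = 1 := finrank_span_singleton hv
  have h2 : Module.finrank k W < 2 := by
    rw [← hdim]; exact Submodule.finrank_lt htop
  have h3 : Module.finrank k (Submodule.span k {v}) ≤ Module.finrank k W :=
    Submodule.finrank_mono hle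
  have heq : Submodule.span k {v} = W :=
    Submodule.eq_of_le_of_finrank_eq hle (by omega)
  obtain ⟨b, hb⟩ := exists_basis_zero_eq hdim hv
  refine ⟨b, fun γ => (isUT_iff_mem_span b).2 ?_⟩
  rw [hb, heq]
  exact hW γ v hvW

end Stable

/-! ### Part 3: the determinant character and the irreducible case with `ψ ≠ 1` -/

section DetChar

variable {k Γ V : Type u} [Field k] [Group Γ] [AddCommGroup V] [Module k V]
variable (ρ : Representation k Γ V)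

/-- the determinant of `ρ` as a character `Γ →* kˣ` -/
noncomputable def detChar : Γ →* kˣ :=
  (Units.map (LinearMap.det : (V →ₗ[k] V) →* k)).comp ρ.asGroupHom

theorem coe_detChar (g : Γ) : ((detChar ρ g : kˣ) : k) = LinearMap.det (ρ g) := rfl

/-- **(I)** with `ψ ≠ 1` added to the premises of `hCB` (the form in which FLC-Char proves it):
helper2's `Irreducible.b_ad0Rep_le_one_of_irred`, re-derived from his API. -/
theorem b_ad0Rep_le_one_of_irred' {p : ℕ} [Fact p.Prime] [CharP k p] [Finite k] [Finite Γ]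
    [Module.Finite k V] (hp2 : p ≠ 2) (hdim : Module.finrank k V = 2) (hirr : IsIrred ρ)
    (hsplit : ∀ γ : Γ, ∃ α β : k,
      (ρ γ).charpoly = (Polynomial.X - Polynomial.C α) * (Polynomial.X - Polynomial.C β))
    (Γ₁ Γ₀ : Subgroup Γ) [Γ₁.Normal] [Γ₀.Normal] (hΓ₁ : IsPGroup p Γ₁)
    (hcomm : ∀ a ∈ Γ₀, ∀ a' ∈ Γ₀, a * a' * a⁻¹ * a'⁻¹ ∈ Γ₁)
    (hprime : ∀ a ∈ Γ₀, ∃ m : ℕ, ¬p ∣ m ∧ a ^ m ∈ Γ₁)
    (τ : Γ) (hcyc : ∀ γ : Γ, ∃ j : ℕ, ∃ a ∈ Γ₀, γ = τ ^ j * a)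
    (hfrob : ∀ δ ∈ Γ₀, τ * δ * τ⁻¹ * (δ ^ p)⁻¹ ∈ Γ₁)
    (hCA : ∀ η : Γ →* kˣ, η ≠ 1 → (∀ δ ∈ Γ₀, η δ = 1) → h1 (charRep η) = 0)
    (hCB : ∀ (H : Subgroup Γ) (ψ : H →* kˣ), H.index = 2 → Γ₀ ≤ H → ψ ≠ 1 →
      (∃ δ : H, (δ : Γ) ∈ Γ₀ ∧ ψ δ ≠ detChar ρ δ) → h1 (charRep ψ) ≤ 1) :
    Devissage.b (ad0Rep ρ) ≤ 1 := by
  have hp : p.Prime := Fact.out
  have h2 : (2 : k) ≠ 0 := by
    intro h
    have h' : ((2 : ℕ) : k) = 0 := by exact_mod_cast h
    rw [CharP.cast_eq_zero_iff k p 2] at h'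
    exact hp2 ((Nat.prime_dvd_prime_iff_eq hp Nat.prime_two).1 h')
  obtain ⟨h1triv, b, hb, hτ, hidx⟩ :=
    IrredStructure.exists_structure hdim hirr hsplit Γ₁ Γ₀ hΓ₁ hcomm hprime τ hcyc
  have hfrob' : ∀ δ ∈ Γ₀, ρ (τ * δ * τ⁻¹) = ρ δ ^ p := by
    intro δ hδ
    have e : τ * δ * τ⁻¹ = (τ * δ * τ⁻¹ * (δ ^ p)⁻¹) * δ ^ p := by group
    rw [e, map_mul, h1triv _ (hfrob δ hδ), one_mul, map_pow]
  obtain ⟨-, hA3⟩ := hb.frob_consequences hτ hfrob'
  obtain ⟨δ, hδ, hne⟩ := hA3 (hp.odd_of_ne_two hp2)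
  refine Irreducible.b_ad0Rep_le_one hb h2 hτ ?_ ?_
  · exact hCA _ (Irreducible.eta_ne_one hb h2 hτ) fun δ hδ =>
      Irreducible.eta_of_mem hb (hb.le_stab hδ)
  · refine hCB (stab ρ b) (Irreducible.psi ρ b) hidx hb.le_stab ?_
      ⟨⟨δ, hb.le_stab hδ⟩, hδ, fun h => hne ?_⟩
    · obtain ⟨δ', hδ', hne'⟩ := hb.2
      intro h1
      apply hne'
      have h3 := Irreducible.coe_psi ρ b ⟨δ', hb.le_stab hδ'⟩
      rw [h1, MonoidHom.one_apply, Units.val_one] at h3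
      have h4 := (IsDiag.ne_zero (hb.1 δ' hδ') (det_mat_ne_zero ρ b δ')).2
      exact (div_eq_one_iff_eq h4).1 h3.symm
    · rw [← Irreducible.coe_psi ρ b ⟨δ, hb.le_stab hδ⟩, h]
      rfl

end DetChar

/-! ### Part 4: the count for `Γ = Gal(L/ℚ_p)` -/

section Local

open LocalGalois

variable {p : ℕ} [Fact p.Prime] (L : IntermediateField ℚ_[p] (PadicAlgCl p))
  [FiniteDimensional ℚ_[p] L]
variable {k : Type} [Field k] [CharP k p]

/-- `ζ ^ a` depends only on `a` in `k` (characteristic `p`) -/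
theorem pow_eq_pow_of_natCast_eq {ζ : L} (hζ : ζ ^ p = 1) {a a' : ℕ} (h : (a : k) = (a' : k)) :
    ζ ^ a = ζ ^ a' := by
  have h1 : a ≡ a' [MOD p] := (CharP.natCast_eq_natCast k p).1 h
  rw [← Nat.mod_add_div a p, ← Nat.mod_add_div a' p, pow_add, pow_add, pow_mul, pow_mul, hζ,
    one_pow, one_pow, mul_one, mul_one, h1]

variable (ω : (L ≃ₐ[ℚ_[p]] L) →* kˣ) {ζ : L} (hζ : IsPrimitiveRoot ζ p)
  (hω : ∀ g : L ≃ₐ[ℚ_[p]] L, ∃ a : ℕ, ((ω g : kˣ) : k) = (a : k) ∧ g ζ = ζ ^ a)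

include hζ hω in
/-- `ω̄` is non-trivial on inertia (`p` odd) -/
theorem exists_omega_ne_one [IsGalois ℚ_[p] L] (hp2 : p ≠ 2) : ∃ σ ∈ inertia L, ω σ ≠ 1 := by
  obtain ⟨σ, hσ, hne⟩ := exists_mem_inertia_apply_ne L hp2 hζ
  refine ⟨σ, hσ, fun h => hne ?_⟩
  obtain ⟨a, ha, haζ⟩ := hω σ
  rw [h, Units.val_one] at ha
  have h1 : ((a : ℕ) : k) = ((1 : ℕ) : k) := by rw [← ha, Nat.cast_one]
  rw [haζ, pow_eq_pow_of_natCast_eq (k := k) L hζ.pow_eq_one h1, pow_one]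

include hζ hω in
/-- `ω̄²` is non-trivial on inertia (`p ≥ 5`) -/
theorem exists_omega_sq_ne_one [IsGalois ℚ_[p] L] (hp5 : 5 ≤ p) :
    ∃ σ ∈ inertia L, ω σ ^ 2 ≠ 1 := by
  obtain ⟨σ, hσ, hne1, hne2⟩ := exists_mem_inertia_apply_ne_inv L hp5 hζ
  refine ⟨σ, hσ, fun h => ?_⟩
  obtain ⟨a, ha, haζ⟩ := hω σ
  have h' : ((ω σ : kˣ) : k) * ((ω σ : kˣ) : k) = 1 := by
    rw [← Units.val_mul, ← sq, h, Units.val_one]
  rcases mul_self_eq_one_iff.1 h' with h1 | h1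
  · apply hne1
    have h2 : ((a : ℕ) : k) = ((1 : ℕ) : k) := by rw [← ha, h1, Nat.cast_one]
    rw [haζ, pow_eq_pow_of_natCast_eq (k := k) L hζ.pow_eq_one h2, pow_one]
  · apply hne2
    have h2 : ((a + 1 : ℕ) : k) = ((0 : ℕ) : k) := by
      rw [Nat.cast_add, ← ha, h1, Nat.cast_one, Nat.cast_zero, neg_add_cancel]
    have h3 := pow_eq_pow_of_natCast_eq (k := k) L hζ.pow_eq_one h2
    rw [pow_zero, pow_succ] at h3
    rw [haζ]
    exact eq_inv_of_mul_eq_one_left h3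

/-- **(C-A) as consumed**: the one-character bounds at `K = ℚ_p` for `Γ = Gal(L/ℚ_p)`:
`b k(φ) ≤ 1`, and `b k(φ) ≤ 0` if `φ ≠ ω̄` somewhere on inertia. -/
def CharBoundA : Prop :=
  (∀ φ : (L ≃ₐ[ℚ_[p]] L) →* kˣ, Devissage.b (charRep φ) ≤ 1) ∧
    ∀ φ : (L ≃ₐ[ℚ_[p]] L) →* kˣ, (∃ σ ∈ inertia L, φ σ ≠ ω σ) → Devissage.b (charRep φ) ≤ 0

/-- **(C-B) as consumed**: the one-character bound at the unramified quadratic `K`:
`h¹(Γ_K, k(ψ)) ≤ 1` for `ψ ≠ 1`, `ψ ≠ ω̄` somewhere on inertia. -/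
def CharBoundB : Prop :=
  ∀ (H : Subgroup (L ≃ₐ[ℚ_[p]] L)) (ψ : H →* kˣ), H.index = 2 → inertia L ≤ H → ψ ≠ 1 →
    (∃ δ : H, (δ : L ≃ₐ[ℚ_[p]] L) ∈ inertia L ∧ ψ δ ≠ ω δ) → h1 (charRep ψ) ≤ 1

variable {V : Type} [AddCommGroup V] [Module k V] (ρ : Representation k (L ≃ₐ[ℚ_[p]] L) V)

include hζ in
/-- **FL-C, the count**: `b(ad⁰ρ) ≤ 1` for a two-dimensional `ρ` of `Γ = Gal(L/ℚ_p)` with split
characteristic polynomials and determinant `ω̄`, if `ρ` is irreducible or `p ≥ 5`, from the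
one-character bounds (C-A), (C-B). -/
theorem b_ad0Rep_le_one [IsGalois ℚ_[p] L] [Finite k] [Module.Finite k V] (hp2 : p ≠ 2)
    (hdim : Module.finrank k V = 2)
    (hsplit : ∀ γ : L ≃ₐ[ℚ_[p]] L, ∃ α β : k,
      (ρ γ).charpoly = (Polynomial.X - Polynomial.C α) * (Polynomial.X - Polynomial.C β))
    (hdet : ∀ g : L ≃ₐ[ℚ_[p]] L, ∃ a : ℕ, LinearMap.det (ρ g) = (a : k) ∧ g ζ = ζ ^ a)
    (hA : CharBoundA L (detChar ρ)) (hB : IsIrred ρ → CharBoundB L (detChar ρ))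
    (h : IsIrred ρ ∨ 5 ≤ p) : Devissage.b (ad0Rep ρ) ≤ 1 := by
  classical
  have hω1 := exists_omega_ne_one L (detChar ρ) hζ hdet hp2
  by_cases hirr : IsIrred ρ
  · obtain ⟨hΓ₁, hcomm, hprime, τ, -, hcyc, hfrob⟩ := exists_structure L
    refine b_ad0Rep_le_one_of_irred' ρ hp2 hdim hirr hsplit (wild L) (inertia L) hΓ₁ hcomm hprime
      τ hcyc hfrob ?_ (hB hirr)
    intro η hη hη0
    obtain ⟨σ, hσ, hne⟩ := hω1
    have hb0 := hA.2 η ⟨σ, hσ, by rw [hη0 σ hσ]; exact hne.symm⟩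
    rw [Devissage.b_def, h0_charRep, if_neg hη] at hb0
    have : (h1 (charRep η) : ℤ) ≤ 0 := by simpa using hb0
    omega
  · have hp5 : 5 ≤ p := h.resolve_left hirr
    obtain ⟨b, hUT⟩ := exists_basis_isUT hdim hirr
    exact Reducible.b_le_one (cf10_ρ hUT) (cf00_ρ hUT) (cf01_ρ hUT)
      (fun x h00 h01 h10 => cf_inj x h00 h01 h10) cf_surj (detChar ρ) (inertia L) hA.1 hA.2
      (chi_ratio_mul hUT) hω1 (exists_omega_sq_ne_one L (detChar ρ) hζ hdet hp5)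

include hζ in
/-- **(R3), image form** (all odd `p`): for a basis `b` in which `ρ` is upper triangular, the image
of `H¹(Γ, W₁) → H¹(Γ, ad⁰ρ)` (`W₁ = ker (cf ρ b 1 0)` the endomorphisms stabilising the line) has
dimension `≤ h⁰(Γ, ad⁰ρ) + 1`. -/
theorem range_sub_le_one [IsGalois ℚ_[p] L] [Finite k] [Module.Finite k V] (hp2 : p ≠ 2)
    (hdet : ∀ g : L ≃ₐ[ℚ_[p]] L, ∃ a : ℕ, LinearMap.det (ρ g) = (a : k) ∧ g ζ = ζ ^ a)
    (hA : CharBoundA L (detChar ρ)) {b : Basis (Fin 2) k V}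
    (hUT : ∀ γ : L ≃ₐ[ℚ_[p]] L, IsUT b (ρ γ)) :
    (finrank k (LinearMap.range
      (groupCohomology.map (A := Reducible.W1Rep (cf10_ρ hUT)) (B := ad0Rep ρ)
        (MonoidHom.id (L ≃ₐ[ℚ_[p]] L))
        (Rep.subtype (ad0Rep ρ) (Reducible.W1 (ad0Rep ρ) (cf ρ b 1 0))
          (Reducible.W1_stable (cf10_ρ hUT))) 1).hom) : ℤ) - (h0 (ad0Rep ρ) : ℤ) ≤ 1 :=
  Reducible.range_sub_le_one (cf10_ρ hUT) (cf00_ρ hUT) (cf01_ρ hUT)
    (fun x h00 h01 h10 => cf_inj x h00 h01 h10) cf_surj (detChar ρ) (inertia L) hA.1 hA.2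
    (exists_omega_ne_one L (detChar ρ) hζ hdet hp2)

end Local

/-! ### Part 5: the instance `ρ = rhoL hL` and the named hypothesis `hFLC` of the bridge -/

section Instance

open LocalGalois Fermat.Agent.S56.Flat.Bridge.Transport Fermat.Agent.S56.Flat.Bridge.Member
  Fermat.Agent.S56.Flat.Bridge.Compositum
  Fermat.Agent.S56.Flat.Bridge.Main Fermat.Agent.S56.Flat.Bridge.Instance groupCohomology

local notation "Qbar" => AlgebraicClosure ℚ

variable {k : Type} [Field k] {ρbar : ResidualGaloisRep k} {p : ℕ} [Fact p.Prime]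
  [Algebra (ZMod p) k]

variable (ρbar p) in
/-- `ρ̄|G_p` is irreducible (elementary form). -/
def IsIrredAtP : Prop :=
  ∀ W : Submodule k ρbar.V,
    (∀ τ : PadicAlgCl p ≃ₐ[ℚ_[p]] PadicAlgCl p, ∀ x ∈ W,
      ρbar.ρ (localGaloisToGlobal p τ) x ∈ W) → W = ⊥ ∨ W = ⊤

variable {L : IntermediateField ℚ_[p] (PadicAlgCl p)}
  (hL : L ∈ flatFamily p (trivSubgroup ρbar p))

theorem isIrred_rhoL_iff : IsIrred (rhoL hL) ↔ IsIrredAtP ρbar p := by
  constructor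
  · intro h W hW
    exact h W ((rhoL_mem_iff hL W).2 hW)
  · intro h W hW
    exact h W ((rhoL_mem_iff hL W).1 hW)

/-- upper triangularity of `rhoL` from upper triangularity of `ρ̄|G_p` -/
theorem isUT_rhoL {b : Basis (Fin 2) k ρbar.V}
    (hUT : ∀ τ : PadicAlgCl p ≃ₐ[ℚ_[p]] PadicAlgCl p, IsUT b (ρbar.ρ (localGaloisToGlobal p τ)))
    (g : L ≃ₐ[ℚ_[p]] L) : IsUT b (rhoL hL g) := by
  obtain ⟨τ, rfl⟩ := exists_resL_eq hL g
  rw [rhoL_resL]
  exact hUT τ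

/-- **FL-C for `rhoL hL`**: `b(ad⁰(ρ̄|Gal(L/ℚ_p))) ≤ 1`. -/
theorem b_ad0Rep_rhoL_le_one [Finite k] [FiniteDimensional ℚ_[p] L] [IsGalois ℚ_[p] L]
    (hp2 : p ≠ 2)
    (hsplit : ∀ σ : Qbar ≃ₐ[ℚ] Qbar, ∃ α β : k,
      LinearMap.charpoly (ρbar.ρ σ) = (Polynomial.X - Polynomial.C α) * (Polynomial.X - Polynomial.C β))
    (hdet : (GaloisRepAdic.ofResidualGaloisRep ρbar).DetIsCyclotomic p)
    (hA : CharBoundA L (detChar (rhoL hL)))
    (hB : IsIrredAtP ρbar p → CharBoundB L (detChar (rhoL hL)))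
    (h : IsIrredAtP ρbar p ∨ 5 ≤ p) : Devissage.b (ad0Rep (rhoL hL)) ≤ 1 := by
  have : CharP k p := charP_of_injective_algebraMap (algebraMap (ZMod p) k).injective p
  obtain ⟨ζ, hζ⟩ := exists_primitiveRoot hL
  refine b_ad0Rep_le_one L hζ (rhoL hL) hp2 finrank_V (charpoly_rhoL hL hsplit) ?_ hA
    (fun hirr => hB ((isIrred_rhoL_iff hL).1 hirr)) ?_
  · intro g
    obtain ⟨a, ha, haζ⟩ := det_rhoL_spec hL hdet g
    exact ⟨a, ha, haζ ζ hζ.pow_eq_one⟩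
  · rcases h with h | h
    · exact Or.inl ((isIrred_rhoL_iff hL).2 h)
    · exact Or.inr h

/-- **(R3) for `rhoL hL`** (all odd `p`): for a basis `b` in which `ρ̄|G_p` is upper triangular, the
image of `H¹(Gal(L/ℚ_p), W₁) → H¹(Gal(L/ℚ_p), ad⁰)` has dimension `≤ h⁰ + 1`. -/
theorem range_sub_le_one_rhoL [Finite k] [FiniteDimensional ℚ_[p] L] [IsGalois ℚ_[p] L]
    (hp2 : p ≠ 2) (hdet : (GaloisRepAdic.ofResidualGaloisRep ρbar).DetIsCyclotomic p)
    (hA : CharBoundA L (detChar (rhoL hL))) {b : Basis (Fin 2) k ρbar.V}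
    (hUT : ∀ τ : PadicAlgCl p ≃ₐ[ℚ_[p]] PadicAlgCl p, IsUT b (ρbar.ρ (localGaloisToGlobal p τ))) :
    (finrank k (LinearMap.range
      (groupCohomology.map (A := Reducible.W1Rep (cf10_ρ (isUT_rhoL hL hUT)))
        (B := ad0Rep (rhoL hL)) (MonoidHom.id (L ≃ₐ[ℚ_[p]] L))
        (Rep.subtype (ad0Rep (rhoL hL)) (Reducible.W1 (ad0Rep (rhoL hL)) (cf (rhoL hL) b 1 0))
          (Reducible.W1_stable (cf10_ρ (isUT_rhoL hL hUT)))) 1).hom) : ℤ)
      - (h0 (ad0Rep (rhoL hL)) : ℤ) ≤ 1 := by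
  have : CharP k p := charP_of_injective_algebraMap (algebraMap (ZMod p) k).injective p
  obtain ⟨ζ, hζ⟩ := exists_primitiveRoot hL
  refine range_sub_le_one L hζ (rhoL hL) hp2 ?_ hA (isUT_rhoL hL hUT)
  intro g
  obtain ⟨a, ha, haζ⟩ := det_rhoL_spec hL hdet g
  exact ⟨a, ha, haζ ζ hζ.pow_eq_one⟩

/-- **the named hypothesis `hFLC` of `Bridge.Main.finrank_flCond_add_le_local`** (`ρ̄|G_p`
irreducible or `p ≥ 5`), from the one-character bounds of FLC-Char. -/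
theorem hFLC_of_charBounds [Finite k] (hp2 : p ≠ 2)
    (hsplit : ∀ σ : Qbar ≃ₐ[ℚ] Qbar, ∃ α β : k,
      LinearMap.charpoly (ρbar.ρ σ) = (Polynomial.X - Polynomial.C α) * (Polynomial.X - Polynomial.C β))
    (hdet : (GaloisRepAdic.ofResidualGaloisRep ρbar).DetIsCyclotomic p)
    (hA : ∀ (L : IntermediateField ℚ_[p] (PadicAlgCl p))
      (hL : L ∈ flatFamily p (trivSubgroup ρbar p)) [FiniteDimensional ℚ_[p] L]
      [IsGalois ℚ_[p] L], CharBoundA L (detChar (rhoL hL)))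
    (hB : IsIrredAtP ρbar p → ∀ (L : IntermediateField ℚ_[p] (PadicAlgCl p))
      (hL : L ∈ flatFamily p (trivSubgroup ρbar p)) [FiniteDimensional ℚ_[p] L]
      [IsGalois ℚ_[p] L], CharBoundB L (detChar (rhoL hL)))
    (h : IsIrredAtP ρbar p ∨ 5 ≤ p) :
    ∀ (L : IntermediateField ℚ_[p] (PadicAlgCl p))
      (hL : L ∈ flatFamily p (trivSubgroup ρbar p)),
      finrank k (H1 (adL ρbar p L hL)) ≤ finrank k (H0 (adL ρbar p L hL)) + 1 :=
  hFLC_of_b_le fun L hL => by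
    have := hL.1
    have := hL.2.1
    exact b_ad0Rep_rhoL_le_one hL hp2 hsplit hdet (hA L hL) (fun hirr => hB hirr L hL) h

end Instance

end Fermat.Agent.S56.Flat.Count.Main
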