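/-
S56, block F (FLAT), leaf [FLC-Char] (helper7), file 1/2: **plumbing**.

`L/K₀` an intermediate field of `Ω/K₀`, a group `H` acting on `L` through `j : H →* (L ≃ₐ[K₀] L)`
(e.g. `H = Γ_K ≤ Gal(L/ℚ_p)`, `j` the inclusion), `N ⊴ H`:

* `fixF j N : IntermediateField K₀ Ω` — the fixed field `F = L^N` inside `Ω`; `mem_fixF_iff`,
  `fixF_le`, `fixF_mono`;
* `resHom j N : H →* (F ≃ₐ[K₀] F)` — restriction (`coe_resHom_apply`, `resHom_apply_of_mem`);
* for `K₀ = ℚ_[p]`, `Ω = PadicAlgCl p`: `intHom j N : H →* (𝒪_F ≃ₐ[ℤ_[p]] 𝒪_F)`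
  (`𝒪_F = integralClosure ℤ_[p] F`, Mathlib `galRestrict`) and the action `intAction j N` of `H` on
  `𝒪_F` (a reducible def, use `letI := intAction j N`), with `coe_intAction_smul`,
  `intAction_smul_of_mem`, `intAction_comm`, `intAction_pow_smul`, `mem_fixF_top_of_forall_smul`.
-/
import Mathlib
import Fermat.Agent.S55.GL.PlacesDVR

set_option autoImplicit false

namespace Fermat.Agent.S56.Flat.Count.FixedAction

open IsLocalRing

section Restrict

variable {K₀ Ω : Type*} [Field K₀] [Field Ω] [Algebra K₀ Ω] {L : IntermediateField K₀ Ω}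
  {H : Type*} [Group H] (j : H →* (L ≃ₐ[K₀] L)) (N : Subgroup H)

/-- `F = L^N` as an intermediate field of `Ω / K₀`. -/
def fixF : IntermediateField K₀ Ω :=
  IntermediateField.lift (IntermediateField.fixedField (N.map j))

theorem mem_fixF_iff (x : Ω) :
    x ∈ fixF j N ↔ ∃ hx : x ∈ L, ∀ n ∈ N, j n ⟨x, hx⟩ = ⟨x, hx⟩ := by
  constructor
  · intro h
    have hxL : x ∈ L := IntermediateField.lift_le _ h
    refine ⟨hxL, fun n hn => ?_⟩
    have hx' : (⟨x, hxL⟩ : L) ∈ IntermediateField.fixedField (N.map j) :=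
      (IntermediateField.mem_lift (⟨x, hxL⟩ : L)).1 h
    exact hx' ⟨j n, Subgroup.mem_map_of_mem j hn⟩
  · rintro ⟨hxL, hfix⟩
    refine (IntermediateField.mem_lift (⟨x, hxL⟩ : L)).2 ?_
    rintro ⟨σ, n, hn, rfl⟩
    exact hfix n hn

theorem fixF_le : fixF j N ≤ L := IntermediateField.lift_le _

theorem fixF_mono {N N' : Subgroup H} (h : N ≤ N') : fixF j N' ≤ fixF j N := by
  intro x hx
  obtain ⟨hxL, hfix⟩ := (mem_fixF_iff j N' x).1 hx
  exact (mem_fixF_iff j N x).2 ⟨hxL, fun n hn => hfix n (h hn)⟩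


variable {j N}

theorem apply_mem_fixF [hN : N.Normal] (γ : H) {x : Ω} (hx : x ∈ fixF j N) :
    ((j γ ⟨x, fixF_le j N hx⟩ : L) : Ω) ∈ fixF j N := by
  obtain ⟨hxL, hfix⟩ := (mem_fixF_iff j N x).1 hx
  refine (mem_fixF_iff j N _).2 ⟨(j γ ⟨x, hxL⟩).2, fun n hn => ?_⟩
  have hconj : γ⁻¹ * n * γ ∈ N := by
    have := hN.conj_mem n hn γ⁻¹
    simpa using this
  have h1 := hfix _ hconj
  have h2 : j n (j γ ⟨x, hxL⟩) = j γ (j (γ⁻¹ * n * γ) ⟨x, hxL⟩) := by
    rw [← AlgEquiv.mul_apply, ← AlgEquiv.mul_apply, ← map_mul, ← map_mul]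
    congr 2
    group
  rw [Subtype.coe_eta, h2, h1]

variable (j N)

/-- the restriction of `γ ∈ H` to `F = L^N` (for `N ⊴ H`), as a function. -/
def resFun [N.Normal] (γ : H) (x : fixF j N) : fixF j N :=
  ⟨((j γ ⟨x.1, fixF_le j N x.2⟩ : L) : Ω), apply_mem_fixF γ x.2⟩

@[simp] theorem coe_resFun [N.Normal] (γ : H) (x : fixF j N) :
    ((resFun j N γ x : fixF j N) : Ω) = ((j γ ⟨x.1, fixF_le j N x.2⟩ : L) : Ω) := rfl

theorem resFun_mul [N.Normal] (γ γ' : H) (x : fixF j N) :
    resFun j N (γ * γ') x = resFun j N γ (resFun j N γ' x) := by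
  apply Subtype.ext
  simp only [coe_resFun, map_mul, AlgEquiv.mul_apply]

theorem resFun_one [N.Normal] (x : fixF j N) : resFun j N 1 x = x := by
  apply Subtype.ext
  simp only [coe_resFun, map_one, AlgEquiv.one_apply]

/-- the restriction of `γ ∈ H` to `F = L^N`, as an algebra automorphism. -/
def resAlgEquiv [N.Normal] (γ : H) : fixF j N ≃ₐ[K₀] fixF j N where
  toFun := resFun j N γ
  invFun := resFun j N γ⁻¹
  left_inv x := by rw [← resFun_mul, inv_mul_cancel, resFun_one]
  right_inv x := by rw [← resFun_mul, mul_inv_cancel, resFun_one]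
  map_mul' x y := by
    apply Subtype.ext
    have h : (⟨((x * y : fixF j N) : Ω), fixF_le j N (x * y).2⟩ : L) =
        ⟨x.1, fixF_le j N x.2⟩ * ⟨y.1, fixF_le j N y.2⟩ := rfl
    change ((j γ ⟨((x * y : fixF j N) : Ω), _⟩ : L) : Ω) = _
    rw [h, map_mul]
    rfl
  map_add' x y := by
    apply Subtype.ext
    have h : (⟨((x + y : fixF j N) : Ω), fixF_le j N (x + y).2⟩ : L) =
        ⟨x.1, fixF_le j N x.2⟩ + ⟨y.1, fixF_le j N y.2⟩ := rfl
    change ((j γ ⟨((x + y : fixF j N) : Ω), _⟩ : L) : Ω) = _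
    rw [h, map_add]
    rfl
  commutes' r := by
    apply Subtype.ext
    simp only [coe_resFun]
    have : (⟨((algebraMap K₀ (fixF j N) r : fixF j N) : Ω), fixF_le j N (algebraMap K₀ (fixF j N) r).2⟩ : L)
        = algebraMap K₀ L r := rfl
    rw [this, AlgEquiv.commutes]
    rfl

@[simp] theorem coe_resAlgEquiv [N.Normal] (γ : H) (x : fixF j N) :
    ((resAlgEquiv j N γ x : fixF j N) : Ω) = ((j γ ⟨x.1, fixF_le j N x.2⟩ : L) : Ω) := rfl

/-- restriction to `F = L^N` as a group homomorphism `H → Aut(F/K₀)`. -/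
def resHom [N.Normal] : H →* (fixF j N ≃ₐ[K₀] fixF j N) where
  toFun := resAlgEquiv j N
  map_one' := by
    ext x
    exact congrArg Subtype.val (resFun_one j N x)
  map_mul' γ γ' := by
    ext x
    exact congrArg Subtype.val (resFun_mul j N γ γ' x)

@[simp] theorem coe_resHom_apply [N.Normal] (γ : H) (x : fixF j N) :
    ((resHom j N γ x : fixF j N) : Ω) = ((j γ ⟨x.1, fixF_le j N x.2⟩ : L) : Ω) := rfl

theorem resHom_apply_of_mem [N.Normal] {n : H} (hn : n ∈ N) (x : fixF j N) :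
    resHom j N n x = x := by
  apply Subtype.ext
  obtain ⟨hxL, hfix⟩ := (mem_fixF_iff j N x.1).1 x.2
  rw [coe_resHom_apply]
  exact congrArg Subtype.val (hfix n hn)

end Restrict

section IntAction

variable {p : ℕ} [Fact p.Prime] {L : IntermediateField ℚ_[p] (PadicAlgCl p)}
  {H : Type*} [Group H] (j : H →* (L ≃ₐ[ℚ_[p]] L))
  (N : Subgroup H)

instance finiteDimensional_fixF [FiniteDimensional ℚ_[p] L] :
    FiniteDimensional ℚ_[p] (fixF j N) :=
  Module.Finite.of_injective (IntermediateField.inclusion (fixF_le j N)).toLinearMap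
    (IntermediateField.inclusion_injective (fixF_le j N))

variable [N.Normal]

/-- the homomorphism `H → Aut(𝒪_F / ℤ_p)`, `F = L^N`. -/
noncomputable def intHom : H →* (integralClosure ℤ_[p] (fixF j N) ≃ₐ[ℤ_[p]]
    integralClosure ℤ_[p] (fixF j N)) :=
  (galRestrict ℤ_[p] ℚ_[p] (fixF j N) (integralClosure ℤ_[p] (fixF j N))).toMonoidHom.comp
    (resHom j N)

/-- the action of `H` on `𝒪_F`, `F = L^N`. -/
@[reducible] noncomputable def intAction :
    MulSemiringAction H (integralClosure ℤ_[p] (fixF j N)) :=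
  MulSemiringAction.compHom _ (intHom j N)

theorem intAction_smul_def (γ : H) (x : integralClosure ℤ_[p] (fixF j N)) :
    letI := intAction j N
    γ • x = intHom j N γ x := rfl

theorem coe_intAction_smul (γ : H) (x : integralClosure ℤ_[p] (fixF j N)) :
    letI := intAction j N
    ((γ • x : integralClosure ℤ_[p] (fixF j N)) : fixF j N) = resHom j N γ (x : fixF j N) := by
  let _ := intAction j N
  exact algebraMap_galRestrict_apply ℤ_[p] (resHom j N γ) x

theorem intAction_smul_of_mem {n : H} (hn : n ∈ N) (x : integralClosure ℤ_[p] (fixF j N)) :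
    letI := intAction j N
    n • x = x := by
  let _ := intAction j N
  apply Subtype.ext
  rw [coe_intAction_smul, resHom_apply_of_mem j N hn]

/-- the action on `𝒪_F` is commutative as soon as `H / N` is. -/
theorem intAction_comm (hcomm : ∀ δ δ' : H, δ * δ' * δ⁻¹ * δ'⁻¹ ∈ N) (δ δ' : H)
    (x : integralClosure ℤ_[p] (fixF j N)) :
    letI := intAction j N
    δ • δ' • x = δ' • δ • x := by
  let _ := intAction j N
  have h := intAction_smul_of_mem j N (hcomm δ δ') (δ' • δ • x)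
  rw [← h, smul_smul, smul_smul, smul_smul]
  congr 1
  group

theorem intAction_pow_smul {m : ℕ} (hm : ∀ δ : H, δ ^ m ∈ N) (δ : H)
    (x : integralClosure ℤ_[p] (fixF j N)) :
    letI := intAction j N
    δ ^ m • x = x :=
  intAction_smul_of_mem j N (hm δ) x

/-- invariants of `H` in `𝒪_F` lie in `K = L^H`. -/
theorem mem_fixF_top_of_forall_smul (x : integralClosure ℤ_[p] (fixF j N))
    (hx : letI := intAction j N; ∀ δ : H, δ • x = x) :
    (((x : fixF j N) : PadicAlgCl p)) ∈ fixF j (⊤ : Subgroup H) := by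
  let _ := intAction j N
  refine (mem_fixF_iff j ⊤ _).2 ⟨fixF_le j N (x : fixF j N).2, fun δ _ => ?_⟩
  apply Subtype.ext
  have h := congrArg (fun y : integralClosure ℤ_[p] (fixF j N) => (((y : fixF j N)) : PadicAlgCl p))
    (hx δ)
  rw [coe_intAction_smul, coe_resHom_apply] at h
  exact h

end IntAction

end Fermat.Agent.S56.Flat.Count.FixedAction
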