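import Mathlib
import Fermat.Agent.S55.Local.UnitFiltration
import Fermat.Agent.S56.Flat.KummerBound.Defs
import Fermat.Agent.S56.Flat.Count.FixedAction
import Fermat.Agent.S56.Flat.Count.LocalGalois

/-!
# FLC-Char, cut X (helper7 #2693): the concrete field-theoretic inputs of the seam

`L/ℚ_p` finite inside `PadicAlgCl p`, `j : H →* Gal(L/ℚ_p)`, `N ⊴ H`, `F = fixF j N = L^N`,
`𝒪_F = integralClosure ℤ_[p] F`.

* `actL j` : the action of `H` on `L` through `j`;
* `incl j N : 𝒪_F →+* L` (injective, `H`-equivariant, `N`-fixed);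
* `exists_unit_of_pow_eq` : `𝒪_F` is integrally closed in `L^N` (for `p`-th roots of units);
* `exists_unitFil_mul_pow` : `IsPeuRamifie p L` at `F = L^N`;
* `smul_residue_of_mem_inertia` : inertial elements act trivially on the residue field of `𝒪_F`.
-/

set_option autoImplicit false
set_option linter.style.longLine false
set_option linter.unusedSectionVars false
set_option linter.unusedVariables false
set_option linter.style.haveILetI false

namespace Fermat.Agent.S56.Flat.Count.CharConcrete

open IsLocalRing IntermediateField Fermat.Agent.S55.Local Fermat.Agent.S55.LocalInt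
  Fermat.Agent.S56.Flat.KummerBound Fermat.Agent.S56.Flat.Count.FixedAction

variable {p : ℕ} [Fact p.Prime] {L : IntermediateField ℚ_[p] (PadicAlgCl p)}
  [FiniteDimensional ℚ_[p] L] {H : Type*} [Group H] (j : H →* (L ≃ₐ[ℚ_[p]] L))
  (N : Subgroup H) [N.Normal]

/-- the action of `H` on `L` through `j`. -/
@[reducible] noncomputable def actL : MulSemiringAction H L := MulSemiringAction.compHom L j

theorem actL_smul (γ : H) (x : L) : letI := actL j; γ • x = j γ x := rfl

/-- the inclusion `𝒪_F → L`, `F = L^N`. -/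
noncomputable def incl : integralClosure ℤ_[p] (fixF j N) →+* L :=
  ((IntermediateField.inclusion (fixF_le j N)).toRingHom).comp
    (algebraMap (integralClosure ℤ_[p] (fixF j N)) (fixF j N))

theorem coe_incl (x : integralClosure ℤ_[p] (fixF j N)) :
    ((incl j N x : L) : PadicAlgCl p) = ((x : fixF j N) : PadicAlgCl p) := rfl

theorem incl_injective : Function.Injective (incl j N) := by
  intro x y h
  have h1 := congrArg (fun z : L => (z : PadicAlgCl p)) h
  simp only [coe_incl] at h1
  exact Subtype.ext (Subtype.ext h1)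

theorem incl_smul (γ : H) (x : integralClosure ℤ_[p] (fixF j N)) :
    letI := intAction j N
    incl j N (γ • x) = j γ (incl j N x) := by
  letI := intAction j N
  apply Subtype.ext
  rw [coe_incl, coe_intAction_smul, coe_resHom_apply]
  rfl

theorem apply_incl_of_mem {n : H} (hn : n ∈ N) (x : integralClosure ℤ_[p] (fixF j N)) :
    j n (incl j N x) = incl j N x := by
  obtain ⟨hxL, hfix⟩ := (mem_fixF_iff j N ((x : fixF j N) : PadicAlgCl p)).1 (x : fixF j N).2
  exact hfix n hn

/-- an element of `L` fixed by `N`, as an element of `F = L^N`. -/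
theorem coe_mem_fixF {z : L} (hz : ∀ n ∈ N, j n z = z) : (z : PadicAlgCl p) ∈ fixF j N :=
  (mem_fixF_iff j N _).2 ⟨z.2, fun n hn => hz n hn⟩

/-- `𝒪_F` is integrally closed in `L^N`: a `p`-th root in `L^N` of a unit of `𝒪_F` is a unit of
`𝒪_F`. -/
theorem exists_unit_of_pow_eq (u : (integralClosure ℤ_[p] (fixF j N))ˣ) (z : L)
    (hz : ∀ n ∈ N, j n z = z) (hzu : z ^ p = incl j N (u : integralClosure ℤ_[p] (fixF j N))) :
    ∃ y : (integralClosure ℤ_[p] (fixF j N))ˣ,
      incl j N (y : integralClosure ℤ_[p] (fixF j N)) = z := by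
  have hp0 : p ≠ 0 := (Fact.out : p.Prime).ne_zero
  have hu1 : ‖(((u : integralClosure ℤ_[p] (fixF j N)) : fixF j N) : PadicAlgCl p)‖ = 1 :=
    (isUnit_iff_norm_eq_one (fixF j N) _).1 u.isUnit
  have h1 := congrArg (fun t : L => ‖(t : PadicAlgCl p)‖) hzu
  simp only [coe_incl, SubmonoidClass.coe_pow, norm_pow] at h1
  rw [hu1] at h1
  have hz1 : ‖(z : PadicAlgCl p)‖ = 1 := (pow_eq_one_iff_of_nonneg (norm_nonneg _) hp0).1 h1
  let zF : fixF j N := ⟨(z : PadicAlgCl p), coe_mem_fixF j N hz⟩
  have hzF : zF ∈ integralClosure ℤ_[p] (fixF j N) := by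
    rw [mem_integralClosure_iff_norm_le_one]
    exact hz1.le
  have hunit : IsUnit (⟨zF, hzF⟩ : integralClosure ℤ_[p] (fixF j N)) := by
    rw [isUnit_iff_norm_eq_one]
    exact hz1
  exact ⟨hunit.unit, Subtype.ext rfl⟩

theorem one_le_of_span_natCast_eq {E : IntermediateField ℚ_[p] (PadicAlgCl p)}
    [FiniteDimensional ℚ_[p] E] {e : ℕ}
    (he : Ideal.span {((p : ℕ) : integralClosure ℤ_[p] E)} =
      maximalIdeal (integralClosure ℤ_[p] E) ^ e) : 1 ≤ e := by
  by_contra h
  have h0 : e = 0 := by omega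
  rw [h0, pow_zero, Ideal.one_eq_top, Ideal.span_singleton_eq_top] at he
  exact (mem_maximalIdeal _).1 (natCast_mem_maximalIdeal (q := p) E) he

/-- `IsPeuRamifie p L` at `F = L^N`. -/
theorem exists_unitFil_mul_pow (hL : IsPeuRamifie p L) {ζ : L} (hζ : IsPrimitiveRoot ζ p)
    (hζN : ∀ n ∈ N, j n ζ = ζ) {e : ℕ}
    (he : Ideal.span {((p : ℕ) : integralClosure ℤ_[p] (fixF j N))} =
      maximalIdeal (integralClosure ℤ_[p] (fixF j N)) ^ e)
    (x w : L) (hw0 : w ≠ 0) (hwN : ∀ n ∈ N, j n w = w) (hwx : w = x ^ p) :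
    ∃ u ∈ unitFil (integralClosure ℤ_[p] (fixF j N)) e, ∃ z : L, z ≠ 0 ∧ (∀ n ∈ N, j n z = z) ∧
      w = incl j N ((u : (integralClosure ℤ_[p] (fixF j N))ˣ) :
        integralClosure ℤ_[p] (fixF j N)) * z ^ p := by
  let ζF : fixF j N := ⟨(ζ : PadicAlgCl p), coe_mem_fixF j N hζN⟩
  let wF : fixF j N := ⟨(w : PadicAlgCl p), coe_mem_fixF j N hwN⟩
  have hζF : IsPrimitiveRoot ζF p := by
    have h1 : IsPrimitiveRoot (IntermediateField.inclusion (fixF_le j N) ζF) p := by
      have : IntermediateField.inclusion (fixF_le j N) ζF = ζ := Subtype.ext rfl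
      rw [this]; exact hζ
    exact IsPrimitiveRoot.of_map_of_injective h1
      (IntermediateField.inclusion_injective (fixF_le j N))
  have hwF0 : wF ≠ 0 := by
    intro h
    apply hw0
    have := congrArg (fun t : fixF j N => (t : PadicAlgCl p)) h
    exact Subtype.ext this
  obtain ⟨u₀, z₀, hu₀, hz₀, hwu⟩ := hL (fixF j N) (fixF_le j N) ζF hζF e he wF hwF0
    ⟨(x : PadicAlgCl p), x.2, by
      have := congrArg (fun t : L => (t : PadicAlgCl p)) hwx
      simpa using this.symm⟩
  have he1 : 1 ≤ e := one_le_of_span_natCast_eq he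
  have hu₀m : u₀ - 1 ∈ maximalIdeal (integralClosure ℤ_[p] (fixF j N)) :=
    Ideal.pow_le_self (by omega) hu₀
  have hunit : IsUnit u₀ := by
    have h := isUnit_one_add hu₀m
    simpa using h
  refine ⟨hunit.unit, mem_unitFil.2 hu₀, IntermediateField.inclusion (fixF_le j N) z₀, ?_, ?_, ?_⟩
  · intro h
    apply hz₀
    have := congrArg (fun t : L => (t : PadicAlgCl p)) h
    exact Subtype.ext this
  · intro n hn
    obtain ⟨hxL, hfix⟩ := (mem_fixF_iff j N (z₀ : PadicAlgCl p)).1 z₀.2
    exact hfix n hn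
  · apply Subtype.ext
    have := congrArg (fun t : fixF j N => (t : PadicAlgCl p)) hwu
    have h3 : (w : PadicAlgCl p) = (((u₀ : fixF j N)) : PadicAlgCl p) * (z₀ : PadicAlgCl p) ^ p := by
      simpa using this
    rw [MulMemClass.coe_mul, SubmonoidClass.coe_pow, coe_incl, IsUnit.unit_spec]
    exact h3

attribute [local instance] LocalGalois.galAct

/-- inertial elements act trivially on the residue field of `𝒪_F`. -/
theorem smul_residue_of_mem_inertia {σ : H} (hσ : j σ ∈ LocalGalois.inertia L)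
    (x : ResidueField (integralClosure ℤ_[p] (fixF j N))) :
    letI := intAction j N
    σ • x = x := by
  letI := intAction j N
  obtain ⟨y, rfl⟩ := residue_surjective x
  rw [← ResidueField.residue_smul, ← sub_eq_zero, ← map_sub, residue_eq_zero_iff,
    mem_maximalIdeal_iff_norm_lt_one]
  -- the element `incl y` of `𝒪_L`
  have hyL : incl j N y ∈ integralClosure ℤ_[p] L := by
    rw [mem_integralClosure_iff_norm_le_one, coe_incl]
    exact norm_le_one_of_mem (fixF j N) y
  have h := (LocalGalois.mem_inertia_iff L (j σ)).1 hσ ⟨incl j N y, hyL⟩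
  rw [mem_maximalIdeal_iff_norm_lt_one] at h
  have e1 : ((((σ • y - y : integralClosure ℤ_[p] (fixF j N)) : fixF j N)) : PadicAlgCl p)
      = (((((j σ) • (⟨incl j N y, hyL⟩ : integralClosure ℤ_[p] L) - ⟨incl j N y, hyL⟩ :
          integralClosure ℤ_[p] L) : L)) : PadicAlgCl p) := by
    have h1 : ((((j σ) • (⟨incl j N y, hyL⟩ : integralClosure ℤ_[p] L) :
        integralClosure ℤ_[p] L) : L)) = j σ (incl j N y) := LocalGalois.coe_smul L (j σ) _
    have h2 : (((σ • y : integralClosure ℤ_[p] (fixF j N)) : fixF j N) : PadicAlgCl p)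
        = ((j σ (incl j N y) : L) : PadicAlgCl p) := by
      rw [← incl_smul, coe_incl]
    push_cast
    rw [h2, h1]
    rfl
  rw [e1]
  exact h

end Fermat.Agent.S56.Flat.Count.CharConcrete
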