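/-
S56, block F (FLAT), leaf [FLC-Char]/[FLC-Main] seam (helper24): the `K`-side facts assumed by
helper7's exports (`hK : IsUnramifiedIn ℤ_[p] (fixF j ⊤)`, `hdeg : finrank ℚ_[p] (fixF j ⊤) = 1, 2`).

`L ⊂ PadicAlgCl p` finite Galois over `ℚ_p`, `Γ = Gal(L/ℚ_p)`, `j : H →* Γ`:
* `fixF_top_eq` : `fixF j ⊤ = lift (fixedField j.range)`;
* `finrank_fixF_top` : `[fixF j ⊤ : ℚ_p] = j.range.index`;
* `isUnramifiedIn_fixF_top` : unramified as soon as `inertia L ≤ j.range`;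
* `j = MonoidHom.id Γ` : `fixF_id_top` (`= ⊥`), `finrank_fixF_id_top` (`= 1`),
  `isUnramifiedIn_fixF_id_top`;
* `j = H.subtype` : `finrank_fixF_subtype_top` (`= H.index`), `isUnramifiedIn_fixF_subtype_top`.
-/
import Mathlib
import Fermat.Agent.S56.Flat.Count.FixedAction
import Fermat.Agent.S56.Flat.Count.LocalGalois

set_option autoImplicit false
set_option linter.unusedSectionVars false

namespace Fermat.Agent.S56.Flat.Count.FixFDegree

open IsLocalRing IntermediateField Fermat.Agent.S55.Local Fermat.Agent.S55.Local.Unram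
  Fermat.Agent.S56.Flat.Count.FixedAction Fermat.Agent.S56.Flat.Count.LocalGalois

variable {p : ℕ} [Fact p.Prime] {L : IntermediateField ℚ_[p] (PadicAlgCl p)}
  {H : Type*} [Group H] (j : H →* (L ≃ₐ[ℚ_[p]] L))

theorem fixF_top_eq :
    fixF j (⊤ : Subgroup H) = IntermediateField.lift (IntermediateField.fixedField j.range) := by
  unfold fixF
  rw [← MonoidHom.range_eq_map]

variable [FiniteDimensional ℚ_[p] L] [IsGalois ℚ_[p] L]

/-- `[L^H : ℚ_p] = (Γ : j(H))`. -/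
theorem finrank_fixF_top :
    Module.finrank ℚ_[p] (fixF j (⊤ : Subgroup H)) = j.range.index := by
  rw [fixF_top_eq]
  have h1 : Module.finrank ℚ_[p]
      (IntermediateField.lift (IntermediateField.fixedField j.range)) =
      Module.finrank ℚ_[p] (IntermediateField.fixedField j.range) :=
    (IntermediateField.liftAlgEquiv (IntermediateField.fixedField j.range)).toLinearEquiv.finrank_eq.symm
  rw [h1, IntermediateField.finrank_eq_fixingSubgroup_index,
    IntermediateField.fixingSubgroup_fixedField]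

/-- `L^H` is unramified over `ℚ_p` if `j(H)` contains the inertia subgroup. -/
theorem isUnramifiedIn_fixF_top (h : inertia L ≤ j.range) :
    IsUnramifiedIn ℤ_[p] (fixF j (⊤ : Subgroup H)) := by
  rw [fixF_top_eq]
  exact isUnramifiedIn_fixedField L h

/-! ### `H = Γ` -/

theorem fixF_id_top :
    fixF (MonoidHom.id (L ≃ₐ[ℚ_[p]] L)) (⊤ : Subgroup (L ≃ₐ[ℚ_[p]] L)) = ⊥ := by
  have h : IntermediateField.fixedField (⊤ : Subgroup (L ≃ₐ[ℚ_[p]] L)) = ⊥ :=
    ((IsGalois.tfae (F := ℚ_[p]) (E := L)).out 0 1).1 ‹IsGalois ℚ_[p] L›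
  rw [fixF_top_eq, MonoidHom.range_eq_top.2 (fun x => ⟨x, rfl⟩), h]
  simp

theorem finrank_fixF_id_top :
    Module.finrank ℚ_[p]
      (fixF (MonoidHom.id (L ≃ₐ[ℚ_[p]] L)) (⊤ : Subgroup (L ≃ₐ[ℚ_[p]] L))) = 1 := by
  rw [finrank_fixF_top, MonoidHom.range_eq_top.2 (fun x => ⟨x, rfl⟩), Subgroup.index_top]

theorem isUnramifiedIn_fixF_id_top :
    IsUnramifiedIn ℤ_[p]
      (fixF (MonoidHom.id (L ≃ₐ[ℚ_[p]] L)) (⊤ : Subgroup (L ≃ₐ[ℚ_[p]] L))) :=
  isUnramifiedIn_fixF_top _ (by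
    rw [MonoidHom.range_eq_top.2 (fun x => ⟨x, rfl⟩)]
    exact le_top)

/-! ### `H` a subgroup of `Γ` -/

theorem finrank_fixF_subtype_top (Γ' : Subgroup (L ≃ₐ[ℚ_[p]] L)) :
    Module.finrank ℚ_[p] (fixF Γ'.subtype (⊤ : Subgroup Γ')) = Γ'.index := by
  rw [finrank_fixF_top, Subgroup.range_subtype]

theorem isUnramifiedIn_fixF_subtype_top (Γ' : Subgroup (L ≃ₐ[ℚ_[p]] L))
    (h : inertia L ≤ Γ') :
    IsUnramifiedIn ℤ_[p] (fixF Γ'.subtype (⊤ : Subgroup Γ')) :=
  isUnramifiedIn_fixF_top _ (by rwa [Subgroup.range_subtype])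

end Fermat.Agent.S56.Flat.Count.FixFDegree
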