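/-
S56, block F (FLAT), leaf [FLC-Tame] (helper24; `moonshots` row 53 §2 (T1)–(T3), board #2574,
#2611): the CONCRETE tame structure of a finite extension `F/K` of complete discretely valued
fields with finite residue fields, with a finite group `Δ` of automorphisms of `𝒪_F` with ring of
invariants `𝒪_K` (NOT assumed faithful: e.g. `Δ = Gal(L/K)` acting through `Gal(F/K)`), feeding
helper3's abstract `S56/Flat/TameCount` (`Main`, `Arith` = COR A / COR B).

Part 1 (generic, Mathlib only):
* `mem_range_of_forall_smul_eq` : `G` finite acting on `B`, invariants in the image of `A`; if the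
  residue class of `b` (under `πB : B → κB`) is fixed by all of `G`, it comes from `κA`
  (`κA` perfect) — the characteristic polynomial `∏ (X - g • b)` reduces to `(X - b̄)^{|G|}`;
* `mem_range_of_pow_card_eq` : `K ⊆ L`, `K` finite with `q` elements, `x ^ q = x` ⇒ `x ∈ K`.

Part 2 (local rings `O₀ → O`, `G` finite acting on `O` with invariants `O₀`, `κ₀` finite):
* `forall_smul_eq_iff_pow_card_eq` : `κ^G = {x | x ^ |κ₀| = x}`;
* `ker_toRingAut_residueField`, `card_eq_card_inertia_mul_finrank` : `|G| = |I| · [κ : κ₀]`.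

Part 3 (S55 `Local/CompleteDVR` setting `O₀, K, F, O`):
* Galois group: `galAction_*`, `inertiaDeg_eq_finrank_residueField`, `card_inertia_gal`
  (`|I| = e`), `theta_gal_injective`, `theta_gal_pow_eq_one_iff` (`θ|_I` has exact exponent `e`);
* arbitrary `Δ` acting on `O` with `hfix₀`, `hinv`: `toGal : Δ →* Gal(F/K)`, `toGal_surjective`,
  `isGalois_of_invariant`, **(T1)** `residue_fixed_iff`, **(T2)** `exact_exponent`,
  **(T3)** `ramificationIdx_dvd_card_sub_one`, `map_maximalIdeal_eq_of_unramified`.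

Part 4: **(T4)** `exists_e₁` (`e = (p-1) e₁`, `(ζ - 1) = 𝔪^{e₁}`), **(T5)** `omega`, `smul_zeta`.

Part 5: `tameCocycle_pow_eq_one_iff` (= `hexact`, verbatim), `corA_hyps`, `corB_hyps`: all the
arithmetic hypotheses of `TameCount.Arith.card_eqMaps_le_of_base` / `card_eqMaps_le_of_quadratic`.
-/
import Mathlib
import Fermat.Agent.S55.Local.ValExt
import Fermat.Agent.S55.Local.KillTransport
import Fermat.Agent.S56.Flat.Count.Inertia
import Fermat.Agent.S56.Flat.TameCount.UnitGraded

set_option autoImplicit false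
set_option linter.unusedSectionVars false
set_option linter.style.haveILetI false

namespace Fermat.Agent.S56.Flat.Count.Tame

open Polynomial

/-! ### Part 1: generic lemmas -/

section Fixed

variable {A B : Type*} [CommRing A] [CommRing B] [Algebra A B]
  {G : Type*} [Group G] [Fintype G] [MulSemiringAction G B]
  {κA κB : Type*} [Field κA] [Field κB] [Algebra κA κB]

/-- If a separable polynomial over `κA` becomes a divisor of `(X - x) ^ n` over `κB ∋ x`, and `x` is
a root, then `x` comes from `κA`. -/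
theorem mem_range_of_map_dvd_pow {μ : κA[X]} (hμ : μ.Separable) {x : κB} {n : ℕ}
    (hdvd : μ.map (algebraMap κA κB) ∣ (X - C x) ^ n) (hroot : aeval x μ = 0) :
    x ∈ Set.range (algebraMap κA κB) := by
  have hsep : (μ.map (algebraMap κA κB)).Separable := hμ.map
  obtain ⟨m, -, hm⟩ := (dvd_prime_pow (prime_X_sub_C x) n).1 hdvd
  have hnu : ¬ IsUnit (X - C x : κB[X]) := not_isUnit_X_sub_C x
  have hsep' : ((X - C x : κB[X]) ^ m).Separable := hm.separable hsep
  have hm1 : m = 1 := by
    by_contra hne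
    rcases hsep'.of_pow' with h | h | h
    · exact hnu h
    · exact hne h.2
    · -- `m = 0`: `μ` would be a unit with a root
      rw [h, pow_zero] at hm
      have hu : IsUnit (μ.map (algebraMap κA κB)) := hm.symm.isUnit isUnit_one
      have hev : (μ.map (algebraMap κA κB)).eval x = 0 := by rwa [eval_map_algebraMap]
      rw [Polynomial.isUnit_iff] at hu
      obtain ⟨r, hr, hr'⟩ := hu
      rw [← hr', eval_C] at hev
      exact hr.ne_zero hev
  rw [hm1, pow_one] at hm
  -- `μ` has degree one
  have hdeg : μ.natDegree = 1 := by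
    rw [← natDegree_map (algebraMap κA κB), natDegree_eq_of_degree_eq (degree_eq_degree_of_associated hm),
      natDegree_X_sub_C]
  have hμeq := eq_X_add_C_of_natDegree_le_one hdeg.le
  have ha : μ.coeff 1 ≠ 0 := by
    have := leadingCoeff_ne_zero.2 hμ.ne_zero
    rwa [leadingCoeff, hdeg] at this
  rw [hμeq] at hroot
  simp only [map_add, map_mul, aeval_C, aeval_X] at hroot
  refine ⟨-(μ.coeff 0) / μ.coeff 1, ?_⟩
  have ha' : algebraMap κA κB (μ.coeff 1) ≠ 0 := by
    rwa [Ne, map_eq_zero]
  rw [map_div₀, map_neg]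
  field_simp
  linear_combination -hroot

variable [PerfectField κA]

/-- **Residues fixed by the whole group come from the invariants.** -/
theorem mem_range_of_forall_smul_eq
    (hinv : ∀ b : B, (∀ g : G, g • b = b) → ∃ a : A, algebraMap A B a = b)
    (πA : A →+* κA) (πB : B →+* κB)
    (hπ : ∀ a, πB (algebraMap A B a) = algebraMap κA κB (πA a))
    (b : B) (hb : ∀ g : G, πB (g • b) = πB b) :
    πB b ∈ Set.range (algebraMap κA κB) := by
  -- the characteristic polynomial descends to `A`
  have hlift : MulSemiringAction.charpoly G b ∈ Polynomial.lifts (algebraMap A B) :=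
    (MulSemiringAction.charpoly G b).lifts_iff_coeff_lifts.mpr fun n => by
      obtain ⟨a, ha⟩ := hinv _ (MulSemiringAction.smul_coeff_charpoly b n)
      exact ⟨a, ha⟩
  obtain ⟨M, hM⟩ := (mem_lifts _).1 hlift
  -- its reduction
  have hred : (M.map πA).map (algebraMap κA κB) = (X - C (πB b)) ^ Fintype.card G := by
    have h1 : (M.map πA).map (algebraMap κA κB) = (M.map (algebraMap A B)).map πB := by
      rw [map_map, map_map]
      congr 1
      ext a
      exact (hπ a).symm
    rw [h1, hM, MulSemiringAction.charpoly_eq, Polynomial.map_prod]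
    simp only [Polynomial.map_sub, map_X, map_C, hb]
    rw [Finset.prod_const, Finset.card_univ]
  have hcard : Fintype.card G ≠ 0 := Fintype.card_ne_zero
  have hN0 : M.map πA ≠ 0 := by
    intro h0
    rw [h0, Polynomial.map_zero] at hred
    exact (pow_ne_zero _ (X_sub_C_ne_zero (πB b))) hred.symm
  have hNroot : aeval (πB b) (M.map πA) = 0 := by
    rw [← eval_map_algebraMap, hred, eval_pow, eval_sub, eval_X, eval_C, sub_self,
      zero_pow hcard]
  have hint : IsIntegral κA (πB b) :=
    (isAlgebraic_iff_isIntegral).1 ⟨M.map πA, hN0, hNroot⟩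
  have hsep : (minpoly κA (πB b)).Separable :=
    PerfectField.separable_of_irreducible (minpoly.irreducible hint)
  have hdvd : (minpoly κA (πB b)).map (algebraMap κA κB) ∣ (X - C (πB b)) ^ Fintype.card G := by
    rw [← hred]
    exact Polynomial.map_dvd _ (minpoly.dvd κA (πB b) hNroot)
  exact mem_range_of_map_dvd_pow hsep hdvd (minpoly.aeval κA (πB b))

end Fixed

section FiniteSub

variable {K L : Type*} [Field K] [Field L] [Algebra K L] [Finite K]

/-- The elements of an extension of a finite field `K` with `x ^ |K| = x` are those of `K`. -/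
theorem mem_range_of_pow_card_eq {x : L} (hx : x ^ Nat.card K = x) :
    x ∈ Set.range (algebraMap K L) := by
  classical
  haveI := Fintype.ofFinite K
  set q := Nat.card K with hq
  have hq1 : 1 < q := Finite.one_lt_card
  have hP0 : (X ^ q - X : L[X]) ≠ 0 := FiniteField.X_pow_card_sub_X_ne_zero L hq1
  -- the image of `K` consists of `q` roots
  have himg : Finset.univ.image (algebraMap K L) ⊆ (X ^ q - X : L[X]).roots.toFinset := by
    intro y hy
    obtain ⟨a, -, rfl⟩ := Finset.mem_image.1 hy
    rw [Multiset.mem_toFinset, mem_roots hP0, IsRoot, eval_sub, eval_pow, eval_X, ← map_pow, hq,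
      Nat.card_eq_fintype_card, FiniteField.pow_card, sub_self]
  have hcard : (X ^ q - X : L[X]).roots.toFinset.card ≤ (Finset.univ.image (algebraMap K L)).card := by
    rw [Finset.card_image_of_injective _ (algebraMap K L).injective, Finset.card_univ,
      ← Nat.card_eq_fintype_card, ← hq]
    calc (X ^ q - X : L[X]).roots.toFinset.card ≤ Multiset.card (X ^ q - X : L[X]).roots :=
          Multiset.toFinset_card_le _
      _ ≤ (X ^ q - X : L[X]).natDegree := card_roots' _
      _ = q := FiniteField.X_pow_card_sub_X_natDegree_eq L hq1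
  have heq := Finset.eq_of_subset_of_card_le himg hcard
  have hxroot : x ∈ (X ^ q - X : L[X]).roots.toFinset := by
    rw [Multiset.mem_toFinset, mem_roots hP0, IsRoot, eval_sub, eval_pow, eval_X, hx, sub_self]
  rw [← heq] at hxroot
  obtain ⟨a, -, ha⟩ := Finset.mem_image.1 hxroot
  exact ⟨a, ha⟩

theorem mem_range_iff_pow_card_eq {x : L} :
    x ∈ Set.range (algebraMap K L) ↔ x ^ Nat.card K = x := by
  refine ⟨?_, mem_range_of_pow_card_eq⟩
  rintro ⟨a, rfl⟩
  haveI := Fintype.ofFinite K
  rw [← map_pow, Nat.card_eq_fintype_card, FiniteField.pow_card]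

end FiniteSub

/-! ### Part 2: the fixed points of a finite group on the residue field -/

section Residue

open IsLocalRing

variable {O₀ O : Type*} [CommRing O₀] [IsLocalRing O₀] [CommRing O] [IsLocalRing O]
  [Algebra O₀ O] [IsLocalHom (algebraMap O₀ O)]
  {G : Type*} [Group G] [Finite G] [MulSemiringAction G O] [Finite (ResidueField O₀)]

/-- **(`hf₀`)** Let a finite group `G` act on the local ring `O` with ring of invariants (the image
of) `O₀`, `O₀` with finite residue field of `q` elements.  Then the elements of the residue field of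
`O` fixed by `G` are exactly the solutions of `x ^ q = x`. -/
theorem forall_smul_eq_iff_pow_card_eq
    (hfix : ∀ (g : G) (a : O₀), g • algebraMap O₀ O a = algebraMap O₀ O a)
    (hinv : ∀ b : O, (∀ g : G, g • b = b) → ∃ a : O₀, algebraMap O₀ O a = b)
    (x : ResidueField O) :
    (∀ g : G, g • x = x) ↔ x ^ Nat.card (ResidueField O₀) = x := by
  cases nonempty_fintype G
  rw [← mem_range_iff_pow_card_eq (K := ResidueField O₀)]
  obtain ⟨b, rfl⟩ := residue_surjective x
  constructor
  · intro h
    refine mem_range_of_forall_smul_eq (G := G) hinv (residue O₀) (residue O) (fun a => rfl) b ?_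
    intro g
    rw [ResidueField.residue_smul]
    exact h g
  · rintro ⟨a, ha⟩ g
    obtain ⟨a, rfl⟩ := residue_surjective a
    have : residue O (algebraMap O₀ O a) = residue O b := ha
    rw [← this, ← ResidueField.residue_smul, hfix]

omit [IsLocalRing O₀] [IsLocalRing O] [IsLocalHom (algebraMap O₀ O)] [Finite G]
  [MulSemiringAction G O] [Finite (ResidueField O₀)] in
/-- the degree over a subfield which is the image of `κ₀` -/
theorem finrank_subfield_eq {κ₀ κ : Type*} [Field κ₀] [Field κ] [Algebra κ₀ κ] (S : Subfield κ)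
    (h : ∀ x, x ∈ S ↔ x ∈ Set.range (algebraMap κ₀ κ)) :
    Module.finrank S κ = Module.finrank κ₀ κ := by
  let f : κ₀ →+* S := (algebraMap κ₀ κ).codRestrict S (fun a => (h _).2 ⟨a, rfl⟩)
  have hf : Function.Bijective f := by
    refine ⟨?_, ?_⟩
    · intro a b hab
      exact (algebraMap κ₀ κ).injective (congrArg Subtype.val hab)
    · rintro ⟨x, hx⟩
      obtain ⟨a, rfl⟩ := (h x).1 hx
      exact ⟨a, rfl⟩
  symm
  refine Algebra.finrank_eq_of_equiv_equiv (RingEquiv.ofBijective f hf) (RingEquiv.refl κ) ?_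
  ext a
  rfl

omit [IsLocalRing O₀] [IsLocalHom (algebraMap O₀ O)] [Finite G] [Finite (ResidueField O₀)]
  [Algebra O₀ O] in
/-- the kernel of the action on the residue field is the inertia subgroup -/
theorem ker_toRingAut_residueField :
    (MulSemiringAction.toRingAut G (ResidueField O)).ker = (maximalIdeal O).inertia G := by
  ext g
  rw [MonoidHom.mem_ker]
  constructor
  · intro h x
    have h1 := congrArg (fun f : RingAut (ResidueField O) => f (residue O x)) h
    simp only [MulSemiringAction.toRingAut_apply, MulSemiringAction.toRingEquiv_apply_apply,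
      RingAut.one_apply] at h1
    rw [← ResidueField.residue_smul] at h1
    show g • x - x ∈ maximalIdeal O
    rw [← residue_eq_zero_iff, map_sub, h1, sub_self]
  · intro h
    ext x
    obtain ⟨x, rfl⟩ := residue_surjective x
    simp only [MulSemiringAction.toRingAut_apply, MulSemiringAction.toRingEquiv_apply_apply,
      RingAut.one_apply]
    rw [← ResidueField.residue_smul, ← sub_eq_zero, ← map_sub, residue_eq_zero_iff]
    exact h x

/-- **`|G| = |I| · f`**: the group acts on the residue field through `G/I`, which is the full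
Galois group of the residue extension. -/
theorem card_eq_card_inertia_mul_finrank
    (hfix : ∀ (g : G) (a : O₀), g • algebraMap O₀ O a = algebraMap O₀ O a)
    (hinv : ∀ b : O, (∀ g : G, g • b = b) → ∃ a : O₀, algebraMap O₀ O a = b) :
    Nat.card G = Nat.card ((maximalIdeal O).inertia G) *
      Module.finrank (ResidueField O₀) (ResidueField O) := by
  classical
  set ρ := MulSemiringAction.toRingAut G (ResidueField O) with hρ
  haveI : Finite ρ.range := Finite.of_surjective _ ρ.rangeRestrict_surjective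
  cases nonempty_fintype ρ.range
  -- the fixed field of the image is the image of `κ₀`
  have hfixed : ∀ x : ResidueField O, x ∈ FixedPoints.subfield ρ.range (ResidueField O) ↔
      x ∈ Set.range (algebraMap (ResidueField O₀) (ResidueField O)) := by
    intro x
    rw [mem_range_iff_pow_card_eq, ← forall_smul_eq_iff_pow_card_eq (G := G) hfix hinv x]
    constructor
    · intro h g
      exact h ⟨ρ g, ⟨g, rfl⟩⟩
    · rintro h ⟨_, ⟨g, rfl⟩⟩
      exact h g
  have h1 := FixedPoints.finrank_eq_card ρ.range (ResidueField O)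
  rw [finrank_subfield_eq _ hfixed, ← Nat.card_eq_fintype_card] at h1
  rw [h1, ← Subgroup.index_ker, ker_toRingAut_residueField, Subgroup.card_mul_index]

end Residue

/-! ### Part 3: a finite extension of the fraction field of a complete DVR (setting of S55
`Local/CompleteDVR`): the Galois group acting on the integral closure -/

section Field

open IsLocalRing Fermat.Agent.S55.Local Fermat.Agent.S56.Flat.Count.Inertia

variable (O₀ : Type*) [CommRing O₀] [IsDomain O₀] [IsDiscreteValuationRing O₀]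
  [IsAdicComplete (maximalIdeal O₀) O₀] [Finite (ResidueField O₀)]
  (K : Type*) [Field K] [Algebra O₀ K] [IsFractionRing O₀ K]
  (F : Type*) [Field F] [Algebra K F] [Algebra O₀ F] [IsScalarTower O₀ K F]
  [FiniteDimensional K F] [Algebra.IsSeparable K F]
  (O : Type*) [CommRing O] [IsDomain O] [IsDiscreteValuationRing O]
  [Algebra O₀ O] [Algebra O F] [IsScalarTower O₀ O F] [IsIntegralClosure O O₀ F]

include K F in
theorem algebraMap_base_injective : Function.Injective (algebraMap O₀ O) := by
  intro a b hab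
  have h1 : algebraMap O₀ F a = algebraMap O₀ F b := by
    rw [IsScalarTower.algebraMap_apply O₀ O F, hab, ← IsScalarTower.algebraMap_apply]
  rw [IsScalarTower.algebraMap_apply O₀ K F, IsScalarTower.algebraMap_apply O₀ K F] at h1
  exact IsFractionRing.injective O₀ K ((algebraMap K F).injective h1)

include K F in
theorem isLocalHom_algebraMap : IsLocalHom (algebraMap O₀ O) := by
  haveI : Algebra.IsIntegral O₀ O := IsIntegralClosure.isIntegral_algebra O₀ F
  haveI : FaithfulSMul O₀ O :=
    (faithfulSMul_iff_algebraMap_injective O₀ O).2 (algebraMap_base_injective O₀ K F O)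
  infer_instance

/-- the Galois group fixes the base ring -/
theorem galAction_algebraMap (g : F ≃ₐ[K] F) (a : O₀) :
    letI := IsIntegralClosure.MulSemiringAction O₀ K F O
    g • algebraMap O₀ O a = algebraMap O₀ O a := by
  letI := IsIntegralClosure.MulSemiringAction O₀ K F O
  exact (galRestrict O₀ K F O g).commutes a

/-- compatibility with the action on `F` -/
theorem algebraMap_galAction (g : F ≃ₐ[K] F) (b : O) :
    letI := IsIntegralClosure.MulSemiringAction O₀ K F O
    algebraMap O F (g • b) = g (algebraMap O F b) := by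
  letI := IsIntegralClosure.MulSemiringAction O₀ K F O
  exact algebraMap_galRestrict_apply O₀ g b

/-- the invariants are the base ring -/
theorem galAction_invariant [IsGalois K F] (b : O)
    (hb : letI := IsIntegralClosure.MulSemiringAction O₀ K F O
      ∀ g : F ≃ₐ[K] F, g • b = b) : ∃ a : O₀, algebraMap O₀ O a = b := by
  letI := IsIntegralClosure.MulSemiringAction O₀ K F O
  haveI : IsFractionRing O F := isFractionRing_of_isIntegralClosure O₀ K F O
  exact (Algebra.isInvariant_of_isGalois O₀ K F O).isInvariant b hb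

/-- the action is faithful -/
theorem galAction_faithful :
    letI := IsIntegralClosure.MulSemiringAction O₀ K F O
    FaithfulSMul (F ≃ₐ[K] F) O := by
  letI := IsIntegralClosure.MulSemiringAction O₀ K F O
  haveI : IsFractionRing O F := isFractionRing_of_isIntegralClosure O₀ K F O
  refine ⟨fun {g h} hgh => ?_⟩
  apply AlgEquiv.ext
  intro x
  obtain ⟨b, c, hc, rfl⟩ := IsFractionRing.div_surjective (A := O) x
  rw [map_div₀, map_div₀, ← algebraMap_galAction O₀ K F O g b, ← algebraMap_galAction O₀ K F O g c,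
    ← algebraMap_galAction O₀ K F O h b, ← algebraMap_galAction O₀ K F O h c, hgh b, hgh c]

include K F in
/-- `f(F/K) = [κ_F : κ_K]` in terms of the residue fields `IsLocalRing.ResidueField`. -/
theorem inertiaDeg_eq_finrank_residueField :
    haveI := isLocalHom_algebraMap O₀ K F O
    (maximalIdeal O).inertiaDeg O₀ = Module.finrank (ResidueField O₀) (ResidueField O) := by
  haveI := isLocalHom_algebraMap O₀ K F O
  haveI := Fermat.Agent.S55.GL.LocalDegrees.liesOver_maximalIdeal O₀ K F O
  rw [Ideal.inertiaDeg_eq_of_isMaximal (maximalIdeal O₀) (maximalIdeal O)]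
  refine Algebra.finrank_eq_of_equiv_equiv (RingEquiv.refl _) (RingEquiv.refl _) ?_
  apply Ideal.Quotient.ringHom_ext
  ext a
  rfl

/-- **`|I| = e`** for the Galois group of a finite Galois extension of complete discretely valued
fields with finite residue fields. -/
theorem card_inertia_gal [IsGalois K F] {e : ℕ}
    (he : (maximalIdeal O₀).map (algebraMap O₀ O) = maximalIdeal O ^ e) :
    letI := IsIntegralClosure.MulSemiringAction O₀ K F O
    Nat.card ((maximalIdeal O).inertia (F ≃ₐ[K] F)) = e := by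
  letI := IsIntegralClosure.MulSemiringAction O₀ K F O
  haveI := isLocalHom_algebraMap O₀ K F O
  have h1 := card_eq_card_inertia_mul_finrank (O₀ := O₀) (O := O) (G := F ≃ₐ[K] F)
    (galAction_algebraMap O₀ K F O) (galAction_invariant O₀ K F O)
  have h2 : Nat.card (F ≃ₐ[K] F) = Module.finrank K F := IsGalois.card_aut_eq_finrank K F
  have h3 := Fermat.Agent.S55.GL.LocalDegrees.ramificationIdx_mul_inertiaDeg_eq_finrank O₀ K F O
  have h4 : (maximalIdeal O).ramificationIdx O₀ = e := by
    have := map_maximalIdeal_eq_pow_ramificationIdx O₀ K F O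
    rw [he] at this
    exact (KillTransport.pow_maximalIdeal_injective O this).symm
  have h5 := inertiaDeg_eq_finrank_residueField O₀ K F O
  have hf : 0 < Module.finrank (ResidueField O₀) (ResidueField O) := by
    rw [← h5]
    haveI := finite_of_isIntegralClosure O₀ K F O
    exact Ideal.inertiaDeg_pos _ _
  rw [h2, ← h3, h4, h5] at h1
  exact (Nat.eq_of_mul_eq_mul_right hf h1).symm

/-- In the tame case `θ` is injective on the inertia subgroup of the Galois group
(exponent form of tameness). -/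
theorem theta_gal_injective {m : ℕ} (hm : IsUnit (m : O))
    (hpow : ∀ g : F ≃ₐ[K] F, g ^ m = 1) {ϖ : O} (hϖ : Irreducible ϖ) :
    letI := IsIntegralClosure.MulSemiringAction O₀ K F O
    Function.Injective (theta hϖ : (maximalIdeal O).inertia (F ≃ₐ[K] F) →* _) := by
  letI := IsIntegralClosure.MulSemiringAction O₀ K F O
  haveI := galAction_faithful O₀ K F O
  rw [injective_iff_map_eq_one]
  intro g hg
  have hw : (g : F ≃ₐ[K] F) ∈ wildInertia (F ≃ₐ[K] F) O := (mem_ker_theta_iff hϖ g).mp hg
  exact Subtype.ext (eq_one_of_mem_wildInertia hw (hpow _) hm)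

/-- **Exactness of the tame character on the Galois group**: `θ|_I` has exact exponent `e`. -/
theorem theta_gal_pow_eq_one_iff [IsGalois K F] {e : ℕ}
    (he : (maximalIdeal O₀).map (algebraMap O₀ O) = maximalIdeal O ^ e)
    {m : ℕ} (hm : IsUnit (m : O)) (hpow : ∀ g : F ≃ₐ[K] F, g ^ m = 1)
    {ϖ : O} (hϖ : Irreducible ϖ) (n : ℕ) :
    letI := IsIntegralClosure.MulSemiringAction O₀ K F O
    (∀ g : (maximalIdeal O).inertia (F ≃ₐ[K] F), theta hϖ g ^ n = 1) ↔ e ∣ n := by
  letI := IsIntegralClosure.MulSemiringAction O₀ K F O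
  have hinj := theta_gal_injective O₀ K F O hm hpow hϖ
  have hcard := card_inertia_gal O₀ K F O he
  set I := (maximalIdeal O).inertia (F ≃ₐ[K] F) with hI
  haveI : IsCyclic I := by
    refine isCyclic_of_injective_ringHom
      ((Units.coeHom (ResidueField O)).comp (theta hϖ : I →* _)) ?_
    intro a b hab
    exact hinj (Units.ext hab)
  obtain ⟨g₀, hg₀⟩ := IsCyclic.exists_ofOrder_eq_natCard (α := I)
  rw [hcard] at hg₀
  constructor
  · intro h
    have h1 : theta hϖ (g₀ ^ n) = 1 := by rw [map_pow, h g₀]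
    have h2 : g₀ ^ n = 1 := hinj (by rw [h1, map_one])
    rw [← hg₀]
    exact orderOf_dvd_of_pow_eq_one h2
  · rintro ⟨c, rfl⟩ g
    rw [← map_pow, pow_mul, ← hcard, pow_card_eq_one', one_pow, map_one]

/-! #### an arbitrary finite group acting on `O` with invariants `O₀` -/

variable {Δ : Type*} [Group Δ] [MulSemiringAction Δ O]

/-- the `K`-automorphism of `F` induced by `δ : Δ` -/
noncomputable def toGal
    (hfix₀ : ∀ (δ : Δ) (a : O₀), δ • algebraMap O₀ O a = algebraMap O₀ O a) :
    Δ →* (F ≃ₐ[K] F) :=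
  haveI : SMulCommClass Δ O₀ O :=
    ⟨fun δ a b => by rw [Algebra.smul_def, smul_mul', hfix₀, Algebra.smul_def]⟩
  ((galRestrict O₀ K F O).symm.toMonoidHom).comp (MulSemiringAction.toAlgAut Δ O₀ O)

variable (hfix₀ : ∀ (δ : Δ) (a : O₀), δ • algebraMap O₀ O a = algebraMap O₀ O a)

theorem toGal_algebraMap (δ : Δ) (b : O) :
    toGal O₀ K F O hfix₀ δ (algebraMap O F b) = algebraMap O F (δ • b) := by
  haveI : SMulCommClass Δ O₀ O :=
    ⟨fun δ a b => by rw [Algebra.smul_def, smul_mul', hfix₀, Algebra.smul_def]⟩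
  exact galRestrict_symm_algebraMap_apply O₀ K (MulSemiringAction.toAlgAut Δ O₀ O δ) b

/-- the Galois action of `toGal δ` is the action of `δ` -/
theorem toGal_smul (δ : Δ) (b : O) :
    letI := IsIntegralClosure.MulSemiringAction O₀ K F O
    toGal O₀ K F O hfix₀ δ • b = δ • b := by
  letI := IsIntegralClosure.MulSemiringAction O₀ K F O
  apply IsIntegralClosure.algebraMap_injective O O₀ F
  rw [algebraMap_galAction, toGal_algebraMap]

theorem toGal_smul_residue (δ : Δ) (x : ResidueField O) :
    letI := IsIntegralClosure.MulSemiringAction O₀ K F O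
    toGal O₀ K F O hfix₀ δ • x = δ • x := by
  letI := IsIntegralClosure.MulSemiringAction O₀ K F O
  obtain ⟨b, rfl⟩ := residue_surjective x
  rw [← ResidueField.residue_smul, ← ResidueField.residue_smul, toGal_smul]

variable (hinv : ∀ b : O, (∀ δ : Δ, δ • b = b) → ∃ a : O₀, algebraMap O₀ O a = b)

include hinv in
/-- the fixed field of the image of `Δ` is `K` -/
theorem fixedField_range_toGal :
    IntermediateField.fixedField (toGal O₀ K F O hfix₀).range = ⊥ := by
  rw [eq_bot_iff]
  intro x hx
  rw [IntermediateField.mem_fixedField_iff] at hx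
  haveI := IsIntegralClosure.isLocalization O₀ K F O
  obtain ⟨⟨b, ⟨_, a, ha, rfl⟩⟩, hb⟩ :=
    IsLocalization.surj (Algebra.algebraMapSubmonoid O (nonZeroDivisors O₀)) x
  simp only at hb
  have ha0 : a ≠ 0 := nonZeroDivisors.ne_zero ha
  have hfixb : ∀ δ : Δ, δ • b = b := by
    intro δ
    apply IsIntegralClosure.algebraMap_injective O O₀ F
    rw [← toGal_algebraMap O₀ K F O hfix₀ δ b, ← hb, map_mul,
      hx _ ⟨δ, rfl⟩, toGal_algebraMap, hfix₀]
  obtain ⟨a', ha'⟩ := hinv b hfixb
  rw [IntermediateField.mem_bot]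
  refine ⟨algebraMap O₀ K a' / algebraMap O₀ K a, ?_⟩
  have ha0F : algebraMap O F (algebraMap O₀ O a) ≠ 0 := by
    rw [← IsScalarTower.algebraMap_apply, IsScalarTower.algebraMap_apply O₀ K F]
    exact (map_ne_zero_iff _ (algebraMap K F).injective).2
      ((map_ne_zero_iff _ (IsFractionRing.injective O₀ K)).2 ha0)
  rw [map_div₀, ← IsScalarTower.algebraMap_apply, ← IsScalarTower.algebraMap_apply,
    IsScalarTower.algebraMap_apply O₀ O F a', IsScalarTower.algebraMap_apply O₀ O F a, ha', ← hb]
  field_simp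

include hinv in
/-- **`Δ → Gal(F/K)` is onto** (the fixed field of the image is `K`). -/
theorem toGal_surjective : Function.Surjective (toGal O₀ K F O hfix₀) := by
  rw [← MonoidHom.range_eq_top]
  have := IntermediateField.fixingSubgroup_fixedField (toGal O₀ K F O hfix₀).range
  rw [fixedField_range_toGal O₀ K F O hfix₀ hinv, IntermediateField.fixingSubgroup_bot] at this
  exact this.symm

include hinv hfix₀ in
/-- `F/K` is Galois. -/
theorem isGalois_of_invariant : IsGalois K F := by
  apply IsGalois.of_fixedField_eq_bot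
  have hsurj := toGal_surjective O₀ K F O hfix₀ hinv
  rw [← MonoidHom.range_eq_top] at hsurj
  rw [← hsurj]
  exact fixedField_range_toGal O₀ K F O hfix₀ hinv

include K F hfix₀ hinv in
/-- **(T1) (`hfix` of `TameCount/Main`)**: the elements of the residue field of `O` fixed by `Δ`
are the solutions of `x ^ q₀ = x`, `q₀ = |κ_K|`. -/
theorem residue_fixed_iff [Finite Δ] (x : ResidueField O) :
    (∀ δ : Δ, δ • x = x) ↔ x ^ Nat.card (ResidueField O₀) = x := by
  haveI := isLocalHom_algebraMap O₀ K F O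
  exact forall_smul_eq_iff_pow_card_eq hfix₀ hinv x

/-- membership in the inertia subgroup, in the form used by `TameCount` -/
theorem forall_smul_residue_eq_iff (i : Δ) :
    letI := IsIntegralClosure.MulSemiringAction O₀ K F O
    (∀ x : ResidueField O, i • x = x) ↔
      toGal O₀ K F O hfix₀ i ∈ (maximalIdeal O).inertia (F ≃ₐ[K] F) := by
  letI := IsIntegralClosure.MulSemiringAction O₀ K F O
  constructor
  · intro h b
    show toGal O₀ K F O hfix₀ i • b - b ∈ maximalIdeal O
    rw [toGal_smul, ← residue_eq_zero_iff, map_sub, ResidueField.residue_smul, h, sub_self]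
  · intro h x
    obtain ⟨b, rfl⟩ := residue_surjective x
    have := h b
    change toGal O₀ K F O hfix₀ i • b - b ∈ maximalIdeal O at this
    rw [toGal_smul, ← residue_eq_zero_iff, map_sub, sub_eq_zero] at this
    rw [← ResidueField.residue_smul, this]

include hfix₀ hinv in
/-- tameness in exponent form passes to the Galois group -/
theorem gal_pow_eq_one {m : ℕ} (hpow : ∀ (δ : Δ) (b : O), δ ^ m • b = b) (g : F ≃ₐ[K] F) :
    g ^ m = 1 := by
  letI := IsIntegralClosure.MulSemiringAction O₀ K F O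
  haveI := galAction_faithful O₀ K F O
  obtain ⟨δ, rfl⟩ := toGal_surjective O₀ K F O hfix₀ hinv g
  rw [← map_pow]
  apply eq_of_smul_eq_smul (α := O)
  intro b
  rw [toGal_smul, hpow, one_smul]

include K F hfix₀ hinv in
/-- **(T2) (`hexact` of `TameCount/Arith`, COR B)**: the tame cocycle restricted to the inertia
subgroup has exact exponent `e = e(F/K)`.  Here `t δ` is the residue class of `δ ϖ / ϖ`. -/
theorem exact_exponent {e : ℕ}
    (he : (maximalIdeal O₀).map (algebraMap O₀ O) = maximalIdeal O ^ e)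
    {m : ℕ} (hm : IsUnit (m : O)) (hpow : ∀ (δ : Δ) (b : O), δ ^ m • b = b)
    {ϖ : O} (hϖ : Irreducible ϖ) (t : Δ → ResidueField O)
    (ht : ∀ (δ : Δ) (u : O), δ • ϖ = ϖ * u → t δ = residue O u) (n : ℕ) :
    (∀ i : Δ, (∀ x : ResidueField O, i • x = x) → t i ^ n = 1) ↔ e ∣ n := by
  haveI := isGalois_of_invariant O₀ K F O hfix₀ hinv
  letI := IsIntegralClosure.MulSemiringAction O₀ K F O
  have hsurj := toGal_surjective O₀ K F O hfix₀ hinv
  have hpowG := gal_pow_eq_one O₀ K F O hfix₀ hinv hpow
  rw [← theta_gal_pow_eq_one_iff O₀ K F O he hm hpowG hϖ n]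
  have hmem := forall_smul_residue_eq_iff O₀ K F O hfix₀
  have hθ : ∀ (i : Δ) (hi : toGal O₀ K F O hfix₀ i ∈ (maximalIdeal O).inertia (F ≃ₐ[K] F)),
      ((theta hϖ ⟨_, hi⟩ : (ResidueField O)ˣ) : ResidueField O) = t i := by
    intro i hi
    obtain ⟨u, hu⟩ := exists_smul_eq_mul i hϖ
    rw [ht i u hu]
    exact coe_theta_eq hϖ ⟨_, hi⟩ (by rw [toGal_smul]; exact hu)
  constructor
  · intro h g
    obtain ⟨δ, hδ⟩ := hsurj (g : F ≃ₐ[K] F)
    have hi : toGal O₀ K F O hfix₀ δ ∈ (maximalIdeal O).inertia (F ≃ₐ[K] F) := hδ ▸ g.2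
    have h1 := h δ ((hmem δ).2 hi)
    rw [← hθ δ hi] at h1
    have hg : g = ⟨_, hi⟩ := Subtype.ext hδ.symm
    rw [hg]
    apply Units.ext
    rw [Units.val_pow_eq_pow_val, h1, Units.val_one]
  · intro h i hi
    have hi' := (hmem i).1 hi
    rw [← hθ i hi', ← Units.val_pow_eq_pow_val, h ⟨_, hi'⟩, Units.val_one]

include K F hfix₀ hinv in
/-- **(T3)**: if `Δ` acts through a commutative group then `e(F/K) ∣ q₀ - 1`
(COR A: `K = ℚ_p`, `ζ_p ∈ F` give `e = p - 1`, `e₁ = 1`). -/
theorem ramificationIdx_dvd_card_sub_one {e : ℕ}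
    (he : (maximalIdeal O₀).map (algebraMap O₀ O) = maximalIdeal O ^ e)
    {m : ℕ} (hm : IsUnit (m : O)) (hpow : ∀ (δ : Δ) (b : O), δ ^ m • b = b)
    (hcomm : ∀ (δ δ' : Δ) (x : O), δ • δ' • x = δ' • δ • x) :
    e ∣ Nat.card (ResidueField O₀) - 1 := by
  haveI := isGalois_of_invariant O₀ K F O hfix₀ hinv
  letI := IsIntegralClosure.MulSemiringAction O₀ K F O
  haveI := galAction_faithful O₀ K F O
  haveI := isLocalHom_algebraMap O₀ K F O
  have hsurj := toGal_surjective O₀ K F O hfix₀ hinv
  have hpowG := gal_pow_eq_one O₀ K F O hfix₀ hinv hpow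
  obtain ⟨ϖ, hϖ⟩ := IsDiscreteValuationRing.exists_irreducible O
  rw [← theta_gal_pow_eq_one_iff O₀ K F O he hm hpowG hϖ]
  intro g
  have hcommG : ∀ g' : F ≃ₐ[K] F, Commute g' (g : F ≃ₐ[K] F) := by
    intro g'
    obtain ⟨δ, hδ⟩ := hsurj (g : F ≃ₐ[K] F)
    obtain ⟨δ', rfl⟩ := hsurj g'
    rw [← hδ]
    apply eq_of_smul_eq_smul (α := O)
    intro b
    rw [mul_smul, mul_smul, toGal_smul, toGal_smul, toGal_smul, toGal_smul, hcomm]
  have hfixθ : ∀ g' : F ≃ₐ[K] F, g' • ((theta hϖ g : (ResidueField O)ˣ) : ResidueField O)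
      = ((theta hϖ g : (ResidueField O)ˣ) : ResidueField O) :=
    fun g' => smul_coe_theta_of_commute hϖ g' g (hcommG g')
  have h1 := (forall_smul_eq_iff_pow_card_eq (O₀ := O₀) (O := O) (G := F ≃ₐ[K] F)
    (galAction_algebraMap O₀ K F O) (galAction_invariant O₀ K F O) _).1 hfixθ
  have hq : 1 ≤ Nat.card (ResidueField O₀) := Nat.card_pos
  apply Units.ext
  rw [Units.val_pow_eq_pow_val, Units.val_one]
  have h2 : ((theta hϖ g : (ResidueField O)ˣ) : ResidueField O) ^ (Nat.card (ResidueField O₀) - 1)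
      * ((theta hϖ g : (ResidueField O)ˣ) : ResidueField O)
      = 1 * ((theta hϖ g : (ResidueField O)ˣ) : ResidueField O) := by
    rw [← pow_succ, Nat.sub_add_cancel hq, h1, one_mul]
  exact mul_right_cancel₀ (Units.ne_zero _) h2

/-- `𝔪_K O = (p)` when `K/ℚ_p` is unramified -/
theorem map_maximalIdeal_eq_of_unramified {p e : ℕ}
    (hp₀ : maximalIdeal O₀ = Ideal.span {(p : O₀)})
    (hpe : Ideal.span {(p : O)} = maximalIdeal O ^ e) :
    (maximalIdeal O₀).map (algebraMap O₀ O) = maximalIdeal O ^ e := by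
  rw [hp₀, Ideal.map_span, Set.image_singleton, map_natCast, hpe]

end Field

/-! ### Part 4: the `p`-th roots of unity (any DVR, any group action) -/

section Cyclo

open IsLocalRing Fermat.Agent.S55.Local

variable {O : Type*} [CommRing O] [IsDomain O] [IsDiscreteValuationRing O] {p : ℕ} [Fact p.Prime]

/-- **(T4)**: if `(p) = 𝔪 ^ e` and `ζ` is a primitive `p`-th root of unity then `e = (p - 1) e₁`
with `(ζ - 1) = 𝔪 ^ e₁`. -/
theorem exists_e₁ {e : ℕ} (he0 : 0 < e) (hpe : Ideal.span {(p : O)} = maximalIdeal O ^ e)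
    {ζ : O} (hζ : IsPrimitiveRoot ζ p) :
    ∃ e₁ : ℕ, 1 ≤ e₁ ∧ e = (p - 1) * e₁ ∧ Ideal.span {ζ - 1} = maximalIdeal O ^ e₁ := by
  have hp : p.Prime := Fact.out
  obtain ⟨ϖ, hϖ⟩ := IsDiscreteValuationRing.exists_irreducible O
  have hζ1 : ζ - 1 ≠ 0 := sub_ne_zero.2 (hζ.ne_one hp.one_lt)
  obtain ⟨e₁, u, hu⟩ := IsDiscreteValuationRing.eq_unit_mul_pow_irreducible hζ1 hϖ
  have hspan : Ideal.span {ζ - 1} = maximalIdeal O ^ e₁ := by
    rw [hu, hϖ.maximalIdeal_eq, Ideal.span_singleton_pow]
    exact Ideal.span_singleton_eq_span_singleton.2 (associated_unit_mul_left _ _ u.isUnit)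
  have h := Fermat.Agent.S55.GL.LocalDegrees.associated_sub_one_pow_natCast (A := O) (p := p)
    (k := 0) (ζ := ζ) (by simpa using hζ)
  have h2 : Ideal.span {(p : O)} = maximalIdeal O ^ ((p - 1) * e₁) := by
    rw [← Ideal.span_singleton_eq_span_singleton.2 h, pow_zero, one_mul,
      ← Ideal.span_singleton_pow, hspan, ← pow_mul, mul_comm]
  have he : e = (p - 1) * e₁ := by
    rw [hpe] at h2
    exact KillTransport.pow_maximalIdeal_injective O h2
  refine ⟨e₁, ?_, he, hspan⟩
  by_contra h0
  have h00 : e₁ = 0 := by omega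
  rw [h00, mul_zero] at he
  omega

end Cyclo

section Omega

variable {O : Type*} [CommRing O] [IsDomain O] {Δ : Type*} [Group Δ] [MulSemiringAction Δ O]
  {p : ℕ} [NeZero p] {ζ : O}

/-- **(T5)**: the mod-`p` cyclotomic character of a group acting on a domain containing a primitive
`p`-th root of unity. -/
noncomputable def omega (hζ : IsPrimitiveRoot ζ p) : Δ →* (ZMod p)ˣ :=
  (hζ.autToPow ℤ).comp (MulSemiringAction.toAlgAut Δ ℤ O)

theorem smul_zeta (hζ : IsPrimitiveRoot ζ p) (δ : Δ) :
    δ • ζ = ζ ^ ((omega hζ δ : (ZMod p)ˣ) : ZMod p).val :=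
  (hζ.autToPow_spec ℤ (MulSemiringAction.toAlgAut Δ ℤ O δ)).symm

end Omega

/-! ### Part 5: the hypotheses of helper3's `TameCount/Arith` (COR A, COR B), verbatim -/

section Package

open IsLocalRing Fermat.Agent.S55.Local Fermat.Agent.S56.Flat.TameCount.UnitGraded

variable (O₀ : Type*) [CommRing O₀] [IsDomain O₀] [IsDiscreteValuationRing O₀]
  [IsAdicComplete (maximalIdeal O₀) O₀] [Finite (ResidueField O₀)]
  (K : Type*) [Field K] [Algebra O₀ K] [IsFractionRing O₀ K]
  (F : Type*) [Field F] [Algebra K F] [Algebra O₀ F] [IsScalarTower O₀ K F]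
  [FiniteDimensional K F] [Algebra.IsSeparable K F]
  (O : Type*) [CommRing O] [IsDomain O] [IsDiscreteValuationRing O]
  [Algebra O₀ O] [Algebra O F] [IsScalarTower O₀ O F] [IsIntegralClosure O O₀ F]
  {Δ : Type*} [Group Δ] [Finite Δ] [MulSemiringAction Δ O]
  (hfix₀ : ∀ (δ : Δ) (a : O₀), δ • algebraMap O₀ O a = algebraMap O₀ O a)
  (hinv : ∀ b : O, (∀ δ : Δ, δ • b = b) → ∃ a : O₀, algebraMap O₀ O a = b)
  {p : ℕ} [Fact p.Prime]

include K F hfix₀ hinv in
/-- **`hexact` of COR B, verbatim** (with `e` in place of `(p - 1) * e₁`). -/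
theorem tameCocycle_pow_eq_one_iff {e : ℕ}
    (he : (maximalIdeal O₀).map (algebraMap O₀ O) = maximalIdeal O ^ e)
    {m : ℕ} (hm : IsUnit (m : O)) (hpow : ∀ (δ : Δ) (b : O), δ ^ m • b = b)
    (ϖ : O) (hϖ : Irreducible ϖ) (n : ℕ) :
    (∀ i : Δ, (∀ x : ResidueField O, i • x = x) → tameCocycle ϖ hϖ i ^ n = 1) ↔ e ∣ n :=
  exact_exponent O₀ K F O hfix₀ hinv he hm hpow hϖ (fun δ => tameCocycle ϖ hϖ δ)
    (fun δ u hu => by
      rw [tameCocycle_apply]
      congr 1
      exact mul_left_cancel₀ hϖ.ne_zero ((smul_uniformizer ϖ hϖ δ).symm.trans hu)) n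

include K F hfix₀ hinv in
/-- **The hypotheses of COR A** (`K = ℚ_p`: `κ_K = 𝔽_p`, `p` a uniformizer of `O₀`; `ζ_p ∈ F`; `Δ`
acting through a commutative group of order prime to `p`): `e(F/ℚ_p) = p - 1`, `v(ζ - 1) = 1` and
`κ^Δ = 𝔽_p`. -/
theorem corA_hyps (hq₀ : Nat.card (ResidueField O₀) = p)
    (hp₀ : maximalIdeal O₀ = Ideal.span {(p : O₀)})
    {m : ℕ} (hm : IsUnit (m : O)) (hpow : ∀ (δ : Δ) (b : O), δ ^ m • b = b)
    (hcomm : ∀ (δ δ' : Δ) (x : O), δ • δ' • x = δ' • δ • x)
    {ζ : O} (hζ : IsPrimitiveRoot ζ p) :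
    Ideal.span {(p : O)} = maximalIdeal O ^ (p - 1) ∧
    Ideal.span {ζ - 1} = maximalIdeal O ∧
    (∀ x : ResidueField O, (∀ δ : Δ, δ • x = x) → x ^ p = x) := by
  have hp : p.Prime := Fact.out
  obtain ⟨e, he0, he⟩ := exists_map_maximalIdeal_eq_pow O₀ K F O
  have hpe : Ideal.span {(p : O)} = maximalIdeal O ^ e := by
    rw [← he, hp₀, Ideal.map_span, Set.image_singleton, map_natCast]
  obtain ⟨e₁, he₁, hee, hζ1⟩ := exists_e₁ (Nat.pos_of_ne_zero he0) hpe hζ
  have hdvd := ramificationIdx_dvd_card_sub_one O₀ K F O hfix₀ hinv he hm hpow hcomm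
  rw [hq₀, hee] at hdvd
  have hp1 : 0 < p - 1 := by have := hp.two_le; omega
  have he₁1 : e₁ = 1 := by
    have h1 : (p - 1) * e₁ ≤ p - 1 := Nat.le_of_dvd hp1 hdvd
    have h2 : (p - 1) * e₁ ≤ (p - 1) * 1 := by rwa [mul_one]
    have := Nat.le_of_mul_le_mul_left h2 hp1
    omega
  rw [he₁1, mul_one] at hee
  rw [he₁1, pow_one] at hζ1
  refine ⟨hee ▸ hpe, hζ1, fun x hx => ?_⟩
  have := (residue_fixed_iff O₀ K F O hfix₀ hinv x).1 hx
  rwa [hq₀] at this

include K F hfix₀ hinv in
/-- **The hypotheses of COR B** (`K` the unramified quadratic extension of `ℚ_p`: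
`|κ_K| = p²`, `p` a uniformizer of `O₀`; `ζ_p ∈ F`; `Δ` acting through a group of order prime to
`p`). -/
theorem corB_hyps (hq₀ : Nat.card (ResidueField O₀) = p ^ 2)
    (hp₀ : maximalIdeal O₀ = Ideal.span {(p : O₀)})
    {m : ℕ} (hm : IsUnit (m : O)) (hpow : ∀ (δ : Δ) (b : O), δ ^ m • b = b)
    {ζ : O} (hζ : IsPrimitiveRoot ζ p) (ϖ : O) (hϖ : Irreducible ϖ) :
    ∃ e₁ : ℕ, 1 ≤ e₁ ∧
    Ideal.span {(p : O)} = maximalIdeal O ^ ((p - 1) * e₁) ∧
    Ideal.span {ζ - 1} = maximalIdeal O ^ e₁ ∧
    (∀ x : ResidueField O, (∀ δ : Δ, δ • x = x) → x ^ p ^ 2 = x) ∧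
    (∀ n : ℕ, (∀ i : Δ, (∀ x : ResidueField O, i • x = x) →
      tameCocycle ϖ hϖ i ^ n = 1) ↔ (p - 1) * e₁ ∣ n) := by
  obtain ⟨e, he0, he⟩ := exists_map_maximalIdeal_eq_pow O₀ K F O
  have hpe : Ideal.span {(p : O)} = maximalIdeal O ^ e := by
    rw [← he, hp₀, Ideal.map_span, Set.image_singleton, map_natCast]
  obtain ⟨e₁, he₁, hee, hζ1⟩ := exists_e₁ (Nat.pos_of_ne_zero he0) hpe hζ
  refine ⟨e₁, he₁, hee ▸ hpe, hζ1, fun x hx => ?_, fun n => ?_⟩
  · have := (residue_fixed_iff O₀ K F O hfix₀ hinv x).1 hx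
    rwa [hq₀] at this
  · rw [← hee]
    exact tameCocycle_pow_eq_one_iff O₀ K F O hfix₀ hinv he hm hpow ϖ hϖ n

end Package

end Fermat.Agent.S56.Flat.Count.Tame
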