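/-
S56, block F (FLAT), leaf [FLC-Tame], part (b) (helper24): the `p`-adic instantiation of
`S56/Flat/Count/Tame.lean` for subfields of `PadicAlgCl p` (vocabulary of `KummerBound/Defs`, S55
`Local/KillTransport`): `K ≤ F` finite over `ℚ_p`, `K/ℚ_p` unramified, `𝒪 = integralClosure ℤ_[p] _`,
a finite group `Δ` acting on `𝒪_F` with ring of invariants `𝒪_K`.

* `card_residueField_of_isUnramifiedIn` : `|κ_K| = p ^ [K : ℚ_p]`;
* `residue_fixed_iff_padic` : `κ_F^Δ = {x | x ^ p ^ [K:ℚ_p] = x}`;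
* `corA_hyps_padicInt` (`K = ℚ_p`, base ring `ℤ_[p]`), `corA_hyps_padic` (`[K : ℚ_p] = 1`),
  `corB_hyps_padic` (`[K : ℚ_p] = 2`): the hypotheses of helper3's COR A / COR B.
-/
import Mathlib
import Fermat.Agent.S55.GL.PlacesDVR
import Fermat.Agent.S55.Local.KillTransport
import Fermat.Agent.S55.Local.UnramBC
import Fermat.Agent.S56.Flat.KummerBound.TotRam
import Fermat.Agent.S56.Flat.Count.Tame

set_option autoImplicit false
set_option linter.style.haveILetI false
set_option linter.unusedSectionVars false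

namespace Fermat.Agent.S56.Flat.Count.TameUnram

open IsLocalRing IntermediateField Fermat.Agent.S55.Local Fermat.Agent.S55.Local.Unram
  Fermat.Agent.S55.Local.KillTransport Fermat.Agent.S55.LocalInt
  Fermat.Agent.S55.GL.PlacesDVR
  Fermat.Agent.S56.Flat.Count.Tame Fermat.Agent.S56.Flat.TameCount.UnitGraded

attribute [local instance 2000] Algebra.toSMul Algebra.toModule

variable {p : ℕ} [Fact p.Prime]

/-- `|κ_K| = p ^ [K : ℚ_p]` for `K/ℚ_p` unramified. -/
theorem card_residueField_of_isUnramifiedIn {K : IntermediateField ℚ_[p] (PadicAlgCl p)}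
    (hK : IsUnramifiedIn ℤ_[p] K) :
    Nat.card (ResidueField (integralClosure ℤ_[p] K)) = p ^ Module.finrank ℚ_[p] K := by
  haveI : FiniteDimensional ℚ_[p] K := hK.finiteDimensional
  rw [hK.finrank_eq]
  have h := Module.natCard_eq_pow_finrank (K := ResidueField ℤ_[p])
    (V := ResidueField (integralClosure ℤ_[p] K))
  rw [card_residueField_padicInt p] at h
  exact h

/-- a natural number prime to `p` is a unit in `𝒪_F` -/
theorem isUnit_natCast_of_not_dvd (F : IntermediateField ℚ_[p] (PadicAlgCl p))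
    [FiniteDimensional ℚ_[p] F] {m : ℕ} (hm : ¬ p ∣ m) :
    IsUnit ((m : ℕ) : integralClosure ℤ_[p] F) := by
  have hp : p.Prime := Fact.out
  exact Inertia.isUnit_natCast_of_coprime (natCast_mem_maximalIdeal F)
    ((Nat.Prime.coprime_iff_not_dvd hp).2 hm).symm

section Base

variable (F : IntermediateField ℚ_[p] (PadicAlgCl p)) [FiniteDimensional ℚ_[p] F]
  {Δ : Type*} [Group Δ] [Finite Δ] [MulSemiringAction Δ (integralClosure ℤ_[p] F)]
  (hfix₀ : ∀ (δ : Δ) (a : ℤ_[p]), δ • algebraMap ℤ_[p] (integralClosure ℤ_[p] F) a =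
    algebraMap ℤ_[p] (integralClosure ℤ_[p] F) a)
  (hinv : ∀ b : integralClosure ℤ_[p] F, (∀ δ : Δ, δ • b = b) →
    ∃ a : ℤ_[p], algebraMap ℤ_[p] (integralClosure ℤ_[p] F) a = b)

include hfix₀ hinv in
/-- **COR A hypotheses, `K = ℚ_p`, base ring `ℤ_[p]`.** -/
theorem corA_hyps_padicInt {m : ℕ} (hm : ¬ p ∣ m)
    (hpow : ∀ (δ : Δ) (b : integralClosure ℤ_[p] F), δ ^ m • b = b)
    (hcomm : ∀ (δ δ' : Δ) (x : integralClosure ℤ_[p] F), δ • δ' • x = δ' • δ • x)
    {ζ : integralClosure ℤ_[p] F} (hζ : IsPrimitiveRoot ζ p) :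
    Ideal.span {((p : ℕ) : integralClosure ℤ_[p] F)} =
      maximalIdeal (integralClosure ℤ_[p] F) ^ (p - 1) ∧
    Ideal.span {ζ - 1} = maximalIdeal (integralClosure ℤ_[p] F) ∧
    (∀ x : ResidueField (integralClosure ℤ_[p] F), (∀ δ : Δ, δ • x = x) → x ^ p = x) := by
  haveI : Algebra.IsSeparable ℚ_[p] F := Algebra.IsAlgebraic.isSeparable_of_perfectField
  exact corA_hyps ℤ_[p] ℚ_[p] F (integralClosure ℤ_[p] F) hfix₀ hinv
    (card_residueField_padicInt p) PadicInt.maximalIdeal_eq_span_p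
    (isUnit_natCast_of_not_dvd F hm) hpow hcomm hζ

end Base

section Rel

variable {K F : IntermediateField ℚ_[p] (PadicAlgCl p)} [FiniteDimensional ℚ_[p] F]
  (hKF : K ≤ F) (hK : IsUnramifiedIn ℤ_[p] K)
  {Δ : Type*} [Group Δ] [Finite Δ] [MulSemiringAction Δ (integralClosure ℤ_[p] F)]
  (hfix₀ : ∀ (δ : Δ) (a : integralClosure ℤ_[p] K),
    δ • intIncl ℤ_[p] hKF a = intIncl ℤ_[p] hKF a)
  (hinv : ∀ b : integralClosure ℤ_[p] F, (∀ δ : Δ, δ • b = b) →
    ∃ a : integralClosure ℤ_[p] K, intIncl ℤ_[p] hKF a = b)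

include hK hfix₀ hinv in
/-- **(T1), `p`-adic form**: `κ_F^Δ = {x | x ^ p ^ [K : ℚ_p] = x}`. -/
theorem residue_fixed_iff_padic (x : ResidueField (integralClosure ℤ_[p] F)) :
    (∀ δ : Δ, δ • x = x) ↔ x ^ p ^ Module.finrank ℚ_[p] K = x := by
  letI := algInc hKF
  letI := algIntField ℤ_[p] hKF
  letI := algIntInt ℤ_[p] hKF
  haveI := isScalarTower_algInc hKF
  haveI := isScalarTower_int_field ℤ_[p] hKF
  haveI := isScalarTower_int_int ℤ_[p] hKF
  haveI := isIntegralClosure_int ℤ_[p] hKF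
  haveI : FiniteDimensional ℚ_[p] K := hK.finiteDimensional
  haveI : FiniteDimensional K F := Module.Finite.right ℚ_[p] K F
  haveI : Algebra.IsSeparable K F := Algebra.IsAlgebraic.isSeparable_of_perfectField
  rw [← card_residueField_of_isUnramifiedIn hK]
  exact residue_fixed_iff (integralClosure ℤ_[p] K) K F (integralClosure ℤ_[p] F) hfix₀ hinv x

include hK hfix₀ hinv in
/-- **COR A hypotheses**, relative form (`[K : ℚ_p] = 1`, e.g. `K = ⊥`). -/
theorem corA_hyps_padic (hdeg : Module.finrank ℚ_[p] K = 1) {m : ℕ} (hm : ¬ p ∣ m)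
    (hpow : ∀ (δ : Δ) (b : integralClosure ℤ_[p] F), δ ^ m • b = b)
    (hcomm : ∀ (δ δ' : Δ) (x : integralClosure ℤ_[p] F), δ • δ' • x = δ' • δ • x)
    {ζ : integralClosure ℤ_[p] F} (hζ : IsPrimitiveRoot ζ p) :
    Ideal.span {((p : ℕ) : integralClosure ℤ_[p] F)} =
      maximalIdeal (integralClosure ℤ_[p] F) ^ (p - 1) ∧
    Ideal.span {ζ - 1} = maximalIdeal (integralClosure ℤ_[p] F) ∧
    (∀ x : ResidueField (integralClosure ℤ_[p] F), (∀ δ : Δ, δ • x = x) → x ^ p = x) := by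
  letI := algInc hKF
  letI := algIntField ℤ_[p] hKF
  letI := algIntInt ℤ_[p] hKF
  haveI := isScalarTower_algInc hKF
  haveI := isScalarTower_int_field ℤ_[p] hKF
  haveI := isScalarTower_int_int ℤ_[p] hKF
  haveI := isIntegralClosure_int ℤ_[p] hKF
  haveI : FiniteDimensional ℚ_[p] K := hK.finiteDimensional
  haveI : FiniteDimensional K F := Module.Finite.right ℚ_[p] K F
  haveI : Algebra.IsSeparable K F := Algebra.IsAlgebraic.isSeparable_of_perfectField
  have hq₀ : Nat.card (ResidueField (integralClosure ℤ_[p] K)) = p := by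
    rw [card_residueField_of_isUnramifiedIn hK, hdeg, pow_one]
  exact corA_hyps (integralClosure ℤ_[p] K) K F (integralClosure ℤ_[p] F) hfix₀ hinv hq₀
    (KummerBound.TotRam.span_natCast_eq_maximalIdeal hK).symm
    (isUnit_natCast_of_not_dvd F hm) hpow hcomm hζ

include hK hfix₀ hinv in
/-- **COR B hypotheses** (`K` the unramified quadratic extension of `ℚ_p`). -/
theorem corB_hyps_padic (hdeg : Module.finrank ℚ_[p] K = 2) {m : ℕ} (hm : ¬ p ∣ m)
    (hpow : ∀ (δ : Δ) (b : integralClosure ℤ_[p] F), δ ^ m • b = b)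
    {ζ : integralClosure ℤ_[p] F} (hζ : IsPrimitiveRoot ζ p)
    (ϖ : integralClosure ℤ_[p] F) (hϖ : Irreducible ϖ) :
    ∃ e₁ : ℕ, 1 ≤ e₁ ∧
    Ideal.span {((p : ℕ) : integralClosure ℤ_[p] F)} =
      maximalIdeal (integralClosure ℤ_[p] F) ^ ((p - 1) * e₁) ∧
    Ideal.span {ζ - 1} = maximalIdeal (integralClosure ℤ_[p] F) ^ e₁ ∧
    (∀ x : ResidueField (integralClosure ℤ_[p] F), (∀ δ : Δ, δ • x = x) → x ^ p ^ 2 = x) ∧
    (∀ n : ℕ, (∀ i : Δ, (∀ x : ResidueField (integralClosure ℤ_[p] F), i • x = x) →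
      tameCocycle ϖ hϖ i ^ n = 1) ↔ (p - 1) * e₁ ∣ n) := by
  letI := algInc hKF
  letI := algIntField ℤ_[p] hKF
  letI := algIntInt ℤ_[p] hKF
  haveI := isScalarTower_algInc hKF
  haveI := isScalarTower_int_field ℤ_[p] hKF
  haveI := isScalarTower_int_int ℤ_[p] hKF
  haveI := isIntegralClosure_int ℤ_[p] hKF
  haveI : FiniteDimensional ℚ_[p] K := hK.finiteDimensional
  haveI : FiniteDimensional K F := Module.Finite.right ℚ_[p] K F
  haveI : Algebra.IsSeparable K F := Algebra.IsAlgebraic.isSeparable_of_perfectField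
  have hq₀ : Nat.card (ResidueField (integralClosure ℤ_[p] K)) = p ^ 2 := by
    rw [card_residueField_of_isUnramifiedIn hK, hdeg]
  exact corB_hyps (integralClosure ℤ_[p] K) K F (integralClosure ℤ_[p] F) hfix₀ hinv hq₀
    (KummerBound.TotRam.span_natCast_eq_maximalIdeal hK).symm
    (isUnit_natCast_of_not_dvd F hm) hpow hζ ϖ hϖ

end Rel

end Fermat.Agent.S56.Flat.Count.TameUnram
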