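/-
S56, block F (FLAT), leaf [FLC-Tame], instantiation requested by helper7 (#2673): the outputs of
`Tame.corA_hyps` / `corB_hyps` for helper7's `FixedAction` plumbing:
`L ⊂ PadicAlgCl p` finite over `ℚ_p`, `j : H →* Gal(L/ℚ_p)`, `N ⊴ H`,
`K := fixF j ⊤ = L^H`, `F := fixF j N = L^N`, `𝒪 = integralClosure ℤ_[p] _`, `Δ := H` acting on `𝒪_F`
through `intAction j N`.

* `smul_intIncl` (= `hfix₀`), `exists_intIncl_eq_of_forall_smul` (= `hinv`);
* `residue_fixed_iff_inst` : `κ_F^H = {x | x ^ |κ_K| = x}`;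
* `corA_inst`, `corB_inst` : the arithmetic hypotheses of helper3's COR A / COR B (`TameCount/Arith`,
  `TameCount/Seam`), verbatim;
* `card_residueField_and_maximalIdeal` : `hq₀`, `hp₀` from `IsUnramifiedIn ℤ_[p] K`.
-/
import Mathlib
import Fermat.Agent.S56.Flat.Count.FixedAction
import Fermat.Agent.S56.Flat.Count.TameUnram

set_option autoImplicit false
set_option linter.style.haveILetI false
set_option linter.unusedSectionVars false

namespace Fermat.Agent.S56.Flat.Count.TameInst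

open IsLocalRing IntermediateField Fermat.Agent.S55.Local Fermat.Agent.S55.Local.Unram
  Fermat.Agent.S55.Local.KillTransport Fermat.Agent.S55.LocalInt
  Fermat.Agent.S55.GL.PlacesDVR
  Fermat.Agent.S56.Flat.Count.Tame Fermat.Agent.S56.Flat.Count.TameUnram
  Fermat.Agent.S56.Flat.Count.FixedAction Fermat.Agent.S56.Flat.TameCount.UnitGraded

attribute [local instance 2000] Algebra.toSMul Algebra.toModule

variable {p : ℕ} [Fact p.Prime] {L : IntermediateField ℚ_[p] (PadicAlgCl p)}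
  [FiniteDimensional ℚ_[p] L] {H : Type*} [Group H] (j : H →* (L ≃ₐ[ℚ_[p]] L))
  (N : Subgroup H) [N.Normal]

/-- `K = L^H ≤ F = L^N` -/
theorem fixF_top_le : fixF j (⊤ : Subgroup H) ≤ fixF j N := fixF_mono j le_top

/-- **`hfix₀`**: `H` fixes `𝒪_K`, `K = L^H`. -/
theorem smul_intIncl (δ : H) (a : integralClosure ℤ_[p] (fixF j (⊤ : Subgroup H))) :
    letI := intAction j N
    δ • intIncl ℤ_[p] (fixF_top_le j N) a = intIncl ℤ_[p] (fixF_top_le j N) a := by
  letI := intAction j N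
  apply Subtype.ext
  apply Subtype.ext
  rw [coe_intAction_smul, coe_resHom_apply]
  obtain ⟨hxL, hfix⟩ := (mem_fixF_iff j ⊤ _).1 (a : fixF j (⊤ : Subgroup H)).2
  have h1 := hfix δ (Subgroup.mem_top δ)
  have h2 : ((intIncl ℤ_[p] (fixF_top_le j N) a : fixF j N) : PadicAlgCl p) =
      ((a : fixF j (⊤ : Subgroup H)) : PadicAlgCl p) := coe_intIncl (fixF_top_le j N) a
  have h3 : (⟨((intIncl ℤ_[p] (fixF_top_le j N) a : fixF j N) : PadicAlgCl p),
      fixF_le j N (intIncl ℤ_[p] (fixF_top_le j N) a : fixF j N).2⟩ : L) =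
      ⟨((a : fixF j (⊤ : Subgroup H)) : PadicAlgCl p), hxL⟩ := Subtype.ext h2
  rw [h3, h1, h2]

/-- **`hinv`**: the `H`-invariants of `𝒪_F` are `𝒪_K`. -/
theorem exists_intIncl_eq_of_forall_smul (b : integralClosure ℤ_[p] (fixF j N))
    (hb : letI := intAction j N; ∀ δ : H, δ • b = b) :
    ∃ a : integralClosure ℤ_[p] (fixF j (⊤ : Subgroup H)),
      intIncl ℤ_[p] (fixF_top_le j N) a = b :=
  exists_intIncl_eq (fixF_top_le j N) b (mem_fixF_top_of_forall_smul j N b hb)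

variable [Finite H]

/-- **(T1)** `κ_F^H = {x | x ^ |κ_K| = x}`. -/
theorem residue_fixed_iff_inst (x : ResidueField (integralClosure ℤ_[p] (fixF j N))) :
    letI := intAction j N
    (∀ δ : H, δ • x = x) ↔
      x ^ Nat.card (ResidueField (integralClosure ℤ_[p] (fixF j (⊤ : Subgroup H)))) = x := by
  letI := intAction j N
  have hKF := fixF_top_le j N
  letI := algInc hKF
  letI := algIntField ℤ_[p] hKF
  letI := algIntInt ℤ_[p] hKF
  haveI := isScalarTower_algInc hKF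
  haveI := isScalarTower_int_field ℤ_[p] hKF
  haveI := isScalarTower_int_int ℤ_[p] hKF
  haveI := isIntegralClosure_int ℤ_[p] hKF
  haveI : FiniteDimensional (fixF j (⊤ : Subgroup H)) (fixF j N) :=
    Module.Finite.right ℚ_[p] (fixF j (⊤ : Subgroup H)) (fixF j N)
  haveI : Algebra.IsSeparable (fixF j (⊤ : Subgroup H)) (fixF j N) :=
    Algebra.IsAlgebraic.isSeparable_of_perfectField
  exact residue_fixed_iff (integralClosure ℤ_[p] (fixF j (⊤ : Subgroup H)))
    (fixF j (⊤ : Subgroup H)) (fixF j N) (integralClosure ℤ_[p] (fixF j N))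
    (smul_intIncl j N) (exists_intIncl_eq_of_forall_smul j N) x

/-- **COR A hypotheses** for `Δ := H` acting on `𝒪_F`, `F = L^N`, `K = L^H`. -/
theorem corA_inst
    (hq₀ : Nat.card (ResidueField (integralClosure ℤ_[p] (fixF j (⊤ : Subgroup H)))) = p)
    (hp₀ : maximalIdeal (integralClosure ℤ_[p] (fixF j (⊤ : Subgroup H))) =
      Ideal.span {((p : ℕ) : integralClosure ℤ_[p] (fixF j (⊤ : Subgroup H)))})
    {m : ℕ} (hm : ¬ p ∣ m) (hpow : ∀ δ : H, δ ^ m ∈ N)
    (hcomm : ∀ δ δ' : H, δ * δ' * δ⁻¹ * δ'⁻¹ ∈ N)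
    (ζ : integralClosure ℤ_[p] (fixF j N)) (hζ : IsPrimitiveRoot ζ p) :
    letI := intAction j N
    Ideal.span {((p : ℕ) : integralClosure ℤ_[p] (fixF j N))} =
      maximalIdeal (integralClosure ℤ_[p] (fixF j N)) ^ (p - 1) ∧
    Ideal.span {ζ - 1} = maximalIdeal (integralClosure ℤ_[p] (fixF j N)) ∧
    ∀ x : ResidueField (integralClosure ℤ_[p] (fixF j N)), (∀ δ : H, δ • x = x) → x ^ p = x := by
  letI := intAction j N
  have hKF := fixF_top_le j N
  letI := algInc hKF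
  letI := algIntField ℤ_[p] hKF
  letI := algIntInt ℤ_[p] hKF
  haveI := isScalarTower_algInc hKF
  haveI := isScalarTower_int_field ℤ_[p] hKF
  haveI := isScalarTower_int_int ℤ_[p] hKF
  haveI := isIntegralClosure_int ℤ_[p] hKF
  haveI : FiniteDimensional (fixF j (⊤ : Subgroup H)) (fixF j N) :=
    Module.Finite.right ℚ_[p] (fixF j (⊤ : Subgroup H)) (fixF j N)
  haveI : Algebra.IsSeparable (fixF j (⊤ : Subgroup H)) (fixF j N) :=
    Algebra.IsAlgebraic.isSeparable_of_perfectField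
  exact corA_hyps (integralClosure ℤ_[p] (fixF j (⊤ : Subgroup H)))
    (fixF j (⊤ : Subgroup H)) (fixF j N) (integralClosure ℤ_[p] (fixF j N))
    (smul_intIncl j N) (exists_intIncl_eq_of_forall_smul j N) hq₀ hp₀
    (isUnit_natCast_of_not_dvd (fixF j N) hm) (intAction_pow_smul j N hpow)
    (intAction_comm j N hcomm) hζ

/-- **COR B hypotheses** for `Δ := H` acting on `𝒪_F`, `F = L^N`, `K = L^H`. -/
theorem corB_inst
    (hq₀ : Nat.card (ResidueField (integralClosure ℤ_[p] (fixF j (⊤ : Subgroup H)))) = p ^ 2)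
    (hp₀ : maximalIdeal (integralClosure ℤ_[p] (fixF j (⊤ : Subgroup H))) =
      Ideal.span {((p : ℕ) : integralClosure ℤ_[p] (fixF j (⊤ : Subgroup H)))})
    {m : ℕ} (hm : ¬ p ∣ m) (hpow : ∀ δ : H, δ ^ m ∈ N)
    (ζ : integralClosure ℤ_[p] (fixF j N)) (hζ : IsPrimitiveRoot ζ p)
    (ϖ : integralClosure ℤ_[p] (fixF j N)) (hϖ : Irreducible ϖ) :
    letI := intAction j N
    ∃ e₁ : ℕ, 1 ≤ e₁ ∧
    Ideal.span {((p : ℕ) : integralClosure ℤ_[p] (fixF j N))} =
      maximalIdeal (integralClosure ℤ_[p] (fixF j N)) ^ ((p - 1) * e₁) ∧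
    Ideal.span {ζ - 1} = maximalIdeal (integralClosure ℤ_[p] (fixF j N)) ^ e₁ ∧
    (∀ x : ResidueField (integralClosure ℤ_[p] (fixF j N)),
      (∀ δ : H, δ • x = x) → x ^ p ^ 2 = x) ∧
    ∀ n : ℕ, (∀ i : H, (∀ x : ResidueField (integralClosure ℤ_[p] (fixF j N)), i • x = x) →
      tameCocycle ϖ hϖ i ^ n = 1) ↔ (p - 1) * e₁ ∣ n := by
  letI := intAction j N
  have hKF := fixF_top_le j N
  letI := algInc hKF
  letI := algIntField ℤ_[p] hKF
  letI := algIntInt ℤ_[p] hKF
  haveI := isScalarTower_algInc hKF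
  haveI := isScalarTower_int_field ℤ_[p] hKF
  haveI := isScalarTower_int_int ℤ_[p] hKF
  haveI := isIntegralClosure_int ℤ_[p] hKF
  haveI : FiniteDimensional (fixF j (⊤ : Subgroup H)) (fixF j N) :=
    Module.Finite.right ℚ_[p] (fixF j (⊤ : Subgroup H)) (fixF j N)
  haveI : Algebra.IsSeparable (fixF j (⊤ : Subgroup H)) (fixF j N) :=
    Algebra.IsAlgebraic.isSeparable_of_perfectField
  exact corB_hyps (integralClosure ℤ_[p] (fixF j (⊤ : Subgroup H)))
    (fixF j (⊤ : Subgroup H)) (fixF j N) (integralClosure ℤ_[p] (fixF j N))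
    (smul_intIncl j N) (exists_intIncl_eq_of_forall_smul j N) hq₀ hp₀
    (isUnit_natCast_of_not_dvd (fixF j N) hm) (intAction_pow_smul j N hpow) hζ ϖ hϖ

omit [FiniteDimensional ℚ_[p] L] in
/-- **(b)** `hq₀`, `hp₀` for `K/ℚ_p` unramified of degree `f₀`. -/
theorem card_residueField_and_maximalIdeal {K : IntermediateField ℚ_[p] (PadicAlgCl p)}
    (hK : IsUnramifiedIn ℤ_[p] K) {f₀ : ℕ} (hdeg : Module.finrank ℚ_[p] K = f₀) :
    Nat.card (ResidueField (integralClosure ℤ_[p] K)) = p ^ f₀ ∧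
    maximalIdeal (integralClosure ℤ_[p] K) =
      Ideal.span {((p : ℕ) : integralClosure ℤ_[p] K)} :=
  ⟨hdeg ▸ card_residueField_of_isUnramifiedIn hK,
    (KummerBound.TotRam.span_natCast_eq_maximalIdeal hK).symm⟩

end Fermat.Agent.S56.Flat.Count.TameInst
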