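/-
S56, block F (FLAT), leaf [FLC-Char] (helper7): THE ONE-CHARACTER BOUNDS (C-A), (C-B) of row 53 for
`Γ = Gal(L/ℚ_p)`, `L/ℚ_p` finite Galois inside `PadicAlgCl p`, `ζ_p ∈ L`, `L` peu ramifié
(`KummerBound.IsPeuRamifie p L`).

Assembly of: helper20 `Count/KummerLink` + helper3 `TameCount/{Seam,H1Dict}` (abstract seam, in
`Devissage` vocabulary), helper24 `Count/{TameInst,FixFDegree}` (tame hypotheses of COR A / COR B
for `Δ := H` acting on `𝒪_F`, `F = L^N`), helper27 `Count/CharConcrete` (`𝒪_F ↪ L`: integrally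
closed, `IsPeuRamifie` at `F`, inertia acts trivially on `κ_F`), and `Count/FixedAction`.

Here `H` is a finite group with an injective `j : H →* Gal(L/ℚ_p)`, `K = L^H = fixF j ⊤` is
unramified over `ℚ_p` of degree `1` ((C-A)) or `2` ((C-B)), `N = ker φ ∩ ker ω₀` with
`ω₀ = autToPow ∘ j` the mod `p` cyclotomic character, and the consumer's `ω : H →* kˣ` is ABSTRACT
with `hω : ∀ g, ∃ a : ℕ, ω g = a ∧ j g ζ = ζ ^ a`.

* `kerN`, `not_dvd_tameExp`, `pow_tameExp_mem`, `comm_mem_kerN`, `index_kerN_ne_zero` : the tame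
  quotient `H / N ↪ kˣ × 𝔽_pˣ`;
* **(C-A)** `b_charRep_le` : `b k(φ) = h¹ - h⁰ ≤ [φ = ω on inertia]`;
* **(C-B)** `h1_charRep_le_one` : `h¹(H, k(ψ)) ≤ 1` for `ψ ≠ 1`, `ψ ≠ ω` somewhere on inertia;
* the consumer forms for `Γ` itself and its index-2 subgroups containing inertia:
  `b_charRep_le_one_gal`, `b_charRep_le_zero_gal`, `h1_charRep_le_one_of_index_two`
  (= `Count/Main.CharBoundA`, `CharBoundB` unfolded).
-/
import Mathlib
import Fermat.Agent.S56.Flat.TameCount.H1Dict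
import Fermat.Agent.S56.Flat.Count.TameInst
import Fermat.Agent.S56.Flat.Count.FixFDegree
import Fermat.Agent.S56.Flat.Count.CharConcrete

set_option autoImplicit false
set_option linter.unusedSectionVars false
set_option linter.style.haveILetI false

universe u

namespace Fermat.Agent.S56.Flat.Count.CharBound

open IsLocalRing Fermat.Agent.S55.Local Fermat.Agent.S55.Local.Unram
open Fermat.Agent.S55.GL.PlacesDVR
open Fermat.Agent.S56.Flat.Count.FixedAction Fermat.Agent.S56.Flat.Count.KummerLink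
open Fermat.Agent.S56.Flat.Count.Devissage Fermat.Agent.S56.Flat.Count.CharConcrete
open Fermat.Agent.S56.Flat.Count.TameInst Fermat.Agent.S56.Flat.Count.LocalGalois
open Fermat.Agent.S56.Flat.KummerBound Fermat.Agent.S56.Flat.TameCount

section Ker

variable {H : Type*} [Group H] {k : Type*} [Field k] [Finite k] {p : ℕ} [hp : Fact p.Prime]
  [Algebra (ZMod p) k] (φ : H →* kˣ) (ω : H →* (ZMod p)ˣ)

/-- `N = ker φ ∩ ker ω`. -/
def kerN : Subgroup H := (φ.prod ω).ker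

instance kerN_normal : (kerN φ ω).Normal := MonoidHom.normal_ker _

theorem mem_kerN_iff {h : H} : h ∈ kerN φ ω ↔ φ h = 1 ∧ ω h = 1 := by
  unfold kerN
  rw [MonoidHom.mem_ker, MonoidHom.prod_apply, Prod.mk_eq_one]

theorem card_units_prod :
    Nat.card (kˣ × (ZMod p)ˣ) = (Nat.card k - 1) * (p - 1) := by
  rw [Nat.card_prod]
  congr 1
  · haveI : Fintype k := Fintype.ofFinite k
    classical
    rw [Nat.card_eq_fintype_card, Nat.card_eq_fintype_card, Fintype.card_units]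
  · rw [Nat.card_eq_fintype_card, ZMod.card_units_eq_totient, Nat.totient_prime hp.out]

theorem charP_of_algebra : CharP k p :=
  charP_of_injective_algebraMap (algebraMap (ZMod p) k).injective p

theorem not_dvd_tameExp : ¬ p ∣ (Nat.card k - 1) * (p - 1) := by
  have hp' : p.Prime := hp.out
  haveI : CharP k p := charP_of_algebra
  intro h
  rcases (Nat.Prime.dvd_mul hp').1 h with h | h
  · haveI : Fintype k := Fintype.ofFinite k
    have h1 : p ∣ Nat.card k := by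
      rw [← CharP.cast_eq_zero_iff k p, Nat.card_eq_fintype_card]
      exact Nat.cast_card_eq_zero k
    have h2 : 1 < Nat.card k := Finite.one_lt_card
    have h3 : p ∣ Nat.card k - (Nat.card k - 1) := Nat.dvd_sub h1 h
    have h4 : Nat.card k - (Nat.card k - 1) = 1 := by omega
    rw [h4] at h3
    exact hp'.one_lt.ne' (Nat.dvd_one.1 h3)
  · have : p - 1 < p := Nat.sub_lt hp'.pos one_pos
    exact absurd (Nat.le_of_dvd (by have := hp'.two_le; omega) h) (by omega)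

theorem pow_tameExp_mem (δ : H) : δ ^ ((Nat.card k - 1) * (p - 1)) ∈ kerN φ ω := by
  unfold kerN
  rw [MonoidHom.mem_ker, map_pow, ← card_units_prod (k := k) (p := p)]
  exact pow_card_eq_one'

theorem comm_mem_kerN (δ δ' : H) : δ * δ' * δ⁻¹ * δ'⁻¹ ∈ kerN φ ω := by
  unfold kerN
  rw [MonoidHom.mem_ker]
  simp only [map_mul, map_inv]
  rw [mul_comm ((φ.prod ω) δ), mul_assoc, mul_assoc, mul_inv_cancel_left, mul_inv_cancel]

theorem index_kerN_dvd : (kerN φ ω).index ∣ (Nat.card k - 1) * (p - 1) := by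
  unfold kerN
  rw [Subgroup.index_ker, ← card_units_prod (k := k) (p := p)]
  exact Subgroup.card_subgroup_dvd_card _

theorem index_kerN_ne_zero : (((kerN φ ω).index : ℕ) : k) ≠ 0 := by
  haveI : CharP k p := charP_of_algebra
  rw [Ne, CharP.cast_eq_zero_iff k p]
  exact fun h => not_dvd_tameExp (k := k) (p := p) (dvd_trans h (index_kerN_dvd φ ω))

end Ker

section Omega

variable {p : ℕ} [hp : Fact p.Prime] {L : IntermediateField ℚ_[p] (PadicAlgCl p)}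
  {k : Type*} [Field k] [Algebra (ZMod p) k] {ζ : L} (hζ : IsPrimitiveRoot ζ p)

include hζ in
/-- the consumer's abstract `ω̄` is `autToPow`. -/
theorem natCast_eq_algebraMap_autToPow {g : L ≃ₐ[ℚ_[p]] L} {a : ℕ} (ha : g ζ = ζ ^ a) :
    ((a : ℕ) : k) =
      algebraMap (ZMod p) k (((hζ.autToPow ℚ_[p] g : (ZMod p)ˣ) : ZMod p)) := by
  have h1 : ζ ^ a = ζ ^ (((hζ.autToPow ℚ_[p] g : (ZMod p)ˣ) : ZMod p)).val := by
    rw [← ha, hζ.autToPow_spec ℚ_[p] g]
  have hmod : ζ ^ a = ζ ^ (a % p) := by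
    conv_lhs => rw [← Nat.mod_add_div a p, pow_add, pow_mul, hζ.pow_eq_one, one_pow, mul_one]
  have h2 : a % p = (((hζ.autToPow ℚ_[p] g : (ZMod p)ˣ) : ZMod p)).val :=
    hζ.pow_inj (Nat.mod_lt _ hp.out.pos) (ZMod.val_lt _) (by rw [← hmod, h1])
  have h3 : ((a : ℕ) : ZMod p) = ((hζ.autToPow ℚ_[p] g : (ZMod p)ˣ) : ZMod p) := by
    rw [← ZMod.natCast_mod, h2, ZMod.natCast_zmod_val]
  rw [← h3, map_natCast]

end Omega

section Assembly

variable {p : ℕ} [hp : Fact p.Prime] {L : IntermediateField ℚ_[p] (PadicAlgCl p)}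
  [FiniteDimensional ℚ_[p] L]
  {H : Type u} [Group H] [Finite H] (j : H →* (L ≃ₐ[ℚ_[p]] L)) (hj : Function.Injective j)
  {k : Type u} [Field k] [Finite k] [Algebra (ZMod p) k]
  (hL : IsPeuRamifie p L) {ζ : L} (hζ : IsPrimitiveRoot ζ p)
  (ω : H →* kˣ) (hω : ∀ g : H, ∃ a : ℕ, ((ω g : kˣ) : k) = (a : k) ∧ j g ζ = ζ ^ a)

/-- the mod `p` cyclotomic character of `H`. -/
noncomputable def omega0 : H →* (ZMod p)ˣ := (hζ.autToPow ℚ_[p]).comp j

theorem apply_zeta (γ : H) :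
    j γ ζ = ζ ^ ((omega0 j hζ γ : (ZMod p)ˣ) : ZMod p).val :=
  (hζ.autToPow_spec ℚ_[p] (j γ)).symm

include hω in
theorem coe_omega_eq (γ : H) :
    ((ω γ : kˣ) : k) = algebraMap (ZMod p) k ((omega0 j hζ γ : (ZMod p)ˣ) : ZMod p) := by
  obtain ⟨a, ha, haζ⟩ := hω γ
  rw [ha]
  exact natCast_eq_algebraMap_autToPow hζ haζ

theorem apply_zeta_of_mem_kerN (φ : H →* kˣ) {n : H} (hn : n ∈ kerN φ (omega0 j hζ)) :
    j n ζ = ζ := by
  rw [apply_zeta j hζ n, ((mem_kerN_iff φ (omega0 j hζ)).1 hn).2, Units.val_one,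
    ZMod.val_one, pow_one]

include hj in
theorem faithfulSMul_of_injective (N : Subgroup H) :
    letI := actL j
    FaithfulSMul N L := by
  letI := actL j
  refine ⟨fun {n n'} h => Subtype.ext (hj (AlgEquiv.ext fun x => ?_))⟩
  exact h x

include hζ in
/-- `ζ` as an element of `𝒪_F`, `F = L^N`, if `N` fixes `ζ`. -/
theorem exists_incl_eq_zeta (N : Subgroup H) [N.Normal] (hζN : ∀ n ∈ N, j n ζ = ζ) :
    ∃ ζO : integralClosure ℤ_[p] (fixF j N), incl j N ζO = ζ := by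
  have hmem : ((ζ : L) : PadicAlgCl p) ∈ fixF j N :=
    (mem_fixF_iff j N _).2 ⟨ζ.2, fun n hn => hζN n hn⟩
  have hint : IsIntegral ℤ_[p] (⟨((ζ : L) : PadicAlgCl p), hmem⟩ : fixF j N) := by
    refine IsIntegral.of_pow hp.out.pos ?_
    have : (⟨((ζ : L) : PadicAlgCl p), hmem⟩ : fixF j N) ^ p = 1 := by
      apply Subtype.ext
      have h1 := congrArg (fun x : L => (x : PadicAlgCl p)) hζ.pow_eq_one
      simpa using h1
    rw [this]
    exact isIntegral_one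
  exact ⟨⟨_, hint⟩, Subtype.ext rfl⟩

include hj hL hζ hω in
/-- **(C-A)**: for `K = L^H` of degree one over `ℚ_p` (i.e. `H = Gal(L/ℚ_p)`),
`b k(φ) = h¹(H, k(φ)) - h⁰(H, k(φ)) ≤ [φ = ω̄ on inertia]`. -/
theorem b_charRep_le (hK : IsUnramifiedIn ℤ_[p] (fixF j (⊤ : Subgroup H)))
    (hdeg : Module.finrank ℚ_[p] (fixF j (⊤ : Subgroup H)) = 1) (φ : H →* kˣ) :
    Devissage.b (charRep φ) ≤ (open Classical in
      if ∀ σ : H, j σ ∈ inertia L → φ σ = ω σ then 1 else 0) := by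
  classical
  letI := actL j
  letI := intAction j (kerN φ (omega0 j hζ))
  haveI := faithfulSMul_of_injective j hj (kerN φ (omega0 j hζ))
  have hζN' : ∀ n ∈ kerN φ (omega0 j hζ), j n ζ = ζ := fun n hn =>
    apply_zeta_of_mem_kerN j hζ φ hn
  obtain ⟨ζO, hζO⟩ := exists_incl_eq_zeta j hζ (kerN φ (omega0 j hζ)) hζN'
  have hζOprim : IsPrimitiveRoot ζO p := by
    have h := hζ
    rw [← hζO] at h
    exact IsPrimitiveRoot.of_map_of_injective h (incl_injective j (kerN φ (omega0 j hζ)))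
  obtain ⟨hq₀, hp₀⟩ := card_residueField_and_maximalIdeal hK hdeg
  rw [pow_one] at hq₀
  obtain ⟨hpe, hζspan, hfix⟩ := corA_inst j (kerN φ (omega0 j hζ)) hq₀ hp₀
    (not_dvd_tameExp (k := k) (p := p)) (pow_tameExp_mem φ (omega0 j hζ))
    (comm_mem_kerN φ (omega0 j hζ)) ζO hζOprim
  have key := H1Dict.b_charRep_le_of_base (N := kerN φ (omega0 j hζ))
    (incl j (kerN φ (omega0 j hζ)))
    (fun h x => incl_smul j (kerN φ (omega0 j hζ)) h x)
    (fun n x => apply_incl_of_mem j (kerN φ (omega0 j hζ)) n.2 x)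
    hζ (fun n => hζN' n n.2) φ (omega0 j hζ) (fun γ => apply_zeta j hζ γ)
    (fun n hn => ((mem_kerN_iff φ (omega0 j hζ)).1 hn).1)
    (index_kerN_ne_zero φ (omega0 j hζ))
    (incl_injective j (kerN φ (omega0 j hζ)))
    (fun u z hz hzu => exists_unit_of_pow_eq j (kerN φ (omega0 j hζ)) u z
      (fun n hn => hz ⟨n, hn⟩) hzu)
    (fun x w hw => by
      obtain ⟨u, hu, z, hz0, hzN, hwz⟩ := exists_unitFil_mul_pow j (kerN φ (omega0 j hζ)) hL hζ
        hζN' hpe x ((w : Lˣ) : L) (Units.ne_zero _) (fun n hn => w.2 ⟨n, hn⟩) hw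
      exact ⟨u, hu, ⟨Units.mk0 z hz0, fun n => hzN n n.2⟩, hwz⟩)
    ζO hζO (intAction_comm j (kerN φ (omega0 j hζ)) (comm_mem_kerN φ (omega0 j hζ)))
    hpe hζspan hfix
  refine key.trans ?_
  split_ifs with h1 h2 h2
  · exact le_rfl
  · exfalso
    apply h2
    intro σ hσ
    have h3 := h1 σ (fun x => smul_residue_of_mem_inertia j (kerN φ (omega0 j hζ)) hσ x)
    exact Units.ext (h3.trans (coe_omega_eq j hζ ω hω σ).symm)
  · exact zero_le_one
  · exact le_rfl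

include hj hL hζ hω in
/-- **(C-B)**: for `K = L^H` the unramified quadratic extension of `ℚ_p`, `ψ ≠ 1` and `ψ ≠ ω̄`
somewhere on inertia, `h¹(H, k(ψ)) ≤ 1`. -/
theorem h1_charRep_le_one (hp2 : p ≠ 2)
    (hK : IsUnramifiedIn ℤ_[p] (fixF j (⊤ : Subgroup H)))
    (hdeg : Module.finrank ℚ_[p] (fixF j (⊤ : Subgroup H)) = 2) (ψ : H →* kˣ) (hψ1 : ψ ≠ 1)
    (hψI : ∃ δ : H, j δ ∈ inertia L ∧ ψ δ ≠ ω δ) :
    h1 (charRep ψ) ≤ 1 := by
  classical
  letI := actL j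
  letI := intAction j (kerN ψ (omega0 j hζ))
  haveI := faithfulSMul_of_injective j hj (kerN ψ (omega0 j hζ))
  have hζN' : ∀ n ∈ kerN ψ (omega0 j hζ), j n ζ = ζ := fun n hn =>
    apply_zeta_of_mem_kerN j hζ ψ hn
  obtain ⟨ζO, hζO⟩ := exists_incl_eq_zeta j hζ (kerN ψ (omega0 j hζ)) hζN'
  have hζOprim : IsPrimitiveRoot ζO p := by
    have h := hζ
    rw [← hζO] at h
    exact IsPrimitiveRoot.of_map_of_injective h (incl_injective j (kerN ψ (omega0 j hζ)))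
  obtain ⟨hq₀, hp₀⟩ := card_residueField_and_maximalIdeal hK hdeg
  obtain ⟨ϖ, hϖ⟩ := IsDiscreteValuationRing.exists_irreducible
    (integralClosure ℤ_[p] (fixF j (kerN ψ (omega0 j hζ))))
  obtain ⟨e₁, he₁, hpe, hζspan, hfix, hexact⟩ := corB_inst j (kerN ψ (omega0 j hζ)) hq₀ hp₀
    (not_dvd_tameExp (k := k) (p := p)) (pow_tameExp_mem ψ (omega0 j hζ)) ζO hζOprim ϖ hϖ
  have hφI : ∃ i : H, (∀ x : ResidueField (integralClosure ℤ_[p]
      (fixF j (kerN ψ (omega0 j hζ)))), i • x = x) ∧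
      ((ψ i : kˣ) : k) ≠ algebraMap (ZMod p) k ((omega0 j hζ i : (ZMod p)ˣ) : ZMod p) := by
    obtain ⟨δ, hδ, hne⟩ := hψI
    refine ⟨δ, fun x => smul_residue_of_mem_inertia j (kerN ψ (omega0 j hζ)) hδ x, fun h => ?_⟩
    exact hne (Units.ext (h.trans (coe_omega_eq j hζ ω hω δ).symm))
  have hφ1 : ∃ γ : H, ψ γ ≠ 1 := by
    by_contra hcon
    exact hψ1 (MonoidHom.ext fun γ => by_contra fun h => hcon ⟨γ, h⟩)
  exact H1Dict.h1_charRep_le_one_of_quadratic (N := kerN ψ (omega0 j hζ))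
    (incl j (kerN ψ (omega0 j hζ)))
    (fun h x => incl_smul j (kerN ψ (omega0 j hζ)) h x)
    (fun n x => apply_incl_of_mem j (kerN ψ (omega0 j hζ)) n.2 x) hp2
    hζ (fun n => hζN' n n.2) ψ (omega0 j hζ) (fun γ => apply_zeta j hζ γ)
    (fun n hn => ((mem_kerN_iff ψ (omega0 j hζ)).1 hn).1)
    (index_kerN_ne_zero ψ (omega0 j hζ))
    (incl_injective j (kerN ψ (omega0 j hζ)))
    (fun u z hz hzu => exists_unit_of_pow_eq j (kerN ψ (omega0 j hζ)) u z
      (fun n hn => hz ⟨n, hn⟩) hzu)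
    he₁
    (fun x w hw => by
      obtain ⟨u, hu, z, hz0, hzN, hwz⟩ := exists_unitFil_mul_pow j (kerN ψ (omega0 j hζ)) hL hζ
        hζN' hpe x ((w : Lˣ) : L) (Units.ne_zero _) (fun n hn => w.2 ⟨n, hn⟩) hw
      exact ⟨u, hu, ⟨Units.mk0 z hz0, fun n => hzN n n.2⟩, hwz⟩)
    ζO hζO (intAction_comm j (kerN ψ (omega0 j hζ)) (comm_mem_kerN ψ (omega0 j hζ)))
    hpe hζspan ϖ hϖ hfix hexact hφI hφ1

end Assembly

section Consumer

open Fermat.Agent.S56.Flat.Count.FixFDegree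

variable {p : ℕ} [hp : Fact p.Prime] {L : IntermediateField ℚ_[p] (PadicAlgCl p)}
  [FiniteDimensional ℚ_[p] L] [IsGalois ℚ_[p] L]
  {k : Type} [Field k] [Finite k] [CharP k p]
  (hL : IsPeuRamifie p L) {ζ : L} (hζ : IsPrimitiveRoot ζ p)
  (ω : (L ≃ₐ[ℚ_[p]] L) →* kˣ)
  (hω : ∀ g : L ≃ₐ[ℚ_[p]] L, ∃ a : ℕ, ((ω g : kˣ) : k) = (a : k) ∧ g ζ = ζ ^ a)

include hL hζ hω in
/-- **(C-A)** for `Γ = Gal(L/ℚ_p)`. -/
theorem b_charRep_le_gal (φ : (L ≃ₐ[ℚ_[p]] L) →* kˣ)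
    [Decidable (∀ σ ∈ inertia L, φ σ = ω σ)] :
    Devissage.b (charRep φ) ≤ if ∀ σ ∈ inertia L, φ σ = ω σ then 1 else 0 := by
  letI := ZMod.algebra k p
  have h := b_charRep_le (MonoidHom.id (L ≃ₐ[ℚ_[p]] L)) Function.injective_id hL hζ ω hω
    isUnramifiedIn_fixF_id_top finrank_fixF_id_top φ
  by_cases hall : ∀ σ ∈ inertia L, φ σ = ω σ
  · rw [if_pos hall]
    refine h.trans ?_
    split_ifs <;> norm_num
  · rw [if_neg hall]
    have h' : ¬ ∀ σ : L ≃ₐ[ℚ_[p]] L,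
        MonoidHom.id (L ≃ₐ[ℚ_[p]] L) σ ∈ inertia L → φ σ = ω σ := hall
    rw [if_neg h'] at h
    exact h

include hL hζ hω in
/-- first half of `Count/Main.CharBoundA`. -/
theorem b_charRep_le_one_gal (φ : (L ≃ₐ[ℚ_[p]] L) →* kˣ) : Devissage.b (charRep φ) ≤ 1 := by
  classical
  refine (b_charRep_le_gal hL hζ ω hω φ).trans ?_
  split_ifs <;> norm_num

include hL hζ hω in
/-- second half of `Count/Main.CharBoundA`. -/
theorem b_charRep_le_zero_gal (φ : (L ≃ₐ[ℚ_[p]] L) →* kˣ)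
    (h : ∃ σ ∈ inertia L, φ σ ≠ ω σ) : Devissage.b (charRep φ) ≤ 0 := by
  classical
  refine (b_charRep_le_gal hL hζ ω hω φ).trans ?_
  rw [if_neg]
  intro hall
  obtain ⟨σ, hσ, hne⟩ := h
  exact hne (hall σ hσ)

include hL hζ hω in
/-- `Count/Main.CharBoundB`, unfolded. -/
theorem h1_charRep_le_one_of_index_two (hp2 : p ≠ 2) (H : Subgroup (L ≃ₐ[ℚ_[p]] L))
    (ψ : H →* kˣ) (hH : H.index = 2) (hI : inertia L ≤ H) (hψ1 : ψ ≠ 1)
    (hψI : ∃ δ : H, (δ : L ≃ₐ[ℚ_[p]] L) ∈ inertia L ∧ ψ δ ≠ ω δ) :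
    h1 (charRep ψ) ≤ 1 := by
  letI := ZMod.algebra k p
  refine h1_charRep_le_one H.subtype H.subtype_injective hL hζ (ω.comp H.subtype)
    (fun g => hω g) hp2 (isUnramifiedIn_fixF_subtype_top H hI) ?_ ψ hψ1 hψI
  rw [finrank_fixF_subtype_top, hH]

end Consumer

end Fermat.Agent.S56.Flat.Count.CharBound
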