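/-
S56 / block F (FLAT), leaf FLC-Main part 2 (helper20): the one-character bounds `CharBoundA`,
`CharBoundB` of `Count/Main.lean` discharged from FLC-Char (helper7 `Count/CharBound.lean`) at
`ρ = Transport.rhoL hL`, `ω = detChar (rhoL hL)`, and the hypothesis-free exports of FL-C:

* `detChar_rhoL_spec` : `det (rhoL hL) = ω̄` in the `ω̄`-free form;
* **`charBoundA_rhoL`**, **`charBoundB_rhoL`** (= `hA`, `hB` of helper17's `Bridge/Plug`);
* `b_ad0Rep_rhoL_le_one`, `b_ad0Rep_rhoL_le_one_of_irred`, `hFLC`, `range_sub_le_one_rhoL`.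
-/
import Mathlib
import Fermat.Agent.S56.Flat.Count.Main
import Fermat.Agent.S56.Flat.Count.CharBound

set_option autoImplicit false
set_option linter.unusedSectionVars false
set_option linter.style.longLine false

namespace Fermat.Agent.S56.Flat.Count.Final

open Module Fermat.Agent.S56.Flat.Count.Devissage Fermat.Agent.S56.Flat.Count.IrredStructure
  Fermat.Agent.S56.Flat.Count.Ad0Rep Fermat.Agent.S56.Flat.Count.Main
  Fermat.Agent.S56.Flat.Count.LocalGalois Fermat.Agent.S56.Flat.KummerBound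
  Fermat.Agent.S56.Flat.Count

/-! ### The instance `ρ = rhoL hL` : hypothesis-free exports -/

section Instance

open Fermat.Agent.S56.Flat.Bridge.Transport Fermat.Agent.S56.Flat.Bridge.Member
  Fermat.Agent.S56.Flat.Bridge.Compositum Fermat.Agent.S56.Flat.Bridge.Main
  Fermat.Agent.S56.Flat.Bridge.Instance Fermat.Agent.S56.Loc.BorelCore groupCohomology

local notation "Qbar" => AlgebraicClosure ℚ

variable {k : Type} [Field k] [Finite k] {ρbar : ResidualGaloisRep k} {p : ℕ} [Fact p.Prime]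
  [Algebra (ZMod p) k] {L : IntermediateField ℚ_[p] (PadicAlgCl p)}
  (hL : L ∈ flatFamily p (trivSubgroup ρbar p))

/-- `det (rhoL hL) = ω̄` in the `ω̄`-free form. -/
theorem detChar_rhoL_spec (hdet : (GaloisRepAdic.ofResidualGaloisRep ρbar).DetIsCyclotomic p)
    {ζ : L} (hζ : ζ ^ p = 1) (g : L ≃ₐ[ℚ_[p]] L) :
    ∃ a : ℕ, ((detChar (rhoL hL) g : kˣ) : k) = (a : k) ∧ g ζ = ζ ^ a := by
  obtain ⟨a, ha, haζ⟩ := det_rhoL_spec hL hdet g
  exact ⟨a, ha, haζ ζ hζ⟩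

/-- **(CA1) ∧ (CA0)** for `rhoL hL`. -/
theorem charBoundA_rhoL [FiniteDimensional ℚ_[p] L] [IsGalois ℚ_[p] L] (hp2 : p ≠ 2)
    (hdet : (GaloisRepAdic.ofResidualGaloisRep ρbar).DetIsCyclotomic p) :
    CharBoundA L (detChar (rhoL hL)) := by
  have : CharP k p := charP_of_injective_algebraMap (algebraMap (ZMod p) k).injective p
  obtain ⟨ζ, hζ⟩ := exists_primitiveRoot hL
  exact ⟨CharBound.b_charRep_le_one_gal (isPeuRamifie hL hp2) hζ _
      (detChar_rhoL_spec hL hdet hζ.pow_eq_one),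
    CharBound.b_charRep_le_zero_gal (isPeuRamifie hL hp2) hζ _
      (detChar_rhoL_spec hL hdet hζ.pow_eq_one)⟩

/-- **(C-B)** for `rhoL hL`. -/
theorem charBoundB_rhoL [FiniteDimensional ℚ_[p] L] [IsGalois ℚ_[p] L] (hp2 : p ≠ 2)
    (hdet : (GaloisRepAdic.ofResidualGaloisRep ρbar).DetIsCyclotomic p) :
    CharBoundB L (detChar (rhoL hL)) := by
  have : CharP k p := charP_of_injective_algebraMap (algebraMap (ZMod p) k).injective p
  obtain ⟨ζ, hζ⟩ := exists_primitiveRoot hL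
  exact fun H ψ hH hI hψ1 hψI => CharBound.h1_charRep_le_one_of_index_two (isPeuRamifie hL hp2) hζ _
    (detChar_rhoL_spec hL hdet hζ.pow_eq_one) hp2 H ψ hH hI hψ1 hψI

/-- **FL-C, hypothesis-free**: `b(ad⁰(ρ̄|Gal(L/ℚ_p))) ≤ 1` if `ρ̄|G_p` is irreducible or `p ≥ 5`. -/
theorem b_ad0Rep_rhoL_le_one (hp2 : p ≠ 2)
    (hsplit : ∀ σ : Qbar ≃ₐ[ℚ] Qbar, ∃ α β : k,
      LinearMap.charpoly (ρbar.ρ σ) = (Polynomial.X - Polynomial.C α) * (Polynomial.X - Polynomial.C β))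
    (hdet : (GaloisRepAdic.ofResidualGaloisRep ρbar).DetIsCyclotomic p)
    (h : IsIrredAtP ρbar p ∨ 5 ≤ p) : Devissage.b (ad0Rep (rhoL hL)) ≤ 1 := by
  have := hL.1
  have := hL.2.1
  exact Main.b_ad0Rep_rhoL_le_one hL hp2 hsplit hdet (charBoundA_rhoL hL hp2 hdet)
    (fun _ => charBoundB_rhoL hL hp2 hdet) h

/-- **(I)**: the irreducible case. -/
theorem b_ad0Rep_rhoL_le_one_of_irred (hp2 : p ≠ 2)
    (hsplit : ∀ σ : Qbar ≃ₐ[ℚ] Qbar, ∃ α β : k,
      LinearMap.charpoly (ρbar.ρ σ) = (Polynomial.X - Polynomial.C α) * (Polynomial.X - Polynomial.C β))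
    (hdet : (GaloisRepAdic.ofResidualGaloisRep ρbar).DetIsCyclotomic p)
    (hirr : IsIrred (rhoL hL)) : Devissage.b (ad0Rep (rhoL hL)) ≤ 1 :=
  b_ad0Rep_rhoL_le_one hL hp2 hsplit hdet (Or.inl ((isIrred_rhoL_iff hL).1 hirr))

/-- **`hFLC`** of `Bridge.Main.finrank_flCond_add_le_local`, hypothesis-free, for `ρ̄|G_p`
irreducible or `p ≥ 5`. -/
theorem hFLC (hp2 : p ≠ 2)
    (hsplit : ∀ σ : Qbar ≃ₐ[ℚ] Qbar, ∃ α β : k,
      LinearMap.charpoly (ρbar.ρ σ) = (Polynomial.X - Polynomial.C α) * (Polynomial.X - Polynomial.C β))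
    (hdet : (GaloisRepAdic.ofResidualGaloisRep ρbar).DetIsCyclotomic p)
    (h : IsIrredAtP ρbar p ∨ 5 ≤ p) :
    ∀ (L : IntermediateField ℚ_[p] (PadicAlgCl p))
      (hL : L ∈ flatFamily p (trivSubgroup ρbar p)),
      finrank k (H1 (adL ρbar p L hL)) ≤ finrank k (H0 (adL ρbar p L hL)) + 1 :=
  hFLC_of_b_le fun L hL => b_ad0Rep_rhoL_le_one hL hp2 hsplit hdet h

/-- **(R3) for `rhoL hL`, hypothesis-free** (all odd `p`). -/
theorem range_sub_le_one_rhoL [FiniteDimensional ℚ_[p] L] [IsGalois ℚ_[p] L] (hp2 : p ≠ 2)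
    (hdet : (GaloisRepAdic.ofResidualGaloisRep ρbar).DetIsCyclotomic p)
    {b : Basis (Fin 2) k ρbar.V}
    (hUT : ∀ τ : PadicAlgCl p ≃ₐ[ℚ_[p]] PadicAlgCl p, IsUT b (ρbar.ρ (localGaloisToGlobal p τ))) :
    (finrank k (LinearMap.range
      (groupCohomology.map (A := Reducible.W1Rep (cf10_ρ (isUT_rhoL hL hUT)))
        (B := ad0Rep (rhoL hL)) (MonoidHom.id (L ≃ₐ[ℚ_[p]] L))
        (Rep.subtype (ad0Rep (rhoL hL)) (Reducible.W1 (ad0Rep (rhoL hL)) (cf (rhoL hL) b 1 0))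
          (Reducible.W1_stable (cf10_ρ (isUT_rhoL hL hUT)))) 1).hom) : ℤ)
      - (h0 (ad0Rep (rhoL hL)) : ℤ) ≤ 1 :=
  Main.range_sub_le_one_rhoL hL hp2 hdet (charBoundA_rhoL hL hp2 hdet) hUT

end Instance

end Fermat.Agent.S56.Flat.Count.Final
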