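/-
S56 / FL-C, leaf FLC-Irr part (S) (helper2): STRUCTURE of an irreducible two-dimensional
representation of a finite group with a "tame-type" filtration — Mathlib only, no cohomology.

Setting: `ρ : Representation k Γ V`, `finrank k V = 2`, `IsIrred ρ` (no stable proper subspace, in the
elementary form of the frozen statements), every `ρ γ` has a split characteristic polynomial;
normal subgroups `Γ₁ ≤ Γ₀` of `Γ` with `Γ₁` a `p`-group, `Γ₀/Γ₁` commutative of exponent prime to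
`p = char k`, and `Γ/Γ₀` generated by one element `τ`.

* linear algebra: `eq_smul_one_of_charpoly_eq_sq` (finite order prime to `p` + charpoly `(X-α)²` ⇒
  scalar), `exists_eigenvector_of_isRoot`, `exists_basis_of_eigenvectors`;
* `2 × 2` matrices: `IsDiag`, `IsAnti`, `isDiag_of_commute`, `isDiag_or_isAnti_of_intertwine`,
  `IsAnti.conj_diag`;
* `mat ρ b γ` (matrix of `ρ γ` in the basis `b`), **`IsSplitBasis ρ b Γ₀`** (`Γ₀` diagonal and not
  scalar in `b`), **`stab ρ b : Subgroup Γ`** (the diagonal elements = stabiliser of the two lines),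
  `IsSplitBasis.isDiag_or_isAnti`, `IsSplitBasis.index_stab` (index `2`), `apply_basis_*`;
* `IsIrred`, **`exists_isSplitBasis`**, `IsSplitBasis.not_mem_stab_of_cyc` (`τ ∉ stab`);
* **`eq_one_of_mem_pGroup`** (S1: a normal `p`-subgroup acts trivially);
* characters `chi₁ chi₂ : stab ρ b →* kˣ`, `IsSplitBasis.swap_of_not_mem` (conjugation by `τ` swaps
  them), `IsSplitBasis.exists_chi_ne`, `det_eq_of_mem`;
* `ad⁰`: `hEnd b`, `xP b`, `xM b` (trace zero, a basis of the trace-zero endomorphisms: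
  `eq_comb_of_trace_eq_zero`, `comb_eq_zero`), the conjugation action: `conj_hEnd_of_mem` (`= h`),
  `IsSplitBasis.conj_hEnd_of_not_mem` (`= -h`), `conj_xP_of_mem` (`χ₁/χ₂`), `conj_xM_of_mem`
  (`χ₂/χ₁`), `IsSplitBasis.conj_xP_of_not_mem`, `conj_xM_of_not_mem` (swap), and
  **`IsSplitBasis.comb_eq_zero_of_invariant`** (`(X₊ ⊕ X₋)^{Γ₀} = 0`);
* Frobenius bookkeeping: `IsSplitBasis.frob_relations` (`χ₂ = χ₁^p`, `χ₁ = χ₂^p` on `Γ₀`),
  `ratio_pow_eq_one` (`ψ^{p+1} = 1`), `ratio_ne_mul` ((A3): `ψ ≠ det`);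
* **`exists_structure`**, **`IsSplitBasis.frob_consequences`** : the summary statements.
-/
import Mathlib

set_option autoImplicit false
set_option linter.style.haveILetI false

namespace Fermat.Agent.S56.Flat.Count.IrredStructure

open Polynomial Module

section LinAlg

variable {k : Type*} [Field k] {V : Type*} [AddCommGroup V] [Module k V]

/-- An endomorphism of finite order prime to the characteristic whose characteristic polynomial is
`(X - α)²` is the scalar `α`. -/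
theorem eq_smul_one_of_charpoly_eq_sq [Module.Finite k V] (f : Module.End k V) (α : k)
    (hchar : f.charpoly = (X - C α) * (X - C α)) {m : ℕ} (hm : (m : k) ≠ 0) (hf : f ^ m = 1) :
    f = α • (1 : Module.End k V) := by
  have h1 : minpoly k f ∣ (X - C α) ^ 2 := by
    rw [sq, ← hchar]
    exact LinearMap.minpoly_dvd_charpoly f
  have h2 : minpoly k f ∣ X ^ m - C (1 : k) := by
    apply minpoly.dvd
    rw [map_sub, map_pow, aeval_X, aeval_C, hf, map_one, sub_self]
  have hsep : (X ^ m - C (1 : k)).Separable := separable_X_pow_sub_C 1 hm one_ne_zero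
  have hsq : Squarefree (minpoly k f) := hsep.squarefree.squarefree_of_dvd h2
  have h3 : minpoly k f ∣ X - C α := (hsq.dvd_pow_iff_dvd two_ne_zero).1 h1
  have h4 : aeval f (X - C α) = 0 := by
    obtain ⟨q, hq⟩ := h3
    rw [hq, map_mul, minpoly.aeval, zero_mul]
  rw [map_sub, aeval_X, aeval_C, sub_eq_zero] at h4
  rw [h4, Algebra.algebraMap_eq_smul_one]

/-- A root of the characteristic polynomial has an eigenvector. -/
theorem exists_eigenvector_of_isRoot [Module.Finite k V] (f : Module.End k V) {α : k}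
    (h : f.charpoly.IsRoot α) : ∃ v : V, v ≠ 0 ∧ f v = α • v := by
  obtain ⟨v, hv⟩ := ((Module.End.hasEigenvalue_iff_isRoot_charpoly f α).2 h).exists_hasEigenvector
  exact ⟨v, hv.2, hv.apply_eq_smul⟩

theorem isRoot_left_of_charpoly_eq [Module.Finite k V] (f : Module.End k V) {α β : k}
    (hchar : f.charpoly = (X - C α) * (X - C β)) : f.charpoly.IsRoot α := by
  rw [hchar, IsRoot.def, eval_mul, eval_sub, eval_X, eval_C, sub_self, zero_mul]

theorem isRoot_right_of_charpoly_eq [Module.Finite k V] (f : Module.End k V) {α β : k}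
    (hchar : f.charpoly = (X - C α) * (X - C β)) : f.charpoly.IsRoot β := by
  rw [hchar, IsRoot.def, eval_mul, eval_sub, eval_X, eval_C, eval_sub, eval_X, eval_C, sub_self,
    mul_zero]

/-- Eigenvectors for two distinct eigenvalues of an endomorphism of a plane form a basis. -/
theorem exists_basis_of_eigenvectors (hdim : Module.finrank k V = 2) (f : Module.End k V)
    {α β : k} (hαβ : α ≠ β) {v w : V} (hv : v ≠ 0) (hw : w ≠ 0) (hfv : f v = α • v)
    (hfw : f w = β • w) : ∃ b : Basis (Fin 2) k V, b 0 = v ∧ b 1 = w := by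
  have hli : LinearIndependent k ![v, w] := by
    rw [LinearIndependent.pair_iff]
    intro s t hst
    have h1 : f (s • v + t • w) = 0 := by rw [hst, map_zero]
    rw [map_add, map_smul, map_smul, hfv, hfw] at h1
    have h2 : t • (β - α) • w = 0 := by
      have h3 : α • (s • v + t • w) = 0 := by rw [hst, smul_zero]
      have : t • (β - α) • w = (s • α • v + t • β • w) - α • (s • v + t • w) := by
        simp only [smul_add, sub_smul, smul_sub, smul_smul]
        rw [mul_comm s α, mul_comm t α]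
        abel
      rw [this, h1, h3, sub_zero]
    rw [smul_smul] at h2
    have ht : t = 0 := by
      rcases smul_eq_zero.1 h2 with h | h
      · rcases mul_eq_zero.1 h with h | h
        · exact h
        · exact absurd (sub_eq_zero.1 h).symm hαβ
      · exact absurd h hw
    rw [ht, zero_smul, add_zero] at hst
    rcases smul_eq_zero.1 hst with h | h
    · exact ⟨h, ht⟩
    · exact absurd h hv
  have hcard : Fintype.card (Fin 2) = Module.finrank k V := by rw [hdim]; rfl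
  refine ⟨basisOfLinearIndependentOfCardEqFinrank hli hcard, ?_, ?_⟩
  · rw [coe_basisOfLinearIndependentOfCardEqFinrank]; rfl
  · rw [coe_basisOfLinearIndependentOfCardEqFinrank]; rfl

end LinAlg

section Mat

variable {k : Type*} [Field k]

/-- diagonal `2 × 2` matrices -/
def IsDiag (A : Matrix (Fin 2) (Fin 2) k) : Prop := A 0 1 = 0 ∧ A 1 0 = 0

/-- antidiagonal `2 × 2` matrices -/
def IsAnti (A : Matrix (Fin 2) (Fin 2) k) : Prop := A 0 0 = 0 ∧ A 1 1 = 0

theorem mul_apply_two (A B : Matrix (Fin 2) (Fin 2) k) (i j : Fin 2) :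
    (A * B) i j = A i 0 * B 0 j + A i 1 * B 1 j := by
  rw [Matrix.mul_apply, Fin.sum_univ_two]

variable {A B D D' : Matrix (Fin 2) (Fin 2) k}

theorem isDiag_one : IsDiag (1 : Matrix (Fin 2) (Fin 2) k) := by
  constructor <;> simp

theorem IsDiag.mul (hA : IsDiag A) (hB : IsDiag B) : IsDiag (A * B) := by
  constructor
  · rw [mul_apply_two, hA.1, hB.1, mul_zero, zero_mul, add_zero]
  · rw [mul_apply_two, hA.2, hB.2, mul_zero, zero_mul, add_zero]

theorem IsDiag.mul_apply_zero (hA : IsDiag A) : (A * B) 0 0 = A 0 0 * B 0 0 := by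
  rw [mul_apply_two, hA.1, zero_mul, add_zero]

theorem IsDiag.mul_apply_one (hA : IsDiag A) : (A * B) 1 1 = A 1 1 * B 1 1 := by
  rw [mul_apply_two, hA.2, zero_mul, zero_add]

theorem IsAnti.mul_anti (hA : IsAnti A) (hB : IsAnti B) : IsDiag (A * B) := by
  constructor
  · rw [mul_apply_two, hA.1, hB.2, mul_zero, zero_mul, add_zero]
  · rw [mul_apply_two, hA.2, hB.1, mul_zero, zero_mul, add_zero]

theorem IsDiag.mul_anti (hA : IsDiag A) (hB : IsAnti B) : IsAnti (A * B) := by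
  constructor
  · rw [mul_apply_two, hA.1, hB.1, mul_zero, zero_mul, add_zero]
  · rw [mul_apply_two, hA.2, hB.2, mul_zero, zero_mul, add_zero]

theorem IsAnti.mul_diag (hA : IsAnti A) (hB : IsDiag B) : IsAnti (A * B) := by
  constructor
  · rw [mul_apply_two, hA.1, hB.2, mul_zero, zero_mul, add_zero]
  · rw [mul_apply_two, hA.2, hB.1, mul_zero, zero_mul, add_zero]

theorem IsDiag.det_eq (hA : IsDiag A) : A.det = A 0 0 * A 1 1 := by
  rw [Matrix.det_fin_two, hA.1, zero_mul, sub_zero]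

theorem IsAnti.det_eq (hA : IsAnti A) : A.det = -(A 0 1 * A 1 0) := by
  rw [Matrix.det_fin_two, hA.1, zero_mul, zero_sub]

theorem IsDiag.ne_zero (hA : IsDiag A) (hdet : A.det ≠ 0) : A 0 0 ≠ 0 ∧ A 1 1 ≠ 0 := by
  rw [hA.det_eq] at hdet
  exact ⟨left_ne_zero_of_mul hdet, right_ne_zero_of_mul hdet⟩

theorem IsAnti.ne_zero (hA : IsAnti A) (hdet : A.det ≠ 0) : A 0 1 ≠ 0 ∧ A 1 0 ≠ 0 := by
  rw [hA.det_eq, neg_ne_zero] at hdet
  exact ⟨left_ne_zero_of_mul hdet, right_ne_zero_of_mul hdet⟩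

theorem IsDiag.not_isAnti (hA : IsDiag A) (hdet : A.det ≠ 0) : ¬IsAnti A := fun h =>
  (hA.ne_zero hdet).1 h.1

/-- The inverse of an invertible diagonal matrix is diagonal. -/
theorem IsDiag.of_mul_eq_one (hA : IsDiag A) (h : A * B = 1) : IsDiag B := by
  have hdet : A.det ≠ 0 := by
    intro h0
    have := congrArg Matrix.det h
    rw [Matrix.det_mul, h0, zero_mul, Matrix.det_one] at this
    exact zero_ne_one this
  obtain ⟨h00, h11⟩ := hA.ne_zero hdet
  constructor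
  · have := congrFun (congrFun h 0) 1
    rw [mul_apply_two, hA.1, zero_mul, add_zero] at this
    simpa [h00] using this
  · have := congrFun (congrFun h 1) 0
    rw [mul_apply_two, hA.2, zero_mul, zero_add] at this
    simpa [h11] using this

/-- A matrix commuting with a diagonal matrix with distinct entries is diagonal. -/
theorem isDiag_of_commute (hD : IsDiag D) (hne : D 0 0 ≠ D 1 1) (h : A * D = D * A) :
    IsDiag A := by
  constructor
  · have := congrFun (congrFun h 0) 1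
    rw [mul_apply_two, mul_apply_two, hD.1, mul_zero, zero_add, zero_mul, add_zero] at this
    have h2 : A 0 1 * (D 1 1 - D 0 0) = 0 := by rw [mul_sub, this]; ring
    rcases mul_eq_zero.1 h2 with h3 | h3
    · exact h3
    · exact absurd (sub_eq_zero.1 h3).symm hne
  · have := congrFun (congrFun h 1) 0
    rw [mul_apply_two, mul_apply_two, hD.2, mul_zero, add_zero, zero_mul, zero_add] at this
    have h2 : A 1 0 * (D 0 0 - D 1 1) = 0 := by rw [mul_sub, this]; ring
    rcases mul_eq_zero.1 h2 with h3 | h3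
    · exact h3
    · exact absurd (sub_eq_zero.1 h3) hne

/-- An invertible matrix intertwining a diagonal matrix with a diagonal matrix with distinct
entries is diagonal or antidiagonal. -/
theorem isDiag_or_isAnti_of_intertwine (hD : IsDiag D) (hD' : IsDiag D') (hne : D 0 0 ≠ D 1 1)
    (hdet : A.det ≠ 0) (h : A * D' = D * A) : IsDiag A ∨ IsAnti A := by
  have e : ∀ i j : Fin 2, A i j * D' j j = D i i * A i j := by
    intro i j
    have := congrFun (congrFun h i) j
    rw [mul_apply_two, mul_apply_two] at this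
    fin_cases i <;> fin_cases j
    · simpa [hD.1, hD'.2] using this
    · simpa [hD.1, hD'.1] using this
    · simpa [hD.2, hD'.2] using this
    · simpa [hD.2, hD'.1] using this
  by_cases h00 : A 0 0 = 0
  · right
    refine ⟨h00, ?_⟩
    rw [Matrix.det_fin_two, h00, zero_mul, zero_sub, neg_ne_zero] at hdet
    have h01 : A 0 1 ≠ 0 := left_ne_zero_of_mul hdet
    by_contra h11
    have e1 := e 0 1
    have e2 := e 1 1
    have h3 : D' 1 1 = D 0 0 := by
      have : A 0 1 * D' 1 1 = A 0 1 * D 0 0 := by rw [e1, mul_comm]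
      exact mul_left_cancel₀ h01 this
    have h4 : D' 1 1 = D 1 1 := by
      have : A 1 1 * D' 1 1 = A 1 1 * D 1 1 := by rw [e2, mul_comm]
      exact mul_left_cancel₀ h11 this
    exact hne (h3.symm.trans h4)
  · left
    have h3 : D' 0 0 = D 0 0 := by
      have : A 0 0 * D' 0 0 = A 0 0 * D 0 0 := by rw [e 0 0, mul_comm]
      exact mul_left_cancel₀ h00 this
    have h10 : A 1 0 = 0 := by
      by_contra h10
      have h4 : D' 0 0 = D 1 1 := by
        have : A 1 0 * D' 0 0 = A 1 0 * D 1 1 := by rw [e 1 0, mul_comm]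
        exact mul_left_cancel₀ h10 this
      exact hne (h3.symm.trans h4)
    refine ⟨?_, h10⟩
    rw [Matrix.det_fin_two, h10, mul_zero, sub_zero] at hdet
    have h11 : A 1 1 ≠ 0 := right_ne_zero_of_mul hdet
    have h5 : D' 1 1 = D 1 1 := by
      have : A 1 1 * D' 1 1 = A 1 1 * D 1 1 := by rw [e 1 1, mul_comm]
      exact mul_left_cancel₀ h11 this
    by_contra h01
    have h6 : D' 1 1 = D 0 0 := by
      have : A 0 1 * D' 1 1 = A 0 1 * D 0 0 := by rw [e 0 1, mul_comm]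
      exact mul_left_cancel₀ h01 this
    exact hne (h6.symm.trans h5)

/-- Conjugating a diagonal matrix by an invertible antidiagonal one swaps the diagonal entries. -/
theorem IsAnti.conj_diag (hA : IsAnti A) (hdet : A.det ≠ 0) (hD : IsDiag D)
    (h : D' * A = A * D) : IsDiag D' ∧ D' 0 0 = D 1 1 ∧ D' 1 1 = D 0 0 := by
  obtain ⟨h01, h10⟩ := hA.ne_zero hdet
  have e : ∀ i j : Fin 2, (D' * A) i j = (A * D) i j := fun i j => by rw [h]
  have e00 := e 0 0
  have e01 := e 0 1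
  have e10 := e 1 0
  have e11 := e 1 1
  simp only [mul_apply_two, hA.1, hA.2, hD.1, hD.2, mul_zero, zero_mul, add_zero, zero_add]
    at e00 e01 e10 e11
  refine ⟨⟨?_, ?_⟩, ?_, ?_⟩
  · exact (mul_eq_zero.1 e00).resolve_right h10
  · exact (mul_eq_zero.1 e11).resolve_right h01
  · have : A 0 1 * D' 0 0 = A 0 1 * D 1 1 := by rw [← e01, mul_comm]
    exact mul_left_cancel₀ h01 this
  · have : A 1 0 * D' 1 1 = A 1 0 * D 0 0 := by rw [← e10, mul_comm]
    exact mul_left_cancel₀ h10 this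

end Mat

section Rep

variable {k : Type*} [Field k] {V : Type*} [AddCommGroup V] [Module k V] {Γ : Type*} [Group Γ]
variable (ρ : Representation k Γ V) (b : Basis (Fin 2) k V)

/-- The matrix of `ρ γ` in the basis `b`. -/
noncomputable def mat (γ : Γ) : Matrix (Fin 2) (Fin 2) k := LinearMap.toMatrix b b (ρ γ)

theorem mat_mul (γ γ' : Γ) : mat ρ b (γ * γ') = mat ρ b γ * mat ρ b γ' := by
  unfold mat
  rw [map_mul, LinearMap.toMatrix_mul]

theorem mat_one : mat ρ b 1 = 1 := by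
  unfold mat
  rw [map_one, LinearMap.toMatrix_one]

theorem mat_mul_inv (γ : Γ) : mat ρ b γ * mat ρ b γ⁻¹ = 1 := by
  rw [← mat_mul, mul_inv_cancel, mat_one]

theorem mat_inv_mul (γ : Γ) : mat ρ b γ⁻¹ * mat ρ b γ = 1 := by
  rw [← mat_mul, inv_mul_cancel, mat_one]

theorem det_mat_ne_zero (γ : Γ) : (mat ρ b γ).det ≠ 0 := by
  intro h0
  have := congrArg Matrix.det (mat_mul_inv ρ b γ)
  rw [Matrix.det_mul, h0, zero_mul, Matrix.det_one] at this
  exact zero_ne_one this

theorem mat_apply (γ : Γ) (i j : Fin 2) : mat ρ b γ i j = b.repr (ρ γ (b j)) i := by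
  unfold mat
  rw [LinearMap.toMatrix_apply]

theorem mat_pow (γ : Γ) (n : ℕ) : mat ρ b (γ ^ n) = mat ρ b γ ^ n := by
  induction n with
  | zero => rw [pow_zero, pow_zero, mat_one]
  | succ n ih => rw [pow_succ, pow_succ, mat_mul, ih]

/-- `ρ γ` applied to a basis vector, in terms of the matrix. -/
theorem apply_basis (γ : Γ) (j : Fin 2) :
    ρ γ (b j) = mat ρ b γ 0 j • b 0 + mat ρ b γ 1 j • b 1 := by
  conv_lhs => rw [← b.sum_repr (ρ γ (b j))]
  rw [Fin.sum_univ_two, mat_apply, mat_apply]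

/-- **Split bases**: `Γ₀` acts diagonally in the basis `b`, and not by scalars. -/
def IsSplitBasis (Γ₀ : Subgroup Γ) : Prop :=
  (∀ a ∈ Γ₀, IsDiag (mat ρ b a)) ∧ ∃ δ ∈ Γ₀, mat ρ b δ 0 0 ≠ mat ρ b δ 1 1

/-- The elements acting diagonally in the basis `b`: the stabiliser of the two lines. -/
noncomputable def stab : Subgroup Γ where
  carrier := {γ | IsDiag (mat ρ b γ)}
  mul_mem' := by
    intro γ γ' h h'
    show IsDiag (mat ρ b (γ * γ'))
    rw [mat_mul]
    exact IsDiag.mul h h'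
  one_mem' := by
    show IsDiag (mat ρ b 1)
    rw [mat_one]
    exact isDiag_one
  inv_mem' := by
    intro γ h
    exact IsDiag.of_mul_eq_one h (mat_mul_inv ρ b γ)

theorem mem_stab_iff (γ : Γ) : γ ∈ stab ρ b ↔ IsDiag (mat ρ b γ) := Iff.rfl

variable {ρ b}
variable {Γ₀ : Subgroup Γ}

theorem IsSplitBasis.le_stab (hb : IsSplitBasis ρ b Γ₀) : Γ₀ ≤ stab ρ b := fun a ha => hb.1 a ha

/-- Every element acts diagonally or antidiagonally in a split basis (`Γ₀` normal). -/
theorem IsSplitBasis.isDiag_or_isAnti [Γ₀.Normal] (hb : IsSplitBasis ρ b Γ₀) (γ : Γ) :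
    IsDiag (mat ρ b γ) ∨ IsAnti (mat ρ b γ) := by
  obtain ⟨δ, hδ, hne⟩ := hb.2
  have hconj : γ⁻¹ * δ * γ ∈ Γ₀ := by
    have := (inferInstance : Γ₀.Normal).conj_mem δ hδ γ⁻¹
    rwa [inv_inv] at this
  refine isDiag_or_isAnti_of_intertwine (hb.1 δ hδ) (hb.1 _ hconj) hne (det_mat_ne_zero ρ b γ) ?_
  rw [← mat_mul, ← mat_mul]
  congr 1
  group

theorem IsSplitBasis.isAnti_of_not_mem [Γ₀.Normal] (hb : IsSplitBasis ρ b Γ₀) {γ : Γ}
    (hγ : γ ∉ stab ρ b) : IsAnti (mat ρ b γ) :=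
  (hb.isDiag_or_isAnti γ).resolve_left hγ

theorem not_isAnti_of_mem {γ : Γ} (hγ : γ ∈ stab ρ b) : ¬IsAnti (mat ρ b γ) :=
  IsDiag.not_isAnti hγ (det_mat_ne_zero ρ b γ)

/-- The product of two elements outside the stabiliser lies in the stabiliser. -/
theorem IsSplitBasis.mul_mem_stab [Γ₀.Normal] (hb : IsSplitBasis ρ b Γ₀) {γ γ' : Γ}
    (hγ : γ ∉ stab ρ b) (hγ' : γ' ∉ stab ρ b) : γ * γ' ∈ stab ρ b := by
  show IsDiag (mat ρ b (γ * γ'))
  rw [mat_mul]
  exact (hb.isAnti_of_not_mem hγ).mul_anti (hb.isAnti_of_not_mem hγ')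

theorem IsSplitBasis.mul_not_mem_stab [Γ₀.Normal] (hb : IsSplitBasis ρ b Γ₀) {γ γ' : Γ}
    (hγ : γ ∈ stab ρ b) (hγ' : γ' ∉ stab ρ b) : γ * γ' ∉ stab ρ b := by
  intro h
  have h1 : IsAnti (mat ρ b (γ * γ')) := by
    rw [mat_mul]
    exact IsDiag.mul_anti hγ (hb.isAnti_of_not_mem hγ')
  exact not_isAnti_of_mem h h1

/-- The stabiliser has index two as soon as it is not everything. -/
theorem IsSplitBasis.index_stab [Γ₀.Normal] (hb : IsSplitBasis ρ b Γ₀) {τ : Γ}
    (hτ : τ ∉ stab ρ b) : (stab ρ b).index = 2 := by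
  rw [Subgroup.index_eq_two_iff]
  refine ⟨τ, fun γ => ?_⟩
  by_cases hγ : γ ∈ stab ρ b
  · exact Or.inr ⟨hγ, hb.mul_not_mem_stab hγ hτ⟩
  · exact Or.inl ⟨hb.mul_mem_stab hγ hτ, hγ⟩

/-- The two lines of a split basis are stable under the stabiliser. -/
theorem apply_basis_zero_of_mem {γ : Γ} (hγ : γ ∈ stab ρ b) :
    ρ γ (b 0) = mat ρ b γ 0 0 • b 0 := by
  rw [apply_basis, ((mem_stab_iff ρ b γ).1 hγ).2, zero_smul, add_zero]

theorem apply_basis_one_of_mem {γ : Γ} (hγ : γ ∈ stab ρ b) :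
    ρ γ (b 1) = mat ρ b γ 1 1 • b 1 := by
  rw [apply_basis, ((mem_stab_iff ρ b γ).1 hγ).1, zero_smul, zero_add]

/-- Elements outside the stabiliser swap the two lines. -/
theorem IsSplitBasis.apply_basis_zero_of_not_mem [Γ₀.Normal] (hb : IsSplitBasis ρ b Γ₀) {γ : Γ}
    (hγ : γ ∉ stab ρ b) : ρ γ (b 0) = mat ρ b γ 1 0 • b 1 := by
  rw [apply_basis, (hb.isAnti_of_not_mem hγ).1, zero_smul, zero_add]

theorem IsSplitBasis.apply_basis_one_of_not_mem [Γ₀.Normal] (hb : IsSplitBasis ρ b Γ₀) {γ : Γ}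
    (hγ : γ ∉ stab ρ b) : ρ γ (b 1) = mat ρ b γ 0 1 • b 0 := by
  rw [apply_basis, (hb.isAnti_of_not_mem hγ).2, zero_smul, add_zero]

end Rep


section Exist

variable {k : Type*} [Field k] {V : Type*} [AddCommGroup V] [Module k V] {Γ : Type*} [Group Γ]
variable (ρ : Representation k Γ V)

/-- Irreducibility, in the elementary form of the frozen statements. -/
def IsIrred : Prop :=
  ∀ W : Submodule k V, (∀ γ : Γ, ∀ v ∈ W, ρ γ v ∈ W) → W = ⊥ ∨ W = ⊤

variable {ρ}

/-- An irreducible plane has no stable line. -/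
theorem IsIrred.not_stable_line (hirr : IsIrred ρ) (hdim : Module.finrank k V = 2) {v : V}
    (hv : v ≠ 0) : ¬∀ γ : Γ, ρ γ v ∈ Submodule.span k {v} := by
  intro h
  have hstab : ∀ γ : Γ, ∀ w ∈ Submodule.span k {v}, ρ γ w ∈ Submodule.span k {v} := by
    intro γ w hw
    obtain ⟨c, rfl⟩ := Submodule.mem_span_singleton.1 hw
    rw [map_smul]
    exact Submodule.smul_mem _ c (h γ)
  rcases hirr _ hstab with h0 | h1
  · rw [Submodule.span_singleton_eq_bot] at h0
    exact hv h0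
  · have h2 : Module.finrank k (Submodule.span k {v}) = 1 := finrank_span_singleton hv
    rw [h1, finrank_top, hdim] at h2
    omega

/-- The matrix of an endomorphism in a basis of eigenvectors. -/
theorem mat_of_eigen (b : Basis (Fin 2) k V) {γ : Γ} {α β : k} (h0 : ρ γ (b 0) = α • b 0)
    (h1 : ρ γ (b 1) = β • b 1) :
    IsDiag (mat ρ b γ) ∧ mat ρ b γ 0 0 = α ∧ mat ρ b γ 1 1 = β := by
  refine ⟨⟨?_, ?_⟩, ?_, ?_⟩
  · rw [mat_apply, h1, map_smul, b.repr_self]; simp
  · rw [mat_apply, h0, map_smul, b.repr_self]; simp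
  · rw [mat_apply, h0, map_smul, b.repr_self]; simp
  · rw [mat_apply, h1, map_smul, b.repr_self]; simp

/-- **Existence of a split basis**: if `ρ` is an irreducible plane with split characteristic
polynomials, `Γ₀` acts through a commutative group of elements of order prime to the characteristic
and `Γ` is generated by `Γ₀` and one element `τ`, then `Γ₀` is diagonal and non-scalar in a suitable
basis. -/
theorem exists_isSplitBasis [Module.Finite k V] (hdim : Module.finrank k V = 2)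
    (hirr : IsIrred ρ)
    (hsplit : ∀ γ : Γ, ∃ α β : k, (ρ γ).charpoly = (X - C α) * (X - C β))
    (Γ₀ : Subgroup Γ)
    (hcomm : ∀ a ∈ Γ₀, ∀ a' ∈ Γ₀, ρ a * ρ a' = ρ a' * ρ a)
    (hss : ∀ a ∈ Γ₀, ∃ m : ℕ, (m : k) ≠ 0 ∧ ρ a ^ m = 1)
    (τ : Γ) (hcyc : ∀ γ : Γ, ∃ j : ℕ, ∃ a ∈ Γ₀, γ = τ ^ j * a) :
    ∃ b : Basis (Fin 2) k V, IsSplitBasis ρ b Γ₀ := by
  by_contra hno
  -- every element of `Γ₀` acts by a scalar
  have hscal : ∀ a ∈ Γ₀, ∃ c : k, ρ a = c • (1 : Module.End k V) := by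
    intro a ha
    obtain ⟨α, β, hchar⟩ := hsplit a
    by_cases hαβ : α = β
    · subst hαβ
      obtain ⟨m, hm, hpow⟩ := hss a ha
      exact ⟨α, eq_smul_one_of_charpoly_eq_sq (ρ a) α hchar hm hpow⟩
    · exfalso
      obtain ⟨v, hv, hfv⟩ := exists_eigenvector_of_isRoot (ρ a)
        (isRoot_left_of_charpoly_eq (ρ a) hchar)
      obtain ⟨w, hw, hfw⟩ := exists_eigenvector_of_isRoot (ρ a)
        (isRoot_right_of_charpoly_eq (ρ a) hchar)
      obtain ⟨b, hb0, hb1⟩ := exists_basis_of_eigenvectors hdim (ρ a) hαβ hv hw hfv hfw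
      have hmat := mat_of_eigen (ρ := ρ) b (γ := a) (α := α) (β := β)
        (by rw [hb0]; exact hfv) (by rw [hb1]; exact hfw)
      apply hno
      refine ⟨b, fun a' ha' => ?_, a, ha, ?_⟩
      · refine isDiag_of_commute hmat.1 ?_ ?_
        · rw [hmat.2.1, hmat.2.2]; exact hαβ
        · unfold mat
          rw [← LinearMap.toMatrix_mul, ← LinearMap.toMatrix_mul, hcomm a' ha' a ha]
      · rw [hmat.2.1, hmat.2.2]; exact hαβ
  -- an eigenvector of `τ` spans a stable line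
  obtain ⟨α, β, hchar⟩ := hsplit τ
  obtain ⟨v, hv, hfv⟩ := exists_eigenvector_of_isRoot (ρ τ)
    (isRoot_left_of_charpoly_eq (ρ τ) hchar)
  refine hirr.not_stable_line hdim hv fun γ => ?_
  obtain ⟨j, a, ha, rfl⟩ := hcyc γ
  obtain ⟨c, hc⟩ := hscal a ha
  have hpow : ∀ j : ℕ, ρ (τ ^ j) v = α ^ j • v := by
    intro j
    induction j with
    | zero => rw [pow_zero, map_one, pow_zero, one_smul, Module.End.one_apply]
    | succ j ih =>
      rw [pow_succ, map_mul, Module.End.mul_apply, hfv, map_smul, ih, smul_smul, pow_succ,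
        mul_comm]
  rw [map_mul, Module.End.mul_apply, hc, LinearMap.smul_apply, Module.End.one_apply, map_smul,
    hpow, smul_smul]
  exact Submodule.smul_mem _ _ (Submodule.mem_span_singleton_self v)

/-- In an irreducible plane the generator `τ` of `Γ/Γ₀` does not stabilise the lines of a split
basis. -/
theorem IsSplitBasis.not_mem_stab_of_cyc {b : Basis (Fin 2) k V} {Γ₀ : Subgroup Γ}
    (hb : IsSplitBasis ρ b Γ₀) (hdim : Module.finrank k V = 2) (hirr : IsIrred ρ) (τ : Γ)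
    (hcyc : ∀ γ : Γ, ∃ j : ℕ, ∃ a ∈ Γ₀, γ = τ ^ j * a) : τ ∉ stab ρ b := by
  intro hτ
  refine hirr.not_stable_line hdim (b.ne_zero 0) fun γ => ?_
  obtain ⟨j, a, ha, rfl⟩ := hcyc γ
  have hmem : τ ^ j * a ∈ stab ρ b :=
    (stab ρ b).mul_mem ((stab ρ b).pow_mem hτ j) (hb.le_stab ha)
  rw [apply_basis_zero_of_mem hmem]
  exact Submodule.smul_mem _ _ (Submodule.mem_span_singleton_self _)

end Exist

section PGroup

variable {k : Type*} [Field k] {V : Type*} [AddCommGroup V] [Module k V] {Γ : Type*} [Group Γ]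
variable {ρ : Representation k Γ V}

/-- **(S1)** A normal `p`-subgroup acts trivially on an irreducible representation over a finite
field of characteristic `p`. -/
theorem eq_one_of_mem_pGroup {p : ℕ} [Fact p.Prime] [CharP k p] [Finite k] [Module.Finite k V]
    [Nontrivial V] (hirr : IsIrred ρ) (Γ₁ : Subgroup Γ) [Γ₁.Normal] (hΓ₁ : IsPGroup p Γ₁) {g : Γ}
    (hg : g ∈ Γ₁) : ρ g = 1 := by
  haveI : Finite V := Module.finite_of_finite k
  letI : MulAction Γ₁ V :=
    { smul := fun g v => ρ (g : Γ) v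
      one_smul := fun v => by
        show ρ ((1 : Γ₁) : Γ) v = v
        rw [Subgroup.coe_one, map_one]; rfl
      mul_smul := fun g h v => by
        show ρ ((g * h : Γ₁) : Γ) v = ρ g (ρ h v)
        rw [Subgroup.coe_mul, map_mul]; rfl }
  have hsmul : ∀ (g : Γ₁) (v : V), g • v = ρ (g : Γ) v := fun _ _ => rfl
  -- `p` divides the cardinality of `V`
  have hpV : p ∣ Nat.card V := by
    obtain ⟨v, hv⟩ := exists_ne (0 : V)
    have h1 : p • v = 0 := by
      rw [← Nat.cast_smul_eq_nsmul k, CharP.cast_eq_zero, zero_smul]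
    rw [← addOrderOf_eq_prime h1 hv]
    exact addOrderOf_dvd_natCard v
  have h0 : (0 : V) ∈ MulAction.fixedPoints Γ₁ V := fun g => by rw [hsmul, map_zero]
  obtain ⟨w, hw, hw0⟩ := hΓ₁.exists_fixed_point_of_prime_dvd_card_of_fixed_point V hpV h0
  -- the submodule of fixed vectors
  let W : Submodule k V :=
    { carrier := {v | ∀ g ∈ Γ₁, ρ g v = v}
      add_mem' := fun {a b} ha hb g hg => by rw [map_add, ha g hg, hb g hg]
      zero_mem' := fun g _ => map_zero _
      smul_mem' := fun c v hv g hg => by rw [map_smul, hv g hg] }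
  have hWstab : ∀ γ : Γ, ∀ v ∈ W, ρ γ v ∈ W := by
    intro γ v hv g hg
    have hconj : γ⁻¹ * g * γ ∈ Γ₁ := by
      have := (inferInstance : Γ₁.Normal).conj_mem g hg γ⁻¹
      rwa [inv_inv] at this
    have h1 := hv _ hconj
    have h2 : ρ g (ρ γ v) = ρ γ (ρ (γ⁻¹ * g * γ) v) := by
      rw [← Module.End.mul_apply, ← Module.End.mul_apply, ← map_mul, ← map_mul]
      congr 2
      group
    rw [h2, h1]
  have hwW : w ∈ W := fun g hg => hw ⟨g, hg⟩
  rcases hirr W hWstab with hbot | htop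
  · rw [hbot, Submodule.mem_bot] at hwW
    exact absurd hwW.symm hw0
  · ext v
    have hv : v ∈ W := by rw [htop]; exact Submodule.mem_top
    rw [hv g hg, Module.End.one_apply]

end PGroup

section Characters

variable {k : Type*} [Field k] {V : Type*} [AddCommGroup V] [Module k V] {Γ : Type*} [Group Γ]
variable (ρ : Representation k Γ V) (b : Basis (Fin 2) k V)

/-- The character of the stabiliser on the first line of the basis. -/
noncomputable def chi₁ : stab ρ b →* kˣ :=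
  MonoidHom.mk'
    (fun γ => Units.mk0 (mat ρ b γ 0 0) (IsDiag.ne_zero γ.2 (det_mat_ne_zero ρ b γ)).1)
    (by
      intro γ γ'
      apply Units.ext
      show mat ρ b ((γ * γ' : stab ρ b) : Γ) 0 0 = mat ρ b γ 0 0 * mat ρ b γ' 0 0
      rw [Subgroup.coe_mul, mat_mul, IsDiag.mul_apply_zero γ.2])

/-- The character of the stabiliser on the second line of the basis. -/
noncomputable def chi₂ : stab ρ b →* kˣ :=
  MonoidHom.mk'
    (fun γ => Units.mk0 (mat ρ b γ 1 1) (IsDiag.ne_zero γ.2 (det_mat_ne_zero ρ b γ)).2)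
    (by
      intro γ γ'
      apply Units.ext
      show mat ρ b ((γ * γ' : stab ρ b) : Γ) 1 1 = mat ρ b γ 1 1 * mat ρ b γ' 1 1
      rw [Subgroup.coe_mul, mat_mul, IsDiag.mul_apply_one γ.2])

@[simp] theorem coe_chi₁ (γ : stab ρ b) : ((chi₁ ρ b γ : kˣ) : k) = mat ρ b γ 0 0 := rfl

@[simp] theorem coe_chi₂ (γ : stab ρ b) : ((chi₂ ρ b γ : kˣ) : k) = mat ρ b γ 1 1 := rfl

variable {ρ b}

theorem apply_basis_zero (γ : stab ρ b) : ρ γ (b 0) = ((chi₁ ρ b γ : kˣ) : k) • b 0 :=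
  apply_basis_zero_of_mem γ.2

theorem apply_basis_one (γ : stab ρ b) : ρ γ (b 1) = ((chi₂ ρ b γ : kˣ) : k) • b 1 :=
  apply_basis_one_of_mem γ.2

/-- The determinant on the stabiliser is the product of the two characters. -/
theorem det_eq_of_mem {γ : Γ} (hγ : γ ∈ stab ρ b) :
    LinearMap.det (ρ γ) = mat ρ b γ 0 0 * mat ρ b γ 1 1 := by
  rw [← LinearMap.det_toMatrix b]
  exact IsDiag.det_eq hγ

variable {Γ₀ : Subgroup Γ}

/-- Conjugation by an element outside the stabiliser swaps the two characters. -/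
theorem IsSplitBasis.swap_of_not_mem [Γ₀.Normal] (hb : IsSplitBasis ρ b Γ₀) {τ : Γ}
    (hτ : τ ∉ stab ρ b) {γ : Γ} (hγ : γ ∈ stab ρ b) :
    τ * γ * τ⁻¹ ∈ stab ρ b ∧ mat ρ b (τ * γ * τ⁻¹) 0 0 = mat ρ b γ 1 1 ∧
      mat ρ b (τ * γ * τ⁻¹) 1 1 = mat ρ b γ 0 0 := by
  refine (hb.isAnti_of_not_mem hτ).conj_diag (det_mat_ne_zero ρ b τ) hγ ?_
  rw [← mat_mul, ← mat_mul]
  congr 1
  group

/-- The two characters differ on `Γ₀`. -/
theorem IsSplitBasis.exists_chi_ne (hb : IsSplitBasis ρ b Γ₀) :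
    ∃ δ : stab ρ b, (δ : Γ) ∈ Γ₀ ∧ chi₁ ρ b δ ≠ chi₂ ρ b δ := by
  obtain ⟨δ, hδ, hne⟩ := hb.2
  refine ⟨⟨δ, hb.le_stab hδ⟩, hδ, fun h => hne ?_⟩
  have := congrArg (fun u : kˣ => (u : k)) h
  exact this

end Characters

section Ad

variable {k : Type*} [Field k] {V : Type*} [AddCommGroup V] [Module k V] {Γ : Type*} [Group Γ]
variable (b : Basis (Fin 2) k V)

/-- `h = (+1 on the first line, -1 on the second line)`. -/
noncomputable def hEnd : Module.End k V := Matrix.toLin b b !![1, 0; 0, -1]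

/-- `x₊`: kills the first line and maps the second basis vector to the first. -/
noncomputable def xP : Module.End k V := Matrix.toLin b b !![0, 1; 0, 0]

/-- `x₋`: kills the second line and maps the first basis vector to the second. -/
noncomputable def xM : Module.End k V := Matrix.toLin b b !![0, 0; 1, 0]

theorem trace_hEnd : LinearMap.trace k V (hEnd b) = 0 := by
  rw [hEnd, Matrix.trace_toLin_eq, Matrix.trace_fin_two_of, add_neg_cancel]

theorem trace_xP : LinearMap.trace k V (xP b) = 0 := by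
  rw [xP, Matrix.trace_toLin_eq, Matrix.trace_fin_two_of, add_zero]

theorem trace_xM : LinearMap.trace k V (xM b) = 0 := by
  rw [xM, Matrix.trace_toLin_eq, Matrix.trace_fin_two_of, add_zero]

theorem toMatrix_comb (r s t : k) :
    LinearMap.toMatrix b b (r • hEnd b + s • xP b + t • xM b) = !![r, s; t, -r] := by
  rw [map_add, map_add, map_smul, map_smul, map_smul, hEnd, xP, xM, LinearMap.toMatrix_toLin,
    LinearMap.toMatrix_toLin, LinearMap.toMatrix_toLin]
  ext i j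
  fin_cases i <;> fin_cases j <;> simp

/-- `h, x₊, x₋` span the trace-zero endomorphisms. -/
theorem eq_comb_of_trace_eq_zero (x : Module.End k V) (hx : LinearMap.trace k V x = 0) :
    x = LinearMap.toMatrix b b x 0 0 • hEnd b + LinearMap.toMatrix b b x 0 1 • xP b +
      LinearMap.toMatrix b b x 1 0 • xM b := by
  apply (LinearMap.toMatrix b b).injective
  rw [toMatrix_comb]
  rw [LinearMap.trace_eq_matrix_trace k b, Matrix.trace_fin_two] at hx
  have h11 : LinearMap.toMatrix b b x 1 1 = -LinearMap.toMatrix b b x 0 0 :=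
    eq_neg_of_add_eq_zero_right hx
  ext i j
  fin_cases i <;> fin_cases j <;> simp [h11]

/-- `h, x₊, x₋` are linearly independent. -/
theorem comb_eq_zero {r s t : k} (h : r • hEnd b + s • xP b + t • xM b = 0) :
    r = 0 ∧ s = 0 ∧ t = 0 := by
  have h1 := toMatrix_comb b r s t
  rw [h, map_zero] at h1
  refine ⟨?_, ?_, ?_⟩
  · have := congrFun (congrFun h1 0) 0
    simpa using this.symm
  · have := congrFun (congrFun h1 0) 1
    simpa using this.symm
  · have := congrFun (congrFun h1 1) 0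
    simpa using this.symm

variable {b}
variable {ρ : Representation k Γ V}

/-- Conjugation in terms of a commutation relation. -/
theorem conj_eq_of_mul_eq {x y : Module.End k V} {γ : Γ} (h : ρ γ * x = y * ρ γ) :
    ρ γ * x * ρ γ⁻¹ = y := by
  rw [h, mul_assoc, ← map_mul, mul_inv_cancel, map_one, mul_one]

theorem mul_toLin_eq {X Y : Matrix (Fin 2) (Fin 2) k} {γ : Γ}
    (h : mat ρ b γ * X = Y * mat ρ b γ) :
    ρ γ * Matrix.toLin b b X = Matrix.toLin b b Y * ρ γ := by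
  apply (LinearMap.toMatrix b b).injective
  rw [LinearMap.toMatrix_mul, LinearMap.toMatrix_mul, LinearMap.toMatrix_toLin,
    LinearMap.toMatrix_toLin]
  exact h

/-- The stabiliser fixes `h`. -/
theorem conj_hEnd_of_mem {γ : Γ} (hγ : γ ∈ stab ρ b) : ρ γ * hEnd b * ρ γ⁻¹ = hEnd b := by
  apply conj_eq_of_mul_eq
  unfold hEnd
  apply mul_toLin_eq
  have hd : IsDiag (mat ρ b γ) := hγ
  ext i j
  rw [mul_apply_two, mul_apply_two]
  fin_cases i <;> fin_cases j <;> simp [hd.1, hd.2]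

/-- The stabiliser acts on `x₊` through `χ₁/χ₂`. -/
theorem conj_xP_of_mem {γ : Γ} (hγ : γ ∈ stab ρ b) :
    ρ γ * xP b * ρ γ⁻¹ = (mat ρ b γ 0 0 / mat ρ b γ 1 1) • xP b := by
  apply conj_eq_of_mul_eq
  unfold xP
  rw [← map_smul]
  apply mul_toLin_eq
  have hd : IsDiag (mat ρ b γ) := hγ
  obtain ⟨h00, h11⟩ := hd.ne_zero (det_mat_ne_zero ρ b γ)
  ext i j
  rw [mul_apply_two, mul_apply_two]
  fin_cases i <;> fin_cases j <;> simp [hd.1, hd.2, h11]

/-- The stabiliser acts on `x₋` through `χ₂/χ₁`. -/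
theorem conj_xM_of_mem {γ : Γ} (hγ : γ ∈ stab ρ b) :
    ρ γ * xM b * ρ γ⁻¹ = (mat ρ b γ 1 1 / mat ρ b γ 0 0) • xM b := by
  apply conj_eq_of_mul_eq
  unfold xM
  rw [← map_smul]
  apply mul_toLin_eq
  have hd : IsDiag (mat ρ b γ) := hγ
  obtain ⟨h00, h11⟩ := hd.ne_zero (det_mat_ne_zero ρ b γ)
  ext i j
  rw [mul_apply_two, mul_apply_two]
  fin_cases i <;> fin_cases j <;> simp [hd.1, hd.2, h00]

variable {Γ₀ : Subgroup Γ}

/-- Elements outside the stabiliser negate `h`. -/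
theorem IsSplitBasis.conj_hEnd_of_not_mem [Γ₀.Normal] (hb : IsSplitBasis ρ b Γ₀) {γ : Γ}
    (hγ : γ ∉ stab ρ b) : ρ γ * hEnd b * ρ γ⁻¹ = -hEnd b := by
  apply conj_eq_of_mul_eq
  unfold hEnd
  rw [← map_neg]
  apply mul_toLin_eq
  have ha := hb.isAnti_of_not_mem hγ
  ext i j
  rw [mul_apply_two, mul_apply_two]
  fin_cases i <;> fin_cases j <;> simp [ha.1, ha.2]

/-- Elements outside the stabiliser map `x₊` to a non-zero multiple of `x₋`. -/
theorem IsSplitBasis.conj_xP_of_not_mem [Γ₀.Normal] (hb : IsSplitBasis ρ b Γ₀) {γ : Γ}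
    (hγ : γ ∉ stab ρ b) :
    ρ γ * xP b * ρ γ⁻¹ = (mat ρ b γ 1 0 / mat ρ b γ 0 1) • xM b := by
  apply conj_eq_of_mul_eq
  unfold xP xM
  rw [← map_smul]
  apply mul_toLin_eq
  have ha := hb.isAnti_of_not_mem hγ
  obtain ⟨h01, h10⟩ := ha.ne_zero (det_mat_ne_zero ρ b γ)
  ext i j
  rw [mul_apply_two, mul_apply_two]
  fin_cases i <;> fin_cases j <;> simp [ha.1, ha.2, h01]

/-- Elements outside the stabiliser map `x₋` to a non-zero multiple of `x₊`. -/
theorem IsSplitBasis.conj_xM_of_not_mem [Γ₀.Normal] (hb : IsSplitBasis ρ b Γ₀) {γ : Γ}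
    (hγ : γ ∉ stab ρ b) :
    ρ γ * xM b * ρ γ⁻¹ = (mat ρ b γ 0 1 / mat ρ b γ 1 0) • xP b := by
  apply conj_eq_of_mul_eq
  unfold xP xM
  rw [← map_smul]
  apply mul_toLin_eq
  have ha := hb.isAnti_of_not_mem hγ
  obtain ⟨h01, h10⟩ := ha.ne_zero (det_mat_ne_zero ρ b γ)
  ext i j
  rw [mul_apply_two, mul_apply_two]
  fin_cases i <;> fin_cases j <;> simp [ha.1, ha.2, h10]

theorem IsSplitBasis.ratio_ne_zero_of_not_mem [Γ₀.Normal] (hb : IsSplitBasis ρ b Γ₀) {γ : Γ}
    (hγ : γ ∉ stab ρ b) : mat ρ b γ 1 0 / mat ρ b γ 0 1 ≠ 0 := by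
  obtain ⟨h01, h10⟩ := (hb.isAnti_of_not_mem hγ).ne_zero (det_mat_ne_zero ρ b γ)
  exact div_ne_zero h10 h01

/-- **No invariants in `X = X₊ ⊕ X₋`**: a combination of `x₊, x₋` fixed by `Γ₀` vanishes. -/
theorem IsSplitBasis.comb_eq_zero_of_invariant (hb : IsSplitBasis ρ b Γ₀) {s t : k}
    (hinv : ∀ δ ∈ Γ₀, ρ δ * (s • xP b + t • xM b) * ρ δ⁻¹ = s • xP b + t • xM b) :
    s = 0 ∧ t = 0 := by
  obtain ⟨δ, hδ, hne⟩ := hb.2
  have hmem : δ ∈ stab ρ b := hb.le_stab hδ
  obtain ⟨h00, h11⟩ := IsDiag.ne_zero hmem (det_mat_ne_zero ρ b δ)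
  have h1 := hinv δ hδ
  rw [mul_add, add_mul, mul_smul_comm, smul_mul_assoc, mul_smul_comm, smul_mul_assoc,
    conj_xP_of_mem hmem, conj_xM_of_mem hmem, smul_smul, smul_smul] at h1
  have h2 : (0 : k) • hEnd b + (s * (mat ρ b δ 0 0 / mat ρ b δ 1 1) - s) • xP b +
      (t * (mat ρ b δ 1 1 / mat ρ b δ 0 0) - t) • xM b = 0 := by
    rw [zero_smul, zero_add, sub_smul, sub_smul]
    rw [← sub_eq_zero] at h1
    rw [← h1]
    abel
  obtain ⟨-, hs, ht⟩ := comb_eq_zero b h2
  constructor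
  · by_contra hs0
    have : mat ρ b δ 0 0 / mat ρ b δ 1 1 = 1 := by
      have h3 : s * (mat ρ b δ 0 0 / mat ρ b δ 1 1) = s * 1 := by
        rw [mul_one]; exact sub_eq_zero.1 hs
      exact mul_left_cancel₀ hs0 h3
    rw [div_eq_one_iff_eq h11] at this
    exact hne this
  · by_contra ht0
    have : mat ρ b δ 1 1 / mat ρ b δ 0 0 = 1 := by
      have h3 : t * (mat ρ b δ 1 1 / mat ρ b δ 0 0) = t * 1 := by
        rw [mul_one]; exact sub_eq_zero.1 ht
      exact mul_left_cancel₀ ht0 h3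
    rw [div_eq_one_iff_eq h00] at this
    exact hne this.symm

end Ad

section Frob

variable {k : Type*} [Field k] {V : Type*} [AddCommGroup V] [Module k V] {Γ : Type*} [Group Γ]
variable {ρ : Representation k Γ V} {b : Basis (Fin 2) k V} {Γ₀ : Subgroup Γ}

theorem IsDiag.pow {A : Matrix (Fin 2) (Fin 2) k} (hA : IsDiag A) (n : ℕ) :
    IsDiag (A ^ n) ∧ (A ^ n) 0 0 = A 0 0 ^ n ∧ (A ^ n) 1 1 = A 1 1 ^ n := by
  induction n with
  | zero =>
    rw [pow_zero, pow_zero, pow_zero]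
    exact ⟨isDiag_one, by simp, by simp⟩
  | succ n ih =>
    rw [pow_succ, pow_succ, pow_succ]
    refine ⟨ih.1.mul hA, ?_, ?_⟩
    · rw [ih.1.mul_apply_zero, ih.2.1]
    · rw [ih.1.mul_apply_one, ih.2.2]

/-- **Frobenius relations**: if `τ` lies outside the stabiliser and conjugation by `τ` is the
`p`-th power map on `ρ(Γ₀)`, then `χ₂ = χ₁ ^ p` and `χ₁ = χ₂ ^ p` on `Γ₀`. -/
theorem IsSplitBasis.frob_relations [Γ₀.Normal] (hb : IsSplitBasis ρ b Γ₀) {τ : Γ}
    (hτ : τ ∉ stab ρ b) {p : ℕ} {δ : Γ} (hδ : δ ∈ Γ₀) (hfrob : ρ (τ * δ * τ⁻¹) = ρ δ ^ p) :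
    mat ρ b δ 1 1 = mat ρ b δ 0 0 ^ p ∧ mat ρ b δ 0 0 = mat ρ b δ 1 1 ^ p := by
  obtain ⟨-, h0, h1⟩ := hb.swap_of_not_mem hτ (hb.le_stab hδ)
  have hpow : mat ρ b (τ * δ * τ⁻¹) = mat ρ b δ ^ p := by
    unfold mat
    rw [hfrob, LinearMap.toMatrix_pow]
  have hd := (IsDiag.pow (hb.1 δ hδ) p)
  rw [hpow] at h0 h1
  exact ⟨by rw [← h0, hd.2.1], by rw [← h1, hd.2.2]⟩

/-- `ψ ^ (p + 1) = 1` for `ψ = χ₁/χ₂` under the Frobenius relations. -/
theorem ratio_pow_eq_one {x x' : k} {p : ℕ} (hx' : x' ≠ 0) (h1 : x' = x ^ p) (h2 : x = x' ^ p) :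
    (x / x') ^ (p + 1) = 1 := by
  have h3 : x' ^ (p + 1) = x ^ (p + 1) := by
    calc x' ^ (p + 1) = x' ^ p * x' := pow_succ _ _
      _ = x * x ^ p := by rw [← h2, ← h1]
      _ = x ^ (p + 1) := (pow_succ' _ _).symm
  rw [div_pow, h3, div_self]
  rw [← h3]
  exact pow_ne_zero _ hx'

/-- **(A3)** `ψ = χ₁/χ₂` differs from the determinant `χ₁ χ₂` where `χ₁ ≠ χ₂` (`p` odd). -/
theorem ratio_ne_mul {x x' : k} {p : ℕ} (hp : Odd p) (hx : x ≠ 0) (h2 : x = x' ^ p)
    (hne : x ≠ x') : x / x' ≠ x * x' := by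
  intro h
  have hx' : x' ≠ 0 := by
    rintro rfl
    obtain ⟨m, rfl⟩ := hp
    rw [pow_succ, mul_zero] at h2
    exact hx h2
  have h3 : x' ^ 2 = 1 := by
    rw [div_eq_iff hx'] at h
    have h4 : x * 1 = x * (x' ^ 2) := by rw [mul_one, sq, ← mul_assoc]; exact h
    exact (mul_left_cancel₀ hx h4).symm
  obtain ⟨m, rfl⟩ := hp
  rw [pow_succ, pow_mul, h3, one_pow, one_mul] at h2
  exact hne h2

end Frob

section Main

variable {k : Type*} [Field k] {V : Type*} [AddCommGroup V] [Module k V] {Γ : Type*} [Group Γ]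
variable {ρ : Representation k Γ V}

/-- **Structure theorem (S)** for an irreducible two-dimensional representation `ρ` of `Γ` over a
finite field of characteristic `p` with split characteristic polynomials, relative to normal
subgroups `Γ₁ ≤ Γ₀` with `Γ₁` a `p`-group ("wild inertia"), `Γ₀/Γ₁` commutative of exponent prime
to `p` ("tame inertia") and `Γ/Γ₀` generated by one element `τ` ("Frobenius"): `Γ₁` acts trivially,
there is a basis in which `Γ₀` acts diagonally and not by scalars, every element of `Γ` is diagonal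
or antidiagonal in it, the diagonal ones form a subgroup of index `2` containing `Γ₀`, and `τ` is
antidiagonal. -/
theorem exists_structure {p : ℕ} [Fact p.Prime] [CharP k p] [Finite k] [Module.Finite k V]
    (hdim : Module.finrank k V = 2) (hirr : IsIrred ρ)
    (hsplit : ∀ γ : Γ, ∃ α β : k, (ρ γ).charpoly = (X - C α) * (X - C β))
    (Γ₁ Γ₀ : Subgroup Γ) [Γ₁.Normal] [Γ₀.Normal] (hΓ₁ : IsPGroup p Γ₁)
    (hcomm : ∀ a ∈ Γ₀, ∀ a' ∈ Γ₀, a * a' * a⁻¹ * a'⁻¹ ∈ Γ₁)
    (hprime : ∀ a ∈ Γ₀, ∃ m : ℕ, ¬p ∣ m ∧ a ^ m ∈ Γ₁)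
    (τ : Γ) (hcyc : ∀ γ : Γ, ∃ j : ℕ, ∃ a ∈ Γ₀, γ = τ ^ j * a) :
    (∀ g ∈ Γ₁, ρ g = 1) ∧
      ∃ b : Basis (Fin 2) k V, IsSplitBasis ρ b Γ₀ ∧ τ ∉ stab ρ b ∧ (stab ρ b).index = 2 := by
  have hnt : Nontrivial V := by
    apply Module.nontrivial_of_finrank_pos (R := k)
    rw [hdim]; norm_num
  have h1 : ∀ g ∈ Γ₁, ρ g = 1 := fun g hg => eq_one_of_mem_pGroup hirr Γ₁ hΓ₁ hg
  refine ⟨h1, ?_⟩
  have hcomm' : ∀ a ∈ Γ₀, ∀ a' ∈ Γ₀, ρ a * ρ a' = ρ a' * ρ a := by
    intro a ha a' ha'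
    have h2 : a * a' = (a * a' * a⁻¹ * a'⁻¹) * (a' * a) := by group
    rw [← map_mul, ← map_mul, h2, map_mul, h1 _ (hcomm a ha a' ha'), one_mul]
  have hss : ∀ a ∈ Γ₀, ∃ m : ℕ, (m : k) ≠ 0 ∧ ρ a ^ m = 1 := by
    intro a ha
    obtain ⟨m, hm, hmem⟩ := hprime a ha
    refine ⟨m, ?_, ?_⟩
    · rwa [Ne, CharP.cast_eq_zero_iff k p m]
    · rw [← map_pow, h1 _ hmem]
  obtain ⟨b, hb⟩ := exists_isSplitBasis hdim hirr hsplit Γ₀ hcomm' hss τ hcyc
  have hτ := hb.not_mem_stab_of_cyc hdim hirr τ hcyc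
  exact ⟨b, hb, hτ, hb.index_stab hτ⟩

/-- **Exponent bookkeeping of (I)**: if moreover conjugation by `τ` is the `p`-th power map on
`Γ₀/Γ₁`, then `ψ = χ₁/χ₂` satisfies `ψ ^ (p + 1) = 1` on `Γ₀`, and (`p` odd) `ψ` differs from
`det ρ` somewhere on `Γ₀`. -/
theorem IsSplitBasis.frob_consequences {p : ℕ} {b : Basis (Fin 2) k V} {Γ₀ : Subgroup Γ}
    [Γ₀.Normal] (hb : IsSplitBasis ρ b Γ₀) {τ : Γ} (hτ : τ ∉ stab ρ b)
    (hfrob : ∀ δ ∈ Γ₀, ρ (τ * δ * τ⁻¹) = ρ δ ^ p) :
    (∀ δ ∈ Γ₀, (mat ρ b δ 0 0 / mat ρ b δ 1 1) ^ (p + 1) = 1) ∧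
      (Odd p → ∃ δ ∈ Γ₀, mat ρ b δ 0 0 / mat ρ b δ 1 1 ≠ LinearMap.det (ρ δ)) := by
  constructor
  · intro δ hδ
    obtain ⟨h1, h2⟩ := hb.frob_relations hτ hδ (hfrob δ hδ)
    exact ratio_pow_eq_one (IsDiag.ne_zero (hb.1 δ hδ) (det_mat_ne_zero ρ b δ)).2 h1 h2
  · intro hp
    obtain ⟨δ, hδ, hne⟩ := hb.2
    refine ⟨δ, hδ, ?_⟩
    obtain ⟨h1, h2⟩ := hb.frob_relations hτ hδ (hfrob δ hδ)
    rw [det_eq_of_mem (hb.le_stab hδ)]
    exact ratio_ne_mul hp (IsDiag.ne_zero (hb.1 δ hδ) (det_mat_ne_zero ρ b δ)).1 h2 hne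

end Main

end Fermat.Agent.S56.Flat.Count.IrredStructure
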