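/-
S56 / FL-C, leaf FLC-Irr part (I) (helper2): the cohomological bound for an IRREDUCIBLE `ρ̄|Γ`.

`Γ` a finite group, `ρ : Representation k Γ V` two-dimensional with a split basis `b`
(`IrredStructure.IsSplitBasis ρ b Γ₀`: the normal subgroup `Γ₀` acts diagonally and not by scalars;
produced by `IrredStructure.exists_structure` for an irreducible `ρ`), `Γ_K := stab ρ b` of index `2`.
Then `ad⁰ρ = k·h ⊕ X₊ ⊕ X₋` with `Γ` acting on `k·h` through the sign character `η` of `Γ/Γ_K`,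
`Γ_K` acting on `X₊` through `ψ = χ₁/χ₂`, and `Γ ∖ Γ_K` swapping `X₊` and `X₋`.  Hence
(`Devissage` (D1), (D3), (D4)):

  `b(ad⁰ρ) = h¹(Γ, ad⁰ρ) - h⁰(Γ, ad⁰ρ) ≤ h¹(Γ, k(η)) + h¹(Γ_K, k(ψ))`

(`b_ad0Rep_le`), and `b(ad⁰ρ) ≤ 1` (`b_ad0Rep_le_one`) from the two one-character bounds of FLC-Char
as named hypotheses: `h¹(Γ, k(η)) = 0` ((C-A): `η ≠ 1` is unramified, `ω̄` is ramified) and
`h¹(Γ_K, k(ψ)) ≤ 1` ((C-B): `ψ ≠ ω̄` on inertia, from `IrredStructure.IsSplitBasis.frob_consequences`).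

* `coord ρ b i j : ad0Rep ρ →ₗ[k] k` matrix coefficients; `coord_ρ_of_mem`, `coord_ρ_of_not_mem`;
* `eta hb : Γ →* kˣ` (sign character of `Γ/Γ_K`), `psi ρ b : stab ρ b →* kˣ` (`χ₁/χ₂`);
* `projH hb : ad0Rep ρ ⟶ charRep (eta hb)`, `XRep hb` (its kernel `X₊ ⊕ X₋`), `seqX hb` and
  `seqX_shortExact`;
* `h0_XRep : h⁰(Γ, X) = 0`, `h1_XRep_le : h¹(Γ, X) ≤ h¹(Γ_K, k(ψ))`;
* `eta_ne_one`, `h0_charRep_eta`;
* **`b_ad0Rep_le`**, **`b_ad0Rep_le_one`**.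
-/
import Mathlib
import Fermat.Agent.S56.Flat.Count.Devissage
import Fermat.Agent.S56.Flat.Count.IrredStructure
import Fermat.Agent.S56.Flat.Count.Ad0Rep

set_option autoImplicit false
set_option linter.unusedSectionVars false

universe u

namespace Fermat.Agent.S56.Flat.Count.Irreducible

open Module CategoryTheory Fermat.Agent.S56.Flat.Count.Devissage
  Fermat.Agent.S56.Flat.Count.IrredStructure Fermat.Agent.S56.Flat.Count.Ad0Rep

variable {k Γ V : Type u} [Field k] [Group Γ] [AddCommGroup V] [Module k V]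
variable (ρ : Representation k Γ V) (b : Basis (Fin 2) k V)

/-! ### Matrix coefficients on `ad⁰ρ` -/

/-- The `(i, j)` matrix coefficient in the basis `b`, on `ad⁰ρ`. -/
noncomputable def coord (i j : Fin 2) : ad0Rep ρ →ₗ[k] k where
  toFun x := LinearMap.toMatrix b b (toEnd ρ x) i j
  map_add' x y := by rw [toEnd_add, map_add]; rfl
  map_smul' c x := by rw [toEnd_smul, map_smul]; rfl

theorem coord_apply (i j : Fin 2) (x : ad0Rep ρ) :
    coord ρ b i j x = LinearMap.toMatrix b b (toEnd ρ x) i j := rfl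

/-- The decomposition of an element of `ad⁰ρ` along `h, x₊, x₋`. -/
theorem toEnd_eq_comb (x : ad0Rep ρ) :
    toEnd ρ x = coord ρ b 0 0 x • hEnd b + coord ρ b 0 1 x • xP b + coord ρ b 1 0 x • xM b :=
  eq_comb_of_trace_eq_zero b (toEnd ρ x) (trace_toEnd ρ x)

theorem coord_of_comb {x : ad0Rep ρ} {r s t : k}
    (h : toEnd ρ x = r • hEnd b + s • xP b + t • xM b) :
    coord ρ b 0 0 x = r ∧ coord ρ b 0 1 x = s ∧ coord ρ b 1 0 x = t := by
  have h1 := toMatrix_comb b r s t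
  rw [← h] at h1
  refine ⟨?_, ?_, ?_⟩
  · rw [coord_apply, h1]; rfl
  · rw [coord_apply, h1]; rfl
  · rw [coord_apply, h1]; rfl

theorem ad0_ext {x y : ad0Rep ρ} (h00 : coord ρ b 0 0 x = coord ρ b 0 0 y)
    (h01 : coord ρ b 0 1 x = coord ρ b 0 1 y) (h10 : coord ρ b 1 0 x = coord ρ b 1 0 y) :
    x = y := by
  apply ad0Rep_ext
  rw [toEnd_eq_comb ρ b x, toEnd_eq_comb ρ b y, h00, h01, h10]

/-- The elements `h, x₊, x₋` of `ad⁰ρ`. -/
noncomputable def hElt : ad0Rep ρ := ofEnd ρ (hEnd b) (trace_hEnd b)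

noncomputable def xPElt : ad0Rep ρ := ofEnd ρ (xP b) (trace_xP b)

noncomputable def xMElt : ad0Rep ρ := ofEnd ρ (xM b) (trace_xM b)

theorem conj_comb (γ : Γ) (r s t : k) :
    ρ γ * (r • hEnd b + s • xP b + t • xM b) * ρ γ⁻¹ =
      r • (ρ γ * hEnd b * ρ γ⁻¹) + s • (ρ γ * xP b * ρ γ⁻¹) + t • (ρ γ * xM b * ρ γ⁻¹) := by
  simp only [mul_add, add_mul, mul_smul_comm, smul_mul_assoc]

variable {ρ b}

/-- The action of the stabiliser in coordinates. -/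
theorem coord_ρ_of_mem {γ : Γ} (hγ : γ ∈ stab ρ b) (x : ad0Rep ρ) :
    coord ρ b 0 0 ((ad0Rep ρ).ρ γ x) = coord ρ b 0 0 x ∧
      coord ρ b 0 1 ((ad0Rep ρ).ρ γ x) = (mat ρ b γ 0 0 / mat ρ b γ 1 1) * coord ρ b 0 1 x ∧
      coord ρ b 1 0 ((ad0Rep ρ).ρ γ x) = (mat ρ b γ 1 1 / mat ρ b γ 0 0) * coord ρ b 1 0 x := by
  apply coord_of_comb
  rw [toEnd_ρ_apply, toEnd_eq_comb ρ b x, conj_comb, conj_hEnd_of_mem hγ, conj_xP_of_mem hγ,
    conj_xM_of_mem hγ, smul_smul, smul_smul, mul_comm (coord ρ b 0 1 x), mul_comm (coord ρ b 1 0 x)]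

variable {Γ₀ : Subgroup Γ}

/-- The action of an element outside the stabiliser in coordinates. -/
theorem coord_ρ_of_not_mem [Γ₀.Normal] (hb : IsSplitBasis ρ b Γ₀) {γ : Γ} (hγ : γ ∉ stab ρ b)
    (x : ad0Rep ρ) :
    coord ρ b 0 0 ((ad0Rep ρ).ρ γ x) = -coord ρ b 0 0 x ∧
      coord ρ b 0 1 ((ad0Rep ρ).ρ γ x) = (mat ρ b γ 0 1 / mat ρ b γ 1 0) * coord ρ b 1 0 x ∧
      coord ρ b 1 0 ((ad0Rep ρ).ρ γ x) = (mat ρ b γ 1 0 / mat ρ b γ 0 1) * coord ρ b 0 1 x := by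
  apply coord_of_comb
  rw [toEnd_ρ_apply, toEnd_eq_comb ρ b x, conj_comb, hb.conj_hEnd_of_not_mem hγ,
    hb.conj_xP_of_not_mem hγ, hb.conj_xM_of_not_mem hγ, smul_smul, smul_smul, smul_neg, neg_smul,
    mul_comm (coord ρ b 0 1 x), mul_comm (coord ρ b 1 0 x)]
  abel

/-! ### The characters `η` and `ψ` -/

open Classical in
/-- The sign character of `Γ/Γ_K`: `1` on the stabiliser, `-1` outside. -/
noncomputable def eta [Γ₀.Normal] (hb : IsSplitBasis ρ b Γ₀) : Γ →* kˣ :=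
  MonoidHom.mk' (fun γ => if γ ∈ stab ρ b then 1 else -1) (by
    intro γ γ'
    by_cases h : γ ∈ stab ρ b
    · by_cases h' : γ' ∈ stab ρ b
      · rw [if_pos h, if_pos h', if_pos ((stab ρ b).mul_mem h h'), one_mul]
      · rw [if_pos h, if_neg h', if_neg (hb.mul_not_mem_stab h h'), one_mul]
    · by_cases h' : γ' ∈ stab ρ b
      · have hn : γ * γ' ∉ stab ρ b := fun hmem => h (by
          have := (stab ρ b).mul_mem hmem ((stab ρ b).inv_mem h')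
          rwa [mul_inv_cancel_right] at this)
        rw [if_neg h, if_pos h', if_neg hn, mul_one]
      · rw [if_neg h, if_neg h', if_pos (hb.mul_mem_stab h h'), neg_mul_neg, one_mul])

theorem eta_of_mem [Γ₀.Normal] (hb : IsSplitBasis ρ b Γ₀) {γ : Γ} (hγ : γ ∈ stab ρ b) :
    eta hb γ = 1 := by
  classical
  exact if_pos hγ

theorem eta_of_not_mem [Γ₀.Normal] (hb : IsSplitBasis ρ b Γ₀) {γ : Γ} (hγ : γ ∉ stab ρ b) :
    eta hb γ = -1 := by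
  classical
  exact if_neg hγ

/-- `η ≠ 1` as soon as the stabiliser is not everything and `2 ≠ 0`. -/
theorem eta_ne_one [Γ₀.Normal] (hb : IsSplitBasis ρ b Γ₀) (h2 : (2 : k) ≠ 0) {τ : Γ}
    (hτ : τ ∉ stab ρ b) : eta (k := k) hb ≠ 1 := by
  intro h
  have h1 := eta_of_not_mem hb hτ
  rw [h, MonoidHom.one_apply] at h1
  have h3 := congrArg (fun u : kˣ => (u : k)) h1
  simp only [Units.val_one, Units.val_neg] at h3
  apply h2
  have : (2 : k) = 1 + 1 := by norm_num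
  rw [this]
  nth_rewrite 1 [h3]
  exact neg_add_cancel 1

variable (ρ b)

/-- The character `ψ = χ₁/χ₂` of the stabiliser `Γ_K`. -/
noncomputable def psi : stab ρ b →* kˣ := chi₁ ρ b / chi₂ ρ b

theorem coe_psi (γ : stab ρ b) :
    ((psi ρ b γ : kˣ) : k) = mat ρ b γ 0 0 / mat ρ b γ 1 1 := by
  rw [psi, MonoidHom.div_apply, Units.val_div_eq_div_val, coe_chi₁, coe_chi₂]

variable {ρ b}

/-! ### The projection onto `k·h` and its kernel `X = X₊ ⊕ X₋` -/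

/-- `x ↦ x₀₀`, a morphism `ad⁰ρ ⟶ k(η)`. -/
noncomputable def projH [Γ₀.Normal] (hb : IsSplitBasis ρ b Γ₀) : ad0Rep ρ ⟶ charRep (eta hb) :=
  Rep.ofHom ⟨coord ρ b 0 0, fun γ => LinearMap.ext fun x => by
    show coord ρ b 0 0 ((ad0Rep ρ).ρ γ x) = ((eta hb γ : kˣ) : k) * coord ρ b 0 0 x
    by_cases hγ : γ ∈ stab ρ b
    · rw [(coord_ρ_of_mem hγ x).1, eta_of_mem hb hγ, Units.val_one, one_mul]
    · rw [(coord_ρ_of_not_mem hb hγ x).1, eta_of_not_mem hb hγ, Units.val_neg, Units.val_one,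
        neg_one_mul]⟩

theorem projH_apply [Γ₀.Normal] (hb : IsSplitBasis ρ b Γ₀) (x : ad0Rep ρ) :
    (projH hb).hom x = coord ρ b 0 0 x := rfl

variable (ρ b)

/-- `X = X₊ ⊕ X₋ = {x | x₀₀ = 0}`. -/
noncomputable def Xsub : Submodule k (ad0Rep ρ) := LinearMap.ker (coord ρ b 0 0)

theorem mem_Xsub {x : ad0Rep ρ} : x ∈ Xsub ρ b ↔ coord ρ b 0 0 x = 0 := LinearMap.mem_ker

variable {ρ b}

theorem Xsub_le_comap [Γ₀.Normal] (hb : IsSplitBasis ρ b Γ₀) (γ : Γ) :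
    Xsub ρ b ≤ (Xsub ρ b).comap ((ad0Rep ρ).ρ γ) := by
  intro x hx
  rw [Submodule.mem_comap, mem_Xsub]
  rw [mem_Xsub] at hx
  by_cases hγ : γ ∈ stab ρ b
  · rw [(coord_ρ_of_mem hγ x).1, hx]
  · rw [(coord_ρ_of_not_mem hb hγ x).1, hx, neg_zero]

/-- `X = X₊ ⊕ X₋` as a representation of `Γ`. -/
noncomputable abbrev XRep [Γ₀.Normal] (hb : IsSplitBasis ρ b Γ₀) : Rep k Γ :=
  (ad0Rep ρ).subrepresentation (Xsub ρ b) (Xsub_le_comap hb)

/-- **`0 → X → ad⁰ρ → k(η) → 0`**. -/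
noncomputable def seqX [Γ₀.Normal] (hb : IsSplitBasis ρ b Γ₀) : ShortComplex (Rep k Γ) where
  X₁ := XRep hb
  X₂ := ad0Rep ρ
  X₃ := charRep (eta hb)
  f := Rep.subtype _ _ _
  g := projH hb
  zero := by
    ext x
    exact (mem_Xsub ρ b).1 x.2

/-- Elementwise criterion for short exactness in `Rep k Γ`. -/
theorem shortExact_of_elementwise (S : ShortComplex (Rep.{u} k Γ))
    (hf : Function.Injective S.f.hom) (hg : Function.Surjective S.g.hom)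
    (hex : ∀ x : S.X₂.V, S.g.hom x = 0 → ∃ y : S.X₁.V, S.f.hom y = x) : S.ShortExact :=
  { exact := by
      rw [← ShortComplex.exact_map_iff_of_faithful S (forget₂ (Rep.{u} k Γ) (ModuleCat.{u} k)),
        ShortComplex.moduleCat_exact_iff]
      exact hex
    mono_f := (Rep.mono_iff_injective _).2 hf
    epi_g := (Rep.epi_iff_surjective _).2 hg }

theorem coord_hElt : coord ρ b 0 0 (hElt ρ b) = 1 := by
  rw [coord_apply, hElt, toEnd_ofEnd, hEnd, LinearMap.toMatrix_toLin]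
  rfl

theorem seqX_shortExact [Γ₀.Normal] (hb : IsSplitBasis ρ b Γ₀) : (seqX hb).ShortExact := by
  refine shortExact_of_elementwise _ ?_ ?_ ?_
  · intro x y hxy
    exact Subtype.ext hxy
  · intro c'
    let c : k := c'
    refine ⟨c • hElt ρ b, ?_⟩
    show coord ρ b 0 0 (c • hElt ρ b) = c
    rw [map_smul, coord_hElt, smul_eq_mul, mul_one]
  · intro x hx
    exact ⟨⟨x, (mem_Xsub ρ b).2 hx⟩, rfl⟩

/-! ### Coordinates of `x₊`, `x₋` -/

theorem coord_xPElt :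
    coord ρ b 0 0 (xPElt ρ b) = 0 ∧ coord ρ b 0 1 (xPElt ρ b) = 1 ∧
      coord ρ b 1 0 (xPElt ρ b) = 0 := by
  apply coord_of_comb
  rw [xPElt, toEnd_ofEnd, zero_smul, zero_smul, one_smul, zero_add, add_zero]

theorem coord_xMElt :
    coord ρ b 0 0 (xMElt ρ b) = 0 ∧ coord ρ b 0 1 (xMElt ρ b) = 0 ∧
      coord ρ b 1 0 (xMElt ρ b) = 1 := by
  apply coord_of_comb
  rw [xMElt, toEnd_ofEnd, zero_smul, zero_smul, one_smul, zero_add, zero_add]

theorem xPElt_mem_Xsub : xPElt ρ b ∈ Xsub ρ b := (mem_Xsub ρ b).2 coord_xPElt.1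

/-! ### `H⁰(Γ, X) = 0` -/

/-- **`(X₊ ⊕ X₋)^Γ = 0`** (already the invariants under `Γ₀` vanish). -/
theorem invariants_XRep [Γ₀.Normal] (hb : IsSplitBasis ρ b Γ₀) :
    (XRep hb).ρ.invariants = ⊥ := by
  rw [eq_bot_iff]
  intro x hx
  rw [Submodule.mem_bot]
  obtain ⟨δ, hδ, hne⟩ := hb.2
  have hmem : δ ∈ stab ρ b := hb.le_stab hδ
  obtain ⟨h00, h11⟩ := IsDiag.ne_zero hmem (det_mat_ne_zero ρ b δ)
  have hinv := (Representation.mem_invariants (XRep hb).ρ x).1 hx δ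
  have hinv' : (ad0Rep ρ).ρ δ (x : ad0Rep ρ) = (x : ad0Rep ρ) := congrArg Subtype.val hinv
  have hc := coord_ρ_of_mem hmem (x : ad0Rep ρ)
  rw [hinv'] at hc
  have hx00 : coord ρ b 0 0 (x : ad0Rep ρ) = 0 := (mem_Xsub ρ b).1 x.2
  have hx01 : coord ρ b 0 1 (x : ad0Rep ρ) = 0 := by
    by_contra h
    have h1 : mat ρ b δ 0 0 / mat ρ b δ 1 1 = 1 := by
      have h3 : (mat ρ b δ 0 0 / mat ρ b δ 1 1) * coord ρ b 0 1 (x : ad0Rep ρ) =
          1 * coord ρ b 0 1 (x : ad0Rep ρ) := by rw [one_mul]; exact hc.2.1.symm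
      exact mul_right_cancel₀ h h3
    rw [div_eq_one_iff_eq h11] at h1
    exact hne h1
  have hx10 : coord ρ b 1 0 (x : ad0Rep ρ) = 0 := by
    by_contra h
    have h1 : mat ρ b δ 1 1 / mat ρ b δ 0 0 = 1 := by
      have h3 : (mat ρ b δ 1 1 / mat ρ b δ 0 0) * coord ρ b 1 0 (x : ad0Rep ρ) =
          1 * coord ρ b 1 0 (x : ad0Rep ρ) := by rw [one_mul]; exact hc.2.2.symm
      exact mul_right_cancel₀ h h3
    rw [div_eq_one_iff_eq h00] at h1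
    exact hne h1.symm
  apply Subtype.ext
  show (x : ad0Rep ρ) = 0
  apply ad0_ext (ρ := ρ) (b := b)
  · rw [hx00, map_zero]
  · rw [hx01, map_zero]
  · rw [hx10, map_zero]

theorem h0_XRep [Γ₀.Normal] (hb : IsSplitBasis ρ b Γ₀) : h0 (XRep hb) = 0 := by
  rw [h0_eq_finrank_invariants, invariants_XRep hb, finrank_bot]

/-! ### `H¹(Γ, X) ↪ H¹(Γ_K, k(ψ))` -/

/-- `x ↦ x₀₁`, a morphism `X|_{Γ_K} ⟶ k(ψ)`. -/
noncomputable def projP [Γ₀.Normal] (hb : IsSplitBasis ρ b Γ₀) :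
    Rep.res (stab ρ b).subtype (XRep hb) ⟶ charRep (psi ρ b) :=
  Rep.ofHom ⟨(coord ρ b 0 1).comp (Xsub ρ b).subtype, fun γ => LinearMap.ext fun x => by
    show coord ρ b 0 1 ((ad0Rep ρ).ρ (γ : Γ) (x : ad0Rep ρ)) =
      ((psi ρ b γ : kˣ) : k) * coord ρ b 0 1 (x : ad0Rep ρ)
    rw [(coord_ρ_of_mem γ.2 (x : ad0Rep ρ)).2.1, coe_psi]⟩

theorem projP_apply [Γ₀.Normal] (hb : IsSplitBasis ρ b Γ₀) (x : XRep hb) :
    (projP hb).hom x = coord ρ b 0 1 (x : ad0Rep ρ) := rfl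

/-- `c ↦ c • x₊`, a morphism `k(ψ) ⟶ X|_{Γ_K}`. -/
noncomputable def inclP [Γ₀.Normal] (hb : IsSplitBasis ρ b Γ₀) :
    charRep (psi ρ b) ⟶ Rep.res (stab ρ b).subtype (XRep hb) :=
  Rep.ofHom ⟨(LinearMap.toSpanSingleton k (ad0Rep ρ) (xPElt ρ b)).codRestrict (Xsub ρ b)
      (fun c => (Xsub ρ b).smul_mem c xPElt_mem_Xsub),
    fun γ => LinearMap.ext fun c => Subtype.ext (by
      show (((psi ρ b γ : kˣ) : k) * c) • xPElt ρ b = (ad0Rep ρ).ρ (γ : Γ) (c • xPElt ρ b)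
      have hc := coord_ρ_of_mem γ.2 (c • xPElt ρ b)
      apply ad0_ext (ρ := ρ) (b := b)
      · rw [hc.1, map_smul, map_smul, coord_xPElt.1, smul_zero, smul_zero]
      · rw [hc.2.1, map_smul, map_smul, coord_xPElt.2.1, coe_psi, smul_eq_mul, smul_eq_mul,
          mul_one, mul_one]
      · rw [hc.2.2, map_smul, map_smul, coord_xPElt.2.2, smul_zero, smul_zero, mul_zero])⟩

theorem coe_inclP_apply [Γ₀.Normal] (hb : IsSplitBasis ρ b Γ₀) (c : k) :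
    (((inclP hb).hom c : XRep hb) : ad0Rep ρ) = c • xPElt ρ b := rfl

theorem projP_inclP [Γ₀.Normal] (hb : IsSplitBasis ρ b Γ₀) (c : k) :
    (projP hb).hom ((inclP hb).hom c) = c := by
  show coord ρ b 0 1 ((((inclP hb).hom c : XRep hb)) : ad0Rep ρ) = c
  rw [coe_inclP_apply, map_smul, coord_xPElt.2.1]
  exact mul_one _

/-- **(D4) for `X`**: `h¹(Γ, X) ≤ h¹(Γ_K, k(ψ))`. -/
theorem h1_XRep_le [Finite Γ] [Γ₀.Normal] (hb : IsSplitBasis ρ b Γ₀) (h2 : (2 : k) ≠ 0) {τ : Γ}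
    (hτ : τ ∉ stab ρ b) : h1 (XRep hb) ≤ h1 (charRep (psi ρ b)) := by
  refine h1_le_of_index_two (XRep hb) (stab ρ b) (hb.index_stab hτ) h2 (charRep (psi ρ b))
    (projP hb) (inclP hb) ?_ τ ?_
  · exact fun c => projP_inclP hb c
  · intro x hx
    have hx01 : coord ρ b 0 1 (x : ad0Rep ρ) = 0 := hx
    have hx00 : coord ρ b 0 0 (x : ad0Rep ρ) = 0 := (mem_Xsub ρ b).1 x.2
    have hc := coord_ρ_of_not_mem hb hτ (x : ad0Rep ρ)
    apply Subtype.ext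
    show (coord ρ b 0 1 ((ad0Rep ρ).ρ τ (x : ad0Rep ρ))) • xPElt ρ b =
      (ad0Rep ρ).ρ τ (x : ad0Rep ρ)
    apply ad0_ext (ρ := ρ) (b := b)
    · rw [map_smul, coord_xPElt.1, smul_zero, hc.1, hx00, neg_zero]
    · rw [map_smul, coord_xPElt.2.1, smul_eq_mul, mul_one]
    · rw [map_smul, coord_xPElt.2.2, smul_zero, hc.2.2, hx01, mul_zero]

/-! ### The bound -/

theorem h0_charRep_eta [Γ₀.Normal] (hb : IsSplitBasis ρ b Γ₀) (h2 : (2 : k) ≠ 0) {τ : Γ}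
    (hτ : τ ∉ stab ρ b) : h0 (charRep (eta (k := k) hb)) = 0 :=
  h0_of_scalar_ne _ _ (charRep_ρ_apply _) (eta_ne_one hb h2 hτ)

/-- **(I), formal part**: `b(ad⁰ρ) ≤ h¹(Γ, k(η)) + h¹(Γ_K, k(ψ))`. -/
theorem b_ad0Rep_le [Finite Γ] [Module.Finite k V] [Γ₀.Normal] (hb : IsSplitBasis ρ b Γ₀)
    (h2 : (2 : k) ≠ 0) {τ : Γ} (hτ : τ ∉ stab ρ b) :
    Devissage.b (ad0Rep ρ) ≤
      (h1 (charRep (eta (k := k) hb)) : ℤ) + (h1 (charRep (psi ρ b)) : ℤ) := by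
  have : Module.Finite k (seqX hb).X₁ := inferInstanceAs (Module.Finite k (Xsub ρ b))
  have : Module.Finite k (seqX hb).X₂ := finite_ad0Rep ρ
  have : Module.Finite k (seqX hb).X₃ := finite_charRep _
  have h := b_le_add (seqX_shortExact hb)
  have h3 : Devissage.b (seqX hb).X₁ = (h1 (XRep hb) : ℤ) := by
    show Devissage.b (XRep hb) = _
    rw [b_def, h0_XRep hb]; simp
  have h4 : Devissage.b (seqX hb).X₃ = (h1 (charRep (eta (k := k) hb)) : ℤ) := by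
    show Devissage.b (charRep (eta (k := k) hb)) = _
    rw [b_def, h0_charRep_eta hb h2 hτ]; simp
  have h5 := h1_XRep_le hb h2 hτ
  have h6 : Devissage.b (seqX hb).X₂ = Devissage.b (ad0Rep ρ) := rfl
  rw [h3, h4, h6] at h
  omega

/-- **(I)**: `b(ad⁰ρ) ≤ 1` for an irreducible `ρ`, from the two one-character bounds of FLC-Char:
`h¹(Γ, k(η)) = 0` and `h¹(Γ_K, k(ψ)) ≤ 1`. -/
theorem b_ad0Rep_le_one [Finite Γ] [Module.Finite k V] [Γ₀.Normal] (hb : IsSplitBasis ρ b Γ₀)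
    (h2 : (2 : k) ≠ 0) {τ : Γ} (hτ : τ ∉ stab ρ b)
    (hη : h1 (charRep (eta (k := k) hb)) = 0) (hψ : h1 (charRep (psi ρ b)) ≤ 1) :
    Devissage.b (ad0Rep ρ) ≤ 1 := by
  have h := b_ad0Rep_le hb h2 hτ
  rw [hη] at h
  omega

/-! ### Packaging: uniqueness of the index-two subgroup, transport, and the final statement -/

/-- A subgroup of index two containing `Γ₀`, when `Γ/Γ₀` is generated by `τ`, consists of the
`τ ^ j * a` with `j` even: it is unique. -/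
theorem mem_iff_even_of_index_two {H : Subgroup Γ} (hH : H.index = 2) (hle : Γ₀ ≤ H) {τ : Γ}
    (hcyc : ∀ γ : Γ, ∃ j : ℕ, ∃ a ∈ Γ₀, γ = τ ^ j * a) {j : ℕ} {a : Γ} (ha : a ∈ Γ₀) :
    τ ^ j * a ∈ H ↔ Even j := by
  have hτ : τ ∉ H := by
    intro hτ
    have htop : H = ⊤ := by
      rw [eq_top_iff]
      intro γ _
      obtain ⟨j, a, ha, rfl⟩ := hcyc γ
      exact H.mul_mem (H.pow_mem hτ j) (hle ha)
    rw [htop, Subgroup.index_top] at hH
    omega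
  have hpow : ∀ j : ℕ, τ ^ j ∈ H ↔ Even j := by
    intro j
    induction j with
    | zero => simp
    | succ j ih =>
      rw [pow_succ, Subgroup.mul_mem_iff_of_index_two hH, ih, Nat.even_add_one]
      constructor
      · intro h he
        exact hτ (h.1 he)
      · intro h
        exact ⟨fun he => absurd he h, fun hτ' => absurd hτ' hτ⟩
  rw [← hpow j]
  constructor
  · intro h
    have := H.mul_mem h (H.inv_mem (hle ha))
    rwa [mul_inv_cancel_right] at this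
  · intro h
    exact H.mul_mem h (hle ha)

theorem eq_of_index_two {H H' : Subgroup Γ} (hH : H.index = 2) (hH' : H'.index = 2)
    (hle : Γ₀ ≤ H) (hle' : Γ₀ ≤ H') {τ : Γ}
    (hcyc : ∀ γ : Γ, ∃ j : ℕ, ∃ a ∈ Γ₀, γ = τ ^ j * a) : H = H' := by
  ext γ
  obtain ⟨j, a, ha, rfl⟩ := hcyc γ
  rw [mem_iff_even_of_index_two hH hle hcyc ha, mem_iff_even_of_index_two hH' hle' hcyc ha]

/-- Transport of `h¹(k(ψ))` along an equality of subgroups. -/
theorem h1_charRep_congr {H H' : Subgroup Γ} (e : H = H') (ψ : H →* kˣ) :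
    h1 (charRep ψ) = h1 (charRep (ψ.comp (MulEquiv.subgroupCongr e.symm).toMonoidHom)) := by
  subst e
  rfl

/-- **FL-C (I)**: `b(ad⁰ρ) = h¹ - h⁰ ≤ 1` for an irreducible two-dimensional `ρ` of a finite group
`Γ` over a finite field of odd characteristic `p` with split characteristic polynomials, relative to
normal subgroups `Γ₁ ≤ Γ₀` (`Γ₁` a `p`-group, `Γ₀/Γ₁` commutative of exponent prime to `p`,
`Γ/Γ₀` generated by `τ`, conjugation by `τ` = `p`-th power on `Γ₀/Γ₁`), from the two one-character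
bounds of FLC-Char as named hypotheses:
* `hCA` : `h¹(Γ, k(η)) = 0` for every non-trivial character `η` of `Γ` trivial on `Γ₀`;
* `hCB` : `h¹(H, k(ψ)) ≤ 1` for every subgroup `H ⊇ Γ₀` of index two and every character `ψ` of
  `H` differing from `det ρ` somewhere on `Γ₀`. -/
theorem b_ad0Rep_le_one_of_irred {p : ℕ} [Fact p.Prime] [CharP k p] [Finite k] [Finite Γ]
    [Module.Finite k V] (hp2 : p ≠ 2) (hdim : Module.finrank k V = 2) (hirr : IsIrred ρ)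
    (hsplit : ∀ γ : Γ, ∃ α β : k,
      (ρ γ).charpoly = (Polynomial.X - Polynomial.C α) * (Polynomial.X - Polynomial.C β))
    (Γ₁ Γ₀ : Subgroup Γ) [Γ₁.Normal] [Γ₀.Normal] (hΓ₁ : IsPGroup p Γ₁)
    (hcomm : ∀ a ∈ Γ₀, ∀ a' ∈ Γ₀, a * a' * a⁻¹ * a'⁻¹ ∈ Γ₁)
    (hprime : ∀ a ∈ Γ₀, ∃ m : ℕ, ¬p ∣ m ∧ a ^ m ∈ Γ₁)
    (τ : Γ) (hcyc : ∀ γ : Γ, ∃ j : ℕ, ∃ a ∈ Γ₀, γ = τ ^ j * a)
    (hfrob : ∀ δ ∈ Γ₀, τ * δ * τ⁻¹ * (δ ^ p)⁻¹ ∈ Γ₁)
    (hCA : ∀ η : Γ →* kˣ, η ≠ 1 → (∀ δ ∈ Γ₀, η δ = 1) → h1 (charRep η) = 0)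
    (hCB : ∀ (H : Subgroup Γ) (ψ : H →* kˣ), H.index = 2 → Γ₀ ≤ H →
      (∃ δ : H, (δ : Γ) ∈ Γ₀ ∧ ((ψ δ : kˣ) : k) ≠ LinearMap.det (ρ (δ : Γ))) →
      h1 (charRep ψ) ≤ 1) :
    Devissage.b (ad0Rep ρ) ≤ 1 := by
  have hp : p.Prime := Fact.out
  have h2 : (2 : k) ≠ 0 := by
    intro h
    have h' : ((2 : ℕ) : k) = 0 := by exact_mod_cast h
    rw [CharP.cast_eq_zero_iff k p 2] at h'
    exact hp2 ((Nat.prime_dvd_prime_iff_eq hp Nat.prime_two).1 h')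
  obtain ⟨h1triv, b, hb, hτ, hidx⟩ :=
    exists_structure hdim hirr hsplit Γ₁ Γ₀ hΓ₁ hcomm hprime τ hcyc
  have hfrob' : ∀ δ ∈ Γ₀, ρ (τ * δ * τ⁻¹) = ρ δ ^ p := by
    intro δ hδ
    have e : τ * δ * τ⁻¹ = (τ * δ * τ⁻¹ * (δ ^ p)⁻¹) * δ ^ p := by group
    rw [e, map_mul, h1triv _ (hfrob δ hδ), one_mul, map_pow]
  obtain ⟨-, hA3⟩ := hb.frob_consequences hτ hfrob'
  obtain ⟨δ, hδ, hne⟩ := hA3 (hp.odd_of_ne_two hp2)
  refine b_ad0Rep_le_one hb h2 hτ ?_ ?_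
  · refine hCA _ (eta_ne_one hb h2 hτ) fun δ hδ => eta_of_mem hb (hb.le_stab hδ)
  · refine hCB (stab ρ b) (psi ρ b) hidx hb.le_stab ⟨⟨δ, hb.le_stab hδ⟩, hδ, ?_⟩
    rw [coe_psi]
    exact hne

end Fermat.Agent.S56.Flat.Count.Irreducible
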