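/-
S56 / FL-C (helper19): the ADAPTER between helper2's shared object `Count/Ad0Rep.ad0Rep ρ`
(trace-zero endomorphisms with the conjugation action, with the matrix coefficients
`Irreducible.coord ρ b i j`) and the Borel-flag hypotheses `hC hA hB hinj hsurj` of helper27's
`Count/Reducible` (FLC-Red).

Setting: `ρ : Representation k Γ V`, `b : Basis (Fin 2) k V` with the line `k·b₀` stable:
`hT : ∀ γ, mat ρ b γ 1 0 = 0` (upper triangular matrices).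

* `chiA hT`, `chiD hT : Γ →* kˣ` : the diagonal characters; `phi1 hT = chiA / chiD`,
  `phi3 hT = chiD / chiA`, `phi1_mul_phi3`;
* `cA := coord ρ b 0 0`, `cB := coord ρ b 0 1`, `cC := coord ρ b 1 0`;
* `hC`, `hA`, `hB`, `hinj`, `hsurj` : the five hypotheses of `Reducible`, as theorems;
* `mem_W1_iff` : `Reducible.W1 (ad0Rep ρ) cC = {x | toEnd x (b 0) ∈ span {b 0}}`;
* `b_ad0Rep_le_add_chars`, `b_ad0Rep_le_one`, `h1_ad0Rep_le_h0_add_one`, `range_sub_le_one`,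
  `range_sub_le_zero` : the theorems of `Reducible` instantiated at `A := ad0Rep ρ`;
* `exists_basis_of_not_isIrred` : a two-dimensional `ρ` which is not irreducible has a basis with
  `∀ γ, mat ρ b γ 1 0 = 0`.
-/
import Mathlib
import Fermat.Agent.S56.Flat.Count.Ad0Rep
import Fermat.Agent.S56.Flat.Count.Irreducible
import Fermat.Agent.S56.Flat.Count.Reducible

set_option autoImplicit false
set_option linter.unusedSectionVars false
set_option linter.style.longLine false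
set_option linter.style.haveILetI false

universe u

namespace Fermat.Agent.S56.Flat.Count.ReducibleAd0

open Module CategoryTheory groupCohomology Fermat.Agent.S56.Flat.Count.Devissage
  Fermat.Agent.S56.Flat.Count.IrredStructure Fermat.Agent.S56.Flat.Count.Ad0Rep
  Fermat.Agent.S56.Flat.Count.Irreducible

variable {k Γ V : Type u} [Field k] [Group Γ] [AddCommGroup V] [Module k V]
variable {ρ : Representation k Γ V} {b : Basis (Fin 2) k V}

/-! ### The diagonal characters of an upper triangular representation -/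

theorem det_eq_of_ut (hT : ∀ γ, mat ρ b γ 1 0 = 0) (γ : Γ) :
    (mat ρ b γ).det = mat ρ b γ 0 0 * mat ρ b γ 1 1 := by
  rw [Matrix.det_fin_two, hT γ, mul_zero, sub_zero]

theorem diag_ne_zero (hT : ∀ γ, mat ρ b γ 1 0 = 0) (γ : Γ) :
    mat ρ b γ 0 0 ≠ 0 ∧ mat ρ b γ 1 1 ≠ 0 := by
  have h := det_mat_ne_zero ρ b γ
  rw [det_eq_of_ut hT γ] at h
  exact ⟨left_ne_zero_of_mul h, right_ne_zero_of_mul h⟩

/-- The character of `Γ` on the stable line `k·b₀`. -/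
noncomputable def chiA (hT : ∀ γ, mat ρ b γ 1 0 = 0) : Γ →* kˣ :=
  MonoidHom.mk' (fun γ => Units.mk0 (mat ρ b γ 0 0) (diag_ne_zero hT γ).1) (by
    intro γ γ'
    apply Units.ext
    show mat ρ b (γ * γ') 0 0 = mat ρ b γ 0 0 * mat ρ b γ' 0 0
    rw [mat_mul, mul_apply_two, hT γ', mul_zero, add_zero])

/-- The character of `Γ` on the quotient `V / k·b₀`. -/
noncomputable def chiD (hT : ∀ γ, mat ρ b γ 1 0 = 0) : Γ →* kˣ :=
  MonoidHom.mk' (fun γ => Units.mk0 (mat ρ b γ 1 1) (diag_ne_zero hT γ).2) (by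
    intro γ γ'
    apply Units.ext
    show mat ρ b (γ * γ') 1 1 = mat ρ b γ 1 1 * mat ρ b γ' 1 1
    rw [mat_mul, mul_apply_two, hT γ, zero_mul, zero_add])

@[simp] theorem coe_chiA (hT : ∀ γ, mat ρ b γ 1 0 = 0) (γ : Γ) :
    ((chiA hT γ : kˣ) : k) = mat ρ b γ 0 0 := rfl

@[simp] theorem coe_chiD (hT : ∀ γ, mat ρ b γ 1 0 = 0) (γ : Γ) :
    ((chiD hT γ : kˣ) : k) = mat ρ b γ 1 1 := rfl

/-- `ρ γ b₀ = χ_A(γ) b₀`. -/
theorem apply_basis_zero_of_ut (hT : ∀ γ, mat ρ b γ 1 0 = 0) (γ : Γ) :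
    ρ γ (b 0) = ((chiA hT γ : kˣ) : k) • b 0 := by
  rw [apply_basis ρ b γ 0, hT γ, zero_smul, add_zero, coe_chiA]

/-- `ρ γ b₁ ≡ χ_D(γ) b₁` modulo `k·b₀`. -/
theorem apply_basis_one_of_ut (hT : ∀ γ, mat ρ b γ 1 0 = 0) (γ : Γ) :
    ρ γ (b 1) = mat ρ b γ 0 1 • b 0 + ((chiD hT γ : kˣ) : k) • b 1 := by
  rw [apply_basis ρ b γ 1, coe_chiD]

/-- The determinant is the product of the two diagonal characters. -/
theorem det_eq_chiA_mul_chiD (hT : ∀ γ, mat ρ b γ 1 0 = 0) (γ : Γ) :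
    LinearMap.det (ρ γ) = ((chiA hT γ : kˣ) : k) * ((chiD hT γ : kˣ) : k) := by
  rw [← LinearMap.det_toMatrix b]
  exact det_eq_of_ut hT γ

/-- `φ₁ = χ_A / χ_D`: the character on `X₊ = Hom(V/ℓ, ℓ)`. -/
noncomputable def phi1 (hT : ∀ γ, mat ρ b γ 1 0 = 0) : Γ →* kˣ := chiA hT / chiD hT

/-- `φ₃ = χ_D / χ_A`: the character on `ad⁰ / W₁ = Hom(ℓ, V/ℓ)`. -/
noncomputable def phi3 (hT : ∀ γ, mat ρ b γ 1 0 = 0) : Γ →* kˣ := chiD hT / chiA hT

theorem coe_phi1 (hT : ∀ γ, mat ρ b γ 1 0 = 0) (γ : Γ) :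
    ((phi1 hT γ : kˣ) : k) = mat ρ b γ 0 0 / mat ρ b γ 1 1 := by
  rw [phi1, MonoidHom.div_apply, Units.val_div_eq_div_val, coe_chiA, coe_chiD]

theorem coe_phi3 (hT : ∀ γ, mat ρ b γ 1 0 = 0) (γ : Γ) :
    ((phi3 hT γ : kˣ) : k) = mat ρ b γ 1 1 / mat ρ b γ 0 0 := by
  rw [phi3, MonoidHom.div_apply, Units.val_div_eq_div_val, coe_chiA, coe_chiD]

theorem phi1_mul_phi3 (hT : ∀ γ, mat ρ b γ 1 0 = 0) (γ : Γ) : phi1 hT γ * phi3 hT γ = 1 := by
  rw [phi1, phi3, MonoidHom.div_apply, MonoidHom.div_apply, div_mul_div_cancel, div_self']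

theorem phi3_eq_inv (hT : ∀ γ, mat ρ b γ 1 0 = 0) : phi3 hT = (phi1 hT)⁻¹ := by
  ext γ
  rw [MonoidHom.inv_apply, phi1, phi3, MonoidHom.div_apply, MonoidHom.div_apply, inv_div]

/-! ### The conjugation action in coordinates -/

/-- `Y · M = M · X` for `X`, `Y` the matrices of `x`, `γ·x` and `M` the matrix of `ρ γ`. -/
theorem toMatrix_ρ_mul (γ : Γ) (x : ad0Rep ρ) :
    LinearMap.toMatrix b b (toEnd ρ ((ad0Rep ρ).ρ γ x)) * mat ρ b γ =
      mat ρ b γ * LinearMap.toMatrix b b (toEnd ρ x) := by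
  unfold mat
  rw [← LinearMap.toMatrix_mul, ← LinearMap.toMatrix_mul, toEnd_ρ_apply, mul_assoc, ← map_mul,
    inv_mul_cancel, map_one, mul_one]

theorem coord_one_one (x : ad0Rep ρ) :
    LinearMap.toMatrix b b (toEnd ρ x) 1 1 = -coord ρ b 0 0 x := by
  have h := trace_toEnd ρ x
  rw [LinearMap.trace_eq_matrix_trace k b, Matrix.trace_fin_two] at h
  exact eq_neg_of_add_eq_zero_right h

/-- **(hC)** `(γ x)₁₀ = φ₃(γ) x₁₀`. -/
theorem hC (hT : ∀ γ, mat ρ b γ 1 0 = 0) (γ : Γ) (x : ad0Rep ρ) :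
    coord ρ b 1 0 ((ad0Rep ρ).ρ γ x) = ((phi3 hT γ : kˣ) : k) * coord ρ b 1 0 x := by
  have h := congrFun (congrFun (toMatrix_ρ_mul (b := b) γ x) 1) 0
  rw [mul_apply_two, mul_apply_two, hT γ, mul_zero, add_zero, zero_mul, zero_add] at h
  have ha := (diag_ne_zero hT γ).1
  rw [coe_phi3, coord_apply, coord_apply, div_mul_eq_mul_div, eq_div_iff ha]
  exact h

/-- **(hA)** `(γ x)₀₀ = x₀₀` if `x₁₀ = 0`. -/
theorem hA (hT : ∀ γ, mat ρ b γ 1 0 = 0) (γ : Γ) (x : ad0Rep ρ) (hx : coord ρ b 1 0 x = 0) :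
    coord ρ b 0 0 ((ad0Rep ρ).ρ γ x) = coord ρ b 0 0 x := by
  have h := congrFun (congrFun (toMatrix_ρ_mul (b := b) γ x) 0) 0
  rw [coord_apply] at hx
  rw [mul_apply_two, mul_apply_two, hT γ, mul_zero, add_zero, hx, mul_zero, add_zero] at h
  have ha := (diag_ne_zero hT γ).1
  rw [coord_apply, coord_apply]
  rw [mul_comm (mat ρ b γ 0 0)] at h
  exact mul_right_cancel₀ ha h

/-- **(hB)** `(γ x)₀₁ = φ₁(γ) x₀₁` if `x₁₀ = x₀₀ = 0`. -/
theorem hB (hT : ∀ γ, mat ρ b γ 1 0 = 0) (γ : Γ) (x : ad0Rep ρ) (hx : coord ρ b 1 0 x = 0)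
    (hx0 : coord ρ b 0 0 x = 0) :
    coord ρ b 0 1 ((ad0Rep ρ).ρ γ x) = ((phi1 hT γ : kˣ) : k) * coord ρ b 0 1 x := by
  have h := congrFun (congrFun (toMatrix_ρ_mul (b := b) γ x) 0) 1
  have h00 : LinearMap.toMatrix b b (toEnd ρ ((ad0Rep ρ).ρ γ x)) 0 0 = 0 := by
    have := hA hT γ x hx
    rw [hx0, coord_apply] at this
    exact this
  have h11 : LinearMap.toMatrix b b (toEnd ρ x) 1 1 = 0 := by
    rw [coord_one_one, hx0, neg_zero]
  rw [mul_apply_two, mul_apply_two, h00, zero_mul, zero_add, h11, mul_zero, add_zero] at h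
  have hd := (diag_ne_zero hT γ).2
  rw [coe_phi1, coord_apply, coord_apply, div_mul_eq_mul_div, eq_div_iff hd]
  exact h

/-- **(hinj)** the three coordinates separate the points of `ad⁰ρ`. -/
theorem hinj (ρ : Representation k Γ V) (b : Basis (Fin 2) k V) (x : ad0Rep ρ)
    (h00 : coord ρ b 0 0 x = 0) (h01 : coord ρ b 0 1 x = 0) (h10 : coord ρ b 1 0 x = 0) :
    x = 0 := by
  apply ad0_ext ρ b
  · rw [h00, map_zero]
  · rw [h01, map_zero]
  · rw [h10, map_zero]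

/-- **(hsurj)** every triple of coordinates occurs. -/
theorem hsurj (ρ : Representation k Γ V) (b : Basis (Fin 2) k V) (r s t : k) :
    ∃ x : ad0Rep ρ, coord ρ b 0 0 x = r ∧ coord ρ b 0 1 x = s ∧ coord ρ b 1 0 x = t := by
  refine ⟨r • hElt ρ b + s • xPElt ρ b + t • xMElt ρ b, ?_⟩
  apply coord_of_comb
  rfl

/-! ### The line-stabiliser `W₁` -/

theorem toEnd_apply_basis_zero (ρ : Representation k Γ V) (b : Basis (Fin 2) k V) (x : ad0Rep ρ) :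
    toEnd ρ x (b 0) = coord ρ b 0 0 x • b 0 + coord ρ b 1 0 x • b 1 := by
  conv_lhs => rw [← b.sum_repr (toEnd ρ x (b 0))]
  rw [Fin.sum_univ_two, coord_apply, coord_apply, LinearMap.toMatrix_apply,
    LinearMap.toMatrix_apply]

/-- `W₁ = ker cC` is the set of trace-zero endomorphisms stabilising the line `k·b₀`. -/
theorem mem_W1_iff (ρ : Representation k Γ V) (b : Basis (Fin 2) k V) (x : ad0Rep ρ) :
    x ∈ Reducible.W1 (ad0Rep ρ) (coord ρ b 1 0) ↔ toEnd ρ x (b 0) ∈ Submodule.span k {b 0} := by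
  rw [Reducible.mem_W1]
  constructor
  · intro h
    rw [toEnd_apply_basis_zero, h, zero_smul, add_zero]
    exact Submodule.smul_mem _ _ (Submodule.mem_span_singleton_self _)
  · intro h
    obtain ⟨c, hc⟩ := Submodule.mem_span_singleton.1 h
    rw [coord_apply, LinearMap.toMatrix_apply, ← hc, map_smul, Finsupp.smul_apply,
      b.repr_self, Finsupp.single_apply, if_neg (by decide), smul_zero]

/-- `W₁` in terms of matrices: the upper triangular ones. -/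
theorem mem_W1_iff_coord (ρ : Representation k Γ V) (b : Basis (Fin 2) k V) (x : ad0Rep ρ) :
    x ∈ Reducible.W1 (ad0Rep ρ) (coord ρ b 1 0) ↔ coord ρ b 1 0 x = 0 :=
  Reducible.mem_W1 _ _

/-! ### The bounds of `Reducible` at `A := ad0Rep ρ` -/

section Bounds

variable [Finite Γ] [Module.Finite k V] (hT : ∀ γ, mat ρ b γ 1 0 = 0)

/-- dévissage along the Borel flag: `b(ad⁰ρ) ≤ b k(φ₁) + b k(1) + b k(φ₃)`. -/
theorem b_ad0Rep_le_add_chars :
    Devissage.b (ad0Rep ρ) ≤ Devissage.b (charRep (phi1 hT)) +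
      Devissage.b (charRep (1 : Γ →* kˣ)) + Devissage.b (charRep (phi3 hT)) :=
  Reducible.b_le_add_chars (A := ad0Rep ρ) (cA := coord ρ b 0 0) (cB := coord ρ b 0 1)
    (cC := coord ρ b 1 0) (hC hT) (hA hT) (hB hT)
    (fun x h00 h01 h10 => hinj ρ b x h00 h01 h10) (hsurj ρ b)

variable (ω : Γ →* kˣ) (Γ₀ : Subgroup Γ)

include hT in
/-- **(R)** for `ad⁰ρ`: `b(ad⁰ρ) ≤ 1` for a reducible `ρ` when `ω|Γ₀² ≠ 1`. -/
theorem b_ad0Rep_le_one
    (hchar1 : ∀ φ : Γ →* kˣ, Devissage.b (charRep φ) ≤ 1)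
    (hchar0 : ∀ φ : Γ →* kˣ, (∃ γ ∈ Γ₀, φ γ ≠ ω γ) → Devissage.b (charRep φ) ≤ 0)
    (hω1 : ∃ γ ∈ Γ₀, ω γ ≠ 1) (hω2 : ∃ γ ∈ Γ₀, ω γ ^ 2 ≠ 1) :
    Devissage.b (ad0Rep ρ) ≤ 1 :=
  Reducible.b_le_one (A := ad0Rep ρ) (cA := coord ρ b 0 0) (cB := coord ρ b 0 1)
    (cC := coord ρ b 1 0) (hC hT) (hA hT) (hB hT)
    (fun x h00 h01 h10 => hinj ρ b x h00 h01 h10) (hsurj ρ b) ω Γ₀ hchar1 hchar0
    (phi1_mul_phi3 hT) hω1 hω2

include hT in
/-- **(R)** for `ad⁰ρ`, in `ℕ`. -/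
theorem h1_ad0Rep_le_h0_add_one
    (hchar1 : ∀ φ : Γ →* kˣ, Devissage.b (charRep φ) ≤ 1)
    (hchar0 : ∀ φ : Γ →* kˣ, (∃ γ ∈ Γ₀, φ γ ≠ ω γ) → Devissage.b (charRep φ) ≤ 0)
    (hω1 : ∃ γ ∈ Γ₀, ω γ ≠ 1) (hω2 : ∃ γ ∈ Γ₀, ω γ ^ 2 ≠ 1) :
    h1 (ad0Rep ρ) ≤ h0 (ad0Rep ρ) + 1 :=
  Reducible.h1_le_h0_add_one (A := ad0Rep ρ) (cA := coord ρ b 0 0) (cB := coord ρ b 0 1)
    (cC := coord ρ b 1 0) (hC hT) (hA hT) (hB hT)
    (fun x h00 h01 h10 => hinj ρ b x h00 h01 h10) (hsurj ρ b) ω Γ₀ hchar1 hchar0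
    (phi1_mul_phi3 hT) hω1 hω2

/-- **(R3)** for `ad⁰ρ`: the image of `H¹(W₁) → H¹(ad⁰ρ)` has dimension `≤ h⁰ + 1`. -/
theorem range_sub_le_one
    (hchar1 : ∀ φ : Γ →* kˣ, Devissage.b (charRep φ) ≤ 1)
    (hchar0 : ∀ φ : Γ →* kˣ, (∃ γ ∈ Γ₀, φ γ ≠ ω γ) → Devissage.b (charRep φ) ≤ 0)
    (hω1 : ∃ γ ∈ Γ₀, ω γ ≠ 1) :
    (finrank k (LinearMap.range
      (map (A := Reducible.W1Rep (hC hT)) (B := ad0Rep ρ) (MonoidHom.id Γ)
        (Rep.subtype (ad0Rep ρ) (Reducible.W1 (ad0Rep ρ) (coord ρ b 1 0))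
          (Reducible.W1_stable (hC hT))) 1).hom) : ℤ) - (h0 (ad0Rep ρ) : ℤ) ≤ 1 :=
  Reducible.range_sub_le_one (A := ad0Rep ρ) (cA := coord ρ b 0 0) (cB := coord ρ b 0 1)
    (cC := coord ρ b 1 0) (hC hT) (hA hT) (hB hT)
    (fun x h00 h01 h10 => hinj ρ b x h00 h01 h10) (hsurj ρ b) ω Γ₀ hchar1 hchar0 hω1

/-- **(R3)**, second half: `≤ h⁰` if `φ₁|Γ₀ ≠ ω|Γ₀`. -/
theorem range_sub_le_zero
    (hchar0 : ∀ φ : Γ →* kˣ, (∃ γ ∈ Γ₀, φ γ ≠ ω γ) → Devissage.b (charRep φ) ≤ 0)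
    (hω1 : ∃ γ ∈ Γ₀, ω γ ≠ 1) (h1 : ∃ γ ∈ Γ₀, phi1 hT γ ≠ ω γ) :
    (finrank k (LinearMap.range
      (map (A := Reducible.W1Rep (hC hT)) (B := ad0Rep ρ) (MonoidHom.id Γ)
        (Rep.subtype (ad0Rep ρ) (Reducible.W1 (ad0Rep ρ) (coord ρ b 1 0))
          (Reducible.W1_stable (hC hT))) 1).hom) : ℤ) - (h0 (ad0Rep ρ) : ℤ) ≤ 0 :=
  Reducible.range_sub_le_zero (A := ad0Rep ρ) (cA := coord ρ b 0 0) (cB := coord ρ b 0 1)
    (cC := coord ρ b 1 0) (hC hT) (hA hT) (hB hT)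
    (fun x h00 h01 h10 => hinj ρ b x h00 h01 h10) (hsurj ρ b) ω Γ₀ hchar0 hω1 h1

end Bounds

/-! ### Reducible planes have a stable line -/

/-- A two-dimensional representation which is not irreducible is upper triangular in some
basis. -/
theorem exists_basis_of_not_isIrred (hdim : finrank k V = 2) (h : ¬ IsIrred ρ) :
    ∃ b : Basis (Fin 2) k V, ∀ γ, mat ρ b γ 1 0 = 0 := by
  haveI : Module.Finite k V := Module.finite_of_finrank_pos (by omega)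
  unfold IsIrred at h
  push Not at h
  obtain ⟨W, hW, hbot, htop⟩ := h
  obtain ⟨v, hvW, hv0⟩ := (Submodule.ne_bot_iff W).1 hbot
  have hlt : finrank k W < 2 := by
    rw [← hdim]
    exact Submodule.finrank_lt htop
  have hspan : W = Submodule.span k {v} := by
    symm
    apply Submodule.eq_of_le_of_finrank_le
    · rw [Submodule.span_singleton_le_iff_mem]; exact hvW
    · rw [finrank_span_singleton hv0]; omega
  obtain ⟨w, hw⟩ := exists_linearIndependent_pair_of_one_lt_finrank (R := k) (by omega) hv0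
  let b : Basis (Fin 2) k V := basisOfLinearIndependentOfCardEqFinrank hw (by simp [hdim])
  have hb0 : b 0 = v := by simp [b]
  refine ⟨b, fun γ => ?_⟩
  have hmem : ρ γ (b 0) ∈ Submodule.span k {b 0} := by
    rw [hb0, ← hspan]
    exact hW γ v hvW
  obtain ⟨c, hc⟩ := Submodule.mem_span_singleton.1 hmem
  rw [mat_apply, ← hc, map_smul, Finsupp.smul_apply, b.repr_self, Finsupp.single_apply,
    if_neg (by decide), smul_zero]

/-- `by_cases` form: a plane is irreducible or upper triangular in some basis. -/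
theorem isIrred_or_exists_basis (hdim : finrank k V = 2) :
    IsIrred ρ ∨ ∃ b : Basis (Fin 2) k V, ∀ γ, mat ρ b γ 1 0 = 0 := by
  by_cases h : IsIrred ρ
  · exact Or.inl h
  · exact Or.inr (exists_basis_of_not_isIrred hdim h)

end Fermat.Agent.S56.Flat.Count.ReducibleAd0
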