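/-
S56, block F (FLAT), leaf [FLC-Char], CUT X item 8 (helper7 #2693/#2742; typed by helper3):
**`IsPeuRamifie` at `F := fixF j N = L^N`**, in the shape of the hypothesis `hpeu` of
`TameCount/Seam.card_Z1_quot_B1_le_of_base/_of_quadratic`.

The inclusion `𝒪_F → L` is written out
(`((IntermediateField.inclusion (fixF_le j N)).toRingHom).comp (algebraMap 𝒪_F (fixF j N))`
= `CharConcrete.incl j N` by definition), so this file does not import `CharConcrete`.
-/
import Mathlib
import Fermat.Agent.S55.Local.UnitFiltration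
import Fermat.Agent.S56.Flat.KummerBound.Defs
import Fermat.Agent.S56.Flat.Count.FixedAction

set_option autoImplicit false

namespace Fermat.Agent.S56.Flat.Count.CharConcretePeu

open IsLocalRing Fermat.Agent.S56.Flat.Count.FixedAction Fermat.Agent.S56.Flat.KummerBound
  Fermat.Agent.S55.Local

variable {p : ℕ} [Fact p.Prime] {L : IntermediateField ℚ_[p] (PadicAlgCl p)}
  [FiniteDimensional ℚ_[p] L] {H : Type*} [Group H] (j : H →* (L ≃ₐ[ℚ_[p]] L))
  (N : Subgroup H)

/-- `p` lies in the maximal ideal of `𝒪_F`. -/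
theorem natCast_mem_maximalIdeal_fixF :
    ((p : ℕ) : integralClosure ℤ_[p] (fixF j N)) ∈
      maximalIdeal (integralClosure ℤ_[p] (fixF j N)) := by
  have h : ((p : ℕ) : integralClosure ℤ_[p] (fixF j N)) =
      algebraMap ℤ_[p] (integralClosure ℤ_[p] (fixF j N)) (p : ℤ_[p]) := by simp
  rw [h]
  have hp' : (p : ℤ_[p]) ∈ maximalIdeal ℤ_[p] := by
    rw [PadicInt.maximalIdeal_eq_span_p]
    exact Ideal.mem_span_singleton_self _
  have hloc : IsLocalHom (algebraMap ℤ_[p] (integralClosure ℤ_[p] (fixF j N))) := inferInstance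
  have h4 := ((IsLocalRing.local_hom_TFAE
    (algebraMap ℤ_[p] (integralClosure ℤ_[p] (fixF j N)))).out 0 3).1 hloc
  exact h4 hp'

/-- if `(p) = 𝔪_F ^ e` then `e ≥ 1`. -/
theorem one_le_of_span_natCast_eq {e : ℕ}
    (he : Ideal.span {((p : ℕ) : integralClosure ℤ_[p] (fixF j N))} =
      maximalIdeal (integralClosure ℤ_[p] (fixF j N)) ^ e) : 1 ≤ e := by
  rcases Nat.eq_zero_or_pos e with h0 | h0
  · exfalso
    rw [h0, pow_zero, Ideal.one_eq_top, Ideal.span_singleton_eq_top] at he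
    exact (mem_maximalIdeal _).1 (natCast_mem_maximalIdeal_fixF j N) he
  · exact h0

/-- **`IsPeuRamifie` at `F = L^N`** (item 8 of CUT X): every `w ∈ L^×` fixed by `N` with a `p`-th
root in `L` is `u · z ^ p` with `u ∈ U_F^{(e)}` and `z ∈ L^×` fixed by `N`. -/
theorem exists_unitFil_mul_pow (hL : IsPeuRamifie p L) {ζ : L} (hζ : IsPrimitiveRoot ζ p)
    (hζN : ∀ n ∈ N, j n ζ = ζ) {e : ℕ}
    (he : Ideal.span {((p : ℕ) : integralClosure ℤ_[p] (fixF j N))} =
      maximalIdeal (integralClosure ℤ_[p] (fixF j N)) ^ e)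
    (x w : L) (hw0 : w ≠ 0) (hwN : ∀ n ∈ N, j n w = w) (hwx : w = x ^ p) :
    ∃ u ∈ unitFil (integralClosure ℤ_[p] (fixF j N)) e, ∃ z : L, z ≠ 0 ∧ (∀ n ∈ N, j n z = z) ∧
      w = (((IntermediateField.inclusion (fixF_le j N)).toRingHom).comp
        (algebraMap (integralClosure ℤ_[p] (fixF j N)) (fixF j N)))
          ((u : (integralClosure ℤ_[p] (fixF j N))ˣ) : integralClosure ℤ_[p] (fixF j N)) *
            z ^ p := by
  -- `ζ` and `w` as elements of `F`
  have hζF : (ζ : PadicAlgCl p) ∈ fixF j N :=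
    (mem_fixF_iff j N _).2 ⟨ζ.2, fun n hn => by rw [Subtype.coe_eta]; exact hζN n hn⟩
  have hwF : (w : PadicAlgCl p) ∈ fixF j N :=
    (mem_fixF_iff j N _).2 ⟨w.2, fun n hn => by rw [Subtype.coe_eta]; exact hwN n hn⟩
  set ζ' : fixF j N := ⟨(ζ : PadicAlgCl p), hζF⟩ with hζ'def
  set w' : fixF j N := ⟨(w : PadicAlgCl p), hwF⟩ with hw'def
  have hincζ : IntermediateField.inclusion (fixF_le j N) ζ' = ζ := Subtype.ext rfl
  have hζ' : IsPrimitiveRoot ζ' p := by
    refine IsPrimitiveRoot.of_map_of_injective (f := IntermediateField.inclusion (fixF_le j N))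
      ?_ (IntermediateField.inclusion_injective (fixF_le j N))
    rw [hincζ]
    exact hζ
  have hw'0 : w' ≠ 0 := by
    intro h
    apply hw0
    have := congrArg (fun y : fixF j N => (y : PadicAlgCl p)) h
    exact Subtype.ext this
  have hroot : ∃ x' : PadicAlgCl p, x' ∈ L ∧ x' ^ p = (w' : PadicAlgCl p) := by
    refine ⟨(x : PadicAlgCl p), x.2, ?_⟩
    have := congrArg (fun y : L => (y : PadicAlgCl p)) hwx
    simpa using this.symm
  obtain ⟨u, z, hu, hz0, hwz⟩ := hL (fixF j N) (fixF_le j N) ζ' hζ' e he w' hw'0 hroot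
  -- `u` is a unit
  have he1 : 1 ≤ e := one_le_of_span_natCast_eq j N he
  have hu1 : u - 1 ∈ maximalIdeal (integralClosure ℤ_[p] (fixF j N)) := by
    have := Ideal.pow_le_pow_right (I := maximalIdeal (integralClosure ℤ_[p] (fixF j N))) he1 hu
    rwa [pow_one] at this
  have huU : IsUnit u := by
    have := isUnit_one_add hu1
    rwa [add_sub_cancel] at this
  refine ⟨huU.unit, mem_unitFil.2 (by rw [IsUnit.unit_spec]; exact hu), ?_⟩
  -- `z` as an element of `L`
  obtain ⟨hzL, hzfix⟩ := (mem_fixF_iff j N (z : PadicAlgCl p)).1 z.2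
  refine ⟨⟨(z : PadicAlgCl p), hzL⟩, ?_, hzfix, ?_⟩
  · intro h
    apply hz0
    have := congrArg (fun y : L => (y : PadicAlgCl p)) h
    exact Subtype.ext this
  · apply Subtype.ext
    have h1 := congrArg (fun y : fixF j N => (y : PadicAlgCl p)) hwz
    rw [IsUnit.unit_spec]
    simpa using h1

end Fermat.Agent.S56.Flat.Count.CharConcretePeu
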