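/-
S56, block F (FLAT), leaf [FLC-Kum] (moonshots row 53 §2 (K1)–(K3)): the abstract KUMMER LINK.
Mathlib + helper3's `TameCount/MultSet` (`EqMaps`) only.

SETTING. A group `H` acts on a field `L` by field automorphisms (`MulSemiringAction H L`);
`N ⊴ H` is a finite normal subgroup acting faithfully (think `H = Γ_K = Gal(L/K)` or a subgroup
of `Gal(L/ℚ_p)`, `N = Γ_F = Gal(L/F)`, `F = L^N`); `ζ ∈ L^N` a primitive `p`-th root of unity,
`ω : H →* (ZMod p)ˣ` with `γ ζ = ζ ^ ω(γ)`; `k` a finite field with `[Algebra (ZMod p) k]`;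
`φ : H →* kˣ` trivial on `N`.

CONTENT.
* `exists_kummer_generator` (K1, Hilbert 90): every additive `χ : N → 𝔽_p` is
  `n x = ζ ^ χ(n) x` for some `x ∈ L^×`  (`IsKummerGen ζ χ x`).
* `fixedUnits N` (`= F^×` inside `L^×`), `YF L N p` (`= F^×/F^{×p}` written additively, an
  `H`-module: `DistribMulAction H (YF L N p)`), `cls p : fixedUnits N → YF L N p`
  (`cls_mul`, `cls_eq_zero_iff`, `cls_eq_iff`, `cls_surjective`, `smul_cls`).
* `kum hζ hζN χ : YF L N p` the Kummer class (class of `x ^ p`): `kum_eq`, `kum_add`,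
  `kum_eq_zero` (injectivity), `smul_kum` (`γ • kum χ = kum (n ↦ ω(γ) χ(γ⁻¹ n γ))`),
  `exists_kum_eq`.
* `Z1 φ`, `B1 φ` (explicit `1`-cocycles / coboundaries of `k(φ)`: `c (σ τ) = c σ + φ σ * c τ`),
  `EqHoms φ N` (`= 𝓗`: additive `h : N → k` with `h (γ n γ⁻¹) = φ γ * h n`), `resHom`,
  `mem_B1_of_resHom_eq_zero` (K2: `[H:N]` invertible in `k`).
* `link : EqHoms φ N →+ EqMaps (psi φ ω) (YF L N p)` (K3), `psi φ ω = ω φ⁻¹`,
  `Ψ_h(a) = kum (n ↦ Tr_{k/𝔽_p}(a h(n)))`; `link_injective`, `exists_link_apply_eq`.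
* `exists_kummerLink`: `T : Z1 φ →+ EqMaps (psi φ ω) (YF L N p)` with `T c = 0 → c ∈ B1 φ` and
  all values classes of `x ^ p`, `x ∈ L^×`.
* `exists_pullback`, `card_Z1_quot_B1_le`: if all such classes lie in the image of an injective
  equivariant `ι : Y → YF L N p` (consumer: `Y = U^{(e)}/(U^{(e)} ∩ F^{×p})`, by `IsPeuRamifie`),
  then `|Z¹/B¹| ≤ |EqMaps (ω φ⁻¹) Y|`.
-/
import Mathlib
import Fermat.Agent.S56.Flat.TameCount.MultSet

set_option autoImplicit false
set_option linter.unusedSectionVars false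

namespace Fermat.Agent.S56.Flat.Count.KummerLink

open Fermat.Agent.S56.Flat.TameCount.MultSet

section Zeta

variable {L : Type*} [Field L] {p : ℕ} [Fact p.Prime] {ζ : L} (hζ : IsPrimitiveRoot ζ p)

include hζ in
theorem zeta_pow_val_add (a b : ZMod p) : ζ ^ (a + b).val = ζ ^ a.val * ζ ^ b.val := by
  rw [← pow_add, ZMod.val_add, ← pow_eq_pow_mod _ hζ.pow_eq_one]

include hζ in
theorem zeta_pow_val_mul (a b : ZMod p) : ζ ^ (a * b).val = (ζ ^ a.val) ^ b.val := by
  rw [← pow_mul, ZMod.val_mul, ← pow_eq_pow_mod _ hζ.pow_eq_one]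

include hζ in
theorem zeta_pow_val_eq_one_iff (a : ZMod p) : ζ ^ a.val = 1 ↔ a = 0 := by
  rw [hζ.pow_eq_one_iff_dvd]
  constructor
  · intro h
    have := Nat.eq_zero_of_dvd_of_lt h (ZMod.val_lt a)
    exact (ZMod.val_eq_zero a).1 this
  · rintro rfl; simp

variable {N : Type*} [Group N] [MulSemiringAction N L] [Finite N] [FaithfulSMul N L]

include hζ in
theorem exists_kummer_generator (hζN : ∀ n : N, n • ζ = ζ) (χ : Additive N →+ ZMod p) :
    ∃ x : L, x ≠ 0 ∧ ∀ n : N, n • x = ζ ^ (χ (Additive.ofMul n)).val * x := by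
  classical
  let e := FixedPoints.toAlgAutMulEquiv N L
  have hζ0 : ζ ≠ 0 := hζ.ne_zero (Fact.out : p.Prime).ne_zero
  let f : Gal(L/↥(FixedPoints.subfield N L)) → Lˣ := fun σ =>
    Units.mk0 (ζ ^ (χ (Additive.ofMul (e.symm σ))).val) (pow_ne_zero _ hζ0)
  have he : ∀ (n : N) (y : L), e n y = n • y := fun n y => rfl
  have hf : groupCohomology.IsMulCocycle₁ f := by
    intro g h
    apply Units.ext
    rw [AlgEquiv.smul_units_def]
    simp only [f, Units.val_mul, Units.coe_map, Units.val_mk0, MonoidHom.coe_coe, map_mul,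
      ofMul_mul, map_add]
    rw [zeta_pow_val_add hζ, map_pow]
    have hg : g ζ = ζ := by
      have := he (e.symm g) ζ
      rw [MulEquiv.apply_symm_apply] at this
      rw [this, hζN]
    rw [hg, mul_comm]
  obtain ⟨β, hβ⟩ := groupCohomology.isMulCoboundary₁_of_isMulCocycle₁_of_aut_to_units f hf
  refine ⟨(β : L), β.ne_zero, fun n => ?_⟩
  have h1 := hβ (e n)
  rw [div_eq_iff_eq_mul, AlgEquiv.smul_units_def] at h1
  have h2 := congrArg Units.val h1
  simp only [f, Units.val_mul, Units.coe_map, Units.val_mk0, MonoidHom.coe_coe,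
    MulEquiv.symm_apply_apply] at h2
  rw [← he n, h2]

end Zeta

section Module

variable {H : Type*} [Group H] {L : Type*} [Field L] [MulSemiringAction H L]
variable (N : Subgroup H) [hN : N.Normal]

/-- The units of `L` fixed by `N` (`= F^×`, `F = L^N`). -/
def fixedUnits : Subgroup Lˣ where
  carrier := {w | ∀ n : N, (n : H) • (w : L) = w}
  mul_mem' := fun {a b} ha hb n => by
    rw [Units.val_mul, smul_mul', ha n, hb n]
  one_mem' := fun n => by simp
  inv_mem' := fun {a} ha n => by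
    rw [Units.val_inv_eq_inv_val, smul_inv'', ha n]

variable {N}

theorem mem_fixedUnits {w : Lˣ} : w ∈ fixedUnits (L := L) N ↔ ∀ n : N, (n : H) • (w : L) = w :=
  Iff.rfl

/-- The action of `γ : H` on `Lˣ`. -/
def unitsAct (γ : H) : Lˣ →* Lˣ := Units.map (MulSemiringAction.toRingHom H L γ : L →* L)

@[simp] theorem coe_unitsAct (γ : H) (w : Lˣ) : ((unitsAct γ w : Lˣ) : L) = γ • (w : L) := rfl

include hN in
theorem unitsAct_mem (γ : H) {w : Lˣ} (hw : w ∈ fixedUnits (L := L) N) :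
    unitsAct γ w ∈ fixedUnits (L := L) N := by
  intro n
  rw [coe_unitsAct, ← mul_smul]
  have h1 : (n : H) * γ = γ * (γ⁻¹ * n * γ) := by group
  have h2 : γ⁻¹ * (n : H) * γ ∈ N := by
    have := hN.conj_mem n n.2 γ⁻¹
    simpa using this
  rw [h1, mul_smul]
  congr 1
  exact hw ⟨_, h2⟩

variable (N) in
/-- The action of `H` on the `N`-fixed units. -/
def fixedAct (γ : H) : fixedUnits (L := L) N →* fixedUnits (L := L) N where
  toFun w := ⟨unitsAct γ w.1, unitsAct_mem γ w.2⟩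
  map_one' := by apply Subtype.ext; simp
  map_mul' a b := by apply Subtype.ext; simp

@[simp] theorem coe_fixedAct (γ : H) (w : fixedUnits (L := L) N) :
    (((fixedAct N γ w : fixedUnits (L := L) N) : Lˣ) : L) = γ • ((w : Lˣ) : L) := rfl

theorem fixedAct_one (w : fixedUnits (L := L) N) : fixedAct N 1 w = w := by
  apply Subtype.ext; apply Units.ext; simp

theorem fixedAct_mul (γ γ' : H) (w : fixedUnits (L := L) N) :
    fixedAct N (γ * γ') w = fixedAct N γ (fixedAct N γ' w) := by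
  apply Subtype.ext; apply Units.ext; simp [mul_smul]

variable (N) (L) in
/-- The `p`-th powers of `N`-fixed units. -/
def powSub (p : ℕ) : Subgroup (fixedUnits (L := L) N) := (powMonoidHom p).range

theorem mem_powSub {p : ℕ} {w : fixedUnits (L := L) N} :
    w ∈ powSub L N p ↔ ∃ z : fixedUnits (L := L) N, z ^ p = w := Iff.rfl

theorem fixedAct_mem_powSub {p : ℕ} (γ : H) {w : fixedUnits (L := L) N} (hw : w ∈ powSub L N p) :
    fixedAct N γ w ∈ powSub L N p := by
  obtain ⟨z, rfl⟩ := hw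
  exact ⟨fixedAct N γ z, (map_pow _ _ _).symm⟩

variable (N) (L) in
/-- `F^× / F^{×p}` written additively, `F = L^N`. -/
def YF (p : ℕ) : Type _ := Additive (fixedUnits (L := L) N ⧸ powSub L N p)

instance (p : ℕ) : AddCommGroup (YF L N p) := inferInstanceAs (AddCommGroup (Additive _))

/-- the class map `F^× → F^×/F^{×p}` -/
def cls (p : ℕ) (w : fixedUnits (L := L) N) : YF L N p :=
  Additive.ofMul (QuotientGroup.mk w)

theorem cls_mul (p : ℕ) (a b : fixedUnits (L := L) N) : cls p (a * b) = cls p a + cls p b := rfl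

theorem cls_one (p : ℕ) : cls p (1 : fixedUnits (L := L) N) = 0 := rfl

theorem cls_eq_zero_iff {p : ℕ} {w : fixedUnits (L := L) N} :
    cls p w = 0 ↔ ∃ z : fixedUnits (L := L) N, z ^ p = w := by
  rw [← mem_powSub]
  exact QuotientGroup.eq_one_iff w

theorem cls_surjective (p : ℕ) : Function.Surjective (cls (N := N) (L := L) p) := by
  intro y
  obtain ⟨w, hw⟩ := QuotientGroup.mk_surjective (Additive.toMul y)
  exact ⟨w, congrArg Additive.ofMul hw⟩

theorem cls_eq_iff {p : ℕ} {a b : fixedUnits (L := L) N} :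
    cls p a = cls p b ↔ ∃ z : fixedUnits (L := L) N, a = b * z ^ p := by
  constructor
  · intro h
    have h1 : cls p (b⁻¹ * a) = 0 := by
      have hb : cls p (b⁻¹ * a) + cls p b = cls p a := by
        rw [← cls_mul]; congr 1; rw [mul_comm, mul_inv_cancel_left]
      rw [h] at hb
      exact add_eq_right.mp hb
    obtain ⟨z, hz⟩ := cls_eq_zero_iff.1 h1
    exact ⟨z, by rw [hz, mul_inv_cancel_left]⟩
  · rintro ⟨z, rfl⟩
    rw [cls_mul, cls_eq_zero_iff.2 ⟨z, rfl⟩, add_zero]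

/-- the quotient action -/
def quotAct (p : ℕ) (γ : H) : YF L N p →+ YF L N p :=
  MonoidHom.toAdditive (QuotientGroup.map (powSub L N p) (powSub L N p) (fixedAct N γ)
    (fun _ hw => fixedAct_mem_powSub γ hw))

theorem quotAct_cls (p : ℕ) (γ : H) (w : fixedUnits (L := L) N) :
    quotAct p γ (cls p w) = cls p (fixedAct N γ w) := rfl

instance (p : ℕ) : DistribMulAction H (YF L N p) where
  smul γ y := quotAct p γ y
  one_smul y := by
    obtain ⟨w, rfl⟩ := cls_surjective p y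
    show quotAct p 1 (cls p w) = cls p w
    rw [quotAct_cls, fixedAct_one]
  mul_smul γ γ' y := by
    obtain ⟨w, rfl⟩ := cls_surjective p y
    show quotAct p (γ * γ') (cls p w) = quotAct p γ (quotAct p γ' (cls p w))
    rw [quotAct_cls, quotAct_cls, quotAct_cls, fixedAct_mul]
  smul_zero γ := map_zero (quotAct p γ)
  smul_add γ a b := map_add (quotAct p γ) a b

theorem smul_cls (p : ℕ) (γ : H) (w : fixedUnits (L := L) N) :
    γ • cls p w = cls p (fixedAct N γ w) := rfl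


end Module

section Kummer

variable {H : Type*} [Group H] {L : Type*} [Field L] [MulSemiringAction H L]
variable {N : Subgroup H} [hN : N.Normal]
variable {p : ℕ} [hp : Fact p.Prime] {ζ : L}

/-- `x` is a Kummer generator for the additive character `χ : N → 𝔽_p`:
`n x = ζ ^ χ(n) · x` for all `n ∈ N`. -/
def IsKummerGen (ζ : L) (χ : Additive N →+ ZMod p) (x : L) : Prop :=
  x ≠ 0 ∧ ∀ n : N, (n : H) • x = ζ ^ (χ (Additive.ofMul n)).val * x

namespace IsKummerGen

variable {χ χ' : Additive N →+ ZMod p} {x x' : L}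

theorem pow_fixed (hζ : IsPrimitiveRoot ζ p) (hx : IsKummerGen ζ χ x) (n : N) :
    (n : H) • (x ^ p) = x ^ p := by
  rw [smul_pow', hx.2 n, mul_pow, ← pow_mul, Nat.mul_comm, pow_mul, hζ.pow_eq_one, one_pow,
    one_mul]

/-- The `N`-fixed unit `x ^ p`. -/
def unit (hζ : IsPrimitiveRoot ζ p) (hx : IsKummerGen ζ χ x) : fixedUnits (L := L) N :=
  ⟨Units.mk0 (x ^ p) (pow_ne_zero _ hx.1), fun n => hx.pow_fixed hζ n⟩

@[simp] theorem coe_unit (hζ : IsPrimitiveRoot ζ p) (hx : IsKummerGen ζ χ x) :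
    (((hx.unit hζ : fixedUnits (L := L) N) : Lˣ) : L) = x ^ p := rfl

theorem mul (hζ : IsPrimitiveRoot ζ p) (hx : IsKummerGen ζ χ x) (hx' : IsKummerGen ζ χ' x') :
    IsKummerGen ζ (χ + χ') (x * x') := by
  refine ⟨mul_ne_zero hx.1 hx'.1, fun n => ?_⟩
  rw [smul_mul', hx.2 n, hx'.2 n, AddMonoidHom.add_apply, zeta_pow_val_add hζ]
  ring

theorem unit_mul (hζ : IsPrimitiveRoot ζ p) (hx : IsKummerGen ζ χ x)
    (hx' : IsKummerGen ζ χ' x') :
    (hx.mul hζ hx').unit hζ = hx.unit hζ * hx'.unit hζ := by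
  apply Subtype.ext; apply Units.ext
  simp [mul_pow]

/-- Two generators of the same character differ by an `N`-fixed unit. -/
theorem cls_unit_eq (hζ : IsPrimitiveRoot ζ p) (hx : IsKummerGen ζ χ x)
    (hx' : IsKummerGen ζ χ x') : cls p (hx.unit hζ) = cls p (hx'.unit hζ) := by
  have hζ0 : ζ ≠ 0 := hζ.ne_zero hp.out.ne_zero
  have hfix : ∀ n : N, (n : H) • (x / x') = x / x' := by
    intro n
    rw [smul_div₀', hx.2 n, hx'.2 n, mul_div_mul_left _ _ (pow_ne_zero _ hζ0)]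
  let z : fixedUnits (L := L) N := ⟨Units.mk0 (x / x') (div_ne_zero hx.1 hx'.1), hfix⟩
  refine cls_eq_iff.2 ⟨z, ?_⟩
  apply Subtype.ext; apply Units.ext
  simp only [coe_unit, Subgroup.coe_mul, Units.val_mul, SubgroupClass.coe_pow, Units.val_pow_eq_pow_val,
    z, Units.val_mk0]
  rw [div_pow, mul_div_cancel₀ _ (pow_ne_zero _ hx'.1)]

/-- If `x ^ p` is a `p`-th power of an `N`-fixed unit then `χ = 0`. -/
theorem eq_zero_of_cls_eq_zero (hζ : IsPrimitiveRoot ζ p) (hζN : ∀ n : N, (n : H) • ζ = ζ)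
    (hx : IsKummerGen ζ χ x) (h : cls p (hx.unit hζ) = 0) : χ = 0 := by
  obtain ⟨z, hz⟩ := cls_eq_zero_iff.1 h
  have hz' : (((z : fixedUnits (L := L) N) : Lˣ) : L) ^ p = x ^ p := by
    have := congrArg (fun w : fixedUnits (L := L) N => ((w : Lˣ) : L)) hz
    simpa using this
  have hz0 : (((z : fixedUnits (L := L) N) : Lˣ) : L) ≠ 0 := Units.ne_zero _
  -- `x / z` is a `p`-th root of unity, hence a power of `ζ`, hence `N`-fixed … so `x` is fixed up
  -- to the same factor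
  have h1 : (x / ((z : Lˣ) : L)) ^ p = 1 := by
    rw [div_pow, hz', div_self (pow_ne_zero _ hx.1)]
  obtain ⟨i, -, hi⟩ := hζ.eq_pow_of_pow_eq_one h1
  have hx_eq : x = ζ ^ i * ((z : Lˣ) : L) := by
    rw [hi, div_mul_cancel₀ _ hz0]
  refine AddMonoidHom.ext fun a => ?_
  obtain ⟨n, rfl⟩ : ∃ n : N, Additive.ofMul n = a := ⟨Additive.toMul a, rfl⟩
  rw [AddMonoidHom.zero_apply, ← zeta_pow_val_eq_one_iff hζ]
  have h2 := hx.2 n
  have h3 : (n : H) • x = x := by
    rw [hx_eq, smul_mul', smul_pow', hζN n, z.2 n]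
  rw [h3] at h2
  have h4 : (ζ ^ (χ (Additive.ofMul n)).val - 1) * x = 0 := by
    rw [sub_mul, one_mul, ← h2, sub_self]
  rcases mul_eq_zero.1 h4 with h5 | h5
  · exact sub_eq_zero.1 h5
  · exact absurd h5 hx.1

/-- The conjugation twist of a character: `(twist c γ χ)(n) = c * χ (γ⁻¹ n γ)`. -/
def twist (c : ZMod p) (γ : H) (χ : Additive N →+ ZMod p) : Additive N →+ ZMod p :=
  (AddMonoidHom.mulLeft c).comp
    (χ.comp (MonoidHom.toAdditive (MulAut.conjNormal γ⁻¹ : N ≃* N).toMonoidHom))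

theorem twist_apply (c : ZMod p) (γ : H) (χ : Additive N →+ ZMod p) (n : N) :
    twist c γ χ (Additive.ofMul n) =
      c * χ (Additive.ofMul (MulAut.conjNormal γ⁻¹ n : N)) := rfl

theorem smul (hζ : IsPrimitiveRoot ζ p) (hx : IsKummerGen ζ χ x) (γ : H) {c : ZMod p}
    (hc : γ • ζ = ζ ^ c.val) : IsKummerGen ζ (twist c γ χ) (γ • x) := by
  refine ⟨fun h => hx.1 ?_, fun n => ?_⟩
  · have := congrArg (fun y => γ⁻¹ • y) h
    simpa using this
  · have h1 : (n : H) • γ • x = γ • (((MulAut.conjNormal γ⁻¹ n : N) : H) • x) := by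
      rw [MulAut.conjNormal_apply, ← mul_smul, ← mul_smul]
      congr 1
      group
    rw [h1, hx.2, smul_mul', smul_pow', hc, twist_apply, zeta_pow_val_mul hζ]

theorem unit_smul (hζ : IsPrimitiveRoot ζ p) (hx : IsKummerGen ζ χ x) (γ : H) {c : ZMod p}
    (hc : γ • ζ = ζ ^ c.val) : (hx.smul hζ γ hc).unit hζ = fixedAct N γ (hx.unit hζ) := by
  apply Subtype.ext; apply Units.ext
  simp [smul_pow']

end IsKummerGen

section Kum

variable [Finite N] [FaithfulSMul N L]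

theorem exists_isKummerGen (hζ : IsPrimitiveRoot ζ p) (hζN : ∀ n : N, (n : H) • ζ = ζ)
    (χ : Additive N →+ ZMod p) : ∃ x : L, IsKummerGen ζ χ x :=
  exists_kummer_generator (N := N) hζ hζN χ

/-- The Kummer class in `F^×/F^{×p}` (`F = L^N`) of an additive character `χ : N → 𝔽_p`:
the class of `x ^ p` for any `x ∈ L^×` with `n x = ζ ^ χ(n) x`. -/
noncomputable def kum (hζ : IsPrimitiveRoot ζ p) (hζN : ∀ n : N, (n : H) • ζ = ζ)
    (χ : Additive N →+ ZMod p) : YF L N p :=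
  cls p ((Classical.choose_spec (exists_isKummerGen hζ hζN χ)).unit hζ)

theorem kum_eq (hζ : IsPrimitiveRoot ζ p) (hζN : ∀ n : N, (n : H) • ζ = ζ)
    {χ : Additive N →+ ZMod p} {x : L} (hx : IsKummerGen ζ χ x) :
    kum hζ hζN χ = cls p (hx.unit hζ) :=
  IsKummerGen.cls_unit_eq hζ _ hx

theorem kum_add (hζ : IsPrimitiveRoot ζ p) (hζN : ∀ n : N, (n : H) • ζ = ζ)
    (χ χ' : Additive N →+ ZMod p) : kum hζ hζN (χ + χ') = kum hζ hζN χ + kum hζ hζN χ' := by
  obtain ⟨x, hx⟩ := exists_isKummerGen hζ hζN χ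
  obtain ⟨x', hx'⟩ := exists_isKummerGen hζ hζN χ'
  rw [kum_eq hζ hζN hx, kum_eq hζ hζN hx', kum_eq hζ hζN (hx.mul hζ hx'), IsKummerGen.unit_mul,
    cls_mul]

theorem kum_eq_zero (hζ : IsPrimitiveRoot ζ p) (hζN : ∀ n : N, (n : H) • ζ = ζ)
    {χ : Additive N →+ ZMod p} (h : kum hζ hζN χ = 0) : χ = 0 := by
  obtain ⟨x, hx⟩ := exists_isKummerGen hζ hζN χ
  rw [kum_eq hζ hζN hx] at h
  exact hx.eq_zero_of_cls_eq_zero hζ hζN h

theorem smul_kum (hζ : IsPrimitiveRoot ζ p) (hζN : ∀ n : N, (n : H) • ζ = ζ)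
    (χ : Additive N →+ ZMod p) (γ : H) {c : ZMod p} (hc : γ • ζ = ζ ^ c.val) :
    γ • kum hζ hζN χ = kum hζ hζN (IsKummerGen.twist c γ χ) := by
  obtain ⟨x, hx⟩ := exists_isKummerGen hζ hζN χ
  rw [kum_eq hζ hζN hx, kum_eq hζ hζN (hx.smul hζ γ hc), IsKummerGen.unit_smul hζ hx γ hc,
    smul_cls]

/-- Every Kummer class is the class of some `x ^ p`, `x ∈ L^×`. -/
theorem exists_kum_eq (hζ : IsPrimitiveRoot ζ p) (hζN : ∀ n : N, (n : H) • ζ = ζ)
    (χ : Additive N →+ ZMod p) :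
    ∃ (x : L) (w : fixedUnits (L := L) N), ((w : Lˣ) : L) = x ^ p ∧ kum hζ hζN χ = cls p w := by
  obtain ⟨x, hx⟩ := exists_isKummerGen hζ hζN χ
  exact ⟨x, hx.unit hζ, rfl, kum_eq hζ hζN hx⟩

end Kum

end Kummer

section Cocycles

variable {H : Type*} [Group H] {k : Type*} [Field k] (φ : H →* kˣ)

/-- The `1`-cocycles of `H` with values in `k(φ)`: `c (σ τ) = c σ + φ σ * c τ`. -/
def Z1 : AddSubgroup (H → k) where
  carrier := {c | ∀ σ τ, c (σ * τ) = c σ + (φ σ : k) * c τ}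
  zero_mem' := fun σ τ => by simp
  add_mem' := fun {c c'} hc hc' σ τ => by
    simp only [Pi.add_apply, hc σ τ, hc' σ τ]; ring
  neg_mem' := fun {c} hc σ τ => by
    simp only [Pi.neg_apply, hc σ τ]; ring

/-- The `1`-coboundaries `σ ↦ (φ σ - 1) a`. -/
def B1 : AddSubgroup (H → k) where
  carrier := {c | ∃ a : k, ∀ σ, c σ = ((φ σ : k) - 1) * a}
  zero_mem' := ⟨0, fun σ => by simp⟩
  add_mem' := fun {c c'} ⟨a, ha⟩ ⟨a', ha'⟩ => ⟨a + a', fun σ => by
    simp only [Pi.add_apply, ha σ, ha' σ]; ring⟩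
  neg_mem' := fun {c} ⟨a, ha⟩ => ⟨-a, fun σ => by
    simp only [Pi.neg_apply, ha σ]; ring⟩

variable {φ}

theorem mem_Z1 {c : H → k} : c ∈ Z1 φ ↔ ∀ σ τ, c (σ * τ) = c σ + (φ σ : k) * c τ := Iff.rfl

theorem mem_B1 {c : H → k} : c ∈ B1 φ ↔ ∃ a : k, ∀ σ, c σ = ((φ σ : k) - 1) * a := Iff.rfl

theorem B1_le_Z1 : B1 φ ≤ Z1 φ := by
  rintro c ⟨a, ha⟩ σ τ
  rw [ha, ha, ha, map_mul, Units.val_mul]; ring

theorem Z1_map_one {c : H → k} (hc : c ∈ Z1 φ) : c 1 = 0 := by
  have := hc 1 1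
  simpa using this

theorem Z1_map_inv {c : H → k} (hc : c ∈ Z1 φ) (σ : H) : (φ σ : k) * c σ⁻¹ = - c σ := by
  have := hc σ σ⁻¹
  rw [mul_inv_cancel, Z1_map_one hc] at this
  linear_combination -this

variable (φ) (N : Subgroup H) [hN : N.Normal]

/-- `𝓗`: the additive characters `h : N → k` with `h (γ n γ⁻¹) = φ γ * h n`. -/
def EqHoms : AddSubgroup (Additive N →+ k) where
  carrier := {h | ∀ (γ : H) (n : N),
    h (Additive.ofMul (MulAut.conjNormal γ n : N)) = (φ γ : k) * h (Additive.ofMul n)}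
  zero_mem' := fun γ n => by simp
  add_mem' := fun {h h'} hh hh' γ n => by
    simp only [AddMonoidHom.add_apply, hh γ n, hh' γ n]; ring
  neg_mem' := fun {h} hh γ n => by
    simp only [AddMonoidHom.neg_apply, hh γ n]; ring

variable {φ N}

/-- The restriction of a cocycle to `N` (on which `φ` is trivial) is an element of `𝓗`. -/
def resHom (hφN : ∀ n ∈ N, φ n = 1) : Z1 φ →+ EqHoms φ N where
  toFun c := ⟨AddMonoidHom.mk' (fun a => c.1 ((Additive.toMul a : N) : H)) (fun a b => by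
      show c.1 (((Additive.toMul a : N) : H) * ((Additive.toMul b : N) : H)) = _
      rw [c.2, hφN _ (Additive.toMul a : N).2, Units.val_one, one_mul]), fun γ n => by
      show c.1 ((MulAut.conjNormal γ n : N) : H) = (φ γ : k) * c.1 (n : H)
      rw [MulAut.conjNormal_apply, mul_assoc, c.2, c.2, hφN _ n.2, Units.val_one, one_mul, mul_add,
        Z1_map_inv c.2]
      ring⟩
  map_zero' := by
    apply Subtype.ext
    refine AddMonoidHom.ext fun a => ?_
    rfl
  map_add' c c' := by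
    apply Subtype.ext
    refine AddMonoidHom.ext fun a => ?_
    rfl

theorem resHom_apply (hφN : ∀ n ∈ N, φ n = 1) (c : Z1 φ) (n : N) :
    (resHom hφN c).1 (Additive.ofMul n) = c.1 (n : H) := rfl

/-- **(K2)** If `[H : N]` is finite and invertible in `k`, a cocycle vanishing on `N` is a
coboundary. -/
theorem mem_B1_of_resHom_eq_zero [N.FiniteIndex] (hind : (N.index : k) ≠ 0)
    (hφN : ∀ n ∈ N, φ n = 1) (c : Z1 φ) (h : resHom hφN c = 0) : c.1 ∈ B1 φ := by
  classical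
  have hcN : ∀ n : N, c.1 (n : H) = 0 := fun n => by
    have := congrArg (fun g : EqHoms φ N => g.1 (Additive.ofMul n)) h
    simpa [resHom_apply] using this
  -- `c` is constant on left cosets
  have hconst : ∀ (σ : H) (n : N), c.1 (σ * n) = c.1 σ := fun σ n => by
    rw [c.2, hcN, mul_zero, add_zero]
  have : Fintype (H ⧸ N) := Fintype.ofFinite _
  have hout : ∀ (σ : H) (q : H ⧸ N), c.1 ((σ • q).out) = c.1 σ + (φ σ : k) * c.1 q.out := by
    intro σ q
    have h1 : ((σ • q).out : H ⧸ N) = ((σ * q.out : H) : H ⧸ N) := by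
      rw [QuotientGroup.out_eq']
      conv_lhs => rw [← QuotientGroup.out_eq' q]
      rfl
    obtain ⟨n, hn⟩ : ∃ n : N, (σ • q).out = σ * q.out * n := by
      have := QuotientGroup.eq.1 h1.symm
      exact ⟨⟨_, this⟩, by simp [mul_assoc]⟩
    rw [hn, hconst, c.2]
  set S : k := ∑ q : H ⧸ N, c.1 q.out with hS
  refine ⟨-S / (N.index : k), fun σ => ?_⟩
  have hsum : ∑ q : H ⧸ N, c.1 ((σ • q).out) = S :=
    Equiv.sum_comp (MulAction.toPerm σ : H ⧸ N ≃ H ⧸ N) (fun q => c.1 q.out)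
  have h2 : S = (N.index : k) * c.1 σ + (φ σ : k) * S := by
    conv_lhs => rw [← hsum]
    simp_rw [hout]
    rw [Finset.sum_add_distrib, Finset.sum_const, Finset.card_univ, ← Finset.mul_sum,
      nsmul_eq_mul, Subgroup.index, Nat.card_eq_fintype_card]
  field_simp
  linear_combination -h2

end Cocycles

section Trace

variable {p : ℕ} [hp : Fact p.Prime] {k : Type*} [Field k] [Algebra (ZMod p) k]

theorem eq_zero_of_trace [Finite k] (v : k)
    (h : ∀ a : k, Algebra.trace (ZMod p) k (a * v) = 0) : v = 0 := by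
  have := (traceForm_nondegenerate (ZMod p) k).2
  exact this v (fun a => by rw [Algebra.traceForm_apply]; exact h a)

/-- The trace functional `v ↦ Tr_{k/𝔽_p}(a v)`. -/
noncomputable def trHom (p : ℕ) [Fact p.Prime] {k : Type*} [Field k] [Algebra (ZMod p) k]
    (a : k) : k →+ ZMod p :=
  ((Algebra.trace (ZMod p) k).toAddMonoidHom).comp (AddMonoidHom.mulLeft a)

theorem trHom_apply (a v : k) : trHom p a v = Algebra.trace (ZMod p) k (a * v) := rfl

theorem trHom_add (a a' : k) : trHom p (a + a') = trHom p a + trHom p a' := by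
  refine AddMonoidHom.ext fun v => ?_
  simp [trHom_apply, add_mul]

theorem trHom_algebraMap_mul (c : ZMod p) (a v : k) :
    trHom p (algebraMap (ZMod p) k c * a) v = c * trHom p a v := by
  rw [trHom_apply, trHom_apply, mul_assoc, ← Algebra.smul_def, map_smul, smul_eq_mul]

end Trace

section Link

variable {H : Type*} [Group H] {L : Type*} [Field L] [MulSemiringAction H L]
variable {N : Subgroup H} [hN : N.Normal] [Finite N] [FaithfulSMul N L]
variable {p : ℕ} [hp : Fact p.Prime] {ζ : L}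
variable {k : Type*} [Field k] [Algebra (ZMod p) k]

/-- `ω : H → 𝔽_p^×` with values in `k^×`. -/
def omegaK (k : Type*) [Field k] [Algebra (ZMod p) k] (ω : H →* (ZMod p)ˣ) : H →* kˣ :=
  (Units.map (algebraMap (ZMod p) k : ZMod p →* k)).comp ω

@[simp] theorem coe_omegaK (ω : H →* (ZMod p)ˣ) (γ : H) :
    ((omegaK k ω γ : kˣ) : k) = algebraMap (ZMod p) k ((ω γ : (ZMod p)ˣ) : ZMod p) := rfl

/-- `ψ = ω φ⁻¹`: the character through which `Δ = H/N` acts on the Kummer generators of the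
classes in `H¹(H, k(φ))`. -/
def psi (φ : H →* kˣ) (ω : H →* (ZMod p)ˣ) : H →* kˣ := omegaK k ω * φ⁻¹

theorem coe_psi (φ : H →* kˣ) (ω : H →* (ZMod p)ˣ) (γ : H) :
    ((psi φ ω γ : kˣ) : k) =
      algebraMap (ZMod p) k ((ω γ : (ZMod p)ˣ) : ZMod p) * ((φ γ : kˣ) : k)⁻¹ := by
  simp [psi]

/-- `Ψ_h(a)`: the Kummer class of the character `n ↦ Tr(a h(n))`. -/
noncomputable def linkFun (hζ : IsPrimitiveRoot ζ p) (hζN : ∀ n : N, (n : H) • ζ = ζ)
    (h : Additive N →+ k) (a : k) : YF L N p :=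
  kum hζ hζN ((trHom p a).comp h)

theorem linkFun_add_right (hζ : IsPrimitiveRoot ζ p) (hζN : ∀ n : N, (n : H) • ζ = ζ)
    (h : Additive N →+ k) (a a' : k) :
    linkFun hζ hζN h (a + a') = linkFun hζ hζN h a + linkFun hζ hζN h a' := by
  unfold linkFun
  rw [← kum_add, trHom_add, AddMonoidHom.add_comp]

theorem linkFun_add_left (hζ : IsPrimitiveRoot ζ p) (hζN : ∀ n : N, (n : H) • ζ = ζ)
    (h h' : Additive N →+ k) (a : k) :
    linkFun hζ hζN (h + h') a = linkFun hζ hζN h a + linkFun hζ hζN h' a := by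
  unfold linkFun
  rw [← kum_add, AddMonoidHom.comp_add]

theorem linkFun_zero_left (hζ : IsPrimitiveRoot ζ p) (hζN : ∀ n : N, (n : H) • ζ = ζ) (a : k) :
    linkFun hζ hζN (0 : Additive N →+ k) a = 0 := by
  have := linkFun_add_left hζ hζN (0 : Additive N →+ k) 0 a
  rw [add_zero] at this
  exact left_eq_add.mp this

theorem smul_linkFun (hζ : IsPrimitiveRoot ζ p) (hζN : ∀ n : N, (n : H) • ζ = ζ)
    (φ : H →* kˣ) (ω : H →* (ZMod p)ˣ)
    (hω : ∀ γ : H, γ • ζ = ζ ^ ((ω γ : (ZMod p)ˣ) : ZMod p).val)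
    {h : Additive N →+ k} (hh : h ∈ EqHoms φ N) (γ : H) (a : k) :
    γ • linkFun hζ hζN h a = linkFun hζ hζN h ((psi φ ω γ : k) * a) := by
  unfold linkFun
  rw [smul_kum hζ hζN _ γ (hω γ)]
  congr 1
  refine AddMonoidHom.ext fun x => ?_
  obtain ⟨n, rfl⟩ : ∃ n : N, Additive.ofMul n = x := ⟨Additive.toMul x, rfl⟩
  rw [IsKummerGen.twist_apply, AddMonoidHom.comp_apply, AddMonoidHom.comp_apply, hh γ⁻¹ n,
    coe_psi, mul_assoc, trHom_algebraMap_mul, map_inv, Units.val_inv_eq_inv_val]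
  congr 1
  rw [trHom_apply, trHom_apply]
  congr 1
  ring

variable [Finite k]

/-- **(K3)** The Kummer link `𝓗 → EqMaps (ω φ⁻¹) (F^×/F^{×p})`. -/
noncomputable def link (hζ : IsPrimitiveRoot ζ p) (hζN : ∀ n : N, (n : H) • ζ = ζ)
    (φ : H →* kˣ) (ω : H →* (ZMod p)ˣ)
    (hω : ∀ γ : H, γ • ζ = ζ ^ ((ω γ : (ZMod p)ˣ) : ZMod p).val) :
    EqHoms φ N →+ EqMaps (psi φ ω) (YF L N p) where
  toFun h := ⟨AddMonoidHom.mk' (linkFun hζ hζN h.1) (linkFun_add_right hζ hζN h.1),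
    fun γ a => (smul_linkFun hζ hζN φ ω hω h.2 γ a).symm⟩
  map_zero' := by
    apply Subtype.ext
    refine AddMonoidHom.ext fun a => ?_
    exact linkFun_zero_left hζ hζN a
  map_add' h h' := by
    apply Subtype.ext
    refine AddMonoidHom.ext fun a => ?_
    exact linkFun_add_left hζ hζN h.1 h'.1 a

theorem link_apply (hζ : IsPrimitiveRoot ζ p) (hζN : ∀ n : N, (n : H) • ζ = ζ)
    (φ : H →* kˣ) (ω : H →* (ZMod p)ˣ)
    (hω : ∀ γ : H, γ • ζ = ζ ^ ((ω γ : (ZMod p)ˣ) : ZMod p).val) (h : EqHoms φ N) (a : k) :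
    (link hζ hζN φ ω hω h).1 a = linkFun hζ hζN h.1 a := rfl

theorem link_injective (hζ : IsPrimitiveRoot ζ p) (hζN : ∀ n : N, (n : H) • ζ = ζ)
    (φ : H →* kˣ) (ω : H →* (ZMod p)ˣ)
    (hω : ∀ γ : H, γ • ζ = ζ ^ ((ω γ : (ZMod p)ˣ) : ZMod p).val) :
    Function.Injective (link (N := N) (k := k) hζ hζN φ ω hω) := by
  rw [injective_iff_map_eq_zero]
  intro h hh
  apply Subtype.ext
  refine AddMonoidHom.ext fun x => ?_
  apply eq_zero_of_trace (p := p)
  intro a
  have h1 : linkFun hζ hζN h.1 a = 0 := by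
    have := congrArg (fun g : EqMaps (psi φ ω) (YF L N p) => g.1 a) hh
    simpa [link_apply] using this
  have h2 := kum_eq_zero hζ hζN h1
  have h3 := congrArg (fun χ : Additive N →+ ZMod p => χ x) h2
  simpa [trHom_apply] using h3

/-- The values of the Kummer link are classes of `x ^ p`, `x ∈ L^×`. -/
theorem exists_link_apply_eq (hζ : IsPrimitiveRoot ζ p) (hζN : ∀ n : N, (n : H) • ζ = ζ)
    (φ : H →* kˣ) (ω : H →* (ZMod p)ˣ)
    (hω : ∀ γ : H, γ • ζ = ζ ^ ((ω γ : (ZMod p)ˣ) : ZMod p).val) (h : EqHoms φ N) (a : k) :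
    ∃ (x : L) (w : fixedUnits (L := L) N), ((w : Lˣ) : L) = x ^ p ∧
      (link hζ hζN φ ω hω h).1 a = cls p w :=
  exists_kum_eq hζ hζN _

end Link

section Pullback

variable {Δ : Type*} [Group Δ] {k : Type*} [Field k] {ψ : Δ →* kˣ}
variable {Y Z : Type*} [AddCommGroup Y] [DistribMulAction Δ Y] [AddCommGroup Z]
  [DistribMulAction Δ Z]

/-- A family of elements of `EqMaps ψ Z` all of whose values lie in the image of an injective
equivariant map `ι : Y → Z` comes from `EqMaps ψ Y`. -/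
theorem exists_pullback (ι : Y →+ Z) (hι : ∀ (δ : Δ) (y : Y), ι (δ • y) = δ • ι y)
    (hinj : Function.Injective ι) {A : Type*} [AddCommGroup A] (T : A →+ EqMaps ψ Z)
    (hT : ∀ (x : A) (a : k), (T x).1 a ∈ Set.range ι) :
    ∃ T' : A →+ EqMaps ψ Y, ∀ x, pushforward ι hι (T' x) = T x := by
  choose s hs using hT
  have hadd : ∀ x a b, s x (a + b) = s x a + s x b := by
    intro x a b
    apply hinj
    rw [map_add, hs, hs, hs, map_add]
  have heq : ∀ x (δ : Δ) (a : k), s x ((ψ δ : k) * a) = δ • s x a := by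
    intro x δ a
    apply hinj
    rw [hs, hι, hs, (T x).2 δ a]
  let T₀ : A → EqMaps ψ Y := fun x => ⟨AddMonoidHom.mk' (s x) (hadd x), heq x⟩
  have hT₀ : ∀ x, pushforward ι hι (T₀ x) = T x := by
    intro x
    apply Subtype.ext
    refine AddMonoidHom.ext fun a => ?_
    exact hs x a
  have hpinj := pushforward_injective (ψ := ψ) ι hι hinj
  refine ⟨AddMonoidHom.mk' T₀ (fun x y => ?_), hT₀⟩
  apply hpinj
  rw [map_add, hT₀, hT₀, hT₀, map_add]

end Pullback

section Final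

variable {H : Type*} [Group H] {L : Type*} [Field L] [MulSemiringAction H L]
variable {N : Subgroup H} [hN : N.Normal] [Finite N] [FaithfulSMul N L]
variable {p : ℕ} [hp : Fact p.Prime] {ζ : L}
variable {k : Type*} [Field k] [Algebra (ZMod p) k] [Finite k]

/-- **The Kummer link (K1)–(K3).** `H` acts on the field `L`, `N ⊴ H` finite, faithful on `L`, of
finite index invertible in `k`; `ζ ∈ L^N` a primitive `p`-th root of unity, `γ ζ = ζ ^ ω(γ)`;
`φ : H → k^×` trivial on `N`.  Then there is an additive map from the `1`-cocycles of `k(φ)` to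
`EqMaps (ω φ⁻¹) (F^×/F^{×p})` (`F = L^N`) whose kernel consists of coboundaries and whose values
are classes of `x ^ p`, `x ∈ L^×`. -/
theorem exists_kummerLink (hζ : IsPrimitiveRoot ζ p) (hζN : ∀ n : N, (n : H) • ζ = ζ)
    (φ : H →* kˣ) (ω : H →* (ZMod p)ˣ)
    (hω : ∀ γ : H, γ • ζ = ζ ^ ((ω γ : (ZMod p)ˣ) : ZMod p).val)
    (hφN : ∀ n ∈ N, φ n = 1) [N.FiniteIndex] (hind : (N.index : k) ≠ 0) :
    ∃ T : Z1 φ →+ EqMaps (psi φ ω) (YF L N p),
      (∀ c, T c = 0 → c.1 ∈ B1 φ) ∧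
      ∀ (c : Z1 φ) (a : k), ∃ (x : L) (w : fixedUnits (L := L) N),
        ((w : Lˣ) : L) = x ^ p ∧ (T c).1 a = cls p w := by
  refine ⟨(link hζ hζN φ ω hω).comp (resHom hφN), fun c hc => ?_, fun c a => ?_⟩
  · apply mem_B1_of_resHom_eq_zero hind hφN c
    apply link_injective hζ hζN φ ω hω
    rw [map_zero]
    exact hc
  · exact exists_link_apply_eq hζ hζN φ ω hω _ a

/-- **Cardinality form.** If moreover all classes of `x ^ p` (`x ∈ L^×`, `x ^ p ∈ F`) lie in the
image of an injective equivariant map `ι : Y → F^×/F^{×p}` (e.g. `Y = U^{(e)}/(U^{(e)} ∩ F^{×p})`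
when `L` is peu ramifié), then `|H¹(H, k(φ))| ≤ |EqMaps (ω φ⁻¹) Y|`. -/
theorem card_Z1_quot_B1_le (hζ : IsPrimitiveRoot ζ p) (hζN : ∀ n : N, (n : H) • ζ = ζ)
    (φ : H →* kˣ) (ω : H →* (ZMod p)ˣ)
    (hω : ∀ γ : H, γ • ζ = ζ ^ ((ω γ : (ZMod p)ˣ) : ZMod p).val)
    (hφN : ∀ n ∈ N, φ n = 1) [N.FiniteIndex] (hind : (N.index : k) ≠ 0)
    {Y : Type*} [AddCommGroup Y] [DistribMulAction H Y] [Finite Y]
    (ι : Y →+ YF L N p) (hι : ∀ (γ : H) (y : Y), ι (γ • y) = γ • ι y)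
    (hinj : Function.Injective ι)
    (hrange : ∀ (x : L) (w : fixedUnits (L := L) N), ((w : Lˣ) : L) = x ^ p →
      cls p w ∈ Set.range ι) :
    Nat.card (Z1 φ ⧸ (B1 φ).addSubgroupOf (Z1 φ)) ≤ Nat.card (EqMaps (psi φ ω) Y) := by
  obtain ⟨T, hT1, hT2⟩ := exists_kummerLink (N := N) (k := k) hζ hζN φ ω hω hφN hind
  obtain ⟨T', hT'⟩ := exists_pullback ι hι hinj T (fun c a => by
    obtain ⟨x, w, hw, h⟩ := hT2 c a
    rw [h]
    exact hrange x w hw)
  have hker : T'.ker ≤ (B1 φ).addSubgroupOf (Z1 φ) := by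
    intro c hc
    rw [AddMonoidHom.mem_ker] at hc
    rw [AddSubgroup.mem_addSubgroupOf]
    apply hT1
    rw [← hT', hc, map_zero]
  have h1 : Nat.card (Z1 φ ⧸ T'.ker) ≤ Nat.card (EqMaps (psi φ ω) Y) := by
    rw [← AddSubgroup.index_eq_card, AddSubgroup.index_ker]
    exact Nat.card_le_card_of_injective _ Subtype.val_injective
  have h2 : T'.ker.index ≠ 0 := by
    rw [AddSubgroup.index_ker]
    exact Nat.card_pos.ne'
  calc Nat.card (Z1 φ ⧸ (B1 φ).addSubgroupOf (Z1 φ))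
      = ((B1 φ).addSubgroupOf (Z1 φ)).index := (AddSubgroup.index_eq_card _).symm
    _ ≤ T'.ker.index := Nat.le_of_dvd (Nat.pos_of_ne_zero h2) (AddSubgroup.index_dvd_of_le hker)
    _ = Nat.card (Z1 φ ⧸ T'.ker) := AddSubgroup.index_eq_card _
    _ ≤ _ := h1

end Final

end Fermat.Agent.S56.Flat.Count.KummerLink
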