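import Mathlib

/-!
# FLC-ML: the semilinear line lemma (row 53, (M2))

Mathlib-only.  `F₀ ⊆ kF` finite fields, `N` a finite-dimensional `kF`-space (a line in the
application), `k` a finite field.  Inertia elements `δ : D` act on `N` through scalars
`θ δ ∈ F₀` and on `k` through `χ δ`; a Frobenius lift acts on `N` by an additive map `T` which is
`|F₀|`-semilinear, and on `k` through `cφ ≠ 0`.  Then the set `EqSet θ χ T cφ` of equivariant
additive maps `Ψ : k → N` has at most `|k| ^ ([F₀ : F'] * dim_kF N)` elements, where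
`F' = Subfield.closure (Set.range θ)`, and it is `{0}` unless `θ δ ↦ χ δ` extends to a ring
homomorphism `F' → k`.
-/

namespace Fermat.Agent.S56.Flat.Count.SemilinearLine

open Module Polynomial

section Fix

variable {K₀ L V : Type*} [Field K₀] [Field L] [Algebra K₀ L] [AddCommGroup V] [Module L V]
  [Module K₀ V] [IsScalarTower K₀ L V]

/-- Artin's minimal relation argument: fixed vectors of a `σ`-semilinear additive operator which
are independent over (a field mapping onto) the fixed field of `σ` are independent over `L`.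
`σ` is an arbitrary function. -/
theorem linearIndependent_of_fixed (σ : L → L) (Θ : V → V)
    (hΘadd : ∀ x y, Θ (x + y) = Θ x + Θ y) (hΘ : ∀ (a : L) (v : V), Θ (a • v) = σ a • Θ v)
    (hfix : ∀ a : L, σ a = a → a ∈ Set.range (algebraMap K₀ L))
    {ι : Type*} (v : ι → V) (hv : ∀ i, Θ (v i) = v i)
    (hli : LinearIndependent K₀ v) : LinearIndependent L v := by
  classical
  set Θ' : V →+ V := AddMonoidHom.mk' Θ hΘadd with hΘ'
  have hΘsum : ∀ (s : Finset ι) (g : ι → L),
      Θ (∑ i ∈ s, g i • v i) = ∑ i ∈ s, σ (g i) • v i := by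
    intro s g
    have : Θ (∑ i ∈ s, g i • v i) = Θ' (∑ i ∈ s, g i • v i) := rfl
    rw [this, map_sum]
    refine Finset.sum_congr rfl fun i _ => ?_
    change Θ (g i • v i) = _
    rw [hΘ, hv]
  rw [linearIndependent_iff']
  intro s
  induction s using Finset.induction_on with
  | empty => intro g _ i hi; simp at hi
  | insert a s ha ih =>
    intro g hg
    by_cases hga : g a = 0
    · rw [Finset.sum_insert ha, hga, zero_smul, zero_add] at hg
      intro i hi
      rcases Finset.mem_insert.1 hi with rfl | hi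
      · exact hga
      · exact ih g hg i hi
    · exfalso
      -- normalise
      set g' : ι → L := fun i => (g a)⁻¹ * g i with hg'
      have hrel : v a + ∑ i ∈ s, g' i • v i = 0 := by
        have := congrArg (fun x => (g a)⁻¹ • x) hg
        simp only [smul_zero] at this
        rw [Finset.sum_insert ha, smul_add, smul_smul, inv_mul_cancel₀ hga, one_smul,
          Finset.smul_sum] at this
        simpa [hg', smul_smul] using this
      have hrel2 : v a + ∑ i ∈ s, σ (g' i) • v i = 0 := by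
        have h0 : Θ 0 = 0 := map_zero Θ'
        have := congrArg Θ hrel
        rw [hΘadd, hΘsum, hv, h0] at this
        exact this
      have hsub : ∑ i ∈ s, (σ (g' i) - g' i) • v i = 0 := by
        have : (v a + ∑ i ∈ s, σ (g' i) • v i) - (v a + ∑ i ∈ s, g' i • v i) = 0 := by
          rw [hrel, hrel2, sub_zero]
        rw [add_sub_add_left_eq_sub, ← Finset.sum_sub_distrib] at this
        simpa [sub_smul] using this
      have hfixed : ∀ i ∈ s, σ (g' i) = g' i := fun i hi =>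
        sub_eq_zero.1 (ih (fun i => σ (g' i) - g' i) hsub i hi)
      have hc : ∀ i : ι, ∃ c : K₀, i ∈ s → algebraMap K₀ L c = g' i := by
        intro i
        by_cases hi : i ∈ s
        · obtain ⟨c, hc⟩ := hfix _ (hfixed i hi)
          exact ⟨c, fun _ => hc⟩
        · exact ⟨0, fun h => absurd h hi⟩
      choose c hc using hc
      set c' : ι → K₀ := fun i => if i = a then 1 else c i with hc'
      have hrel3 : ∑ i ∈ insert a s, c' i • v i = 0 := by
        rw [Finset.sum_insert ha]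
        have h1 : c' a • v a = v a := by simp [hc']
        have h2 : ∑ i ∈ s, c' i • v i = ∑ i ∈ s, g' i • v i := by
          refine Finset.sum_congr rfl fun i hi => ?_
          have hia : i ≠ a := fun h => ha (h ▸ hi)
          simp only [hc', if_neg hia]
          rw [← hc i hi, algebraMap_smul]
        rw [h1, h2, hrel]
      have := (linearIndependent_iff'.1 hli) _ c' hrel3 a (Finset.mem_insert_self a s)
      simp [hc'] at this

/-- The fixed vectors of a semilinear additive operator form a `K₀`-subspace. -/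
def fixedSubmodule (σ : L → L) (Θ : V → V)
    (hΘadd : ∀ x y, Θ (x + y) = Θ x + Θ y) (hΘ : ∀ (a : L) (v : V), Θ (a • v) = σ a • Θ v)
    (hσ₀ : ∀ c : K₀, σ (algebraMap K₀ L c) = algebraMap K₀ L c) : Submodule K₀ V where
  carrier := {v | Θ v = v}
  add_mem' := by
    intro x y hx hy
    change Θ x = x at hx
    change Θ y = y at hy
    change Θ (x + y) = x + y
    rw [hΘadd, hx, hy]
  zero_mem' := by
    have h := hΘadd 0 0
    simp only [add_zero] at h
    simpa using h
  smul_mem' := by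
    intro c x hx
    change Θ x = x at hx
    change Θ (c • x) = c • x
    rw [← algebraMap_smul L c x, hΘ, hσ₀, hx]

theorem mem_fixedSubmodule_iff (σ : L → L) (Θ : V → V)
    (hΘadd : ∀ x y, Θ (x + y) = Θ x + Θ y) (hΘ : ∀ (a : L) (v : V), Θ (a • v) = σ a • Θ v)
    (hσ₀ : ∀ c : K₀, σ (algebraMap K₀ L c) = algebraMap K₀ L c) (v : V) :
    v ∈ fixedSubmodule σ Θ hΘadd hΘ hσ₀ ↔ Θ v = v := Iff.rfl

end Fix

section FixCard

variable {K₀ L V : Type*} [Field K₀] [Field L] [Algebra K₀ L] [AddCommGroup V] [Module L V]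

/-- Counting form: a semilinear operator on a finite `L`-space has at most `|K₀| ^ dim_L V`
fixed vectors, `K₀` mapping onto the fixed field of `σ`. -/
theorem card_fixed_le [Finite K₀] [Finite V] [Module.Finite L V] (σ : L → L) (Θ : V → V)
    (hΘadd : ∀ x y, Θ (x + y) = Θ x + Θ y) (hΘ : ∀ (a : L) (v : V), Θ (a • v) = σ a • Θ v)
    (hσ₀ : ∀ c : K₀, σ (algebraMap K₀ L c) = algebraMap K₀ L c)
    (hfix : ∀ a : L, σ a = a → a ∈ Set.range (algebraMap K₀ L)) :
    Nat.card {v : V // Θ v = v} ≤ Nat.card K₀ ^ finrank L V := by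
  classical
  let _ : Module K₀ V := Module.compHom V (algebraMap K₀ L)
  have htower : IsScalarTower K₀ L V :=
    ⟨fun c a v => by
      change (c • a) • v = algebraMap K₀ L c • (a • v)
      rw [Algebra.smul_def, mul_smul]⟩
  set W := fixedSubmodule σ Θ hΘadd hΘ hσ₀ with hW
  have hcard : Nat.card {v : V // Θ v = v} = Nat.card W := rfl
  have : Module.Finite K₀ W := Module.Finite.of_finite
  let b := Module.finBasis K₀ W
  have hli : LinearIndependent K₀ (fun i => (b i : V)) :=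
    b.linearIndependent.map' W.subtype (Submodule.ker_subtype W)
  have hLi : LinearIndependent L (fun i => (b i : V)) :=
    linearIndependent_of_fixed σ Θ hΘadd hΘ hfix _ (fun i => (b i).2) hli
  have hle : finrank K₀ W ≤ finrank L V := by
    simpa using hLi.fintype_card_le_finrank
  rw [hcard, Module.natCard_eq_pow_finrank (K := K₀) (V := W)]
  exact Nat.pow_le_pow_right Nat.card_pos hle


end FixCard

section FrobFix

variable {F₀ kF : Type*} [Field F₀] [Field kF] [Algebra F₀ kF] [Finite F₀]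

/-- the fixed points of `a ↦ a ^ |F₀|` in an extension of the finite field `F₀` are `F₀`. -/
theorem mem_range_algebraMap_of_pow_card_eq (a : kF) (h : a ^ Nat.card F₀ = a) :
    a ∈ Set.range (algebraMap F₀ kF) := by
  classical
  let _ : Fintype F₀ := Fintype.ofFinite F₀
  set q := Nat.card F₀ with hq
  have hq1 : 1 < q := by
    rw [hq, Nat.card_eq_fintype_card]; exact Fintype.one_lt_card
  set P : kF[X] := X ^ q - X with hP
  have hP0 : P ≠ 0 := FiniteField.X_pow_card_sub_X_ne_zero kF hq1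
  have hdeg : P.natDegree = q := FiniteField.X_pow_card_sub_X_natDegree_eq kF hq1
  have hroot : ∀ x : kF, x ∈ P.roots.toFinset ↔ x ^ q = x := by
    intro x
    rw [Multiset.mem_toFinset, mem_roots hP0]
    simp [hP, sub_eq_zero]
  have himg : (Finset.univ.image (algebraMap F₀ kF)) ⊆ P.roots.toFinset := by
    intro x hx
    obtain ⟨c, -, rfl⟩ := Finset.mem_image.1 hx
    rw [hroot, ← map_pow, hq, Nat.card_eq_fintype_card, FiniteField.pow_card]
  have hcard : P.roots.toFinset.card ≤ (Finset.univ.image (algebraMap F₀ kF)).card := by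
    rw [Finset.card_image_of_injective _ (algebraMap F₀ kF).injective, Finset.card_univ,
      ← Nat.card_eq_fintype_card, ← hq, ← hdeg]
    exact (Multiset.toFinset_card_le _).trans (card_roots' P)
  have := Finset.eq_of_subset_of_card_le himg hcard
  have ha : a ∈ P.roots.toFinset := (hroot a).2 h
  rw [← this] at ha
  obtain ⟨c, -, rfl⟩ := Finset.mem_image.1 ha
  exact ⟨c, rfl⟩

end FrobFix

section Core

variable {F' F₀ kF k N : Type*} [Field F'] [Field F₀] [Field kF] [Field k]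
  [Algebra F' F₀] [Algebra F₀ kF] [Algebra F' kF] [IsScalarTower F' F₀ kF] [Algebra F' k]
  [Finite kF] [Finite k] [AddCommGroup N] [Module kF N] [Module.Finite kF N]
  [Module F' N] [IsScalarTower F' kF N]

/-- the semilinear operator `Ψ ↦ T ∘ Ψ ∘ (cφ⁻¹ * ·)` on `Hom_{F'}(k, N)`. -/
noncomputable def thetaOp [Finite F₀] (T : N → N) (hTadd : ∀ x y, T (x + y) = T x + T y)
    (hT : ∀ (a : kF) (n : N), T (a • n) = a ^ Nat.card F₀ • T n) (cφ : k)
    (Ψ : k →ₗ[F'] N) : k →ₗ[F'] N where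
  toFun a := T (Ψ (cφ⁻¹ * a))
  map_add' a b := by rw [mul_add, map_add, hTadd]
  map_smul' t a := by
    let _ : Fintype F₀ := Fintype.ofFinite F₀
    simp only [RingHom.id_apply]
    rw [mul_smul_comm, map_smul, ← algebraMap_smul kF t (Ψ (cφ⁻¹ * a)), hT,
      IsScalarTower.algebraMap_apply F' F₀ kF, ← map_pow, Nat.card_eq_fintype_card,
      FiniteField.pow_card, ← IsScalarTower.algebraMap_apply F' F₀ kF, algebraMap_smul]

theorem card_linear_fixed_le (T : N → N) (hTadd : ∀ x y, T (x + y) = T x + T y)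
    (hT : ∀ (a : kF) (n : N), T (a • n) = a ^ Nat.card F₀ • T n) (cφ : k) (hcφ : cφ ≠ 0) :
    Nat.card {Ψ : k →ₗ[F'] N // ∀ a, T (Ψ a) = Ψ (cφ * a)} ≤
      Nat.card k ^ (finrank F' F₀ * finrank kF N) := by
  classical
  have : Finite F₀ := Finite.of_injective _ (algebraMap F₀ kF).injective
  have : Finite F' := Finite.of_injective _ (algebraMap F' F₀).injective
  let _ : Fintype F₀ := Fintype.ofFinite F₀
  have : Finite N := Module.finite_of_finite kF
  have : Finite (k →ₗ[F'] N) := Finite.of_injective (fun f => (f : k → N)) DFunLike.coe_injective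
  set Θ : (k →ₗ[F'] N) → (k →ₗ[F'] N) := thetaOp T hTadd hT cφ with hΘdef
  have hΘadd : ∀ x y, Θ (x + y) = Θ x + Θ y := by
    intro x y
    ext a
    simp only [hΘdef, thetaOp, LinearMap.coe_mk, AddHom.coe_mk, LinearMap.add_apply, hTadd]
  have hΘ : ∀ (s : kF) (Ψ : k →ₗ[F'] N), Θ (s • Ψ) = (fun s => s ^ Nat.card F₀) s • Θ Ψ := by
    intro s Ψ
    ext a
    simp only [hΘdef, thetaOp, LinearMap.coe_mk, AddHom.coe_mk, LinearMap.smul_apply, hT]
  have hσ₀ : ∀ c : F₀, (fun s : kF => s ^ Nat.card F₀) (algebraMap F₀ kF c) = algebraMap F₀ kF c := by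
    intro c
    simp only
    rw [← map_pow, Nat.card_eq_fintype_card, FiniteField.pow_card]
  have hfix : ∀ a : kF, (fun s : kF => s ^ Nat.card F₀) a = a → a ∈ Set.range (algebraMap F₀ kF) :=
    fun a h => mem_range_algebraMap_of_pow_card_eq a h
  have hmain := card_fixed_le (K₀ := F₀) (L := kF) (V := k →ₗ[F'] N) _ Θ hΘadd hΘ hσ₀ hfix
  have hiff : ∀ Ψ : k →ₗ[F'] N, (∀ a, T (Ψ a) = Ψ (cφ * a)) ↔ Θ Ψ = Ψ := by
    intro Ψ
    constructor
    · intro h
      ext a
      simp only [hΘdef, thetaOp, LinearMap.coe_mk, AddHom.coe_mk]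
      rw [h, mul_inv_cancel_left₀ hcφ]
    · intro h a
      have := LinearMap.congr_fun h (cφ * a)
      simp only [hΘdef, thetaOp, LinearMap.coe_mk, AddHom.coe_mk] at this
      rw [inv_mul_cancel_left₀ hcφ] at this
      exact this
  have hcongr : Nat.card {Ψ : k →ₗ[F'] N // ∀ a, T (Ψ a) = Ψ (cφ * a)} =
      Nat.card {Ψ : k →ₗ[F'] N // Θ Ψ = Ψ} :=
    Nat.card_congr (Equiv.subtypeEquivRight hiff)
  rw [hcongr]
  refine hmain.trans (le_of_eq ?_)
  rw [Module.finrank_linearMap, Module.natCard_eq_pow_finrank (K := F') (V := F₀),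
    Module.natCard_eq_pow_finrank (K := F') (V := k), ← pow_mul, ← pow_mul]
  congr 1
  ring

end Core

section Hom

variable {F₀ kF k N D : Type*} [Field F₀] [Field kF] [Field k] [Algebra F₀ kF]
  [AddCommGroup N] [Module kF N]

/-- `Rel 𝒮 t c`: on every `Ψ ∈ 𝒮` the scalar `t` on the target equals the scalar `c` on the
source. -/
def Rel (𝒮 : Set (k →+ N)) (t : F₀) (c : k) : Prop :=
  ∀ Ψ ∈ 𝒮, ∀ a, algebraMap F₀ kF t • Ψ a = Ψ (c * a)

variable {𝒮 : Set (k →+ N)}

theorem rel_zero : Rel (F₀ := F₀) (kF := kF) 𝒮 0 0 := by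
  intro Ψ _ a; simp

theorem rel_one : Rel (F₀ := F₀) (kF := kF) 𝒮 1 1 := by
  intro Ψ _ a; simp

theorem rel_add {t t' : F₀} {c c' : k} (h : Rel (kF := kF) 𝒮 t c) (h' : Rel (kF := kF) 𝒮 t' c') :
    Rel (kF := kF) 𝒮 (t + t') (c + c') := by
  intro Ψ hΨ a
  rw [map_add, add_smul, h Ψ hΨ, h' Ψ hΨ, add_mul, map_add]

theorem rel_neg {t : F₀} {c : k} (h : Rel (kF := kF) 𝒮 t c) : Rel (kF := kF) 𝒮 (-t) (-c) := by
  intro Ψ hΨ a
  rw [map_neg, neg_smul, h Ψ hΨ, neg_mul, map_neg]

theorem rel_mul {t t' : F₀} {c c' : k} (h : Rel (kF := kF) 𝒮 t c) (h' : Rel (kF := kF) 𝒮 t' c') :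
    Rel (kF := kF) 𝒮 (t * t') (c * c') := by
  intro Ψ hΨ a
  rw [map_mul, mul_smul, h' Ψ hΨ, h Ψ hΨ, mul_assoc]

theorem rel_zero_left (hne : ∃ Ψ ∈ 𝒮, Ψ ≠ 0) {c : k} (h : Rel (F₀ := F₀) (kF := kF) 𝒮 0 c) :
    c = 0 := by
  by_contra hc
  obtain ⟨Ψ, hΨ, hΨ0⟩ := hne
  apply hΨ0
  ext b
  have := h Ψ hΨ (c⁻¹ * b)
  rw [map_zero, zero_smul, mul_inv_cancel_left₀ hc] at this
  simpa using this.symm

theorem rel_unique (hne : ∃ Ψ ∈ 𝒮, Ψ ≠ 0) {t : F₀} {c c' : k} (h : Rel (kF := kF) 𝒮 t c)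
    (h' : Rel (kF := kF) 𝒮 t c') : c = c' := by
  have := rel_add h (rel_neg h')
  rw [add_neg_cancel] at this
  exact sub_eq_zero.1 (by simpa [sub_eq_add_neg] using rel_zero_left hne this)

theorem rel_inv (hne : ∃ Ψ ∈ 𝒮, Ψ ≠ 0) {t : F₀} {c : k} (h : Rel (kF := kF) 𝒮 t c) :
    Rel (kF := kF) 𝒮 t⁻¹ c⁻¹ := by
  by_cases ht : t = 0
  · subst ht
    have hc := rel_zero_left hne h
    subst hc
    simpa using (rel_zero (F₀ := F₀) (kF := kF) (𝒮 := 𝒮))
  · have hc : c ≠ 0 := by
      rintro rfl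
      obtain ⟨Ψ, hΨ, hΨ0⟩ := hne
      apply hΨ0
      ext b
      have := h Ψ hΨ b
      rw [zero_mul, map_zero, smul_eq_zero] at this
      rcases this with h0 | h0
      · exact absurd ((map_eq_zero (algebraMap F₀ kF)).1 h0) ht
      · simpa using h0
    intro Ψ hΨ a
    have := h Ψ hΨ (c⁻¹ * a)
    rw [mul_inv_cancel_left₀ hc] at this
    rw [← this, smul_smul, ← map_mul, inv_mul_cancel₀ ht, map_one, one_smul]

/-- the subfield of scalars `t` of `F₀` that correspond to some scalar of `k`. -/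
def relSubfield (𝒮 : Set (k →+ N)) (hne : ∃ Ψ ∈ 𝒮, Ψ ≠ 0) : Subfield F₀ where
  carrier := {t | ∃ c : k, Rel (kF := kF) 𝒮 t c}
  mul_mem' := by rintro _ _ ⟨c, h⟩ ⟨c', h'⟩; exact ⟨_, rel_mul h h'⟩
  one_mem' := ⟨1, rel_one⟩
  add_mem' := by rintro _ _ ⟨c, h⟩ ⟨c', h'⟩; exact ⟨_, rel_add h h'⟩
  zero_mem' := ⟨0, rel_zero⟩
  neg_mem' := by rintro _ ⟨c, h⟩; exact ⟨_, rel_neg h⟩
  inv_mem' := by rintro _ ⟨c, h⟩; exact ⟨_, rel_inv hne h⟩

/-- the ring homomorphism `t ↦ c`. -/
noncomputable def relHom (𝒮 : Set (k →+ N)) (hne : ∃ Ψ ∈ 𝒮, Ψ ≠ 0) :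
    relSubfield (F₀ := F₀) (kF := kF) 𝒮 hne →+* k where
  toFun t := Classical.choose t.2
  map_one' := rel_unique hne (Classical.choose_spec (relSubfield (kF := kF) 𝒮 hne).one_mem) rel_one
  map_mul' t t' := rel_unique hne
    (Classical.choose_spec (t * t').2) (rel_mul (Classical.choose_spec t.2) (Classical.choose_spec t'.2))
  map_zero' := rel_unique hne (Classical.choose_spec (relSubfield (kF := kF) 𝒮 hne).zero_mem) rel_zero
  map_add' t t' := rel_unique hne
    (Classical.choose_spec (t + t').2) (rel_add (Classical.choose_spec t.2) (Classical.choose_spec t'.2))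

theorem rel_relHom (hne : ∃ Ψ ∈ 𝒮, Ψ ≠ 0) (t : relSubfield (F₀ := F₀) (kF := kF) 𝒮 hne) :
    Rel (kF := kF) 𝒮 (t : F₀) (relHom 𝒮 hne t) :=
  Classical.choose_spec t.2

variable (θ : D → F₀) (χ : D → k)

/-- **(M2), first half**: if a family `𝒮` of additive maps `k → N`, equivariant for the scalars
`θ δ ↔ χ δ`, contains a nonzero map, then `θ δ ↦ χ δ` extends to a ring homomorphism
`j' : 𝔽_p[θ(D)] → k`, and every `Ψ ∈ 𝒮` is `j'`-linear. -/
theorem exists_ringHom (𝒮 : Set (k →+ N))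
    (h𝒮 : ∀ Ψ ∈ 𝒮, ∀ δ a, algebraMap F₀ kF (θ δ) • Ψ a = Ψ (χ δ * a))
    (hne : ∃ Ψ ∈ 𝒮, Ψ ≠ 0) :
    ∃ j' : Subfield.closure (Set.range θ) →+* k,
      (∀ δ, j' ⟨θ δ, Subfield.subset_closure (Set.mem_range_self δ)⟩ = χ δ) ∧
      ∀ t : Subfield.closure (Set.range θ), ∀ Ψ ∈ 𝒮, ∀ a,
        algebraMap F₀ kF (t : F₀) • Ψ a = Ψ (j' t * a) := by
  have hθ : ∀ δ, Rel (kF := kF) 𝒮 (θ δ) (χ δ) := fun δ Ψ hΨ a => h𝒮 Ψ hΨ δ a
  have hle : Subfield.closure (Set.range θ) ≤ relSubfield (kF := kF) 𝒮 hne := by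
    rw [Subfield.closure_le]
    rintro _ ⟨δ, rfl⟩
    exact ⟨χ δ, hθ δ⟩
  refine ⟨(relHom 𝒮 hne).comp (Subfield.inclusion hle), fun δ => ?_, fun t Ψ hΨ a => ?_⟩
  · exact rel_unique hne (rel_relHom hne _) (hθ δ)
  · exact rel_relHom hne (Subfield.inclusion hle t) Ψ hΨ a

end Hom

section Main

variable {F₀ kF k N D : Type*} [Field F₀] [Field kF] [Field k] [Algebra F₀ kF]
  [AddCommGroup N] [Module kF N] (θ : D → F₀) (χ : D → k) (T : N → N) (cφ : k)

/-- The set `𝓔(N)` of (M2): additive maps `Ψ : k → N` with `θ δ • Ψ a = Ψ (χ δ * a)`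
(equivariance under the inertia elements `δ : D`, which act on `N` through the scalars
`θ δ ∈ F₀`) and `T (Ψ a) = Ψ (cφ * a)` (equivariance under the Frobenius lift, acting on `N`
by `T` and on `k` through `cφ = χ φ̃`). -/
def EqSet : Set (k →+ N) :=
  {Ψ | (∀ δ a, algebraMap F₀ kF (θ δ) • Ψ a = Ψ (χ δ * a)) ∧ ∀ a, T (Ψ a) = Ψ (cφ * a)}

theorem mem_eqSet_iff (Ψ : k →+ N) : Ψ ∈ EqSet (kF := kF) θ χ T cφ ↔
    (∀ δ a, algebraMap F₀ kF (θ δ) • Ψ a = Ψ (χ δ * a)) ∧ ∀ a, T (Ψ a) = Ψ (cφ * a) := Iff.rfl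

/-- **(M2), vanishing half**: if `θ δ ↦ χ δ` does not extend to a ring homomorphism
`F' → k`, then `𝓔(N) = 0`.  (Only the equivariance under `D` is used.) -/
theorem eq_zero_of_not_exists
    (h : ¬ ∃ j' : Subfield.closure (Set.range θ) →+* k,
      ∀ δ, j' ⟨θ δ, Subfield.subset_closure (Set.mem_range_self δ)⟩ = χ δ)
    (Ψ : k →+ N) (hΨ : ∀ δ a, algebraMap F₀ kF (θ δ) • Ψ a = Ψ (χ δ * a)) : Ψ = 0 := by
  by_contra hΨ0
  obtain ⟨j', hj', -⟩ := exists_ringHom (kF := kF) θ χ {Ψ}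
    (fun Ψ' hΨ' => by rw [Set.mem_singleton_iff.1 hΨ']; exact hΨ) ⟨Ψ, rfl, hΨ0⟩
  exact h ⟨j', hj'⟩

/-- if `𝓔(N) ≠ 0` then `χ δ` only depends on `θ δ`. -/
theorem chi_eq_of_theta_eq (Ψ : k →+ N) (hΨ : ∀ δ a, algebraMap F₀ kF (θ δ) • Ψ a = Ψ (χ δ * a))
    (hΨ0 : Ψ ≠ 0) {δ δ' : D} (h : θ δ = θ δ') : χ δ = χ δ' := by
  obtain ⟨j', hj', -⟩ := exists_ringHom (kF := kF) θ χ {Ψ}
    (fun Ψ' hΨ' => by rw [Set.mem_singleton_iff.1 hΨ']; exact hΨ) ⟨Ψ, rfl, hΨ0⟩
  rw [← hj' δ, ← hj' δ']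
  congr 1
  exact Subtype.ext h

/-- if `𝓔(N) ≠ 0` and `δ` acts trivially on `N` then `χ δ = 1`. -/
theorem chi_eq_one_of_theta_eq_one (Ψ : k →+ N)
    (hΨ : ∀ δ a, algebraMap F₀ kF (θ δ) • Ψ a = Ψ (χ δ * a))
    (hΨ0 : Ψ ≠ 0) {δ : D} (h : θ δ = 1) : χ δ = 1 := by
  obtain ⟨j', hj', -⟩ := exists_ringHom (kF := kF) θ χ {Ψ}
    (fun Ψ' hΨ' => by rw [Set.mem_singleton_iff.1 hΨ']; exact hΨ) ⟨Ψ, rfl, hΨ0⟩
  rw [← hj' δ, ← map_one j']
  congr 1
  exact Subtype.ext h

variable [Finite kF] [Finite k] [Module.Finite kF N]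

/-- **(M2), counting form**: `|𝓔(N)| ≤ |k| ^ ([F₀ : F'] * dim_kF N)`,
`F' = Subfield.closure (Set.range θ)`.  `T` need not be bijective; only `cφ ≠ 0` is used. -/
theorem card_eqSet_le (hTadd : ∀ x y, T (x + y) = T x + T y)
    (hT : ∀ (a : kF) (n : N), T (a • n) = a ^ Nat.card F₀ • T n) (hcφ : cφ ≠ 0) :
    Nat.card (EqSet (kF := kF) θ χ T cφ) ≤
      Nat.card k ^ (finrank (Subfield.closure (Set.range θ)) F₀ * finrank kF N) := by
  classical
  have hN : Finite N := Module.finite_of_finite kF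
  have hfin : Finite (k →+ N) := Finite.of_injective (fun f => (f : k → N)) DFunLike.coe_injective
  by_cases hne : ∃ Ψ ∈ EqSet (kF := kF) θ χ T cφ, Ψ ≠ 0
  · obtain ⟨j', -, hlin⟩ := exists_ringHom (kF := kF) θ χ (EqSet (kF := kF) θ χ T cφ)
      (fun Ψ hΨ => hΨ.1) hne
    let _ : Algebra (Subfield.closure (Set.range θ)) k := j'.toAlgebra
    let _ : Module (Subfield.closure (Set.range θ)) N :=
      Module.compHom N (algebraMap (Subfield.closure (Set.range θ)) kF)
    have htower : IsScalarTower (Subfield.closure (Set.range θ)) kF N :=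
      ⟨fun t a n => by
        change (t • a) • n = algebraMap _ kF t • (a • n)
        rw [Algebra.smul_def, mul_smul]⟩
    have hsmulN : ∀ (t : Subfield.closure (Set.range θ)) (n : N),
        t • n = algebraMap F₀ kF (t : F₀) • n := fun t n => rfl
    have hsmulk : ∀ (t : Subfield.closure (Set.range θ)) (a : k), t • a = j' t * a :=
      fun t a => rfl
    let f : EqSet (kF := kF) θ χ T cφ →
        {Ψ : k →ₗ[Subfield.closure (Set.range θ)] N // ∀ a, T (Ψ a) = Ψ (cφ * a)} := fun Ψ =>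
      ⟨{ toFun := Ψ.1
         map_add' := map_add Ψ.1
         map_smul' := fun t a => by
          rw [RingHom.id_apply, hsmulN, hsmulk, hlin t Ψ.1 Ψ.2] }, Ψ.2.2⟩
    have hf : Function.Injective f := by
      intro Ψ Ψ' h
      apply Subtype.ext
      ext a
      have := congrArg (fun g => g.1 a) h
      exact this
    have hfinT : Finite {Ψ : k →ₗ[Subfield.closure (Set.range θ)] N // ∀ a, T (Ψ a) = Ψ (cφ * a)} :=
      Finite.of_injective (fun f => (f.1 : k → N)) (fun a b h => Subtype.ext (DFunLike.coe_injective h))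
    exact (Nat.card_le_card_of_injective f hf).trans
      (card_linear_fixed_le (F' := Subfield.closure (Set.range θ)) T hTadd hT cφ hcφ)
  · have hne : ∀ Ψ ∈ EqSet (kF := kF) θ χ T cφ, Ψ = 0 :=
      fun Ψ hΨ => by_contra fun h => hne ⟨Ψ, hΨ, h⟩
    have : Subsingleton (EqSet (kF := kF) θ χ T cφ) :=
      ⟨fun a b => Subtype.ext ((hne a.1 a.2).trans (hne b.1 b.2).symm)⟩
    exact (Finite.card_le_one_iff_subsingleton.2 this).trans (Nat.one_le_pow _ _ Nat.card_pos)

/-- **(M2), the semilinear line lemma**, for an arbitrary `k`-vector space `E` injecting into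
`𝓔(N)` (no compatibility of the `k`-structure is needed): `dim_k E ≤ [F₀ : F'] * dim_kF N`. -/
theorem finrank_le (hTadd : ∀ x y, T (x + y) = T x + T y)
    (hT : ∀ (a : kF) (n : N), T (a • n) = a ^ Nat.card F₀ • T n) (hcφ : cφ ≠ 0)
    {E : Type*} [AddCommGroup E] [Module k E] (ev : E → k →+ N) (hinj : Function.Injective ev)
    (hmem : ∀ x, ev x ∈ EqSet (kF := kF) θ χ T cφ) :
    finrank k E ≤ finrank (Subfield.closure (Set.range θ)) F₀ * finrank kF N := by
  have hN : Finite N := Module.finite_of_finite kF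
  have hfin : Finite (k →+ N) := Finite.of_injective (fun f => (f : k → N)) DFunLike.coe_injective
  have hE : Finite E := Finite.of_injective ev hinj
  have h1 : Nat.card E ≤ Nat.card (EqSet (kF := kF) θ χ T cφ) :=
    Nat.card_le_card_of_injective (fun x => (⟨ev x, hmem x⟩ : EqSet (kF := kF) θ χ T cφ))
      (fun x y h => hinj (congrArg Subtype.val h))
  have h2 := h1.trans (card_eqSet_le (kF := kF) θ χ T cφ hTadd hT hcφ)
  rw [Module.natCard_eq_pow_finrank (K := k) (V := E)] at h2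
  exact (Nat.pow_le_pow_iff_right Finite.one_lt_card).1 h2

/-- the bracket form of (M2): `m(N) ≤ [F₀ : F'] * dim N * [∃ j' : F' →+* k, j' ∘ θ = χ]`. -/
theorem finrank_le_ite [Decidable (∃ j' : Subfield.closure (Set.range θ) →+* k,
      ∀ δ, j' ⟨θ δ, Subfield.subset_closure (Set.mem_range_self δ)⟩ = χ δ)]
    (hTadd : ∀ x y, T (x + y) = T x + T y)
    (hT : ∀ (a : kF) (n : N), T (a • n) = a ^ Nat.card F₀ • T n) (hcφ : cφ ≠ 0)
    {E : Type*} [AddCommGroup E] [Module k E] (ev : E → k →+ N) (hinj : Function.Injective ev)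
    (hmem : ∀ x, ev x ∈ EqSet (kF := kF) θ χ T cφ) :
    finrank k E ≤ if (∃ j' : Subfield.closure (Set.range θ) →+* k,
        ∀ δ, j' ⟨θ δ, Subfield.subset_closure (Set.mem_range_self δ)⟩ = χ δ) then
      finrank (Subfield.closure (Set.range θ)) F₀ * finrank kF N else 0 := by
  split_ifs with h
  · exact finrank_le (kF := kF) θ χ T cφ hTadd hT hcφ ev hinj hmem
  · have hsub : Subsingleton E :=
      ⟨fun x y => hinj ((eq_zero_of_not_exists (kF := kF) θ χ h _ (hmem x).1).trans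
        (eq_zero_of_not_exists (kF := kF) θ χ h _ (hmem y).1).symm)⟩
    rw [finrank_zero_of_subsingleton]

omit [Finite kF] [Finite k] [Module.Finite kF N] in
/-- a field with a prime number of elements has degree one over each of its subfields
(the case `K = ℚ_p` of (A1): `F₀ = 𝔽_p`). -/
theorem finrank_subfield_eq_one_of_card_prime [Finite F₀] (h : (Nat.card F₀).Prime)
    (S : Subfield F₀) : finrank S F₀ = 1 := by
  have hS : Finite S := Finite.of_injective _ Subtype.val_injective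
  have hcard := Module.natCard_eq_pow_finrank (K := S) (V := F₀)
  rw [hcard] at h
  by_contra hne
  exact Nat.Prime.not_prime_pow' hne h

end Main

end Fermat.Agent.S56.Flat.Count.SemilinearLine
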